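import Fermat.Agent.CFT.Coh.Cyclic_helper6_Hexagon

/-!
# CFT (C0.1): the Herbrand quotient of a representation of a finite cyclic group

`herbrand A = #Ĥ⁰(G, A) / #Ĥ⁻¹(G, A)`; multiplicativity in short exact sequences, triviality for
finite modules, invariance under finite-index subrepresentations, `h(ℤ) = #G`.
-/

set_option autoImplicit false

open CategoryTheory

namespace Fermat.Agent.CFT.Coh

section Counting

variable {M N P : Type*} [AddCommGroup M] [AddCommGroup N] [AddCommGroup P]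

/-- `#M = #ker f * #range f`. -/
theorem card_eq_card_ker_mul_card_range (f : M →+ N) :
    Nat.card M = Nat.card f.ker * Nat.card f.range := by
  rw [← AddSubgroup.index_ker, AddSubgroup.card_mul_index]

theorem ker_eq_range_of_exact (f : M →+ N) (g : N →+ P) (h : Function.Exact f g) :
    g.ker = f.range := by
  ext x
  rw [AddMonoidHom.mem_ker, AddMonoidHom.mem_range]
  exact h x

/-- In an exact sequence `M → N → P`, `#N = #range f * #range g`. -/
theorem card_eq_card_range_mul_card_range (f : M →+ N) (g : N →+ P)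
    (h : Function.Exact f g) : Nat.card N = Nat.card f.range * Nat.card g.range := by
  rw [card_eq_card_ker_mul_card_range g, ker_eq_range_of_exact f g h]

/-- In an exact sequence `M → N → P` with `M` and `P` finite, `N` is finite. -/
theorem finite_of_exact (f : M →+ N) (g : N →+ P) (h : Function.Exact f g) [Finite M]
    [Finite P] : Finite N := by
  have h1 : Finite g.ker := by
    rw [ker_eq_range_of_exact f g h]
    exact Set.finite_range f
  have h2 : Finite (N ⧸ g.ker) :=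
    Finite.of_equiv _ (QuotientAddGroup.quotientKerEquivRange g).symm.toEquiv
  exact Finite.of_addSubgroup_quotient g.ker

variable {M₁ M₂ M₃ M₄ M₅ M₆ : Type*} [AddCommGroup M₁] [AddCommGroup M₂] [AddCommGroup M₃]
  [AddCommGroup M₄] [AddCommGroup M₅] [AddCommGroup M₆]

/-- In an exact hexagon of abelian groups, the alternating product of the orders is `1`. -/
theorem card_hexagon (f₁ : M₁ →+ M₂) (f₂ : M₂ →+ M₃) (f₃ : M₃ →+ M₄) (f₄ : M₄ →+ M₅)
    (f₅ : M₅ →+ M₆) (f₆ : M₆ →+ M₁) (h₁ : Function.Exact f₆ f₁) (h₂ : Function.Exact f₁ f₂)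
    (h₃ : Function.Exact f₂ f₃) (h₄ : Function.Exact f₃ f₄) (h₅ : Function.Exact f₄ f₅)
    (h₆ : Function.Exact f₅ f₆) :
    Nat.card M₁ * Nat.card M₃ * Nat.card M₅ = Nat.card M₂ * Nat.card M₄ * Nat.card M₆ := by
  rw [card_eq_card_range_mul_card_range f₆ f₁ h₁, card_eq_card_range_mul_card_range f₁ f₂ h₂,
    card_eq_card_range_mul_card_range f₂ f₃ h₃, card_eq_card_range_mul_card_range f₃ f₄ h₄,
    card_eq_card_range_mul_card_range f₄ f₅ h₅, card_eq_card_range_mul_card_range f₅ f₆ h₆]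
  ring

end Counting

section Herbrand

variable {k G : Type} [CommRing k] [Group G] [Finite G]

/-- Both Tate groups `Ĥ⁰(G, A)` and `Ĥ⁻¹(G, A)` are finite. -/
def HerbrandFinite (A : Rep k G) : Prop := Finite (TateH0 A) ∧ Finite (TateHm1 A)

/-- The Herbrand quotient `#Ĥ⁰(G, A) / #Ĥ⁻¹(G, A)` (meaningful for cyclic `G` and when both groups
are finite). -/
noncomputable def herbrand (A : Rep k G) : ℚ :=
  (Nat.card (TateH0 A) : ℚ) / (Nat.card (TateHm1 A) : ℚ)

lemma herbrand_pos {A : Rep k G} (h : HerbrandFinite A) : 0 < herbrand A := by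
  obtain ⟨h0, h1⟩ := h
  unfold herbrand
  have : 0 < Nat.card (TateH0 A) := Nat.card_pos
  have : 0 < Nat.card (TateHm1 A) := Nat.card_pos
  positivity

lemma herbrand_ne_zero {A : Rep k G} (h : HerbrandFinite A) : herbrand A ≠ 0 :=
  (herbrand_pos h).ne'

lemma herbrand_eq_iff {A : Rep k G} (h : HerbrandFinite A) (q : ℚ) :
    herbrand A = q ↔ (Nat.card (TateH0 A) : ℚ) = q * Nat.card (TateHm1 A) := by
  obtain ⟨h0, h1⟩ := h
  have : (Nat.card (TateHm1 A) : ℚ) ≠ 0 := by
    have : 0 < Nat.card (TateHm1 A) := Nat.card_pos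
    positivity
  unfold herbrand
  rw [div_eq_iff this]

variable {X : ShortComplex (Rep k G)} (hX : X.ShortExact)

include hX in
/-- Finiteness for the middle term needs no cyclicity. -/
theorem herbrandFinite_X₂ (h₁ : HerbrandFinite X.X₁) (h₃ : HerbrandFinite X.X₃) :
    HerbrandFinite X.X₂ := by
  obtain ⟨h10, h11⟩ := h₁
  obtain ⟨h30, h31⟩ := h₃
  exact ⟨finite_of_exact (TateH0.map X.f).toAddMonoidHom (TateH0.map X.g).toAddMonoidHom
      (tateH0_exact hX),
    finite_of_exact (TateHm1.map X.f).toAddMonoidHom (TateHm1.map X.g).toAddMonoidHom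
      (tateHm1_exact hX)⟩

variable {g : G} (hg : ∀ x, x ∈ Subgroup.zpowers g)

include hX hg in
theorem herbrandFinite_X₃ (h₁ : HerbrandFinite X.X₁) (h₂ : HerbrandFinite X.X₂) :
    HerbrandFinite X.X₃ := by
  obtain ⟨h10, h11⟩ := h₁
  obtain ⟨h20, h21⟩ := h₂
  exact ⟨finite_of_exact (TateH0.map X.g).toAddMonoidHom (deltaH0 hX hg).toAddMonoidHom
      (tateH0_exact_delta hX hg),
    finite_of_exact (TateHm1.map X.g).toAddMonoidHom (deltaHm1 hX).toAddMonoidHom
      (tateHm1_exact_delta hX)⟩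

include hX hg in
theorem herbrandFinite_X₁ (h₂ : HerbrandFinite X.X₂) (h₃ : HerbrandFinite X.X₃) :
    HerbrandFinite X.X₁ := by
  obtain ⟨h20, h21⟩ := h₂
  obtain ⟨h30, h31⟩ := h₃
  exact ⟨finite_of_exact (deltaHm1 hX).toAddMonoidHom (TateH0.map X.f).toAddMonoidHom
      (delta_exact_tateH0 hX),
    finite_of_exact (deltaH0 hX hg).toAddMonoidHom (TateHm1.map X.f).toAddMonoidHom
      (deltaH0_exact_tateHm1 hX hg)⟩

include hX hg in
/-- The counting identity behind the multiplicativity of the Herbrand quotient. -/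
theorem card_tate_mul :
    Nat.card (TateH0 X.X₁) * Nat.card (TateH0 X.X₃) * Nat.card (TateHm1 X.X₂) =
      Nat.card (TateH0 X.X₂) * Nat.card (TateHm1 X.X₁) * Nat.card (TateHm1 X.X₃) :=
  card_hexagon (TateH0.map X.f).toAddMonoidHom (TateH0.map X.g).toAddMonoidHom
    (deltaH0 hX hg).toAddMonoidHom (TateHm1.map X.f).toAddMonoidHom
    (TateHm1.map X.g).toAddMonoidHom (deltaHm1 hX).toAddMonoidHom
    (delta_exact_tateH0 hX) (tateH0_exact hX) (tateH0_exact_delta hX hg)
    (deltaH0_exact_tateHm1 hX hg) (tateHm1_exact hX) (tateHm1_exact_delta hX)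

include hX hg in
/-- **Multiplicativity of the Herbrand quotient**: `h(B) = h(A) h(C)`. -/
theorem herbrand_mul (h₁ : HerbrandFinite X.X₁) (h₂ : HerbrandFinite X.X₂)
    (h₃ : HerbrandFinite X.X₃) : herbrand X.X₂ = herbrand X.X₁ * herbrand X.X₃ := by
  have hc := card_tate_mul hX hg
  obtain ⟨h10, h11⟩ := h₁
  obtain ⟨h20, h21⟩ := h₂
  obtain ⟨h30, h31⟩ := h₃
  have hc' : (Nat.card (TateH0 X.X₁) : ℚ) * Nat.card (TateH0 X.X₃) * Nat.card (TateHm1 X.X₂) =
      Nat.card (TateH0 X.X₂) * Nat.card (TateHm1 X.X₁) * Nat.card (TateHm1 X.X₃) := by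
    exact_mod_cast hc
  have e1 : (Nat.card (TateHm1 X.X₁) : ℚ) ≠ 0 := by
    have : 0 < Nat.card (TateHm1 X.X₁) := Nat.card_pos
    positivity
  have e2 : (Nat.card (TateHm1 X.X₂) : ℚ) ≠ 0 := by
    have : 0 < Nat.card (TateHm1 X.X₂) := Nat.card_pos
    positivity
  have e3 : (Nat.card (TateHm1 X.X₃) : ℚ) ≠ 0 := by
    have : 0 < Nat.card (TateHm1 X.X₃) := Nat.card_pos
    positivity
  unfold herbrand
  field_simp
  linear_combination -hc'

include hX hg in
theorem herbrand_mul₁₃ (h₁ : HerbrandFinite X.X₁) (h₃ : HerbrandFinite X.X₃) :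
    HerbrandFinite X.X₂ ∧ herbrand X.X₂ = herbrand X.X₁ * herbrand X.X₃ :=
  ⟨herbrandFinite_X₂ hX h₁ h₃, herbrand_mul hX hg h₁ (herbrandFinite_X₂ hX h₁ h₃) h₃⟩

include hX hg in
theorem herbrand_mul₁₂ (h₁ : HerbrandFinite X.X₁) (h₂ : HerbrandFinite X.X₂) :
    HerbrandFinite X.X₃ ∧ herbrand X.X₂ = herbrand X.X₁ * herbrand X.X₃ :=
  ⟨herbrandFinite_X₃ hX hg h₁ h₂, herbrand_mul hX hg h₁ h₂ (herbrandFinite_X₃ hX hg h₁ h₂)⟩

include hX hg in
theorem herbrand_mul₂₃ (h₂ : HerbrandFinite X.X₂) (h₃ : HerbrandFinite X.X₃) :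
    HerbrandFinite X.X₁ ∧ herbrand X.X₂ = herbrand X.X₁ * herbrand X.X₃ :=
  ⟨herbrandFinite_X₁ hX hg h₂ h₃, herbrand_mul hX hg (herbrandFinite_X₁ hX hg h₂ h₃) h₂ h₃⟩

end Herbrand

end Fermat.Agent.CFT.Coh
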