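import Fermat.Agent.CFT.Coh.SplittingCoh_helper9

/-!
# CFT (C0.3): Tate's theorem via the Nakayama map

For a finite group `G`, `C : Rep ℤ G` and a fundamental cocycle `f` (`IsFundamentalCocycle C f`:
`H¹(S, C) = 0` and `H²(S, C)` cyclic of order `|S|` generated by `res_S [f]`, for all `S ≤ G`), the
**Nakayama map** `σ ↦ [∑_τ f(τ, σ)]` induces an isomorphism `G^ab ≃ Ĥ⁰(G, C) = C^G / N C`:

* `nakayamaElt C f σ = ∑_τ f(τ, σ)`, `nakayamaClass C f σ : TateH0 C`;
* `nakayamaHom C f : G →* Multiplicative (TateH0 C)`, `nakayamaHom_apply`;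
* `nakayamaHom_surjective`, `nakayamaHom_ker` (`= commutator G`), `nakayamaEquiv`,
  `nakayamaEquiv_of`;
* `isFundamentalCocycle_of_card`: a criterion via cardinalities.
-/

open CategoryTheory groupCohomology Rep

namespace Fermat.Agent.CFT.Coh

section NakayamaElt

variable {k G : Type} [CommRing k] [Group G] [Finite G] (C : Rep.{0, 0, 0} k G) (f : cocycles₂ C)

/-- The Nakayama element `∑_τ f(τ, σ)`. -/
noncomputable def nakayamaElt (σ : G) : C.V :=
  letI := Fintype.ofFinite G
  ∑ τ : G, f (τ, σ)

lemma nakayamaElt_eq [Fintype G] (σ : G) : nakayamaElt C f σ = ∑ τ : G, f (τ, σ) := by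
  unfold nakayamaElt
  exact Finset.sum_congr (by ext; simp) fun x _ => rfl

/-- `N b_σ = ∑_τ f(τ, σ)` in the splitting module. -/
lemma normMap_splitGen (σ : G) :
    normMap (splitRep C f) (splitGen C f σ) = (splitIncl C f).hom (nakayamaElt C f σ) := by
  classical
  let _ := Fintype.ofFinite G
  rw [normMap_apply, nakayamaElt_eq, map_sum]
  have h1 : ∀ τ : G, (splitRep C f).ρ τ (splitGen C f σ) =
      (splitGen C f (τ * σ) - splitGen C f τ) + (splitIncl C f).hom (f (τ, σ)) :=
    fun τ => splitRep_ρ_splitGen C f τ σ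
  rw [Finset.sum_congr rfl fun τ _ => h1 τ, Finset.sum_add_distrib, Finset.sum_sub_distrib]
  have h2 : ∑ τ : G, splitGen C f (τ * σ) = ∑ τ : G, splitGen C f τ :=
    Fintype.sum_equiv (Equiv.mulRight σ) _ _ fun τ => rfl
  rw [h2, sub_self, zero_add]

lemma nakayamaElt_mem_invariants (σ : G) : nakayamaElt C f σ ∈ C.ρ.invariants := by
  intro g
  have h := ρ_normMap (splitRep C f) g (splitGen C f σ)
  rw [normMap_splitGen, splitIncl_apply, splitRep_ρ_apply] at h
  have := congrArg Prod.fst h
  simpa using this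

/-- The class of the Nakayama element in `Ĥ⁰(G, C)`. -/
noncomputable def nakayamaClass (σ : G) : TateH0 C :=
  TateH0.mk C ⟨nakayamaElt C f σ, nakayamaElt_mem_invariants C f σ⟩

/-- The connecting map `Ĥ⁻¹(G, I_G) → Ĥ⁰(G, C)` of the splitting sequence. -/
noncomputable def splitDelta : TateHm1 (augRep k G) →ₗ[k] TateH0 C :=
  deltaHm1 (splitSeq_shortExact C f)

lemma splitDelta_exact₁ : Function.Exact (TateHm1.map (splitProj C f)) (splitDelta C f) :=
  tateHm1_exact_delta (splitSeq_shortExact C f)

lemma splitDelta_exact₂ : Function.Exact (splitDelta C f) (TateH0.map (splitIncl C f)) :=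
  delta_exact_tateH0 (splitSeq_shortExact C f)

end NakayamaElt

section Nakayama

variable {G : Type} [Group G] [Finite G] (C : Rep.{0, 0, 0} ℤ G) (f : cocycles₂ C)

lemma splitDelta_augGenKer (σ : G) :
    splitDelta C f (TateHm1.mk _ (augGenKer σ)) = nakayamaClass C f σ :=
  deltaHm1_eq (splitSeq_shortExact C f) (augGenKer σ) (splitGen C f σ) rfl
    ⟨nakayamaElt C f σ, nakayamaElt_mem_invariants C f σ⟩ (normMap_splitGen C f σ).symm

/-- The Nakayama map `G → Ĥ⁰(G, C)`, `σ ↦ [∑_τ f(τ, σ)]`. -/
noncomputable def nakayamaHom : G →* Multiplicative (TateH0 C) :=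
  ((splitDelta C f).toAddMonoidHom.toMultiplicative).comp augClass

lemma nakayamaHom_eq (σ : G) : nakayamaHom C f σ =
    Multiplicative.ofAdd (splitDelta C f (Multiplicative.toAdd (augClass σ))) := rfl

lemma nakayamaHom_apply (σ : G) : nakayamaHom C f σ =
    Multiplicative.ofAdd (nakayamaClass C f σ) := by
  rw [nakayamaHom_eq, augClass_apply, toAdd_ofAdd, splitDelta_augGenKer]

variable {C f}

lemma splitDelta_bijective (hf : IsFundamentalCocycle C f) :
    Function.Bijective (splitDelta C f) := by
  obtain ⟨h0, hm1⟩ := tateTrivial_splitRep hf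
  have s0 : Subsingleton (TateH0 (splitRep C f)) := (tateH0Trivial_iff _).1 h0
  have sm1 : Subsingleton (TateHm1 (splitRep C f)) := (tateHm1Trivial_iff _).1 hm1
  constructor
  · rw [injective_iff_map_eq_zero]
    intro x hx
    obtain ⟨y, rfl⟩ := (splitDelta_exact₁ C f x).1 hx
    rw [Subsingleton.elim y 0, map_zero]
  · intro y
    exact (splitDelta_exact₂ C f y).1 (Subsingleton.elim _ _)

/-- **Tate's theorem** (surjectivity): every class in `Ĥ⁰(G, C)` is a Nakayama class. -/
theorem nakayamaHom_surjective (hf : IsFundamentalCocycle C f) :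
    Function.Surjective (nakayamaHom C f) := by
  intro y
  obtain ⟨x, hx⟩ := (splitDelta_bijective hf).2 (Multiplicative.toAdd y)
  obtain ⟨σ, hσ⟩ := augClass_surjective (Multiplicative.ofAdd x)
  refine ⟨σ, ?_⟩
  rw [nakayamaHom_eq, hσ, toAdd_ofAdd, hx, ofAdd_toAdd]

/-- **Tate's theorem** (kernel): the kernel of the Nakayama map is the commutator subgroup. -/
theorem nakayamaHom_ker (hf : IsFundamentalCocycle C f) :
    (nakayamaHom C f).ker = commutator G := by
  ext σ
  rw [MonoidHom.mem_ker, ← augClass_eq_one_iff, nakayamaHom_eq]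
  constructor
  · intro h
    have h1 : splitDelta C f (Multiplicative.toAdd (augClass σ)) = 0 :=
      congrArg Multiplicative.toAdd h
    have h2 := (splitDelta_bijective hf).1 (h1.trans (map_zero _).symm)
    exact congrArg Multiplicative.ofAdd h2
  · intro h
    rw [h, toAdd_one, map_zero, ofAdd_zero]

/-- **Tate's theorem**: the Nakayama isomorphism `G^ab ≃ Ĥ⁰(G, C)`. -/
noncomputable def nakayamaEquiv (hf : IsFundamentalCocycle C f) :
    Abelianization G ≃* Multiplicative (TateH0 C) :=
  (QuotientGroup.quotientMulEquivOfEq (nakayamaHom_ker hf).symm).trans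
    (QuotientGroup.quotientKerEquivOfSurjective (nakayamaHom C f) (nakayamaHom_surjective hf))

lemma nakayamaEquiv_of (hf : IsFundamentalCocycle C f) (σ : G) :
    nakayamaEquiv hf (Abelianization.of σ) = Multiplicative.ofAdd (nakayamaClass C f σ) := by
  rw [← nakayamaHom_apply]
  rfl

end Nakayama


section OfCard

lemma card_groupCohomology_res_top {k G : Type} [CommRing k] [Group G] (C : Rep.{0, 0, 0} k G)
    (n : ℕ) : Nat.card (groupCohomology (res (⊤ : Subgroup G).subtype C) n) =
      Nat.card (groupCohomology C n) := by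
  have e := (mapIso (A := res (⊤ : Subgroup G).subtype C) (B := C)
    (Subgroup.topEquiv (G := G)).symm (LinearEquiv.refl k _) (fun g => rfl) n)
  exact (Nat.card_congr e.toLinearEquiv.toEquiv).symm

variable {G : Type} [Group G] [Finite G] (C : Rep.{0, 0, 0} ℤ G) (f : cocycles₂ C)

/-- A criterion for fundamental cocycles: `H¹(S, C) = 0` and `|H²(S, C)| = |S|` for all subgroups
`S`, and `[f]` generates `H²(G, C)`. -/
theorem isFundamentalCocycle_of_card
    (h1 : ∀ S : Subgroup G, Limits.IsZero (groupCohomology (res S.subtype C) 1))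
    (hcard : ∀ S : Subgroup G, Nat.card (groupCohomology (res S.subtype C) 2) = Nat.card S)
    (hgen : ∀ x : groupCohomology C 2, ∃ m : ℤ, x = m • H2π C f) :
    IsFundamentalCocycle C f := by
  -- `H²(G, C)` has order `|G|`
  have hcardG : Nat.card (groupCohomology C 2) = Nat.card G := by
    rw [← card_groupCohomology_res_top C 2, hcard ⊤, Nat.card_congr
      (Subgroup.topEquiv (G := G)).toEquiv]
  have hfinG : Finite (groupCohomology C 2) :=
    Nat.finite_of_card_ne_zero (by rw [hcardG]; exact Nat.card_pos.ne')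
  -- hence `[f]` has order `|G|`
  have hordG : addOrderOf (H2π C f) = Nat.card G := by
    rw [← hcardG, ← Nat.card_zmultiples]
    have : AddSubgroup.zmultiples (H2π C f) = ⊤ := by
      rw [AddSubgroup.eq_top_iff']
      intro x
      obtain ⟨m, rfl⟩ := hgen x
      exact AddSubgroup.zsmul_mem_zmultiples _ m
    rw [this]
    exact (Nat.card_congr AddSubgroup.topEquiv.toEquiv)
  have hord : ∀ (S : Subgroup G) (m : ℤ), m • H2π _ (resCocycle C f S) = 0 →
      (Nat.card S : ℤ) ∣ m := by
    intro S m hm
    have h2 : (resMap S C 2).hom (m • H2π C f) = 0 := by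
      rw [map_zsmul, resMap_H2π]; exact hm
    have h3 := index_nsmul_eq_zero_of_res_eq_zero S 1 C (m • H2π C f) h2
    rw [← natCast_zsmul, smul_smul] at h3
    have h4 := (addOrderOf_dvd_iff_zsmul_eq_zero).2 h3
    rw [hordG, ← S.card_mul_index] at h4
    push_cast at h4
    rw [mul_comm] at h4
    exact Int.dvd_of_mul_dvd_mul_left (by exact_mod_cast S.index_ne_zero_of_finite) h4
  refine ⟨h1, fun S x => ?_, hord⟩
  -- `res_S [f]` has order `|S| = |H²(S, C)|`, so it generates
  have hfinS : Finite (groupCohomology (res S.subtype C) 2) :=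
    Nat.finite_of_card_ne_zero (by rw [hcard S]; exact Nat.card_pos.ne')
  have hordS : addOrderOf (H2π _ (resCocycle C f S)) = Nat.card S := by
    apply Nat.dvd_antisymm
    · exact addOrderOf_dvd_of_nsmul_eq_zero
        (card_nsmul_groupCohomology_eq_zero (res S.subtype C) 1 _)
    · have := hord S (addOrderOf (H2π _ (resCocycle C f S))) (by
        rw [natCast_zsmul]; exact addOrderOf_nsmul_eq_zero _)
      exact_mod_cast this
  have htop : AddSubgroup.zmultiples (H2π _ (resCocycle C f S)) = ⊤ := by
    apply AddSubgroup.eq_top_of_card_eq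
    rw [Nat.card_zmultiples, hordS, hcard S]
  have hx : x ∈ AddSubgroup.zmultiples (H2π _ (resCocycle C f S)) := by
    rw [htop]; trivial
  obtain ⟨m, hm⟩ := AddSubgroup.mem_zmultiples_iff.1 hx
  exact ⟨m, hm.symm⟩

end OfCard

end Fermat.Agent.CFT.Coh
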