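/-
CFT (C0) / (G1) support (helper8): Tate groups `Ĥ⁰`, `Ĥ⁻¹` and Herbrand quotients of
(restricted) products of representations.

Abstract setting: `A : Rep k G`, a family `B i : Rep k G` with morphisms `π i : A ⟶ B i`,
additive subgroups `U i ≤ B i` and a set `S` of indices such that `A` "is" the subgroup of the
product of the `B i` of all families with `i`-th component in `U i` for `i ∉ S`
(`IsRestrictedProduct`).  If the `U i` (`i ∉ S`) are strongly acyclic (`IsAcyclicOutside`:
invariants of `U i` are norms from `U i`, norm-zero elements of `U i` lie in `I_G U i`), then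
`Ĥ⁰ A = ∏_{i ∈ S} Ĥ⁰ (B i)` and `Ĥ⁻¹ A = ∏_{i ∈ S} Ĥ⁻¹ (B i)`.
-/
import Fermat.Agent.CFT.Coh.Cyclic_helper6_Herbrand

set_option autoImplicit false
set_option linter.unusedSectionVars false

open CategoryTheory

namespace Fermat.Agent.CFT.Coh

section Abstract

variable {k G : Type} [CommRing k] [Group G] [Fintype G]

/-- for a finite group, the elements of `I_G A` are the sums `∑ g, (g • y g - y g)` -/
theorem mem_coinvariantsKer_iff_exists_sum (A : Rep k G) (x : A.V) :
    x ∈ Representation.Coinvariants.ker A.ρ ↔ ∃ y : G → A.V, x = ∑ g, (A.ρ g (y g) - y g) := by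
  classical
  constructor
  · intro hx
    rw [Representation.Coinvariants.ker] at hx
    refine Submodule.span_induction ?_ ?_ ?_ ?_ hx
    · rintro _ ⟨⟨g, a⟩, rfl⟩
      refine ⟨Pi.single g a, ?_⟩
      rw [Finset.sum_eq_single g]
      · simp
      · intro h _ hne
        rw [Pi.single_eq_of_ne hne, map_zero, sub_zero]
      · intro h; exact absurd (Finset.mem_univ g) h
    · exact ⟨0, by simp⟩
    · rintro x y _ _ ⟨u, rfl⟩ ⟨v, rfl⟩
      refine ⟨u + v, ?_⟩
      rw [← Finset.sum_add_distrib]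
      refine Finset.sum_congr rfl fun g _ => ?_
      simp only [Pi.add_apply, map_add]
      abel
    · rintro c x _ ⟨u, rfl⟩
      refine ⟨c • u, ?_⟩
      rw [Finset.smul_sum]
      refine Finset.sum_congr rfl fun g _ => ?_
      simp only [Pi.smul_apply, map_smul, smul_sub]
  · rintro ⟨y, rfl⟩
    exact Submodule.sum_mem _ fun g _ => Representation.Coinvariants.sub_mem_ker g _

variable {ι : Type*} {A : Rep k G} {B : ι → Rep k G} (π : ∀ i, A ⟶ B i)
  (U : ∀ i, AddSubgroup (B i).V) (S : Set ι)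

/-- `A` is the "restricted product" of the `B i` with respect to the subgroups `U i`, with
arbitrary components at the indices in `S`: the `π i` are jointly injective and a family `(b i)`
comes from `A` iff `b i ∈ U i` for all `i ∉ S`. -/
structure IsRestrictedProduct : Prop where
  inj : ∀ a : A.V, (∀ i, (π i).hom a = 0) → a = 0
  mem : ∀ (a : A.V) (i : ι), i ∉ S → (π i).hom a ∈ U i
  glue : ∀ b : (∀ i, (B i).V), (∀ i, i ∉ S → b i ∈ U i) → ∃ a : A.V, ∀ i, (π i).hom a = b i

/-- The subgroups `U i`, `i ∉ S`, are strongly acyclic: invariant elements of `U i` are norms of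
elements of `U i`, and elements of `U i` of norm zero are in `I_G U i`. -/
structure IsAcyclicOutside : Prop where
  h0 : ∀ i, i ∉ S → ∀ u ∈ U i, u ∈ (B i).ρ.invariants → ∃ v ∈ U i, normMap (B i) v = u
  hm1 : ∀ i, i ∉ S → ∀ u ∈ U i, normMap (B i) u = 0 →
    ∃ v : G → (B i).V, (∀ g, v g ∈ U i) ∧ u = ∑ g, ((B i).ρ g (v g) - v g)

/-- the map `Ĥ⁰ A → ∏_{i ∈ S} Ĥ⁰ (B i)` -/
noncomputable def tateH0Pi : TateH0 A →ₗ[k] (∀ i : S, TateH0 (B i)) :=
  LinearMap.pi fun i => TateH0.map (π i)

/-- the map `Ĥ⁻¹ A → ∏_{i ∈ S} Ĥ⁻¹ (B i)` -/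
noncomputable def tateHm1Pi : TateHm1 A →ₗ[k] (∀ i : S, TateHm1 (B i)) :=
  LinearMap.pi fun i => TateHm1.map (π i)

variable {π U S}

theorem IsRestrictedProduct.ext (hP : IsRestrictedProduct π U S) {a a' : A.V}
    (h : ∀ i, (π i).hom a = (π i).hom a') : a = a' := by
  rw [← sub_eq_zero]
  apply hP.inj
  intro i
  rw [map_sub, h i, sub_self]

theorem tateH0Pi_injective (hP : IsRestrictedProduct π U S) (hU : IsAcyclicOutside U S) :
    Function.Injective (tateH0Pi π S) := by
  classical
  rw [← LinearMap.ker_eq_bot, LinearMap.ker_eq_bot']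
  intro z hz
  obtain ⟨x, rfl⟩ := TateH0.mk_surjective _ z
  rw [TateH0.mk_eq_zero_iff]
  have hzi : ∀ i : ι, i ∈ S → ∃ b : (B i).V, normMap (B i) b = (π i).hom x.1 := by
    intro i hi
    have h1 := congrFun hz ⟨i, hi⟩
    change TateH0.map (π i) (TateH0.mk A x) = 0 at h1
    rw [TateH0.map_mk, TateH0.mk_eq_zero_iff] at h1
    obtain ⟨b, hb⟩ := h1
    exact ⟨b, hb⟩
  have hzo : ∀ i : ι, i ∉ S → ∃ b : (B i).V, b ∈ U i ∧ normMap (B i) b = (π i).hom x.1 := by
    intro i hi
    have hinv : (π i).hom x.1 ∈ (B i).ρ.invariants := (invMap (π i) x).2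
    obtain ⟨v, hv, hvx⟩ := hU.h0 i hi _ (hP.mem x.1 i hi) hinv
    exact ⟨v, hv, hvx⟩
  choose b hb using hzi
  choose c hc using hzo
  obtain ⟨a, ha⟩ := hP.glue (fun i => if h : i ∈ S then b i h else c i h) (by
    intro i hi
    rw [dif_neg hi]
    exact (hc i hi).1)
  refine ⟨a, ?_⟩
  apply hP.ext
  intro i
  rw [hom_normMap, ha i]
  by_cases h : i ∈ S
  · rw [dif_pos h]; exact hb i h
  · rw [dif_neg h]; exact (hc i h).2

theorem tateH0Pi_surjective (hP : IsRestrictedProduct π U S) :
    Function.Surjective (tateH0Pi π S) := by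
  classical
  intro y
  have hy : ∀ i : S, ∃ b : (B i).ρ.invariants, TateH0.mk (B i) b = y i :=
    fun i => TateH0.mk_surjective _ (y i)
  choose b hb using hy
  obtain ⟨a, ha⟩ := hP.glue (fun i => if h : i ∈ S then (b ⟨i, h⟩).1 else 0) (by
    intro i hi
    rw [dif_neg hi]
    exact (U i).zero_mem)
  have hainv : a ∈ A.ρ.invariants := by
    intro g
    apply hP.ext
    intro i
    rw [Rep.hom_comm_apply, ha i]
    by_cases h : i ∈ S
    · rw [dif_pos h]; exact (b ⟨i, h⟩).2 g
    · rw [dif_neg h, map_zero]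
  refine ⟨TateH0.mk A ⟨a, hainv⟩, ?_⟩
  funext i
  change TateH0.map (π i) (TateH0.mk A ⟨a, hainv⟩) = y i
  rw [TateH0.map_mk, ← hb i]
  congr 1
  apply Subtype.ext
  change (π i).hom a = _
  rw [ha i, dif_pos i.2]

theorem tateH0Pi_bijective (hP : IsRestrictedProduct π U S) (hU : IsAcyclicOutside U S) :
    Function.Bijective (tateH0Pi π S) :=
  ⟨tateH0Pi_injective hP hU, tateH0Pi_surjective hP⟩

theorem tateHm1Pi_injective (hP : IsRestrictedProduct π U S) (hU : IsAcyclicOutside U S) :
    Function.Injective (tateHm1Pi π S) := by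
  classical
  rw [← LinearMap.ker_eq_bot, LinearMap.ker_eq_bot']
  intro z hz
  obtain ⟨x, rfl⟩ := TateHm1.mk_surjective _ z
  rw [TateHm1.mk_eq_zero_iff, mem_coinvariantsKer_iff_exists_sum]
  have hzi : ∀ i : ι, i ∈ S → ∃ v : G → (B i).V,
      (π i).hom x.1 = ∑ g, ((B i).ρ g (v g) - v g) := by
    intro i hi
    have h1 := congrFun hz ⟨i, hi⟩
    change TateHm1.map (π i) (TateHm1.mk A x) = 0 at h1
    rw [TateHm1.map_mk, TateHm1.mk_eq_zero_iff, mem_coinvariantsKer_iff_exists_sum] at h1
    exact h1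
  have hzo : ∀ i : ι, i ∉ S → ∃ v : G → (B i).V, (∀ g, v g ∈ U i) ∧
      (π i).hom x.1 = ∑ g, ((B i).ρ g (v g) - v g) := by
    intro i hi
    have hN : normMap (B i) ((π i).hom x.1) = 0 := by
      rw [← hom_normMap, LinearMap.mem_ker.mp x.2, map_zero]
    exact hU.hm1 i hi _ (hP.mem x.1 i hi) hN
  choose b hb using hzi
  choose c hc using hzo
  have hglue : ∀ g : G, ∃ a : A.V, ∀ i, (π i).hom a = if h : i ∈ S then b i h g else c i h g := by
    intro g
    apply hP.glue
    intro i hi
    rw [dif_neg hi]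
    exact (hc i hi).1 g
  choose a ha using hglue
  refine ⟨a, ?_⟩
  apply hP.ext
  intro i
  rw [map_sum]
  by_cases h : i ∈ S
  · rw [hb i h]
    refine Finset.sum_congr rfl fun g _ => ?_
    rw [map_sub, Rep.hom_comm_apply, ha g i, dif_pos h]
  · rw [(hc i h).2]
    refine Finset.sum_congr rfl fun g _ => ?_
    rw [map_sub, Rep.hom_comm_apply, ha g i, dif_neg h]

theorem tateHm1Pi_surjective (hP : IsRestrictedProduct π U S) :
    Function.Surjective (tateHm1Pi π S) := by
  classical
  intro y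
  have hy : ∀ i : S, ∃ b : LinearMap.ker (normMap (B i)), TateHm1.mk (B i) b = y i :=
    fun i => TateHm1.mk_surjective _ (y i)
  choose b hb using hy
  obtain ⟨a, ha⟩ := hP.glue (fun i => if h : i ∈ S then (b ⟨i, h⟩).1 else 0) (by
    intro i hi
    rw [dif_neg hi]
    exact (U i).zero_mem)
  have haN : a ∈ LinearMap.ker (normMap A) := by
    rw [LinearMap.mem_ker]
    apply hP.ext
    intro i
    rw [hom_normMap, ha i, map_zero]
    by_cases h : i ∈ S
    · rw [dif_pos h]; exact LinearMap.mem_ker.mp (b ⟨i, h⟩).2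
    · rw [dif_neg h, map_zero]
  refine ⟨TateHm1.mk A ⟨a, haN⟩, ?_⟩
  funext i
  change TateHm1.map (π i) (TateHm1.mk A ⟨a, haN⟩) = y i
  rw [TateHm1.map_mk, ← hb i]
  congr 1
  apply Subtype.ext
  change (π i).hom a = _
  rw [ha i, dif_pos i.2]

theorem tateHm1Pi_bijective (hP : IsRestrictedProduct π U S) (hU : IsAcyclicOutside U S) :
    Function.Bijective (tateHm1Pi π S) :=
  ⟨tateHm1Pi_injective hP hU, tateHm1Pi_surjective hP⟩

/-! ### Cardinalities and Herbrand quotients -/

section Card

variable {S : Finset ι}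

theorem card_tateH0_of_isRestrictedProduct (hP : IsRestrictedProduct π U (S : Set ι))
    (hU : IsAcyclicOutside U (S : Set ι)) :
    Nat.card (TateH0 A) = ∏ i ∈ S, Nat.card (TateH0 (B i)) := by
  rw [Nat.card_congr (Equiv.ofBijective _ (tateH0Pi_bijective hP hU)), Nat.card_pi]
  exact Finset.prod_coe_sort S fun i => Nat.card (TateH0 (B i))

theorem card_tateHm1_of_isRestrictedProduct (hP : IsRestrictedProduct π U (S : Set ι))
    (hU : IsAcyclicOutside U (S : Set ι)) :
    Nat.card (TateHm1 A) = ∏ i ∈ S, Nat.card (TateHm1 (B i)) := by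
  rw [Nat.card_congr (Equiv.ofBijective _ (tateHm1Pi_bijective hP hU)), Nat.card_pi]
  exact Finset.prod_coe_sort S fun i => Nat.card (TateHm1 (B i))

theorem finite_tateH0_of_isRestrictedProduct (hP : IsRestrictedProduct π U (S : Set ι))
    (hU : IsAcyclicOutside U (S : Set ι)) (hfin : ∀ i ∈ S, Finite (TateH0 (B i))) :
    Finite (TateH0 A) := by
  have : ∀ i : (S : Set ι), Finite (TateH0 (B i)) := fun i => hfin i i.2
  exact Finite.of_injective _ (tateH0Pi_injective hP hU)

theorem finite_tateHm1_of_isRestrictedProduct (hP : IsRestrictedProduct π U (S : Set ι))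
    (hU : IsAcyclicOutside U (S : Set ι)) (hfin : ∀ i ∈ S, Finite (TateHm1 (B i))) :
    Finite (TateHm1 A) := by
  have : ∀ i : (S : Set ι), Finite (TateHm1 (B i)) := fun i => hfin i i.2
  exact Finite.of_injective _ (tateHm1Pi_injective hP hU)

/-- **Herbrand quotient of a restricted product** with strongly acyclic factors outside the
finite set `S`: it is the product of the Herbrand quotients of the factors in `S`.
(No cyclicity assumption.) -/
theorem herbrand_of_isRestrictedProduct (hP : IsRestrictedProduct π U (S : Set ι))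
    (hU : IsAcyclicOutside U (S : Set ι)) (hfin : ∀ i ∈ S, HerbrandFinite (B i)) :
    HerbrandFinite A ∧ herbrand A = ∏ i ∈ S, herbrand (B i) := by
  refine ⟨⟨finite_tateH0_of_isRestrictedProduct hP hU fun i hi => (hfin i hi).1,
    finite_tateHm1_of_isRestrictedProduct hP hU fun i hi => (hfin i hi).2⟩, ?_⟩
  unfold herbrand
  rw [card_tateH0_of_isRestrictedProduct hP hU, card_tateHm1_of_isRestrictedProduct hP hU,
    Nat.cast_prod, Nat.cast_prod, Finset.prod_div_distrib]

end Card

/-! ### Full finite products -/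

section FullProduct

variable [Fintype ι]

/-- `A` is the product of the finitely many `B i`: Herbrand quotients multiply. -/
theorem herbrand_of_isProduct
    (hinj : ∀ a : A.V, (∀ i, (π i).hom a = 0) → a = 0)
    (hglue : ∀ b : (∀ i, (B i).V), ∃ a : A.V, ∀ i, (π i).hom a = b i)
    (hfin : ∀ i, HerbrandFinite (B i)) :
    HerbrandFinite A ∧ herbrand A = ∏ i, herbrand (B i) := by
  have hP : IsRestrictedProduct π (fun _ => ⊥) ((Finset.univ : Finset ι) : Set ι) :=
    ⟨hinj, fun _ i hi => absurd (Finset.mem_coe.mpr (Finset.mem_univ i)) hi,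
      fun b _ => hglue b⟩
  have hU : IsAcyclicOutside (B := B) (fun _ => ⊥) ((Finset.univ : Finset ι) : Set ι) :=
    ⟨fun i hi => absurd (Finset.mem_coe.mpr (Finset.mem_univ i)) hi,
      fun i hi => absurd (Finset.mem_coe.mpr (Finset.mem_univ i)) hi⟩
  exact herbrand_of_isRestrictedProduct hP hU fun i _ => hfin i

theorem card_tate_of_isProduct
    (hinj : ∀ a : A.V, (∀ i, (π i).hom a = 0) → a = 0)
    (hglue : ∀ b : (∀ i, (B i).V), ∃ a : A.V, ∀ i, (π i).hom a = b i) :
    Nat.card (TateH0 A) = ∏ i, Nat.card (TateH0 (B i)) ∧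
      Nat.card (TateHm1 A) = ∏ i, Nat.card (TateHm1 (B i)) := by
  have hP : IsRestrictedProduct π (fun _ => ⊥) ((Finset.univ : Finset ι) : Set ι) :=
    ⟨hinj, fun _ i hi => absurd (Finset.mem_coe.mpr (Finset.mem_univ i)) hi,
      fun b _ => hglue b⟩
  have hU : IsAcyclicOutside (B := B) (fun _ => ⊥) ((Finset.univ : Finset ι) : Set ι) :=
    ⟨fun i hi => absurd (Finset.mem_coe.mpr (Finset.mem_univ i)) hi,
      fun i hi => absurd (Finset.mem_coe.mpr (Finset.mem_univ i)) hi⟩
  exact ⟨card_tateH0_of_isRestrictedProduct hP hU, card_tateHm1_of_isRestrictedProduct hP hU⟩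

end FullProduct

end Abstract

/-! ### Multiplicative dictionary -/

section Dict

variable {G : Type} [Group G] [Fintype G] {M : Type} [CommGroup M] [MulDistribMulAction G M]

theorem toMul_normMap_ofMulDistribMulAction (x : (Rep.ofMulDistribMulAction G M).V) :
    Additive.toMul (α := M) (normMap (Rep.ofMulDistribMulAction G M) x) =
      ∏ σ : G, σ • (Additive.toMul (α := M) x) := by
  rw [normMap_apply]
  exact toMul_sum _ _

theorem mem_invariants_ofMulDistribMulAction_iff (x : (Rep.ofMulDistribMulAction G M).V) :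
    x ∈ (Rep.ofMulDistribMulAction G M).ρ.invariants ↔
      ∀ σ : G, σ • (Additive.toMul (α := M) x) = Additive.toMul (α := M) x :=
  Iff.rfl

end Dict

/-! ### Subgroups of restricted products of multiplicative `G`-modules -/

section Multiplicative

open scoped RestrictedProduct

variable {G : Type} [Group G] [Fintype G] {ι : Type} {M : ι → Type} [∀ i, CommGroup (M i)]
  [∀ i, MulDistribMulAction G (M i)] {U : ∀ i, Subgroup (M i)} {S : Finset ι}
  {J : Subgroup (Πʳ i, [M i, (U i : Set (M i))])} [MulDistribMulAction G J]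

/-- evaluation at `i` as a morphism of representations -/
noncomputable def evalRepHom
    (hact : ∀ (g : G) (x : J) (i : ι), ((g • x : J) : Πʳ i, [M i, (U i : Set (M i))]) i =
      g • ((x : Πʳ i, [M i, (U i : Set (M i))]) i)) (i : ι) :
    Rep.ofMulDistribMulAction G J ⟶ Rep.ofMulDistribMulAction G (M i) :=
  Rep.ofHom
    { toLinearMap := (MonoidHom.toAdditive
        ((RestrictedProduct.evalMonoidHom M i).comp J.subtype)).toIntLinearMap
      isIntertwining' := fun σ => LinearMap.ext fun x => by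
        change Additive.ofMul (((σ • (Additive.toMul x : J) : J) :
          Πʳ i, [M i, (U i : Set (M i))]) i) = Additive.ofMul (σ • ((Additive.toMul x : J) :
          Πʳ i, [M i, (U i : Set (M i))]) i)
        rw [hact] }

theorem evalRepHom_apply
    (hact : ∀ (g : G) (x : J) (i : ι), ((g • x : J) : Πʳ i, [M i, (U i : Set (M i))]) i =
      g • ((x : Πʳ i, [M i, (U i : Set (M i))]) i)) (i : ι)
    (x : (Rep.ofMulDistribMulAction G J).V) :
    (evalRepHom hact i).hom x =
      Additive.ofMul (((Additive.toMul (α := J) x : J) : Πʳ i, [M i, (U i : Set (M i))]) i) :=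
  rfl

/-- the additive subgroup of `Additive (M i)` corresponding to `U i` -/
def addSubgroupOf (i : ι) : AddSubgroup (Rep.ofMulDistribMulAction G (M i)).V where
  carrier := {x | Additive.toMul (α := M i) x ∈ U i}
  add_mem' := fun hx hy => (U i).mul_mem hx hy
  zero_mem' := (U i).one_mem
  neg_mem' := fun hx => (U i).inv_mem hx

theorem isRestrictedProduct_of_subgroup
    (hJ : ∀ x, x ∈ J ↔ ∀ i ∉ S, x i ∈ U i)
    (hact : ∀ (g : G) (x : J) (i : ι), ((g • x : J) : Πʳ i, [M i, (U i : Set (M i))]) i =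
      g • ((x : Πʳ i, [M i, (U i : Set (M i))]) i)) :
    IsRestrictedProduct (evalRepHom hact) (fun i => addSubgroupOf (G := G) (U := U) i)
      (S : Set ι) where
  inj := by
    intro a ha
    have h1 : (Additive.toMul (α := J) a : J) = 1 := by
      apply Subtype.ext
      apply RestrictedProduct.ext
      intro i
      exact congrArg (Additive.toMul (α := M i)) (ha i)
    exact congrArg Additive.ofMul h1
  mem := by
    intro a i hi
    exact (hJ _).mp (Additive.toMul (α := J) a : J).2 i (by simpa using hi)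
  glue := by
    intro b hb
    have hev : ∀ᶠ i in Filter.cofinite, Additive.toMul (α := M i) (b i) ∈ (U i : Set (M i)) := by
      rw [Filter.eventually_cofinite]
      refine S.finite_toSet.subset ?_
      intro i hi
      by_contra h
      exact hi (hb i h)
    let x : Πʳ i, [M i, (U i : Set (M i))] := ⟨fun i => Additive.toMul (α := M i) (b i), hev⟩
    have hx : x ∈ J := by
      rw [hJ]
      intro i hi
      exact hb i (by simpa using hi)
    exact ⟨Additive.ofMul (⟨x, hx⟩ : J), fun i => rfl⟩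

/-- strong acyclicity of the `U i`, `i ∉ S`, in multiplicative form (general finite group) -/
theorem isAcyclicOutside_of_subgroup
    (h0 : ∀ i ∉ S, ∀ u ∈ U i, (∀ σ : G, σ • u = u) → ∃ v ∈ U i, ∏ σ : G, σ • v = u)
    (hm1 : ∀ i ∉ S, ∀ u ∈ U i, ∏ σ : G, σ • u = 1 →
      ∃ v : G → M i, (∀ σ, v σ ∈ U i) ∧ u = ∏ σ : G, (σ • v σ / v σ)) :
    IsAcyclicOutside (B := fun i => Rep.ofMulDistribMulAction G (M i))
      (fun i => addSubgroupOf (G := G) (U := U) i) (S : Set ι) where
  h0 := by
    intro i hi u hu hinv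
    obtain ⟨v, hv, hvu⟩ := h0 i (by simpa using hi) (Additive.toMul (α := M i) u) hu hinv
    refine ⟨Additive.ofMul (α := M i) v, hv, ?_⟩
    have h1 := toMul_normMap_ofMulDistribMulAction (G := G) (M := M i) (Additive.ofMul (α := M i) v)
    exact h1.trans hvu
  hm1 := by
    intro i hi u hu hN
    have hN' : ∏ σ : G, σ • (Additive.toMul (α := M i) u) = 1 := by
      rw [← toMul_normMap_ofMulDistribMulAction, hN]
      rfl
    obtain ⟨v, hv, hvu⟩ := hm1 i (by simpa using hi) (Additive.toMul (α := M i) u) hu hN'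
    let w : G → (Rep.ofMulDistribMulAction G (M i)).V := fun σ => Additive.ofMul (α := M i) (v σ)
    refine ⟨w, hv, ?_⟩
    have h1 := toMul_sum (M := M i) Finset.univ (fun σ : G =>
      (Rep.ofMulDistribMulAction G (M i)).ρ σ (w σ) - w σ)
    exact hvu.trans h1.symm

/-- **Herbrand quotient of `S`-ideles, general form.** `J` is the subgroup of a restricted
product `Πʳ i, [M i, U i]` of all `x` with `x i ∈ U i` for `i ∉ S` (`S` finite), with a
componentwise action of the finite group `G`; if the `U i` (`i ∉ S`) are strongly acyclic, then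
`Ĥ⁰ J`, `Ĥ⁻¹ J` are the products over `i ∈ S` of `Ĥ⁰ (M i)`, `Ĥ⁻¹ (M i)`. -/
theorem card_tate_subgroup_restrictedProduct
    (hJ : ∀ x, x ∈ J ↔ ∀ i ∉ S, x i ∈ U i)
    (hact : ∀ (g : G) (x : J) (i : ι), ((g • x : J) : Πʳ i, [M i, (U i : Set (M i))]) i =
      g • ((x : Πʳ i, [M i, (U i : Set (M i))]) i))
    (h0 : ∀ i ∉ S, ∀ u ∈ U i, (∀ σ : G, σ • u = u) → ∃ v ∈ U i, ∏ σ : G, σ • v = u)
    (hm1 : ∀ i ∉ S, ∀ u ∈ U i, ∏ σ : G, σ • u = 1 →
      ∃ v : G → M i, (∀ σ, v σ ∈ U i) ∧ u = ∏ σ : G, (σ • v σ / v σ)) :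
    Nat.card (TateH0 (Rep.ofMulDistribMulAction G J)) =
        ∏ i ∈ S, Nat.card (TateH0 (Rep.ofMulDistribMulAction G (M i))) ∧
      Nat.card (TateHm1 (Rep.ofMulDistribMulAction G J)) =
        ∏ i ∈ S, Nat.card (TateHm1 (Rep.ofMulDistribMulAction G (M i))) :=
  ⟨card_tateH0_of_isRestrictedProduct (isRestrictedProduct_of_subgroup hJ hact)
      (isAcyclicOutside_of_subgroup h0 hm1),
    card_tateHm1_of_isRestrictedProduct (isRestrictedProduct_of_subgroup hJ hact)
      (isAcyclicOutside_of_subgroup h0 hm1)⟩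

theorem herbrand_subgroup_restrictedProduct'
    (hJ : ∀ x, x ∈ J ↔ ∀ i ∉ S, x i ∈ U i)
    (hact : ∀ (g : G) (x : J) (i : ι), ((g • x : J) : Πʳ i, [M i, (U i : Set (M i))]) i =
      g • ((x : Πʳ i, [M i, (U i : Set (M i))]) i))
    (h0 : ∀ i ∉ S, ∀ u ∈ U i, (∀ σ : G, σ • u = u) → ∃ v ∈ U i, ∏ σ : G, σ • v = u)
    (hm1 : ∀ i ∉ S, ∀ u ∈ U i, ∏ σ : G, σ • u = 1 →
      ∃ v : G → M i, (∀ σ, v σ ∈ U i) ∧ u = ∏ σ : G, (σ • v σ / v σ))
    (hfin : ∀ i ∈ S, HerbrandFinite (Rep.ofMulDistribMulAction G (M i))) :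
    HerbrandFinite (Rep.ofMulDistribMulAction G J) ∧
      herbrand (Rep.ofMulDistribMulAction G J) =
        ∏ i ∈ S, herbrand (Rep.ofMulDistribMulAction G (M i)) :=
  herbrand_of_isRestrictedProduct (isRestrictedProduct_of_subgroup hJ hact)
    (isAcyclicOutside_of_subgroup h0 hm1) hfin

/-- **Herbrand quotient of `S`-ideles, cyclic form** (the shape used for `sIdeles`): the
`Ĥ⁻¹`-acyclicity of `U i` is expressed with a single element `g` of `G` (a generator, in
practice): every norm-one element of `U i` is `g • v / v` with `v ∈ U i`. -/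
theorem herbrand_subgroup_restrictedProduct
    (hJ : ∀ x, x ∈ J ↔ ∀ i ∉ S, x i ∈ U i)
    (hact : ∀ (g : G) (x : J) (i : ι), ((g • x : J) : Πʳ i, [M i, (U i : Set (M i))]) i =
      g • ((x : Πʳ i, [M i, (U i : Set (M i))]) i))
    (g : G)
    (h0 : ∀ i ∉ S, ∀ u ∈ U i, (∀ σ : G, σ • u = u) → ∃ v ∈ U i, ∏ σ : G, σ • v = u)
    (hm1 : ∀ i ∉ S, ∀ u ∈ U i, ∏ σ : G, σ • u = 1 → ∃ v ∈ U i, u = g • v / v)
    (hfin : ∀ i ∈ S, HerbrandFinite (Rep.ofMulDistribMulAction G (M i))) :
    HerbrandFinite (Rep.ofMulDistribMulAction G J) ∧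
      herbrand (Rep.ofMulDistribMulAction G J) =
        ∏ i ∈ S, herbrand (Rep.ofMulDistribMulAction G (M i)) := by
  classical
  refine herbrand_subgroup_restrictedProduct' hJ hact h0 ?_ hfin
  intro i hi u hu hN
  obtain ⟨v, hv, hvu⟩ := hm1 i hi u hu hN
  refine ⟨fun σ => if σ = g then v else 1, fun σ => ?_, ?_⟩
  · by_cases h : σ = g
    · simp only [h, if_true]; exact hv
    · simp only [h, if_false]; exact (U i).one_mem
  · rw [Finset.prod_eq_single g]
    · simp only [if_true]; exact hvu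
    · intro σ _ hne
      simp only [hne, if_false, smul_one, div_one]
    · intro h; exact absurd (Finset.mem_univ g) h

end Multiplicative

/-! ### Finite products of multiplicative `G`-modules with componentwise action -/

section Pi

variable {G : Type} [Group G] [Fintype G] {ι : Type} [Fintype ι] {M : ι → Type}
  [∀ i, CommGroup (M i)] [∀ i, MulDistribMulAction G (M i)]

/-- the `i`-th projection as a morphism of representations -/
noncomputable def piEvalRepHom (i : ι) :
    Rep.ofMulDistribMulAction G (∀ i, M i) ⟶ Rep.ofMulDistribMulAction G (M i) :=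
  Rep.ofHom
    { toLinearMap := (MonoidHom.toAdditive (Pi.evalMonoidHom M i)).toIntLinearMap
      isIntertwining' := fun _ => LinearMap.ext fun _ => rfl }

/-- Herbrand quotients of a finite product (componentwise action) multiply. -/
theorem herbrand_pi (hfin : ∀ i, HerbrandFinite (Rep.ofMulDistribMulAction G (M i))) :
    HerbrandFinite (Rep.ofMulDistribMulAction G (∀ i, M i)) ∧
      herbrand (Rep.ofMulDistribMulAction G (∀ i, M i)) =
        ∏ i, herbrand (Rep.ofMulDistribMulAction G (M i)) := by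
  refine herbrand_of_isProduct (π := piEvalRepHom (G := G) (M := M)) ?_ ?_ hfin
  · intro a ha
    have h1 : (Additive.toMul (α := ∀ i, M i) a) = 1 :=
      funext fun i => congrArg (Additive.toMul (α := M i)) (ha i)
    exact congrArg Additive.ofMul h1
  · intro b
    exact ⟨Additive.ofMul (α := ∀ i, M i) fun i => Additive.toMul (α := M i) (b i),
      fun i => rfl⟩

theorem card_tate_pi :
    Nat.card (TateH0 (Rep.ofMulDistribMulAction G (∀ i, M i))) =
        ∏ i, Nat.card (TateH0 (Rep.ofMulDistribMulAction G (M i))) ∧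
      Nat.card (TateHm1 (Rep.ofMulDistribMulAction G (∀ i, M i))) =
        ∏ i, Nat.card (TateHm1 (Rep.ofMulDistribMulAction G (M i))) := by
  refine card_tate_of_isProduct (π := piEvalRepHom (G := G) (M := M)) ?_ ?_
  · intro a ha
    have h1 : (Additive.toMul (α := ∀ i, M i) a) = 1 :=
      funext fun i => congrArg (Additive.toMul (α := M i)) (ha i)
    exact congrArg Additive.ofMul h1
  · intro b
    exact ⟨Additive.ofMul (α := ∀ i, M i) fun i => Additive.toMul (α := M i) (b i),
      fun i => rfl⟩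

end Pi

end Fermat.Agent.CFT.Coh
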