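import Fermat.Agent.CFT.Coh.Cyclic_helper6_HerbrandCalc

/-!
# CFT (C0.1): Tate groups of induced modules vanish

`A` is *induced by* a `k`-submodule `W ≤ A` if `A = ⨁_{h ∈ G} h W`, i.e. every vector is uniquely
of the form `∑ h, ρ h (w h)` with `w h ∈ W`.  Then `Ĥ⁰(G, A) = Ĥ⁻¹(G, A) = 0` (any finite `G`).
-/

set_option autoImplicit false

open CategoryTheory

namespace Fermat.Agent.CFT.Coh

section Induced

variable {k G : Type} [CommRing k] [Group G] [Finite G]

/-- `A = ⨁_{h ∈ G} h W`: every vector is uniquely `∑ h, ρ h (w h)` with `w h ∈ W`. -/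
def IsInducedBy (A : Rep k G) (W : Submodule k A.V) : Prop :=
  Function.Bijective (fun w : G → W => ∑ᶠ h, A.ρ h (w h : A.V))

variable {A : Rep k G} {W : Submodule k A.V}

theorem tateH0_subsingleton_of_isInducedBy (hW : IsInducedBy A W) : Subsingleton (TateH0 A) := by
  let _ := Fintype.ofFinite G
  refine ⟨fun x y => ?_⟩
  suffices h : ∀ z : TateH0 A, z = 0 by rw [h x, h y]
  intro z
  obtain ⟨a, rfl⟩ := TateH0.mk_surjective A z
  rw [TateH0.mk_eq_zero_iff]
  obtain ⟨w, hw⟩ := hW.2 (a : A.V)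
  simp only [finsum_eq_sum_of_fintype] at hw
  -- `w` is constant
  have hconst : ∀ x : G, (fun h => w (x⁻¹ * h)) = w := by
    intro x
    apply hW.1
    simp only [finsum_eq_sum_of_fintype]
    rw [hw]
    have h1 : A.ρ x (a : A.V) = ∑ h, A.ρ h (w (x⁻¹ * h) : A.V) := by
      rw [← hw, map_sum]
      rw [← Equiv.sum_comp (Equiv.mulLeft x) (fun h => A.ρ h (w (x⁻¹ * h) : A.V))]
      refine Finset.sum_congr rfl fun h _ => ?_
      simp only [Equiv.coe_mulLeft, inv_mul_cancel_left, map_mul, Module.End.mul_apply]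
    rw [← h1, a.2 x]
  have hw1 : ∀ h : G, w h = w 1 := by
    intro h
    have := congrFun (hconst h⁻¹) 1
    simp only [inv_inv, mul_one] at this
    exact this
  refine ⟨(w 1 : A.V), ?_⟩
  rw [normMap_apply, ← hw]
  exact Finset.sum_congr rfl fun h _ => by rw [hw1 h]

theorem tateHm1_subsingleton_of_isInducedBy (hW : IsInducedBy A W) :
    Subsingleton (TateHm1 A) := by
  let _ := Fintype.ofFinite G
  refine ⟨fun x y => ?_⟩
  suffices h : ∀ z : TateHm1 A, z = 0 by rw [h x, h y]
  intro z
  obtain ⟨a, rfl⟩ := TateHm1.mk_surjective A z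
  rw [TateHm1.mk_eq_zero_iff]
  obtain ⟨w, hw⟩ := hW.2 (a : A.V)
  simp only [finsum_eq_sum_of_fintype] at hw
  -- `∑ h, w h = 0`
  have hN : normMap A (∑ h, (w h : A.V)) = 0 := by
    have h1 : normMap A (a : A.V) = normMap A (∑ h, (w h : A.V)) := by
      rw [← hw, map_sum, map_sum]
      exact Finset.sum_congr rfl fun h _ => normMap_ρ A h _
    rw [← h1]
    exact LinearMap.mem_ker.1 a.2
  have hsum : (fun _ : G => ∑ h, w h) = fun _ => (0 : W) := by
    apply hW.1
    simp only [finsum_eq_sum_of_fintype, ZeroMemClass.coe_zero, map_zero, Finset.sum_const_zero]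
    rw [← hN, normMap_apply]
    refine Finset.sum_congr rfl fun y _ => ?_
    rw [Submodule.coe_sum]
  have hsum0 : ∑ h, (w h : A.V) = 0 := by
    have := congrFun hsum 1
    have h2 := congrArg (fun v : W => (v : A.V)) this
    simpa [Submodule.coe_sum] using h2
  have : (a : A.V) = ∑ h, (A.ρ h (w h : A.V) - (w h : A.V)) := by
    rw [Finset.sum_sub_distrib, hw, hsum0, sub_zero]
  rw [this]
  exact Submodule.sum_mem _ fun h _ => Representation.Coinvariants.sub_mem_ker h _

/-- Induced modules have trivial Herbrand quotient. -/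
theorem herbrand_of_isInducedBy (hW : IsInducedBy A W) : HerbrandFinite A ∧ herbrand A = 1 := by
  have h0 := tateH0_subsingleton_of_isInducedBy hW
  have h1 := tateHm1_subsingleton_of_isInducedBy hW
  have hfin : HerbrandFinite A := ⟨inferInstance, inferInstance⟩
  refine ⟨hfin, ?_⟩
  have hc0 : Nat.card (TateH0 A) = 1 := Nat.card_unique
  have hc1 : Nat.card (TateHm1 A) = 1 := Nat.card_unique
  rw [herbrand_eq_iff hfin, hc0, hc1]
  norm_num

end Induced

end Fermat.Agent.CFT.Coh
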