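/-
CFT (C0.1) complement, helper2: transport of `Ĥ⁰`, `Ĥ⁻¹` and the Herbrand quotient along a
semilinear isomorphism of representations `(G, A) ≃ (G', A')` (group isomorphism `e : G ≃* G'`
and linear isomorphism `φ : A ≃ A'` with `φ (σ a) = e σ (φ a)`), and its multiplicative form for
`Rep.ofMulDistribMulAction`.
-/
import Fermat.Agent.CFT.Coh.Cyclic_helper6_Herbrand

set_option autoImplicit false
set_option linter.unusedSectionVars false

open CategoryTheory

namespace Fermat.Agent.CFT.Coh

section Transport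

variable {k G G' : Type} [CommRing k] [Group G] [Finite G] [Group G'] [Finite G']

/-- A semilinear isomorphism of representations over a group isomorphism. -/
structure RepSemiEquiv (A : Rep.{0} k G) (A' : Rep.{0} k G') where
  /-- the isomorphism of groups -/
  e : G ≃* G'
  /-- the isomorphism of modules -/
  φ : A.V ≃ₗ[k] A'.V
  /-- compatibility -/
  comm : ∀ (σ : G) (v : A.V), φ (A.ρ σ v) = A'.ρ (e σ) (φ v)

namespace RepSemiEquiv

variable {A : Rep.{0} k G} {A' : Rep.{0} k G'} (E : RepSemiEquiv A A')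

/-- the inverse semilinear isomorphism -/
def symm : RepSemiEquiv A' A where
  e := E.e.symm
  φ := E.φ.symm
  comm σ v := by
    apply E.φ.injective
    rw [E.comm, LinearEquiv.apply_symm_apply, MulEquiv.apply_symm_apply,
      LinearEquiv.apply_symm_apply]

lemma mem_invariants {v : A.V} (hv : v ∈ A.ρ.invariants) : E.φ v ∈ A'.ρ.invariants := by
  intro τ
  obtain ⟨σ, rfl⟩ := E.e.surjective τ
  rw [← E.comm, hv σ]

lemma mem_invariants_iff {v : A.V} : E.φ v ∈ A'.ρ.invariants ↔ v ∈ A.ρ.invariants := by
  refine ⟨fun h => ?_, E.mem_invariants⟩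
  have := E.symm.mem_invariants h
  rwa [show E.symm.φ = E.φ.symm from rfl, LinearEquiv.symm_apply_apply] at this

lemma map_normMap (v : A.V) : E.φ (normMap A v) = normMap A' (E.φ v) := by
  let _ := Fintype.ofFinite G
  let _ := Fintype.ofFinite G'
  rw [normMap_apply, normMap_apply, map_sum, ← Equiv.sum_comp E.e.toEquiv]
  exact Finset.sum_congr rfl fun σ _ => E.comm σ v

lemma mem_coinvariantsKer {v : A.V} (hv : v ∈ Representation.Coinvariants.ker A.ρ) :
    E.φ v ∈ Representation.Coinvariants.ker A'.ρ := by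
  rw [Representation.Coinvariants.ker] at hv ⊢
  refine Submodule.span_induction ?_ ?_ ?_ ?_ hv
  · rintro _ ⟨⟨g, x⟩, rfl⟩
    refine Submodule.subset_span ⟨⟨E.e g, E.φ x⟩, ?_⟩
    simp only [map_sub, E.comm]
  · simp
  · intro x y _ _ hx hy; rw [map_add]; exact Submodule.add_mem _ hx hy
  · intro c x _ hx; rw [map_smul]; exact Submodule.smul_mem _ c hx

lemma mem_coinvariantsKer_iff {v : A.V} :
    E.φ v ∈ Representation.Coinvariants.ker A'.ρ ↔ v ∈ Representation.Coinvariants.ker A.ρ := by
  refine ⟨fun h => ?_, E.mem_coinvariantsKer⟩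
  have := E.symm.mem_coinvariantsKer h
  rwa [show E.symm.φ = E.φ.symm from rfl, LinearEquiv.symm_apply_apply] at this

/-- the induced isomorphism on invariants -/
noncomputable def invEquiv : A.ρ.invariants ≃ₗ[k] A'.ρ.invariants :=
  LinearEquiv.ofSubmodules E.φ A.ρ.invariants A'.ρ.invariants <| by
    ext w
    constructor
    · rintro ⟨v, hv, rfl⟩; exact E.mem_invariants hv
    · intro hw
      refine ⟨E.φ.symm w, ?_, E.φ.apply_symm_apply w⟩
      change E.φ.symm w ∈ A.ρ.invariants
      rw [← E.mem_invariants_iff, E.φ.apply_symm_apply]; exact hw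

@[simp] lemma coe_invEquiv (v : A.ρ.invariants) : (E.invEquiv v : A'.V) = E.φ v := rfl

/-- the induced isomorphism on `Ĥ⁰` -/
noncomputable def tateH0Equiv : TateH0 A ≃ₗ[k] TateH0 A' :=
  Submodule.Quotient.equiv _ _ E.invEquiv <| by
    ext w
    constructor
    · rintro ⟨_, ⟨a, rfl⟩, rfl⟩
      exact ⟨E.φ a, Subtype.ext (E.map_normMap a).symm⟩
    · rintro ⟨a, rfl⟩
      refine ⟨normInv A (E.φ.symm a), ⟨_, rfl⟩, Subtype.ext ?_⟩
      change E.φ (normMap A (E.φ.symm a)) = normMap A' a
      rw [E.map_normMap, E.φ.apply_symm_apply]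

/-- the induced isomorphism on `ker N` -/
noncomputable def kerNormEquiv : LinearMap.ker (normMap A) ≃ₗ[k] LinearMap.ker (normMap A') :=
  LinearEquiv.ofSubmodules E.φ _ _ <| by
    ext w
    constructor
    · rintro ⟨v, hv, rfl⟩
      change normMap A' (E.φ v) = 0
      rw [← E.map_normMap, LinearMap.mem_ker.1 hv, map_zero]
    · intro hw
      refine ⟨E.φ.symm w, ?_, E.φ.apply_symm_apply w⟩
      change E.φ.symm w ∈ LinearMap.ker (normMap A)
      rw [LinearMap.mem_ker]
      apply E.φ.injective
      rw [E.map_normMap, E.φ.apply_symm_apply, LinearMap.mem_ker.1 hw, map_zero]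

@[simp] lemma coe_kerNormEquiv (v : LinearMap.ker (normMap A)) :
    (E.kerNormEquiv v : A'.V) = E.φ v := rfl

/-- the induced isomorphism on `Ĥ⁻¹` -/
noncomputable def tateHm1Equiv : TateHm1 A ≃ₗ[k] TateHm1 A' :=
  Submodule.Quotient.equiv _ _ E.kerNormEquiv <| by
    ext w
    constructor
    · rintro ⟨v, hv, rfl⟩
      exact E.mem_coinvariantsKer hv
    · intro hw
      refine ⟨E.kerNormEquiv.symm w, ?_, E.kerNormEquiv.apply_symm_apply w⟩
      change ((E.kerNormEquiv.symm w : LinearMap.ker (normMap A)) : A.V) ∈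
        Representation.Coinvariants.ker A.ρ
      rw [← E.mem_coinvariantsKer_iff, ← coe_kerNormEquiv, E.kerNormEquiv.apply_symm_apply]
      exact hw

include E in
theorem herbrandFinite_iff : HerbrandFinite A ↔ HerbrandFinite A' := by
  unfold HerbrandFinite
  rw [(tateH0Equiv E).toEquiv.finite_iff, (tateHm1Equiv E).toEquiv.finite_iff]

include E in
theorem herbrand_eq : herbrand A = herbrand A' := by
  unfold herbrand
  rw [Nat.card_congr (tateH0Equiv E).toEquiv, Nat.card_congr (tateHm1Equiv E).toEquiv]

end RepSemiEquiv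

/-- an isomorphism of representations of the same group, as a semilinear isomorphism -/
noncomputable def RepSemiEquiv.ofIso {A B : Rep.{0} k G} (i : A ≅ B) : RepSemiEquiv A B where
  e := MulEquiv.refl G
  φ := LinearEquiv.ofLinearMap i.hom.hom.toLinearMap i.inv.hom.toLinearMap
    (by
      ext v
      have := congrArg (fun f => f.hom v) i.inv_hom_id
      exact this)
    (by
      ext v
      have := congrArg (fun f => f.hom v) i.hom_inv_id
      exact this)
  comm σ v := Rep.hom_comm_apply i.hom σ v

end Transport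

section Mul

variable {G G' : Type} [Group G] [Finite G] [Group G'] [Finite G']
  {M M' : Type} [CommGroup M] [CommGroup M'] [MulDistribMulAction G M] [MulDistribMulAction G' M']

/-- multiplicative form: a group isomorphism `e : G ≃* G'` and an isomorphism `f : M ≃* M'` of
modules with `f (σ • m) = e σ • f m`. -/
noncomputable def RepSemiEquiv.ofMulEquiv (e : G ≃* G') (f : M ≃* M')
    (h : ∀ (σ : G) (m : M), f (σ • m) = e σ • f m) :
    RepSemiEquiv (Rep.ofMulDistribMulAction G M) (Rep.ofMulDistribMulAction G' M') where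
  e := e
  φ := (MulEquiv.toAdditive f).toIntLinearEquiv
  comm σ v := congrArg Additive.ofMul (h σ v.toMul)

theorem herbrand_ofMulDistribMulAction_congr (e : G ≃* G') (f : M ≃* M')
    (h : ∀ (σ : G) (m : M), f (σ • m) = e σ • f m) :
    (HerbrandFinite (Rep.ofMulDistribMulAction G M) ↔
      HerbrandFinite (Rep.ofMulDistribMulAction G' M')) ∧
    herbrand (Rep.ofMulDistribMulAction G M) = herbrand (Rep.ofMulDistribMulAction G' M') :=
  ⟨(RepSemiEquiv.ofMulEquiv e f h).herbrandFinite_iff, (RepSemiEquiv.ofMulEquiv e f h).herbrand_eq⟩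

end Mul

end Fermat.Agent.CFT.Coh
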