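import Fermat.Agent.CFT.Coh.Cyclic_helper6_Exp

/-!
# CFT (C0.1): `H¹(G, A) ≃ Ĥ⁻¹(G, A)` for a finite cyclic group, explicitly

For `G = ⟨g⟩` finite cyclic, `[f] ↦ [f g]` is an isomorphism `H¹(G, A) ≃ ker N / (g - 1) A`, with
inverse `[a] ↦ [g^i ↦ (1 + g + ⋯ + g^(i-1)) a]`.
-/

set_option autoImplicit false

open CategoryTheory groupCohomology

namespace Fermat.Agent.CFT.Coh

section H1

variable {k G : Type} [CommRing k] [Group G] [Finite G] {g : G}
  (hg : ∀ x, x ∈ Subgroup.zpowers g) (A : Rep k G)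

omit [Finite G] in
/-- For a `1`-cocycle `f`, `f (g ^ i) = (1 + g + ⋯ + g^(i-1)) f(g)`. -/
lemma cocycles₁_pow (f : cocycles₁ A) (g : G) (i : ℕ) : f (g ^ i) = geomSum A g i (f g) := by
  induction i with
  | zero =>
    rw [pow_zero, geomSum_zero, LinearMap.zero_apply]
    exact cocycles₁_map_one f
  | succ i ih =>
    rw [pow_succ, (mem_cocycles₁_iff (f : G → A.V)).mp f.2, geomSum_succ_apply, ih, add_comm]

include hg in
lemma normMap_cocycles₁_apply (f : cocycles₁ A) : normMap A (f g) = 0 := by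
  rw [← geomSum_orderOf_apply hg, ← cocycles₁_pow, pow_orderOf_eq_one]
  exact cocycles₁_map_one f

/-- Evaluation of a `1`-cocycle at the generator, as a map to `ker N`. -/
noncomputable def evalGen : cocycles₁ A →ₗ[k] LinearMap.ker (normMap A) where
  toFun f := ⟨f g, LinearMap.mem_ker.2 (normMap_cocycles₁_apply hg A f)⟩
  map_add' _ _ := rfl
  map_smul' _ _ := rfl

@[simp] lemma coe_evalGen (f : cocycles₁ A) : (evalGen hg A f : A.V) = f g := rfl

omit [Finite G] in
lemma H1π_surjective : Function.Surjective (H1π A).hom :=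
  (ModuleCat.epi_iff_surjective _).1 inferInstance

/-- The map `H¹(G, A) → Ĥ⁻¹(G, A)`, `[f] ↦ [f g]`. -/
noncomputable def H1ToTateHm1 : H1 A →ₗ[k] TateHm1 A :=
  (Submodule.liftQ (LinearMap.ker (H1π A).hom) ((TateHm1.mk A).comp (evalGen hg A)) (by
    intro f hf
    rw [LinearMap.mem_ker] at hf ⊢
    rw [H1π_eq_zero_iff] at hf
    obtain ⟨b, hb⟩ := hf
    rw [LinearMap.comp_apply, TateHm1.mk_eq_zero_iff, coe_evalGen]
    have : f g = A.ρ g b - b := by
      have := congrFun hb g
      rw [d₀₁_hom_apply] at this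
      exact this.symm
    rw [this]
    exact Representation.Coinvariants.sub_mem_ker g b)).comp
  ((H1π A).hom.quotKerEquivOfSurjective (H1π_surjective A)).symm.toLinearMap

lemma H1ToTateHm1_π (f : cocycles₁ A) :
    H1ToTateHm1 hg A ((H1π A).hom f) = TateHm1.mk A (evalGen hg A f) := by
  rw [H1ToTateHm1, LinearMap.comp_apply]
  have : ((H1π A).hom.quotKerEquivOfSurjective (H1π_surjective A)).symm ((H1π A).hom f) =
      Submodule.Quotient.mk f := by
    rw [LinearEquiv.symm_apply_eq]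
    rfl
  rw [LinearEquiv.coe_coe, this]
  rfl

/-- The `1`-cocycle `g^i ↦ (1 + g + ⋯ + g^(i-1)) a` attached to `a ∈ ker N`. -/
noncomputable def cocycleOfKerNorm (a : LinearMap.ker (normMap A)) : cocycles₁ A :=
  ⟨fun x => geomSum A g (cycExp hg x) (a : A.V), by
    rw [mem_cocycles₁_iff]
    intro x y
    have hN : normMap A (a : A.V) = 0 := LinearMap.mem_ker.1 a.2
    show geomSum A g (cycExp hg (x * y)) (a : A.V) =
      A.ρ x (geomSum A g (cycExp hg y) (a : A.V)) + geomSum A g (cycExp hg x) (a : A.V)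
    have h1 := geomSum_eq_mod_add hg A (cycExp hg x + cycExp hg y) (a : A.V)
    rw [hN, smul_zero, add_zero, ← cycExp_mul, geomSum_add_apply, pow_cycExp] at h1
    rw [← h1, add_comm]⟩

lemma cocycleOfKerNorm_apply (a : LinearMap.ker (normMap A)) (x : G) :
    cocycleOfKerNorm hg A a x = geomSum A g (cycExp hg x) (a : A.V) := rfl

lemma cocycleOfKerNorm_pow (a : LinearMap.ker (normMap A)) (i : ℕ) :
    cocycleOfKerNorm hg A a (g ^ i) = geomSum A g i (a : A.V) := by
  have hN : normMap A (a : A.V) = 0 := LinearMap.mem_ker.1 a.2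
  rw [cocycleOfKerNorm_apply, cycExp_pow, geomSum_eq_mod_add hg A i, hN, smul_zero, add_zero]

lemma evalGen_cocycleOfKerNorm (a : LinearMap.ker (normMap A)) :
    evalGen hg A (cocycleOfKerNorm hg A a) = a := by
  apply Subtype.ext
  rw [coe_evalGen]
  have := cocycleOfKerNorm_pow hg A a 1
  rwa [pow_one, geomSum_one_apply] at this

theorem H1ToTateHm1_bijective : Function.Bijective (H1ToTateHm1 hg A) := by
  constructor
  · rw [← LinearMap.ker_eq_bot, Submodule.eq_bot_iff]
    intro x hx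
    induction x using H1_induction_on with
    | h f =>
      rw [LinearMap.mem_ker, H1ToTateHm1_π, TateHm1.mk_eq_zero_iff, coe_evalGen,
        coinvariantsKer_eq_range_sub hg] at hx
      obtain ⟨b, hb⟩ := hx
      rw [H1π_eq_zero_iff]
      refine ⟨b, ?_⟩
      funext x
      rw [d₀₁_hom_apply, ← pow_cycExp hg x, cocycles₁_pow, ← hb]
      -- `(g^i - 1) b = S(i) ((g - 1) b)`
      generalize cycExp hg x = i
      induction i with
      | zero => simp
      | succ i ih =>
        rw [geomSum_succ_apply, ← ih, LinearMap.sub_apply, Module.End.one_apply, map_sub,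
          ← Module.End.mul_apply, ← map_mul, ← pow_succ]
        abel
  · intro y
    obtain ⟨a, rfl⟩ := TateHm1.mk_surjective A y
    exact ⟨(H1π A).hom (cocycleOfKerNorm hg A a), by
      rw [H1ToTateHm1_π, evalGen_cocycleOfKerNorm]⟩

/-- **`H¹(G, A) ≃ Ĥ⁻¹(G, A)`** for a finite cyclic group `G = ⟨g⟩`, `[f] ↦ [f g]`. -/
noncomputable def H1EquivTateHm1 : H1 A ≃ₗ[k] TateHm1 A :=
  LinearEquiv.ofBijective (H1ToTateHm1 hg A) (H1ToTateHm1_bijective hg A)

lemma H1EquivTateHm1_π (f : cocycles₁ A) :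
    H1EquivTateHm1 hg A ((H1π A).hom f) = TateHm1.mk A (evalGen hg A f) :=
  H1ToTateHm1_π hg A f

lemma H1EquivTateHm1_symm_mk (a : LinearMap.ker (normMap A)) :
    (H1EquivTateHm1 hg A).symm (TateHm1.mk A a) = (H1π A).hom (cocycleOfKerNorm hg A a) := by
  rw [LinearEquiv.symm_apply_eq, H1EquivTateHm1_π, evalGen_cocycleOfKerNorm]

end H1

end Fermat.Agent.CFT.Coh
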