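import Fermat.Agent.CFT.Coh.Cyclic_helper6_Herbrand

/-!
# CFT (C0.1): computations of Herbrand quotients

* `herbrand_of_finite`: a finite module has Herbrand quotient `1`;
* `herbrand_eq_of_finite_coker`: invariance under injective maps with finite cokernel;
* `herbrand_trivial_int`: `h(ℤ) = #G`.
-/

set_option autoImplicit false

open CategoryTheory

namespace Fermat.Agent.CFT.Coh

section LinearCounting

variable {R M N : Type*} [Ring R] [AddCommGroup M] [AddCommGroup N] [Module R M] [Module R N]

/-- `#M = #ker f * #range f` for a linear map. -/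
theorem card_eq_card_linearKer_mul_card_linearRange (f : M →ₗ[R] N) :
    Nat.card M = Nat.card (LinearMap.ker f) * Nat.card (LinearMap.range f) := by
  rw [Submodule.card_eq_card_quotient_mul_card (LinearMap.ker f),
    Nat.card_congr f.quotKerEquivRange.toEquiv]

theorem card_comap_subtype_of_le {p q : Submodule R M} (h : p ≤ q) :
    Nat.card (Submodule.comap q.subtype p) = Nat.card p :=
  Nat.card_congr (Submodule.comapSubtypeEquivOfLe h).toEquiv

end LinearCounting

section Finite

variable {k G : Type} [CommRing k] [Group G] [Finite G]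

/-- **A finite module has Herbrand quotient `1`** (cyclic `G`). -/
theorem herbrand_of_finite {g : G} (hg : ∀ x, x ∈ Subgroup.zpowers g) (A : Rep k G)
    [Finite A.V] : HerbrandFinite A ∧ herbrand A = 1 := by
  have hfin : HerbrandFinite A :=
    ⟨Finite.of_surjective _ (TateH0.mk_surjective A), Finite.of_surjective _ (TateHm1.mk_surjective A)⟩
  refine ⟨hfin, ?_⟩
  rw [herbrand_eq_iff hfin, one_mul]
  -- the counting
  have h1 := card_eq_card_linearKer_mul_card_linearRange (A.ρ g - 1)
  have h2 := card_eq_card_linearKer_mul_card_linearRange (normMap A)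
  have h3 := Submodule.card_eq_card_quotient_mul_card (LinearMap.range (normInv A))
  have h4 := Submodule.card_eq_card_quotient_mul_card (augKer A)
  have h5 : A.ρ.invariants = LinearMap.ker (A.ρ g - 1) := by
    ext a
    rw [mem_invariants_iff_of_generator hg, LinearMap.mem_ker, LinearMap.sub_apply,
      Module.End.one_apply, sub_eq_zero]
  have h6 : Nat.card (LinearMap.range (normInv A)) = Nat.card (LinearMap.range (normMap A)) := by
    have : LinearMap.range (normInv A) =
        Submodule.comap A.ρ.invariants.subtype (LinearMap.range (normMap A)) :=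
      LinearMap.range_codRestrict _ _ _
    rw [this]
    apply card_comap_subtype_of_le
    rintro _ ⟨a, rfl⟩
    exact normMap_mem_invariants A a
  have h7 : Nat.card (augKer A) = Nat.card (LinearMap.range (A.ρ g - 1)) := by
    rw [← coinvariantsKer_eq_range_sub hg]
    exact card_comap_subtype_of_le (coinvariantsKer_le_ker_normMap A)
  have h5' : Nat.card A.ρ.invariants = Nat.card (LinearMap.ker (A.ρ g - 1)) := by rw [h5]
  have hpos1 : 0 < Nat.card (LinearMap.range (normMap A)) := Nat.card_pos
  have hpos2 : 0 < Nat.card (LinearMap.range (A.ρ g - 1)) := Nat.card_pos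
  rw [h6] at h3
  rw [h7] at h4
  rw [h5'] at h3
  -- `h0 * rN * rD = a = hm1 * rD * rN`
  have key : Nat.card (TateH0 A) * (Nat.card (LinearMap.range (normMap A)) *
      Nat.card (LinearMap.range (A.ρ g - 1))) = Nat.card (TateHm1 A) *
      (Nat.card (LinearMap.range (normMap A)) * Nat.card (LinearMap.range (A.ρ g - 1))) := by
    calc Nat.card (TateH0 A) * (Nat.card (LinearMap.range (normMap A)) *
          Nat.card (LinearMap.range (A.ρ g - 1)))
        = (Nat.card (LinearMap.range (normMap A)) * Nat.card (TateH0 A)) *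
          Nat.card (LinearMap.range (A.ρ g - 1)) := by ring
      _ = Nat.card A.V := by rw [← h3, ← h1]
      _ = (Nat.card (LinearMap.range (A.ρ g - 1)) * Nat.card (TateHm1 A)) *
          Nat.card (LinearMap.range (normMap A)) := by rw [← h4, ← h2]
      _ = _ := by ring
  have := Nat.eq_of_mul_eq_mul_right (Nat.mul_pos hpos1 hpos2) key
  exact_mod_cast this

/-- **Invariance of the Herbrand quotient under finite-index subrepresentations.** -/
theorem herbrand_eq_of_finite_coker {g : G} (hg : ∀ x, x ∈ Subgroup.zpowers g) {A B : Rep k G}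
    (φ : A ⟶ B) (hφ : Function.Injective φ.hom)
    [Finite (B.V ⧸ LinearMap.range φ.hom.toLinearMap)] :
    (HerbrandFinite A ↔ HerbrandFinite B) ∧ (HerbrandFinite A → herbrand B = herbrand A) := by
  have hle : ∀ x : G, LinearMap.range φ.hom.toLinearMap ≤
      (LinearMap.range φ.hom.toLinearMap).comap (B.ρ x) := by
    rintro x _ ⟨a, rfl⟩
    exact ⟨A.ρ x a, Rep.hom_comm_apply φ x a⟩
  let Q : Rep k G := Rep.quotient B (LinearMap.range φ.hom.toLinearMap) hle
  let π : B ⟶ Q := Rep.mkQ B (LinearMap.range φ.hom.toLinearMap) hle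
  have hπ : Function.Surjective π.hom := Submodule.mkQ_surjective _
  have hex : Function.Exact φ.hom π.hom := by
    intro b
    show Submodule.mkQ _ b = 0 ↔ _
    rw [Submodule.mkQ_apply, Submodule.Quotient.mk_eq_zero]
    rfl
  obtain ⟨h0, hX⟩ := shortExact_mk φ π hφ hπ hex
  have hQfin : Finite Q.V := ‹Finite (B.V ⧸ LinearMap.range φ.hom.toLinearMap)›
  obtain ⟨hQ, hQ1⟩ := herbrand_of_finite hg Q
  refine ⟨⟨fun hA => herbrandFinite_X₂ hX hA hQ, fun hB => herbrandFinite_X₁ hX hg hB hQ⟩, ?_⟩
  intro hA
  have := herbrand_mul hX hg hA (herbrandFinite_X₂ hX hA hQ) hQ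
  rw [hQ1, mul_one] at this
  exact this

end Finite

end Fermat.Agent.CFT.Coh

namespace Fermat.Agent.CFT.Coh

section TrivialInt

variable {G : Type} [Group G] [Finite G]

/-- **`h(ℤ) = #G`** (any finite group; `Ĥ⁰(G, ℤ) = ℤ/#G`, `Ĥ⁻¹(G, ℤ) = 0`). -/
theorem herbrand_trivial_int :
    HerbrandFinite (Rep.trivial ℤ G ℤ) ∧ herbrand (Rep.trivial ℤ G ℤ) = Nat.card G ∧
      Nat.card (TateH0 (Rep.trivial ℤ G ℤ)) = Nat.card G ∧
      Subsingleton (TateHm1 (Rep.trivial ℤ G ℤ)) := by
  set A : Rep ℤ G := Rep.trivial ℤ G ℤ with hA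
  have hn : 0 < Nat.card G := Nat.card_pos
  have hinv : ∀ a : A.V, a ∈ A.ρ.invariants := fun a x => rfl
  have hnorm : ∀ a : A.V, normMap A a = Nat.card G • a := fun a =>
    normMap_of_mem_invariants A (hinv a)
  -- `Ĥ⁻¹ = 0`
  have hsub : Subsingleton (LinearMap.ker (normMap A)) := by
    constructor
    intro x y
    apply Subtype.ext
    have hx := LinearMap.mem_ker.1 x.2
    have hy := LinearMap.mem_ker.1 y.2
    rw [hnorm] at hx hy
    have hx0 : (x : A.V) = 0 := by
      rcases smul_eq_zero.mp hx with h | h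
      · exact absurd h hn.ne'
      · exact h
    have hy0 : (y : A.V) = 0 := by
      rcases smul_eq_zero.mp hy with h | h
      · exact absurd h hn.ne'
      · exact h
    rw [hx0, hy0]
  have hm1 : Subsingleton (TateHm1 A) := by
    constructor
    intro x y
    obtain ⟨x', rfl⟩ := TateHm1.mk_surjective A x
    obtain ⟨y', rfl⟩ := TateHm1.mk_surjective A y
    rw [Subsingleton.elim x' y']
  -- `Ĥ⁰ = ℤ/n`
  let ψ : A.ρ.invariants →ₗ[ℤ] ZMod (Nat.card G) :=
    (Int.castAddHom (ZMod (Nat.card G))).toIntLinearMap.comp A.ρ.invariants.subtype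
  have hψsurj : Function.Surjective ψ := by
    intro z
    obtain ⟨m, rfl⟩ := ZMod.intCast_surjective z
    exact ⟨⟨(m : ℤ), hinv _⟩, rfl⟩
  have hψker : LinearMap.range (normInv A) = LinearMap.ker ψ := by
    ext x
    rw [LinearMap.mem_ker, LinearMap.mem_range]
    show _ ↔ ((x : ℤ) : ZMod (Nat.card G)) = 0
    rw [ZMod.intCast_zmod_eq_zero_iff_dvd]
    constructor
    · rintro ⟨a, rfl⟩
      rw [coe_normInv, hnorm]
      exact ⟨a, by rw [nsmul_eq_mul]⟩
    · rintro ⟨a, ha⟩
      refine ⟨a, Subtype.ext ?_⟩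
      rw [coe_normInv, hnorm, nsmul_eq_mul]
      exact ha.symm
  have hcard0 : Nat.card (TateH0 A) = Nat.card G := by
    rw [Nat.card_congr ((Submodule.quotEquivOfEq _ _ hψker).trans
      (ψ.quotKerEquivOfSurjective hψsurj)).toEquiv, Nat.card_zmod]
  have h0fin : Finite (TateH0 A) := Nat.finite_of_card_ne_zero (by rw [hcard0]; exact hn.ne')
  have hfin : HerbrandFinite A := ⟨h0fin, inferInstance⟩
  refine ⟨hfin, ?_, hcard0, hm1⟩
  have hc1 : Nat.card (TateHm1 A) = 1 := Nat.card_unique
  rw [herbrand_eq_iff hfin, hcard0, hc1, Nat.cast_one, mul_one]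

end TrivialInt

end Fermat.Agent.CFT.Coh
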