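import Mathlib

/-!
# CFT (C0.0): Tate cohomology in degrees `0` and `-1`, hands-on

For a finite group `G` and `A : Rep k G` (everything in universe `0`):

* `normMap A : A →ₗ[k] A` is the norm `a ↦ ∑ g, g • a` (independent of any `Fintype` instance);
* `TateH0 A = A^G / N_G A`;
* `TateHm1 A = ker N_G / I_G A`.

together with functoriality in `A`.
-/

open CategoryTheory

namespace Fermat.Agent.CFT.Coh

variable {k G : Type} [CommRing k] [Group G] [Finite G]

/-- The norm endomorphism `a ↦ ∑ g, g • a` of a representation of a finite group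
(defined with `Finite G`, so that no `Fintype` instance is involved in statements). -/
noncomputable def normMap (A : Rep k G) : A.V →ₗ[k] A.V :=
  letI := Fintype.ofFinite G
  A.ρ.norm

lemma normMap_eq_norm [Fintype G] (A : Rep k G) : normMap A = A.ρ.norm := by
  unfold normMap
  congr!

lemma normMap_apply [Fintype G] (A : Rep k G) (a : A.V) : normMap A a = ∑ g : G, A.ρ g a := by
  rw [normMap_eq_norm]; simp [Representation.norm]

@[simp]
lemma ρ_normMap (A : Rep k G) (g : G) (a : A.V) : A.ρ g (normMap A a) = normMap A a := by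
  let _ := Fintype.ofFinite G
  rw [normMap_eq_norm]; simp

@[simp]
lemma normMap_ρ (A : Rep k G) (g : G) (a : A.V) : normMap A (A.ρ g a) = normMap A a := by
  let _ := Fintype.ofFinite G
  rw [normMap_eq_norm]; simp

lemma normMap_mem_invariants (A : Rep k G) (a : A.V) : normMap A a ∈ A.ρ.invariants :=
  fun g => ρ_normMap A g a

lemma hom_normMap {A B : Rep k G} (φ : A ⟶ B) (a : A.V) :
    φ.hom (normMap A a) = normMap B (φ.hom a) := by
  let _ := Fintype.ofFinite G
  rw [normMap_apply, normMap_apply, map_sum]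
  exact Finset.sum_congr rfl fun g _ => Rep.hom_comm_apply φ g a

lemma normMap_of_mem_invariants (A : Rep k G) {a : A.V} (ha : a ∈ A.ρ.invariants) :
    normMap A a = Nat.card G • a := by
  let _ := Fintype.ofFinite G
  rw [normMap_apply, Finset.sum_congr rfl fun g _ => ha g]
  simp [Nat.card_eq_fintype_card]

/-- The norm as a map `A → A^G`. -/
noncomputable def normInv (A : Rep k G) : A.V →ₗ[k] A.ρ.invariants :=
  (normMap A).codRestrict A.ρ.invariants (normMap_mem_invariants A)

@[simp] lemma coe_normInv (A : Rep k G) (a : A.V) : (normInv A a : A.V) = normMap A a := rfl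

/-- `Ĥ⁰(G, A) = A^G / N_G A`. -/
abbrev TateH0 (A : Rep k G) : Type := A.ρ.invariants ⧸ LinearMap.range (normInv A)

/-- The projection `A^G → Ĥ⁰(G, A)`. -/
noncomputable def TateH0.mk (A : Rep k G) : A.ρ.invariants →ₗ[k] TateH0 A := Submodule.mkQ _

lemma TateH0.mk_surjective (A : Rep k G) : Function.Surjective (TateH0.mk A) :=
  Submodule.mkQ_surjective _

lemma TateH0.mk_eq_zero_iff (A : Rep k G) (x : A.ρ.invariants) :
    TateH0.mk A x = 0 ↔ ∃ a : A.V, normMap A a = x := by
  rw [TateH0.mk, Submodule.mkQ_apply, Submodule.Quotient.mk_eq_zero, LinearMap.mem_range]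
  exact exists_congr fun a => Subtype.ext_iff

lemma TateH0.mk_eq_mk_iff (A : Rep k G) (x y : A.ρ.invariants) :
    TateH0.mk A x = TateH0.mk A y ↔ ∃ a : A.V, normMap A a = (x : A.V) - y := by
  rw [← sub_eq_zero, ← map_sub, TateH0.mk_eq_zero_iff]; rfl

/-- A morphism of representations maps invariants to invariants. -/
noncomputable def invMap {A B : Rep k G} (φ : A ⟶ B) : A.ρ.invariants →ₗ[k] B.ρ.invariants :=
  (φ.hom.toLinearMap.comp A.ρ.invariants.subtype).codRestrict B.ρ.invariants fun a g => by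
    have := Rep.hom_comm_apply φ g a.1
    rw [a.2 g] at this
    exact this.symm

omit [Finite G] in
@[simp] lemma coe_invMap {A B : Rep k G} (φ : A ⟶ B) (a : A.ρ.invariants) :
    (invMap φ a : B.V) = φ.hom a.1 := rfl

/-- Functoriality of `Ĥ⁰`. -/
noncomputable def TateH0.map {A B : Rep k G} (φ : A ⟶ B) : TateH0 A →ₗ[k] TateH0 B :=
  Submodule.mapQ _ _ (invMap φ) <| by
    rintro _ ⟨a, rfl⟩
    exact ⟨φ.hom a, Subtype.ext (hom_normMap φ a).symm⟩

@[simp] lemma TateH0.map_mk {A B : Rep k G} (φ : A ⟶ B) (a : A.ρ.invariants) :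
    TateH0.map φ (TateH0.mk A a) = TateH0.mk B (invMap φ a) := rfl

lemma TateH0.map_id (A : Rep k G) : TateH0.map (𝟙 A) = LinearMap.id := by
  ext a; rfl

lemma TateH0.map_comp {A B C : Rep k G} (φ : A ⟶ B) (ψ : B ⟶ C) :
    TateH0.map (φ ≫ ψ) = (TateH0.map ψ).comp (TateH0.map φ) := by
  ext a; rfl

/-- `I_G A ∩ ker N = I_G A` as a submodule of `ker N`. -/
noncomputable def augKer (A : Rep k G) : Submodule k (LinearMap.ker (normMap A)) :=
  (Representation.Coinvariants.ker A.ρ).comap (LinearMap.ker (normMap A)).subtype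

lemma coinvariantsKer_le_ker_normMap (A : Rep k G) :
    Representation.Coinvariants.ker A.ρ ≤ LinearMap.ker (normMap A) := by
  rw [Representation.Coinvariants.ker, Submodule.span_le]
  rintro _ ⟨⟨g, a⟩, rfl⟩
  simp

/-- `Ĥ⁻¹(G, A) = ker N_G / I_G A`. -/
abbrev TateHm1 (A : Rep k G) : Type := LinearMap.ker (normMap A) ⧸ augKer A

/-- The projection `ker N_G → Ĥ⁻¹(G, A)`. -/
noncomputable def TateHm1.mk (A : Rep k G) : LinearMap.ker (normMap A) →ₗ[k] TateHm1 A :=
  Submodule.mkQ _

lemma TateHm1.mk_surjective (A : Rep k G) : Function.Surjective (TateHm1.mk A) :=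
  Submodule.mkQ_surjective _

lemma TateHm1.mk_eq_zero_iff (A : Rep k G) (x : LinearMap.ker (normMap A)) :
    TateHm1.mk A x = 0 ↔ (x : A.V) ∈ Representation.Coinvariants.ker A.ρ := by
  rw [TateHm1.mk, Submodule.mkQ_apply, Submodule.Quotient.mk_eq_zero]; rfl

lemma TateHm1.mk_eq_mk_iff (A : Rep k G) (x y : LinearMap.ker (normMap A)) :
    TateHm1.mk A x = TateHm1.mk A y ↔
      (x : A.V) - y ∈ Representation.Coinvariants.ker A.ρ := by
  rw [← sub_eq_zero, ← map_sub, TateHm1.mk_eq_zero_iff]; rfl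

/-- A morphism of representations maps `ker N` to `ker N`. -/
noncomputable def kerNormMap {A B : Rep k G} (φ : A ⟶ B) :
    LinearMap.ker (normMap A) →ₗ[k] LinearMap.ker (normMap B) :=
  (φ.hom.toLinearMap.comp (LinearMap.ker (normMap A)).subtype).codRestrict _ fun a => by
    have h := hom_normMap φ a.1
    rw [LinearMap.mem_ker.1 a.2, map_zero] at h
    exact LinearMap.mem_ker.2 h.symm

@[simp] lemma coe_kerNormMap {A B : Rep k G} (φ : A ⟶ B) (a : LinearMap.ker (normMap A)) :
    (kerNormMap φ a : B.V) = φ.hom a.1 := rfl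

omit [Finite G] in
lemma hom_mem_coinvariantsKer {A B : Rep k G} (φ : A ⟶ B) {a : A.V}
    (ha : a ∈ Representation.Coinvariants.ker A.ρ) :
    φ.hom a ∈ Representation.Coinvariants.ker B.ρ := by
  rw [Representation.Coinvariants.ker] at ha ⊢
  refine Submodule.span_induction ?_ ?_ ?_ ?_ ha
  · rintro _ ⟨⟨g, x⟩, rfl⟩
    refine Submodule.subset_span ⟨⟨g, φ.hom x⟩, ?_⟩
    simp [Rep.hom_comm_apply]
  · simp
  · intro x y _ _ hx hy; rw [map_add]; exact Submodule.add_mem _ hx hy
  · intro c x _ hx; rw [map_smul]; exact Submodule.smul_mem _ c hx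

/-- Functoriality of `Ĥ⁻¹`. -/
noncomputable def TateHm1.map {A B : Rep k G} (φ : A ⟶ B) : TateHm1 A →ₗ[k] TateHm1 B :=
  Submodule.mapQ _ _ (kerNormMap φ) fun _ ha => hom_mem_coinvariantsKer φ ha

@[simp] lemma TateHm1.map_mk {A B : Rep k G} (φ : A ⟶ B) (a : LinearMap.ker (normMap A)) :
    TateHm1.map φ (TateHm1.mk A a) = TateHm1.mk B (kerNormMap φ a) := rfl

lemma TateHm1.map_id (A : Rep k G) : TateHm1.map (𝟙 A) = LinearMap.id := by
  ext a; rfl

lemma TateHm1.map_comp {A B C : Rep k G} (φ : A ⟶ B) (ψ : B ⟶ C) :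
    TateHm1.map (φ ≫ ψ) = (TateHm1.map ψ).comp (TateHm1.map φ) := by
  ext a; rfl

end Fermat.Agent.CFT.Coh
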