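import Fermat.Agent.CFT.Coh.Basic_helper9

/-!
# CFT (C0.0): short exact sequences of representations and the Tate exact sequence in degrees
`-1, 0`

For a short exact sequence `0 → A → B → C → 0` of representations of a finite group we construct
the connecting homomorphism `deltaHm1 : Ĥ⁻¹(C) → Ĥ⁰(A)` and prove exactness of
`Ĥ⁻¹(A) → Ĥ⁻¹(B) → Ĥ⁻¹(C) → Ĥ⁰(A) → Ĥ⁰(B) → Ĥ⁰(C)`.
-/

open CategoryTheory

namespace Fermat.Agent.CFT.Coh

section ShortExact

variable {k G : Type} [CommRing k] [Group G] {X : ShortComplex (Rep k G)}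

lemma ShortExact.injective_f (hX : X.ShortExact) : Function.Injective X.f.hom :=
  (Rep.mono_iff_injective _).1 hX.mono_f

lemma ShortExact.surjective_g (hX : X.ShortExact) : Function.Surjective X.g.hom :=
  (Rep.epi_iff_surjective _).1 hX.epi_g

lemma ShortExact.range_eq_ker (hX : X.ShortExact) :
    LinearMap.range X.f.hom.toLinearMap = LinearMap.ker X.g.hom.toLinearMap :=
  (hX.exact.map (forget₂ (Rep k G) (ModuleCat k))).moduleCat_range_eq_ker

lemma ShortExact.function_exact (hX : X.ShortExact) :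
    Function.Exact X.f.hom.toLinearMap X.g.hom.toLinearMap :=
  LinearMap.exact_iff.2 (ShortExact.range_eq_ker hX).symm

lemma ShortExact.g_f_apply (hX : X.ShortExact) (a : X.X₁.V) : X.g.hom (X.f.hom a) = 0 :=
  (ShortExact.function_exact hX).apply_apply_eq_zero a

lemma ShortExact.exists_of_g_eq_zero (hX : X.ShortExact) {b : X.X₂.V} (hb : X.g.hom b = 0) :
    ∃ a : X.X₁.V, X.f.hom a = b :=
  ((ShortExact.function_exact hX) b).1 hb

/-- Build a short exact sequence of representations from concrete data. -/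
lemma shortExact_mk {A B C : Rep k G} (f : A ⟶ B) (g : B ⟶ C)
    (hf : Function.Injective f.hom) (hg : Function.Surjective g.hom)
    (hfg : Function.Exact f.hom g.hom) :
    ∃ h : f ≫ g = 0, (ShortComplex.mk f g h).ShortExact := by
  have h0 : f ≫ g = 0 := by
    ext a
    exact hfg.apply_apply_eq_zero a
  refine ⟨h0, ?_⟩
  have hm : Mono f := (Rep.mono_iff_injective f).2 hf
  have he : Epi g := (Rep.epi_iff_surjective g).2 hg
  refine { exact := ?_, mono_f := hm, epi_g := he }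
  rw [← ShortComplex.exact_map_iff_of_faithful _ (forget₂ (Rep k G) (ModuleCat k))]
  rw [ShortComplex.moduleCat_exact_iff]
  intro b hb
  exact (hfg b).1 hb

end ShortExact

section Tate

variable {k G : Type} [CommRing k] [Group G] [Finite G]
  {X : ShortComplex (Rep k G)} (hX : X.ShortExact)

/-! ### exactness of `Ĥ⁰(A) → Ĥ⁰(B) → Ĥ⁰(C)` and `Ĥ⁻¹(A) → Ĥ⁻¹(B) → Ĥ⁻¹(C)` -/

omit [Finite G] in
lemma lift_coinvariantsKer (hX : X.ShortExact) {c : X.X₃.V}
    (hc : c ∈ Representation.Coinvariants.ker X.X₃.ρ) :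
    ∃ b' ∈ Representation.Coinvariants.ker X.X₂.ρ, X.g.hom b' = c := by
  rw [Representation.Coinvariants.ker] at hc
  refine Submodule.span_induction ?_ ?_ ?_ ?_ hc
  · rintro _ ⟨⟨g, c⟩, rfl⟩
    obtain ⟨b', rfl⟩ := ShortExact.surjective_g hX c
    exact ⟨X.X₂.ρ g b' - b', Representation.Coinvariants.sub_mem_ker g b', by
      simp [Rep.hom_comm_apply]⟩
  · exact ⟨0, zero_mem _, map_zero _⟩
  · rintro x y _ _ ⟨bx, hbx, rfl⟩ ⟨by', hby, rfl⟩
    exact ⟨bx + by', add_mem hbx hby, map_add _ _ _⟩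
  · rintro r x _ ⟨bx, hbx, rfl⟩
    exact ⟨r • bx, Submodule.smul_mem _ r hbx, map_smul _ _ _⟩


include hX in
theorem tateH0_exact : Function.Exact (TateH0.map X.f) (TateH0.map X.g) := by
  intro y
  constructor
  · intro hy
    obtain ⟨b, rfl⟩ := TateH0.mk_surjective _ y
    rw [TateH0.map_mk, TateH0.mk_eq_zero_iff] at hy
    obtain ⟨c, hc⟩ := hy
    obtain ⟨b', rfl⟩ := ShortExact.surjective_g hX c
    -- `b - N b'` is invariant and maps to zero
    have h0 : X.g.hom ((b : X.X₂.V) - normMap X.X₂ b') = 0 := by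
      rw [map_sub, hom_normMap, hc]; simp
    obtain ⟨a, ha⟩ := ShortExact.exists_of_g_eq_zero hX h0
    have hainv : a ∈ X.X₁.ρ.invariants := by
      intro g
      apply ShortExact.injective_f hX
      rw [Rep.hom_comm_apply, ha, map_sub, b.2 g, ρ_normMap]
    refine ⟨TateH0.mk _ ⟨a, hainv⟩, ?_⟩
    rw [TateH0.map_mk, TateH0.mk_eq_mk_iff]
    exact ⟨-b', by rw [map_neg, coe_invMap]; simp [ha]⟩
  · rintro ⟨x, rfl⟩
    obtain ⟨a, rfl⟩ := TateH0.mk_surjective _ x
    rw [TateH0.map_mk, TateH0.map_mk, TateH0.mk_eq_zero_iff]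
    exact ⟨0, by simp [ShortExact.g_f_apply hX]⟩

include hX in
theorem tateHm1_exact : Function.Exact (TateHm1.map X.f) (TateHm1.map X.g) := by
  intro y
  constructor
  · intro hy
    obtain ⟨b, rfl⟩ := TateHm1.mk_surjective _ y
    rw [TateHm1.map_mk, TateHm1.mk_eq_zero_iff, coe_kerNormMap] at hy
    obtain ⟨b', hb', hb'c⟩ := lift_coinvariantsKer hX hy
    have h0 : X.g.hom ((b : X.X₂.V) - b') = 0 := by rw [map_sub, hb'c, sub_self]
    obtain ⟨a, ha⟩ := ShortExact.exists_of_g_eq_zero hX h0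
    have haker : a ∈ LinearMap.ker (normMap X.X₁) := by
      rw [LinearMap.mem_ker]
      apply ShortExact.injective_f hX
      rw [hom_normMap, ha, map_sub, LinearMap.mem_ker.1 b.2,
        LinearMap.mem_ker.1 (coinvariantsKer_le_ker_normMap _ hb'), map_zero, sub_zero]
    refine ⟨TateHm1.mk _ ⟨a, haker⟩, ?_⟩
    rw [TateHm1.map_mk, TateHm1.mk_eq_mk_iff, coe_kerNormMap]
    simp only [ha]
    simpa using (Submodule.neg_mem _ hb')
  · rintro ⟨x, rfl⟩
    obtain ⟨a, rfl⟩ := TateHm1.mk_surjective _ x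
    rw [TateHm1.map_mk, TateHm1.map_mk, TateHm1.mk_eq_zero_iff]
    simp [ShortExact.g_f_apply hX]

/-! ### the connecting homomorphism `Ĥ⁻¹(C) → Ĥ⁰(A)` -/

omit [Finite G] in
include hX in
lemma invMap_exact : Function.Exact (invMap X.f) (invMap X.g) := by
  intro b
  constructor
  · intro hb
    have hb' : X.g.hom (b : X.X₂.V) = 0 := congrArg Subtype.val hb
    obtain ⟨a, ha⟩ := ShortExact.exists_of_g_eq_zero hX hb'
    have hainv : a ∈ X.X₁.ρ.invariants := by
      intro g
      apply ShortExact.injective_f hX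
      rw [Rep.hom_comm_apply, ha, b.2 g]
    exact ⟨⟨a, hainv⟩, Subtype.ext ha⟩
  · rintro ⟨a, rfl⟩
    exact Subtype.ext (ShortExact.g_f_apply hX a.1)

omit [Finite G] in
include hX in
lemma invMap_f_injective : Function.Injective (invMap X.f) := by
  intro a a' h
  exact Subtype.ext (ShortExact.injective_f hX (congrArg Subtype.val h))

lemma normInv_exact_mk (A : Rep k G) : Function.Exact (normInv A) (TateH0.mk A) := by
  intro x
  rw [TateH0.mk_eq_zero_iff]
  exact ⟨fun ⟨a, ha⟩ => ⟨a, Subtype.ext ha⟩, fun ⟨a, ha⟩ => ⟨a, congrArg Subtype.val ha⟩⟩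

lemma subtype_exact_normInv (A : Rep k G) :
    Function.Exact (LinearMap.ker (normMap A)).subtype (normInv A) := by
  intro a
  constructor
  · intro ha
    exact ⟨⟨a, LinearMap.mem_ker.2 (congrArg Subtype.val ha)⟩, rfl⟩
  · rintro ⟨a, rfl⟩
    exact Subtype.ext (LinearMap.mem_ker.1 a.2)

lemma invMap_comp_normInv {A B : Rep k G} (φ : A ⟶ B) :
    (invMap φ).comp (normInv A) = (normInv B).comp φ.hom.toLinearMap := by
  ext a
  exact hom_normMap φ a

/-- The snake-lemma connecting map on `ker N_C`. -/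
noncomputable def deltaHm1Aux : LinearMap.ker (normMap X.X₃) →ₗ[k] TateH0 X.X₁ :=
  SnakeLemma.δ' (normInv X.X₁) (normInv X.X₂) (normInv X.X₃)
    X.f.hom.toLinearMap X.g.hom.toLinearMap (ShortExact.function_exact hX)
    (invMap X.f) (invMap X.g) (invMap_exact hX)
    (invMap_comp_normInv X.f) (invMap_comp_normInv X.g)
    (LinearMap.ker (normMap X.X₃)).subtype (subtype_exact_normInv X.X₃)
    (TateH0.mk X.X₁) (normInv_exact_mk X.X₁)
    (ShortExact.surjective_g hX) (invMap_f_injective hX)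

/-- Characterisation of the connecting map: if `b` lifts `c` and `f a = N b` then `δ c = [a]`. -/
lemma deltaHm1Aux_eq (c : LinearMap.ker (normMap X.X₃)) (b : X.X₂.V) (hb : X.g.hom b = c)
    (a : X.X₁.ρ.invariants) (ha : X.f.hom (a : X.X₁.V) = normMap X.X₂ b) :
    deltaHm1Aux hX c = TateH0.mk X.X₁ a :=
  SnakeLemma.δ'_eq _ _ _ _ _ _ _ _ _ _ _ _ _ _ _ _ _ c b hb a (Subtype.ext ha)

/-- The connecting homomorphism `Ĥ⁻¹(G, C) → Ĥ⁰(G, A)` of a short exact sequence
`0 → A → B → C → 0`: for `c ∈ ker N_C` choose a lift `b`; then `N b = f a` with `a ∈ A^G`. -/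
noncomputable def deltaHm1 : TateHm1 X.X₃ →ₗ[k] TateH0 X.X₁ :=
  Submodule.liftQ _ (deltaHm1Aux hX) <| by
    intro c hc
    obtain ⟨b', hb', hb'c⟩ := lift_coinvariantsKer hX hc
    rw [LinearMap.mem_ker, deltaHm1Aux_eq hX c b' hb'c 0]
    · simp
    · simp [LinearMap.mem_ker.1 (coinvariantsKer_le_ker_normMap _ hb')]

lemma deltaHm1_mk (c : LinearMap.ker (normMap X.X₃)) :
    deltaHm1 hX (TateHm1.mk X.X₃ c) = deltaHm1Aux hX c := rfl

/-- Characterisation of the connecting map: if `b` lifts `c` and `f a = N b` then `δ [c] = [a]`. -/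
lemma deltaHm1_eq (c : LinearMap.ker (normMap X.X₃)) (b : X.X₂.V) (hb : X.g.hom b = c)
    (a : X.X₁.ρ.invariants) (ha : X.f.hom (a : X.X₁.V) = normMap X.X₂ b) :
    deltaHm1 hX (TateHm1.mk X.X₃ c) = TateH0.mk X.X₁ a :=
  deltaHm1Aux_eq hX c b hb a ha

theorem tateHm1_exact_delta : Function.Exact (TateHm1.map X.g) (deltaHm1 hX) := by
  have hex : Function.Exact (kerNormMap X.g) (deltaHm1Aux hX) :=
    SnakeLemma.exact_δ'_right (normInv X.X₁) (normInv X.X₂) (normInv X.X₃)
      X.f.hom.toLinearMap X.g.hom.toLinearMap (ShortExact.function_exact hX)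
      (invMap X.f) (invMap X.g) (invMap_exact hX)
      (invMap_comp_normInv X.f) (invMap_comp_normInv X.g)
      (LinearMap.ker (normMap X.X₂)).subtype (subtype_exact_normInv X.X₂)
      (LinearMap.ker (normMap X.X₃)).subtype (subtype_exact_normInv X.X₃)
      (TateH0.mk X.X₁) (normInv_exact_mk X.X₁)
      (ShortExact.surjective_g hX) (invMap_f_injective hX)
      (kerNormMap X.g) (by ext b; rfl) Subtype.val_injective
  intro y
  obtain ⟨c, rfl⟩ := TateHm1.mk_surjective _ y
  rw [deltaHm1_mk, hex c]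
  constructor
  · rintro ⟨b, rfl⟩
    exact ⟨TateHm1.mk _ b, rfl⟩
  · rintro ⟨x, hx⟩
    obtain ⟨b, rfl⟩ := TateHm1.mk_surjective _ x
    rw [TateHm1.map_mk, TateHm1.mk_eq_mk_iff] at hx
    obtain ⟨b', hb', hb'c⟩ := lift_coinvariantsKer hX hx
    refine ⟨b - ⟨b', coinvariantsKer_le_ker_normMap _ hb'⟩, Subtype.ext ?_⟩
    simp only [map_sub, coe_kerNormMap, AddSubgroupClass.coe_sub] at hb'c ⊢
    rw [hb'c]; abel

theorem delta_exact_tateH0 : Function.Exact (deltaHm1 hX) (TateH0.map X.f) := by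
  have hex : Function.Exact (deltaHm1Aux hX) (TateH0.map X.f) :=
    SnakeLemma.exact_δ'_left (normInv X.X₁) (normInv X.X₂) (normInv X.X₃)
      X.f.hom.toLinearMap X.g.hom.toLinearMap (ShortExact.function_exact hX)
      (invMap X.f) (invMap X.g) (invMap_exact hX)
      (invMap_comp_normInv X.f) (invMap_comp_normInv X.g)
      (LinearMap.ker (normMap X.X₃)).subtype (subtype_exact_normInv X.X₃)
      (TateH0.mk X.X₁) (normInv_exact_mk X.X₁)
      (TateH0.mk X.X₂) (normInv_exact_mk X.X₂)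
      (ShortExact.surjective_g hX) (invMap_f_injective hX)
      (TateH0.map X.f) (by ext a; rfl) (TateH0.mk_surjective _)
  intro y
  rw [hex y]
  constructor
  · rintro ⟨c, rfl⟩
    exact ⟨TateHm1.mk _ c, rfl⟩
  · rintro ⟨x, rfl⟩
    obtain ⟨c, rfl⟩ := TateHm1.mk_surjective _ x
    exact ⟨c, rfl⟩

end Tate

end Fermat.Agent.CFT.Coh
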