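import Fermat.Agent.CFT.Coh.Cyclic_helper6_Exp

/-!
# CFT (C0.1): `H²(G, A) ≃ Ĥ⁰(G, A)` for a finite cyclic group, explicitly

For `G = ⟨g⟩` finite cyclic of order `n`, `[c] ↦ [∑_{l<n} c(g^l, g)]` is an isomorphism
`H²(G, A) ≃ A^G / N A`, with inverse `[a] ↦ [(g^i, g^j) ↦ ⌊(i + j)/n⌋ • a]` (`0 ≤ i, j < n`).
-/

set_option autoImplicit false

open CategoryTheory groupCohomology

namespace Fermat.Agent.CFT.Coh

section Shift

variable {G : Type} [Group G] [Finite G] {g : G} (hg : ∀ x, x ∈ Subgroup.zpowers g)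

include hg in
/-- Sums over the powers of a generator are sums over the group. -/
lemma sum_range_orderOf_eq_finsum {M : Type*} [AddCommMonoid M] (F : G → M) :
    ∑ l ∈ Finset.range (orderOf g), F (g ^ l) = ∑ᶠ x, F x := by
  classical
  let _ := Fintype.ofFinite G
  rw [finsum_eq_sum_of_fintype, ← IsCyclic.image_range_orderOf hg, Finset.sum_image]
  intro i hi j hj hij
  exact pow_injOn_Iio_orderOf (by simpa using hi) (by simpa using hj) hij

include hg in
/-- Cyclic shift invariance of sums over the powers of a generator. -/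
lemma sum_range_orderOf_shift {M : Type*} [AddCommMonoid M] (F : G → M) (i : ℕ) :
    ∑ l ∈ Finset.range (orderOf g), F (g ^ (i + l)) =
      ∑ l ∈ Finset.range (orderOf g), F (g ^ l) := by
  have h1 := sum_range_orderOf_eq_finsum hg (fun x => F (g ^ i * x))
  have h2 := sum_range_orderOf_eq_finsum hg F
  simp only [← pow_add] at h1
  rw [h1, h2]
  exact finsum_comp_equiv (Equiv.mulLeft (g ^ i)) (f := F)

end Shift

section H2

variable {k G : Type} [CommRing k] [Group G] [Finite G] {g : G}
  (hg : ∀ x, x ∈ Subgroup.zpowers g) (A : Rep k G)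

/-- The "trace" `∑_{l<n} c(g^l, g)` of a `2`-cochain. -/
noncomputable def genSum (g : G) : (G × G → A.V) →ₗ[k] A.V where
  toFun c := ∑ l ∈ Finset.range (orderOf g), c (g ^ l, g)
  map_add' c c' := by simp [Finset.sum_add_distrib]
  map_smul' r c := by simp [Finset.smul_sum]

omit [Finite G] in
lemma genSum_apply (c : G × G → A.V) :
    genSum A g c = ∑ l ∈ Finset.range (orderOf g), c (g ^ l, g) := rfl

include hg in
lemma genSum_mem_invariants (c : cocycles₂ A) : genSum A g (c : G × G → A.V) ∈ A.ρ.invariants := by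
  rw [mem_invariants_iff_of_generator hg, genSum_apply, map_sum]
  have hc := (mem_cocycles₂_iff (c : G × G → A.V)).mp c.2
  -- `ρ g c(g^l, g) = c(g^(l+1), g) + c(g, g^l) - c(g, g^(l+1))`
  have h1 : ∀ l : ℕ, A.ρ g (c (g ^ l, g)) + c (g, g ^ (1 + l)) =
      c (g ^ (1 + l), g) + c (g, g ^ l) := by
    intro l
    have := hc g (g ^ l) g
    rw [pow_mul_comm'] at this
    rw [pow_add, pow_one]
    exact this.symm
  have h2 := sum_range_orderOf_shift hg (fun x => c (g, x)) 1
  have h3 := sum_range_orderOf_shift hg (fun x => c (x, g)) 1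
  have h4 : ∑ l ∈ Finset.range (orderOf g), (A.ρ g (c (g ^ l, g)) + c (g, g ^ (1 + l))) =
      ∑ l ∈ Finset.range (orderOf g), (c (g ^ (1 + l), g) + c (g, g ^ l)) :=
    Finset.sum_congr rfl fun l _ => h1 l
  rw [Finset.sum_add_distrib, Finset.sum_add_distrib, h2, h3] at h4
  exact add_right_cancel h4

include hg in
lemma genSum_d₁₂ (u : G → A.V) : genSum A g ((d₁₂ A).hom u) = normMap A (u g) := by
  rw [genSum_apply]
  simp only [d₁₂_hom_apply]
  rw [Finset.sum_add_distrib, Finset.sum_sub_distrib, ← geomSum_orderOf_apply hg, geomSum_apply]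
  have h := sum_range_orderOf_shift hg u 1
  simp only [← pow_succ]
  simp only [add_comm 1] at h
  rw [h]
  abel

/-- `[c] ↦ ∑_{l<n} c(g^l, g)` on cocycles, with values in `A^G`. -/
noncomputable def genSumInv : cocycles₂ A →ₗ[k] A.ρ.invariants :=
  ((genSum A g).comp (cocycles₂ A).subtype).codRestrict _ fun c => genSum_mem_invariants hg A c

@[simp] lemma coe_genSumInv (c : cocycles₂ A) :
    (genSumInv hg A c : A.V) = genSum A g (c : G × G → A.V) := rfl

omit [Finite G] in
lemma H2π_surjective : Function.Surjective (H2π A).hom :=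
  (ModuleCat.epi_iff_surjective _).1 inferInstance

/-- The map `H²(G, A) → Ĥ⁰(G, A)`, `[c] ↦ [∑_{l<n} c(g^l, g)]`. -/
noncomputable def H2ToTateH0 : H2 A →ₗ[k] TateH0 A :=
  (Submodule.liftQ (LinearMap.ker (H2π A).hom) ((TateH0.mk A).comp (genSumInv hg A)) (by
    intro c hc
    rw [LinearMap.mem_ker] at hc ⊢
    rw [H2π_eq_zero_iff] at hc
    obtain ⟨u, hu⟩ := hc
    rw [LinearMap.comp_apply, TateH0.mk_eq_zero_iff, coe_genSumInv]
    refine ⟨u g, ?_⟩
    have : (c : G × G → A.V) = (d₁₂ A).hom u := hu.symm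
    rw [this, genSum_d₁₂ hg])).comp
  ((H2π A).hom.quotKerEquivOfSurjective (H2π_surjective A)).symm.toLinearMap

lemma H2ToTateH0_π (c : cocycles₂ A) :
    H2ToTateH0 hg A ((H2π A).hom c) = TateH0.mk A (genSumInv hg A c) := by
  rw [H2ToTateH0, LinearMap.comp_apply]
  have : ((H2π A).hom.quotKerEquivOfSurjective (H2π_surjective A)).symm ((H2π A).hom c) =
      Submodule.Quotient.mk c := by
    rw [LinearEquiv.symm_apply_eq]
    rfl
  rw [LinearEquiv.coe_coe, this]
  rfl

/-- The carry cochain `(g^i, g^j) ↦ ⌊(i + j)/n⌋ • a`, `0 ≤ i, j < n`. -/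
noncomputable def carryCochain (a : A.V) : G × G → A.V :=
  fun p => ((cycExp hg p.1 + cycExp hg p.2) / orderOf g) • a

lemma carryCochain_apply (a : A.V) (x y : G) :
    carryCochain hg A a (x, y) = ((cycExp hg x + cycExp hg y) / orderOf g) • a := rfl

lemma carry_identity (n i j l : ℕ) (hn : 0 < n) :
    ((i + j) % n + l) / n + (i + j) / n = (j + l) / n + (i + (j + l) % n) / n := by
  have h1 : ((i + j) % n + l) / n + (i + j) / n = (i + j + l) / n := by
    conv_rhs => rw [← Nat.mod_add_div (i + j) n, add_right_comm, Nat.add_mul_div_left _ _ hn]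
  have h2 : (j + l) / n + (i + (j + l) % n) / n = (i + j + l) / n := by
    conv_rhs => rw [add_assoc, ← Nat.mod_add_div (j + l) n, ← add_assoc,
      Nat.add_mul_div_left _ _ hn]
    rw [add_comm]
  rw [h1, h2]

/-- The carry cochain of an invariant vector is a `2`-cocycle. -/
lemma carryCochain_mem_cocycles₂ (a : A.ρ.invariants) :
    carryCochain hg A (a : A.V) ∈ cocycles₂ A := by
  rw [mem_cocycles₂_iff]
  intro x y z
  simp only [carryCochain_apply, map_nsmul, a.2 x, ← add_smul, cycExp_mul]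
  congr 1
  exact carry_identity _ _ _ _ (orderOf_pos g)

/-- The `2`-cocycle `(g^i, g^j) ↦ ⌊(i + j)/n⌋ • a` attached to `a ∈ A^G`. -/
noncomputable def cocycleOfInvariant (a : A.ρ.invariants) : cocycles₂ A :=
  ⟨carryCochain hg A (a : A.V), carryCochain_mem_cocycles₂ hg A a⟩

/-- `c_{N b}` is the coboundary of `x ↦ (1 + g + ⋯ + g^(e(x) - 1)) b`. -/
lemma carryCochain_normMap (b : A.V) :
    carryCochain hg A (normMap A b) =
      (d₁₂ A).hom (fun x => geomSum A g (cycExp hg x) b) := by
  funext ⟨x, y⟩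
  rw [carryCochain_apply, d₁₂_hom_apply]
  simp only
  have h1 := geomSum_eq_mod_add hg A (cycExp hg x + cycExp hg y) b
  rw [← cycExp_mul, geomSum_add_apply, pow_cycExp] at h1
  have h2 := eq_sub_of_add_eq h1.symm
  rw [h2]
  abel

/-- The partial sums `T(i) = ∑_{l<i} c(g^l, g)`. -/
noncomputable def partialSum (c : G × G → A.V) (g : G) (i : ℕ) : A.V :=
  ∑ l ∈ Finset.range i, c (g ^ l, g)

omit [Finite G] in
lemma partialSum_succ (c : G × G → A.V) (i : ℕ) :
    partialSum A c g (i + 1) = partialSum A c g i + c (g ^ i, g) := by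
  rw [partialSum, Finset.sum_range_succ]
  rfl

include hg in
lemma partialSum_add_orderOf (c : G × G → A.V) (i : ℕ) :
    partialSum A c g (i + orderOf g) = partialSum A c g i + genSum A g c := by
  rw [partialSum, Finset.sum_range_add, genSum_apply]
  congr 1
  exact sum_range_orderOf_shift hg (fun x => c (x, g)) i

include hg in
lemma partialSum_eq_mod_add (c : G × G → A.V) (i : ℕ) :
    partialSum A c g i =
      partialSum A c g (i % orderOf g) + (i / orderOf g) • genSum A g c := by
  have key : ∀ (m r : ℕ), partialSum A c g (r + orderOf g * m) =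
      partialSum A c g r + m • genSum A g c := by
    intro m r
    induction m with
    | zero => simp
    | succ m ih =>
      rw [Nat.mul_succ, ← add_assoc, partialSum_add_orderOf hg, ih, succ_nsmul, add_assoc]
  conv_lhs => rw [← Nat.mod_add_div i (orderOf g)]
  exact key _ _

omit [Finite G] in
/-- The main identity: a `2`-cocycle is determined by its partial sums. -/
lemma cocycles₂_pow_pow (c : cocycles₂ A) (i m : ℕ) :
    c (g ^ i, g ^ m) = A.ρ (g ^ i) (c (1, 1)) + partialSum A c g (i + m) - partialSum A c g i -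
      A.ρ (g ^ i) (partialSum A c g m) := by
  induction m with
  | zero =>
    rw [pow_zero, cocycles₂_map_one_snd, add_zero, partialSum, partialSum, Finset.range_zero,
      Finset.sum_empty, map_zero]
    abel
  | succ m ih =>
    have hc := (mem_cocycles₂_iff (c : G × G → A.V)).mp c.2 (g ^ i) (g ^ m) g
    rw [← pow_add, ← pow_succ] at hc
    have h1 : c (g ^ i, g ^ (m + 1)) =
        c (g ^ (i + m), g) + c (g ^ i, g ^ m) - A.ρ (g ^ i) (c (g ^ m, g)) :=
      eq_sub_of_add_eq' hc.symm
    rw [h1, ih, ← add_assoc, partialSum_succ, partialSum_succ, map_add]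
    abel

/-- Every `2`-cocycle is cohomologous to the carry cocycle of its trace. -/
lemma cocycles₂_sub_carryCochain_mem_coboundaries₂ (c : cocycles₂ A) :
    (c : G × G → A.V) - carryCochain hg A (genSum A g (c : G × G → A.V)) ∈
      coboundaries₂ A := by
  refine ⟨fun x => c (1, 1) - partialSum A c g (cycExp hg x), ?_⟩
  funext ⟨x, y⟩
  rw [d₁₂_hom_apply, Pi.sub_apply, carryCochain_apply]
  simp only
  have h1 := cocycles₂_pow_pow A c (g := g) (cycExp hg x) (cycExp hg y)
  rw [pow_cycExp, pow_cycExp] at h1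
  have h2 := partialSum_eq_mod_add hg A (c : G × G → A.V) (cycExp hg x + cycExp hg y)
  rw [← cycExp_mul] at h2
  rw [h1, h2, map_sub]
  abel

lemma genSumInv_cocycleOfInvariant (a : A.ρ.invariants) :
    TateH0.mk A (genSumInv hg A (cocycleOfInvariant hg A a)) = TateH0.mk A a := by
  rw [TateH0.mk_eq_mk_iff, coe_genSumInv]
  show ∃ b, normMap A b = genSum A g (carryCochain hg A (a : A.V)) - (a : A.V)
  rw [genSum_apply]
  simp only [carryCochain_apply]
  rcases Nat.lt_or_ge 1 (orderOf g) with h1 | h1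
  · -- `n ≥ 2`: the sum is `a`
    refine ⟨0, ?_⟩
    rw [map_zero, eq_comm, sub_eq_zero]
    rw [cycExp_self hg h1]
    have hpos : 0 < orderOf g := orderOf_pos g
    rw [← Nat.sub_add_cancel hpos, Finset.sum_range_succ]
    rw [Nat.sub_add_cancel hpos]
    have h2 : ∀ l ∈ Finset.range (orderOf g - 1),
        ((cycExp hg (g ^ l) + 1) / orderOf g) • (a : A.V) = 0 := by
      intro l hl
      rw [Finset.mem_range] at hl
      rw [cycExp_pow, Nat.mod_eq_of_lt (by omega), Nat.div_eq_of_lt (by omega), zero_smul]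
    rw [Finset.sum_eq_zero h2, zero_add, cycExp_pow, Nat.mod_eq_of_lt (by omega),
      Nat.sub_add_cancel hpos, Nat.div_self hpos, one_smul]
  · -- `n = 1`: everything is a norm
    have hn1 : orderOf g = 1 := le_antisymm h1 (orderOf_pos g)
    refine ⟨-(a : A.V), ?_⟩
    have hN : normMap A (a : A.V) = (a : A.V) := by
      rw [← geomSum_orderOf_apply hg, hn1, geomSum_one_apply]
    rw [map_neg, hN, hn1, Finset.sum_range_one]
    have h0 : cycExp hg g = 0 := by
      have := cycExp_lt hg g
      omega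
    rw [pow_zero, cycExp_one, h0, Nat.zero_div, zero_smul, zero_sub]

theorem H2ToTateH0_bijective : Function.Bijective (H2ToTateH0 hg A) := by
  constructor
  · rw [← LinearMap.ker_eq_bot, Submodule.eq_bot_iff]
    intro x hx
    induction x using H2_induction_on with
    | h c =>
      rw [LinearMap.mem_ker, H2ToTateH0_π, TateH0.mk_eq_zero_iff, coe_genSumInv] at hx
      obtain ⟨b, hb⟩ := hx
      rw [H2π_eq_zero_iff]
      have h1 := cocycles₂_sub_carryCochain_mem_coboundaries₂ hg A c
      rw [← hb, carryCochain_normMap] at h1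
      have h2 : (d₁₂ A).hom (fun x => geomSum A g (cycExp hg x) b) ∈ coboundaries₂ A := ⟨_, rfl⟩
      have := Submodule.add_mem _ h1 h2
      rwa [sub_add_cancel] at this
  · intro y
    obtain ⟨a, rfl⟩ := TateH0.mk_surjective A y
    exact ⟨(H2π A).hom (cocycleOfInvariant hg A a), by
      rw [H2ToTateH0_π, genSumInv_cocycleOfInvariant]⟩

/-- **`H²(G, A) ≃ Ĥ⁰(G, A)`** for a finite cyclic group `G = ⟨g⟩` of order `n`,
`[c] ↦ [∑_{l<n} c(g^l, g)]`. -/
noncomputable def H2EquivTateH0 : H2 A ≃ₗ[k] TateH0 A :=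
  LinearEquiv.ofBijective (H2ToTateH0 hg A) (H2ToTateH0_bijective hg A)

lemma H2EquivTateH0_π (c : cocycles₂ A) :
    H2EquivTateH0 hg A ((H2π A).hom c) = TateH0.mk A (genSumInv hg A c) :=
  H2ToTateH0_π hg A c

/-- The inverse is `[a] ↦ [(g^i, g^j) ↦ ⌊(i + j)/n⌋ • a]`. -/
lemma H2EquivTateH0_symm_mk (a : A.ρ.invariants) :
    (H2EquivTateH0 hg A).symm (TateH0.mk A a) = (H2π A).hom (cocycleOfInvariant hg A a) := by
  rw [LinearEquiv.symm_apply_eq, H2EquivTateH0_π, genSumInv_cocycleOfInvariant]

end H2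

end Fermat.Agent.CFT.Coh
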