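import Fermat.Agent.CFT.Coh.Cup_helper2_Delta
import Fermat.Agent.CFT.Coh.Cyclic_helper6_H2

/-!
# CFT (C0.2)(c), part 3: naturality of `a ∪ δχ`, and the cyclic case

* `map_cupInv`, `map_cupδInv`: for a group homomorphism `f : G →* H`, `A : Rep k H`, `B : Rep k G`,
  `φ : res f A ⟶ B`:  `map f φ 2 (a ∪ δχ) = (φ a) ∪ δ(χ ∘ f)`.
* `map_id_cupδ`: naturality in the module on `Ĥ⁰`.
* `cycChar hg`: the character `g^i ↦ i/n` of a finite cyclic group `G = ⟨g⟩` of order `n`;
  `cupδ_cycChar`: `a ∪ δχ_g` is the class of helper6's carry cocycle, hence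
  `H2EquivTateH0 hg A (x ∪ δχ_g) = x`.
-/

set_option autoImplicit false

open CategoryTheory groupCohomology Rep

namespace Fermat.Agent.CFT.Coh

section Nat

variable {k G H : Type} [CommRing k] [Group G] [Group H]

/-- the canonical morphism `res f k ⟶ k` of trivial representations -/
def trivRes (k : Type) [CommRing k] (f : G →* H) :
    res f (Rep.trivial k H k) ⟶ Rep.trivial k G k :=
  Rep.ofHom ⟨LinearMap.id, fun _ => rfl⟩

/-- pull back along `f : G →* H` on `H²(-, k)` -/
noncomputable def H2pull (k : Type) [CommRing k] (f : G →* H) :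
    H2 (Rep.trivial k H k) →ₗ[k] H2 (Rep.trivial k G k) :=
  (map f (trivRes k f) 2).hom

/-- `φ : res f A ⟶ B` maps `H`-invariants of `A` to `G`-invariants of `B` -/
noncomputable def invPull (f : G →* H) {A : Rep k H} {B : Rep k G} (φ : res f A ⟶ B) :
    A.ρ.invariants →ₗ[k] B.ρ.invariants :=
  (φ.hom.toLinearMap.comp A.ρ.invariants.subtype).codRestrict B.ρ.invariants fun a g => by
    have := Rep.hom_comm_apply φ g a.1
    rw [coe_res_obj_ρ', a.2 (f g)] at this
    exact this.symm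

@[simp] lemma coe_invPull (f : G →* H) {A : Rep k H} {B : Rep k G} (φ : res f A ⟶ B)
    (a : A.ρ.invariants) : (invPull f φ a : B.V) = φ.hom a.1 := rfl

/-- **naturality of the cup product** under a group homomorphism -/
theorem map_cupInv (f : G →* H) {A : Rep k H} {B : Rep k G} (φ : res f A ⟶ B)
    (a : A.ρ.invariants) (x : H2 (Rep.trivial k H k)) :
    (map f φ 2).hom (cupInv A a x) = cupInv B (invPull f φ a) (H2pull k f x) := by
  induction x using H2_induction_on with
  | h n =>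
    erw [cupInv_π]
    rw [H2pull]
    erw [H2π_comp_map_apply, H2π_comp_map_apply, cupInv_π]
    congr 1
    apply Subtype.ext
    funext p
    change φ.hom (n (f p.1, f p.2) • a.1) = n (f p.1, f p.2) • φ.hom a.1
    rw [map_smul]

/-- pull back of characters -/
def QZChar.comp (χ : QZChar H) (f : G →* H) : QZChar G := AddMonoidHom.comp χ (MonoidHom.toAdditive f)

@[simp] lemma QZChar.comp_apply (χ : QZChar H) (f : G →* H) (σ : G) :
    χ.comp f (Additive.ofMul σ) = χ (Additive.ofMul (f σ)) := rfl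

lemma LiftsChar.comp {χ : QZChar H} {ℓ : H → ℚ} (h : LiftsChar χ ℓ) (f : G →* H) :
    LiftsChar (χ.comp f) (ℓ ∘ f) := fun σ => h (f σ)

lemma δcochain_comp (ℓ : H → ℚ) (f : G →* H) (p : G × G) :
    δcochain (ℓ ∘ f) p = δcochain ℓ (f p.1, f p.2) := by
  simp [δcochain, map_mul]

/-- pull back of `δlift` -/
lemma H2pull_δlift (f : G →* H) {ℓ : H → ℚ} (hℓ : IsQZLift ℓ) (hℓ' : IsQZLift (ℓ ∘ f)) :
    H2pull k f (δlift k hℓ) = δlift k hℓ' := by
  rw [H2pull, δlift, δlift]
  erw [H2π_comp_map_apply]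
  congr 1
  apply Subtype.ext
  funext p
  change ((δcochain ℓ (f p.1, f p.2) : ℤ) : k) = ((δcochain (ℓ ∘ f) p : ℤ) : k)
  rw [δcochain_comp]

/-- **`δ` commutes with pull back of characters** -/
theorem H2pull_δchar (f : G →* H) (χ : QZChar H) :
    H2pull k f (δchar k χ) = δchar k (χ.comp f) := by
  rw [δchar_eq_δlift k ((liftsChar_charLift χ).comp f), δchar]
  exact H2pull_δlift f _ _

/-- **naturality of `a ∪ δχ`** under a group homomorphism `f : G →* H` and `φ : res f A ⟶ B`:
`map f φ 2 (a ∪ δχ) = φ a ∪ δ(χ ∘ f)`. -/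
theorem map_cupδInv (f : G →* H) {A : Rep k H} {B : Rep k G} (φ : res f A ⟶ B)
    (a : A.ρ.invariants) (χ : QZChar H) :
    (map f φ 2).hom (cupδInv A a χ) = cupδInv B (invPull f φ a) (χ.comp f) := by
  rw [cupδInv, cupδInv, map_cupInv, H2pull_δchar]

end Nat

section NatId

variable {k G : Type} [CommRing k] [Group G]

lemma invPull_id {A B : Rep k G} (φ : A ⟶ B) : invPull (MonoidHom.id G) φ = invMap φ := rfl

lemma QZChar.comp_id (χ : QZChar G) : χ.comp (MonoidHom.id G) = χ := rfl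

/-- naturality in the module, on invariants -/
theorem map_id_cupδInv {A B : Rep k G} (φ : A ⟶ B) (a : A.ρ.invariants) (χ : QZChar G) :
    (map (MonoidHom.id G) φ 2).hom (cupδInv A a χ) = cupδInv B (invMap φ a) χ :=
  map_cupδInv (MonoidHom.id G) φ a χ

/-- naturality in the module, on `Ĥ⁰` -/
theorem map_id_cupδ [Finite G] {A B : Rep k G} (φ : A ⟶ B) (x : TateH0 A) (χ : QZChar G) :
    (map (MonoidHom.id G) φ 2).hom (cupδ A x χ) = cupδ B (TateH0.map φ x) χ := by
  obtain ⟨a, rfl⟩ := TateH0.mk_surjective A x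
  rw [cupδ_mk, TateH0.map_mk, cupδ_mk]
  exact map_id_cupδInv φ a χ

end NatId

section Cyclic

variable {k G : Type} [CommRing k] [Group G] [Finite G] {g : G}
  (hg : ∀ x, x ∈ Subgroup.zpowers g)

/-- the lift `g^i ↦ i/n`, `0 ≤ i < n = orderOf g` -/
noncomputable def cycLift : G → ℚ := fun x => (cycExp hg x : ℚ) / (orderOf g : ℚ)

/-- the carry `⌊(i + j)/n⌋` -/
noncomputable def cycCarry (x y : G) : ℕ := (cycExp hg x + cycExp hg y) / orderOf g

lemma cycLift_add (x y : G) :
    cycLift hg x + cycLift hg y = cycLift hg (x * y) + (cycCarry hg x y : ℚ) := by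
  have hn : (orderOf g : ℚ) ≠ 0 := Nat.cast_ne_zero.mpr (orderOf_pos g).ne'
  have h := Nat.div_add_mod (cycExp hg x + cycExp hg y) (orderOf g)
  have h' : ((orderOf g : ℚ)) * (cycCarry hg x y : ℚ) +
      (((cycExp hg x + cycExp hg y) % orderOf g : ℕ) : ℚ) =
      (cycExp hg x : ℚ) + (cycExp hg y : ℚ) := by
    rw [cycCarry]; exact_mod_cast h
  rw [cycLift, cycLift, cycLift, cycExp_mul]
  field_simp
  linarith

/-- **the character `χ_g : g^i ↦ i/n`** of a finite cyclic group with generator `g` -/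
noncomputable def cycChar : QZChar G :=
  AddMonoidHom.mk' (fun x => ((cycLift hg (Additive.toMul x) : ℚ) : AddCircle (1 : ℚ))) (by
    intro x y
    rw [toMul_add, ← AddCircle.coe_add, cycLift_add, AddCircle.coe_add, left_eq_add,
      AddCircle.coe_eq_zero_iff]
    exact ⟨(cycCarry hg (Additive.toMul x) (Additive.toMul y) : ℤ), by simp⟩)

lemma liftsChar_cycLift : LiftsChar (cycChar hg) (cycLift hg) := fun _ => rfl

lemma cycChar_apply (x : G) :
    cycChar hg (Additive.ofMul x) =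
      (((cycExp hg x : ℚ) / (orderOf g : ℚ) : ℚ) : AddCircle (1 : ℚ)) :=
  rfl

lemma δcochain_cycLift (x y : G) :
    δcochain (cycLift hg) (x, y) = (cycCarry hg x y : ℤ) := by
  have h := cycLift_add hg x y
  have : cycLift hg x + cycLift hg y - cycLift hg (x * y) = (((cycCarry hg x y : ℤ)) : ℚ) := by
    rw [h]; push_cast; ring
  rw [δcochain]
  simp only
  rw [this, Int.floor_intCast]

variable (A : Rep k G)

/-- `a ∪ δχ_g` is the class of the carry cocycle `(g^i, g^j) ↦ ⌊(i + j)/n⌋ • a` -/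
theorem cupδ_cycChar (a : A.ρ.invariants) :
    cupδ A (TateH0.mk A a) (cycChar hg) = (H2π A).hom (cocycleOfInvariant hg A a) := by
  rw [cupδ_mk_eq A (liftsChar_cycLift hg) a]
  congr 1
  apply Subtype.ext
  funext p
  obtain ⟨x, y⟩ := p
  change ((δcochain (cycLift hg) (x, y) : ℤ) : k) • a.1 = cycCarry hg x y • a.1
  rw [δcochain_cycLift, Int.cast_natCast, Nat.cast_smul_eq_nsmul]

/-- **`Θ_g x = x ∪ δχ_g`**: cup product with `δχ_g` inverts helper6's `H²(G, A) ≃ Ĥ⁰(G, A)`. -/
theorem cupδ_cycChar_eq_symm (x : TateH0 A) :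
    cupδ A x (cycChar hg) = (H2EquivTateH0 hg A).symm x := by
  obtain ⟨a, rfl⟩ := TateH0.mk_surjective A x
  rw [cupδ_cycChar, H2EquivTateH0_symm_mk]

theorem H2EquivTateH0_cupδ_cycChar (x : TateH0 A) :
    H2EquivTateH0 hg A (cupδ A x (cycChar hg)) = x := by
  rw [cupδ_cycChar_eq_symm, LinearEquiv.apply_symm_apply]

end Cyclic

end Fermat.Agent.CFT.Coh
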