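/-
CFT cohomology, helper3 (S55 package PT4 (d)): for a finite cyclic group `G` and an INJECTIVE
character `χ : G → ℚ/ℤ`, the cup product `x ↦ x ∪ δχ : Ĥ⁰(G, A) → H²(G, A)` is injective
(`eq_zero_of_cupδ_eq_zero`), because some multiple of `χ` is the standard character `g ↦ 1/n`
(`exists_zsmul_eq_cycChar`).
-/
import Fermat.Agent.CFT.Coh.Cup_helper2_Nat

set_option autoImplicit false
set_option linter.unusedSectionVars false
set_option linter.style.haveILetI false

open CategoryTheory groupCohomology Rep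
open Fermat.Agent.CFT.Coh

namespace Fermat.Agent.CFT.PT4

section charlemmas

variable {G : Type} [Group G] [Finite G] {g : G} (hg : ∀ x, x ∈ Subgroup.zpowers g)

lemma cycChar_gen : cycChar hg (Additive.ofMul g) =
    (((1 : ℚ) / (orderOf g : ℚ) : ℚ) : AddCircle (1 : ℚ)) := by
  rw [cycChar_apply]
  have hN : 0 < orderOf g := orderOf_pos g
  by_cases h1 : 1 < orderOf g
  · rw [cycExp_self hg h1, Nat.cast_one]
  · have h2 : orderOf g = 1 := by omega
    have h3 : cycExp hg g = 0 := by
      have := cycExp_lt hg g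
      omega
    rw [h3, h2, Nat.cast_zero, Nat.cast_one, zero_div, div_one, AddCircle.coe_zero]
    exact (AddCircle.coe_period (1 : ℚ)).symm

lemma cycChar_eq_zero_iff (x : G) : cycChar hg (Additive.ofMul x) = 0 ↔ x = 1 := by
  constructor
  · intro h
    rw [cycChar_apply] at h
    haveI : Fact ((0 : ℚ) < 1) := ⟨one_pos⟩
    have hN : (0 : ℚ) < (orderOf g : ℚ) := Nat.cast_pos.mpr (orderOf_pos g)
    have hlt : ((cycExp hg x : ℚ) / (orderOf g : ℚ)) ∈ Set.Ico (0 : ℚ) 1 := by
      refine ⟨div_nonneg (Nat.cast_nonneg _) hN.le, ?_⟩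
      rw [div_lt_one hN]
      exact_mod_cast cycExp_lt hg x
    rw [AddCircle.coe_eq_zero_iff_of_mem_Ico hlt, div_eq_zero_iff] at h
    rcases h with h | h
    · have h0 : cycExp hg x = 0 := by exact_mod_cast h
      rw [← pow_cycExp hg x, h0, pow_zero]
    · exact absurd h hN.ne'
  · rintro rfl
    exact map_zero _

omit [Finite G] in
include hg in
/-- Two characters which agree on the generator are equal. -/
lemma qzChar_ext_of_gen {χ χ' : QZChar G} (h : χ (Additive.ofMul g) = χ' (Additive.ofMul g)) :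
    χ = χ' := by
  refine AddMonoidHom.ext fun x => ?_
  obtain ⟨i, hi⟩ := Subgroup.mem_zpowers_iff.mp (hg (Additive.toMul x))
  have hx : x = i • Additive.ofMul g := by
    rw [← ofMul_zpow, hi]; rfl
  rw [hx, map_zsmul, map_zsmul, h]

/-- Every injective character of a finite cyclic group generates the character group: some
multiple of it is the standard character `g ↦ 1/n`. -/
lemma exists_zsmul_eq_cycChar (χ : QZChar G) (hχ : ∀ x : G, χ (Additive.ofMul x) = 0 → x = 1) :
    ∃ m : ℤ, m • χ = cycChar hg := by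
  have hN : 0 < orderOf g := orderOf_pos g
  set u : AddCircle (1 : ℚ) := χ (Additive.ofMul g) with hu
  have hord : addOrderOf u = orderOf g := by
    apply Nat.dvd_antisymm
    · apply addOrderOf_dvd_of_nsmul_eq_zero
      rw [hu, ← map_nsmul, ← ofMul_pow, pow_orderOf_eq_one, ofMul_one, map_zero]
    · apply orderOf_dvd_of_pow_eq_one
      apply hχ
      rw [ofMul_pow, map_nsmul, ← hu, addOrderOf_nsmul_eq_zero]
  haveI : Fact ((0 : ℚ) < 1) := ⟨one_pos⟩
  obtain ⟨j, -, hj1, hj2⟩ := (AddCircle.addOrderOf_eq_pos_iff hN).mp hord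
  rw [mul_one] at hj2
  -- Bezout
  have hbez := Nat.gcd_eq_gcd_ab j (orderOf g)
  rw [hj1, Nat.cast_one] at hbez
  refine ⟨Nat.gcdA j (orderOf g), ?_⟩
  apply qzChar_ext_of_gen hg
  rw [AddMonoidHom.smul_apply, ← hu, ← hj2, cycChar_gen, ← AddCircle.coe_zsmul,
    ← sub_eq_zero, ← AddCircle.coe_sub, AddCircle.coe_eq_zero_iff]
  refine ⟨-Nat.gcdB j (orderOf g), ?_⟩
  have hNq : (orderOf g : ℚ) ≠ 0 := Nat.cast_ne_zero.mpr hN.ne'
  have hbezq : (1 : ℚ) = (j : ℚ) * (Nat.gcdA j (orderOf g) : ℚ) +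
      (orderOf g : ℚ) * (Nat.gcdB j (orderOf g) : ℚ) := by exact_mod_cast hbez
  rw [zsmul_eq_mul, zsmul_eq_mul, mul_one]
  field_simp
  push_cast
  linarith

include hg in
/-- For a finite cyclic group and an injective character `χ`, the cup product `x ↦ x ∪ δχ` is
injective on `Ĥ⁰`. -/
theorem eq_zero_of_cupδ_eq_zero {k : Type} [CommRing k] (A : Rep k G) (χ : QZChar G)
    (hχ : ∀ x : G, χ (Additive.ofMul x) = 0 → x = 1) (x : TateH0 A) (h : cupδ A x χ = 0) :
    x = 0 := by
  obtain ⟨m, hm⟩ := exists_zsmul_eq_cycChar hg χ hχ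
  have h1 : cupδ A x (cycChar hg) = 0 := by
    rw [← hm, map_zsmul, h, smul_zero]
  rw [← H2EquivTateH0_cupδ_cycChar hg A x, h1, map_zero]

end charlemmas

end Fermat.Agent.CFT.PT4
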