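import Fermat.Agent.CFT.Coh.Cup_helper2_Delta

/-!
# CFT (C0.2)(c), part 4: `δ : Hom(G, ℚ/ℤ) ≃ H²(G, ℤ)` for a finite group `G`

Direct proof: a `ℤ`-valued `2`-cocycle `n` is `δcochain ℓ` for the average
`ℓ σ = (1/|G|) ∑_ρ n(σ, ρ)`; and if `δχ = 0` then a lift of `χ` differs from an integer valued
function by a homomorphism `G → ℚ`, which vanishes as `G` is finite.
-/

set_option autoImplicit false

open CategoryTheory groupCohomology

namespace Fermat.Agent.CFT.Coh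

section Equiv

variable {G : Type} [Group G]

/-- the character `ℓ mod ℤ` of a homomorphism modulo `ℤ` -/
noncomputable def charOfLift {ℓ : G → ℚ} (hℓ : IsQZLift ℓ) : QZChar G :=
  AddMonoidHom.mk' (fun x => ((ℓ (Additive.toMul x) : ℚ) : AddCircle (1 : ℚ))) (by
    intro x y
    obtain ⟨m, hm⟩ := hℓ (Additive.toMul x) (Additive.toMul y)
    have h : ℓ (Additive.toMul x) + ℓ (Additive.toMul y) =
        ℓ (Additive.toMul x * Additive.toMul y) + (m : ℚ) := by rw [← hm]; ring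
    rw [toMul_add, ← AddCircle.coe_add, h, AddCircle.coe_add, left_eq_add,
      AddCircle.coe_eq_zero_iff]
    exact ⟨m, by simp⟩)

lemma liftsChar_charOfLift {ℓ : G → ℚ} (hℓ : IsQZLift ℓ) : LiftsChar (charOfLift hℓ) ℓ :=
  fun _ => rfl

lemma δchar_charOfLift (k : Type) [CommRing k] {ℓ : G → ℚ} (hℓ : IsQZLift ℓ) :
    δchar k (charOfLift hℓ) = δlift k hℓ :=
  δchar_eq_δlift k (liftsChar_charOfLift hℓ)

variable [Finite G]

/-- a homomorphism from a finite group to `(ℚ, +)` is trivial -/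
lemma eq_zero_of_add_hom {u : G → ℚ} (hu : ∀ σ τ, u (σ * τ) = u σ + u τ) (σ : G) : u σ = 0 := by
  have h1 : u 1 = 0 := by
    have := hu 1 1
    rw [mul_one] at this
    linarith
  have hpow : ∀ n : ℕ, u (σ ^ n) = n * u σ := by
    intro n
    induction n with
    | zero => simp [h1]
    | succ n ih => rw [pow_succ, hu, ih]; push_cast; ring
  have h2 := hpow (orderOf σ)
  rw [pow_orderOf_eq_one, h1] at h2
  have h3 : (orderOf σ : ℚ) ≠ 0 := Nat.cast_ne_zero.mpr (orderOf_pos σ).ne'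
  rcases mul_eq_zero.mp h2.symm with h | h
  · exact absurd h h3
  · exact h

/-- the average `ℓ σ = (1/|G|) ∑_ρ n(σ, ρ)` -/
noncomputable def avgLift (n : G × G → ℤ) : G → ℚ :=
  letI := Fintype.ofFinite G
  fun σ => (∑ ρ : G, (n (σ, ρ) : ℚ)) / (Nat.card G : ℚ)

omit [Group G] in
lemma avgLift_apply [Fintype G] (n : G × G → ℤ) (σ : G) :
    avgLift n σ = (∑ ρ : G, (n (σ, ρ) : ℚ)) / (Nat.card G : ℚ) := by
  unfold avgLift
  congr!

lemma avgLift_spec {n : G × G → ℤ} (hn : n ∈ cocycles₂ (Rep.trivial ℤ G ℤ)) (σ τ : G) :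
    avgLift n σ + avgLift n τ - avgLift n (σ * τ) = (n (σ, τ) : ℚ) := by
  let _ := Fintype.ofFinite G
  have hc := (cocycles₂_trivial_iff n).1 hn
  have hG : (Nat.card G : ℚ) ≠ 0 := Nat.cast_ne_zero.mpr Nat.card_pos.ne'
  rw [avgLift_apply, avgLift_apply, avgLift_apply]
  field_simp
  have h1 : ∑ ρ : G, ((n (σ * τ, ρ) : ℚ) + (n (σ, τ) : ℚ)) =
      ∑ ρ : G, ((n (τ, ρ) : ℚ) + (n (σ, τ * ρ) : ℚ)) := by
    refine Finset.sum_congr rfl fun ρ _ => ?_
    exact_mod_cast congrArg (Int.cast : ℤ → ℚ) (hc σ τ ρ)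
  have h2 : ∑ ρ : G, (n (σ, τ * ρ) : ℚ) = ∑ ρ : G, (n (σ, ρ) : ℚ) :=
    Equiv.sum_comp (Equiv.mulLeft τ) (fun ρ => (n (σ, ρ) : ℚ))
  rw [Finset.sum_add_distrib, Finset.sum_add_distrib, h2, Finset.sum_const, Finset.card_univ,
    nsmul_eq_mul, ← Nat.card_eq_fintype_card] at h1
  linarith

lemma isQZLift_avgLift {n : G × G → ℤ} (hn : n ∈ cocycles₂ (Rep.trivial ℤ G ℤ)) :
    IsQZLift (avgLift n) := fun σ τ => ⟨n (σ, τ), avgLift_spec hn σ τ⟩

lemma δcochain_avgLift {n : G × G → ℤ} (hn : n ∈ cocycles₂ (Rep.trivial ℤ G ℤ)) :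
    δcochain (avgLift n) = n := by
  funext ⟨σ, τ⟩
  rw [δcochain]
  simp only
  rw [avgLift_spec hn, Int.floor_intCast]

theorem δchar_surjective : Function.Surjective (δchar ℤ : QZChar G → H2 (Rep.trivial ℤ G ℤ)) := by
  intro x
  induction x using H2_induction_on with
  | h n =>
    refine ⟨charOfLift (isQZLift_avgLift n.2), ?_⟩
    rw [δchar_charOfLift, δlift]
    congr 1
    apply Subtype.ext
    funext p
    change ((δcochain (avgLift n.1) p : ℤ) : ℤ) = n.1 p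
    rw [δcochain_avgLift n.2]

theorem δchar_injective : Function.Injective (δchar ℤ : QZChar G → H2 (Rep.trivial ℤ G ℤ)) := by
  have key : ∀ χ : QZChar G, δchar ℤ χ = 0 → χ = 0 := ?_
  · exact (injective_iff_map_eq_zero (δcharHom ℤ)).2 key
  intro χ hχ
  rw [δchar, δlift] at hχ
  erw [H2π_eq_zero_iff] at hχ
  obtain ⟨m, hm⟩ := hχ
  have hℓ := (liftsChar_charLift χ).isQZLift
  -- `u = χ̃ - m` is a homomorphism to `ℚ`
  have hu : ∀ σ τ, (charLift χ (σ * τ) - (m (σ * τ) : ℚ)) =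
      (charLift χ σ - (m σ : ℚ)) + (charLift χ τ - (m τ : ℚ)) := by
    intro σ τ
    have h1 := congrFun hm (σ, τ)
    simp only [d₁₂_hom_apply] at h1
    change m τ - m (σ * τ) + m σ = ((δcochain (charLift χ) (σ, τ) : ℤ) : ℤ) at h1
    have h2 := δcochain_cast hℓ σ τ
    rw [← h1] at h2
    push_cast at h2
    linarith
  have h0 := eq_zero_of_add_hom (u := fun σ => charLift χ σ - (m σ : ℚ)) hu
  refine AddMonoidHom.ext fun σ => ?_
  have h3 := liftsChar_charLift χ (Additive.toMul σ)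
  have h4 : charLift χ (Additive.toMul σ) = (m (Additive.toMul σ) : ℚ) := by
    have := h0 (Additive.toMul σ)
    linarith
  rw [AddMonoidHom.zero_apply]
  change χ (Additive.ofMul (Additive.toMul σ)) = 0
  rw [← h3, h4, AddCircle.coe_eq_zero_iff]
  exact ⟨m (Additive.toMul σ), by simp⟩

/-- **`Hom(G, ℚ/ℤ) ≃ H²(G, ℤ)`** for a finite group `G` -/
noncomputable def δcharEquiv : QZChar G ≃+ H2 (Rep.trivial ℤ G ℤ) :=
  AddEquiv.ofBijective (δcharHom ℤ) ⟨δchar_injective, δchar_surjective⟩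

@[simp] lemma δcharEquiv_apply (χ : QZChar G) : δcharEquiv χ = δchar ℤ χ := rfl

end Equiv

end Fermat.Agent.CFT.Coh
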