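import Fermat.Agent.CFT.Coh.H2InfRes_helper9_Core

/-!
# CFT (C0.2): the inflation–restriction sequence in degree 2

For a normal subgroup `S` of a group `G` and `A : Rep k G` with `H¹(S, A) = 0`, the sequence
`0 ⟶ H²(G ⧸ S, A^S) ⟶ H²(G, A) ⟶ H²(S, A)` is exact.
-/

open groupCohomology CategoryTheory Rep

namespace Fermat.Agent.CFT.Coh

variable {k G : Type} [CommRing k] [Group G] (A : Rep k G) (S : Subgroup G) [S.Normal]

omit [S.Normal] in
/-- The categorical vanishing of `H¹(S, A)` gives the elementary one. -/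
lemma h1Vanishes_of_isZero (h : Limits.IsZero (H1 (res S.subtype A))) : H1Vanishes A S := by
  intro c hc
  have hmem : c ∈ cocycles₁ (res S.subtype A) := by
    rw [mem_cocycles₁_iff]
    intro s t
    exact hc s t
  have h0 : H1π (res S.subtype A) ⟨c, hmem⟩ = 0 := by
    have := ModuleCat.isZero_iff_subsingleton.1 h
    exact Subsingleton.elim _ _
  obtain ⟨a, ha⟩ := (H1π_eq_zero_iff _).1 h0
  refine ⟨a, fun s => ?_⟩
  have := congrFun ha s
  exact this.symm

omit [S.Normal] in
/-- Conversely. -/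
lemma isZero_of_h1Vanishes (h : H1Vanishes A S) : Limits.IsZero (H1 (res S.subtype A)) := by
  rw [ModuleCat.isZero_iff_subsingleton]
  refine ⟨fun x y => ?_⟩
  have key : ∀ z : H1 (res S.subtype A), z = 0 := by
    intro z
    induction z using H1_induction_on with | h c =>
    rw [H1π_eq_zero_iff]
    obtain ⟨a, ha⟩ := h c (fun s t => (mem_cocycles₁_iff c).1 c.2 s t)
    exact ⟨a, funext fun s => (ha s).symm⟩
  rw [key x, key y]

/-- The inflation map `H²(G ⧸ S, A^S) ⟶ H²(G, A)`. -/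
noncomputable abbrev H2inf : groupCohomology (A.quotientToInvariants S) 2 ⟶ groupCohomology A 2 :=
  map (QuotientGroup.mk' S) (ofHom <| A.ρ.quotientToInvariants_lift S) 2

/-- The restriction map `H²(G, A) ⟶ H²(S, A)`. -/
noncomputable abbrev H2res : groupCohomology A 2 ⟶ groupCohomology (res S.subtype A) 2 :=
  map S.subtype (𝟙 _) 2

lemma H2inf_H2π (x : cocycles₂ (A.quotientToInvariants S)) :
    H2inf A S (H2π _ x) = H2π A
      (mapCocycles₂ (QuotientGroup.mk' S) (ofHom <| A.ρ.quotientToInvariants_lift S) x) :=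
  H2π_comp_map_apply _ _ x

omit [S.Normal] in
lemma H2res_H2π (x : cocycles₂ A) :
    H2res A S (H2π _ x) = H2π (res S.subtype A) (mapCocycles₂ S.subtype (𝟙 _) x) :=
  H2π_comp_map_apply _ _ x

lemma mapCocycles₂_inf_apply (x : cocycles₂ (A.quotientToInvariants S)) (g g' : G) :
    (mapCocycles₂ (QuotientGroup.mk' S) (ofHom <| A.ρ.quotientToInvariants_lift S) x :
      G × G → A.V) (g, g') = ((x ((g : G ⧸ S), (g' : G ⧸ S))) : A.V) := by
  rw [coe_mapCocycles₂]; rfl

omit [S.Normal] in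
lemma mapCocycles₂_res_apply (x : cocycles₂ A) (s t : S) :
    (mapCocycles₂ S.subtype (𝟙 (res S.subtype A)) x : S × S → A.V) (s, t) =
      x ((s : G), (t : G)) := by
  rw [coe_mapCocycles₂]; rfl

lemma H2inf_comp_H2res : H2inf A S ≫ H2res A S = 0 := by
  ext x
  induction x using H2_induction_on with | h x =>
  rw [ModuleCat.comp_apply, H2inf_H2π, H2res_H2π]
  show _ = 0
  rw [H2π_eq_zero_iff]
  have hone : ∀ s : S, ((s : G) : G ⧸ S) = 1 := fun s => (QuotientGroup.eq_one_iff s.1).2 s.2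
  refine ⟨fun _ => ((x (1, 1)) : A.V), ?_⟩
  funext ⟨s, t⟩
  rw [mapCocycles₂_res_apply, mapCocycles₂_inf_apply, hone, hone]
  have hinv : A.ρ s ((x (1, 1)) : A.V) = (x (1, 1)) := (x (1, 1)).2 s
  show (res S.subtype A).ρ s ((x (1, 1)) : A.V) - ((x (1, 1)) : A.V) + ((x (1, 1)) : A.V) = _
  rw [show (res S.subtype A).ρ s ((x (1, 1)) : A.V) = A.ρ s ((x (1, 1)) : A.V) from rfl, hinv]
  abel

/-- The short complex `H²(G ⧸ S, A^S) ⟶ H²(G, A) ⟶ H²(S, A)`. -/
@[simps X₁ X₂ X₃ f g]
noncomputable def H2InfRes : ShortComplex (ModuleCat k) where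
  X₁ := groupCohomology (A.quotientToInvariants S) 2
  X₂ := groupCohomology A 2
  X₃ := groupCohomology (res S.subtype A) 2
  f := H2inf A S
  g := H2res A S
  zero := H2inf_comp_H2res A S

/-- If `H¹(S, A) = 0`, inflation `H²(G ⧸ S, A^S) ⟶ H²(G, A)` is injective. -/
theorem H2inf_injective (h1 : Limits.IsZero (H1 (res S.subtype A))) :
    Function.Injective (H2inf A S) := by
  rw [injective_iff_map_eq_zero]
  intro x hx
  induction x using H2_induction_on with | h x =>
  rw [H2inf_H2π, H2π_eq_zero_iff] at hx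
  obtain ⟨w, hw⟩ := hx
  obtain ⟨hbar, hhbar⟩ := inf_injective_core (h1Vanishes_of_isZero A S h1) x x.2 w (by
    intro g g'
    have := congrFun hw (g, g')
    rw [mapCocycles₂_inf_apply] at this
    rw [← this]; rfl)
  rw [H2π_eq_zero_iff]
  refine ⟨hbar, ?_⟩
  funext ⟨q, q'⟩
  exact (hhbar q q').symm

theorem H2InfRes_mono (h1 : Limits.IsZero (H1 (res S.subtype A))) : Mono (H2InfRes A S).f :=
  (ModuleCat.mono_iff_injective _).2 (H2inf_injective A S h1)

/-- Exactness in elementary form: a class restricting to `0` on `S` is inflated. -/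
theorem exists_H2inf_eq_of_H2res_eq_zero (h1 : Limits.IsZero (H1 (res S.subtype A)))
    (x : groupCohomology A 2) (hx : H2res A S x = 0) :
    ∃ y : groupCohomology (A.quotientToInvariants S) 2, H2inf A S y = x := by
  induction x using H2_induction_on with | h x =>
  rw [H2res_H2π, H2π_eq_zero_iff] at hx
  obtain ⟨u, hu⟩ := hx
  obtain ⟨fbar, w, hfbar, hfw⟩ := infres_exact_core (h1Vanishes_of_isZero A S h1) x.2 u (by
    intro s t
    have := congrFun hu (s, t)
    rw [mapCocycles₂_res_apply] at this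
    rw [show x.1 ((s : G), (t : G)) = x ((s : G), (t : G)) from rfl, ← this]; rfl)
  refine ⟨H2π _ ⟨fbar, hfbar⟩, ?_⟩
  rw [H2inf_H2π, H2π_eq_iff]
  refine ⟨-w, ?_⟩
  funext ⟨g, g'⟩
  have := hfw g g'
  simp only [dOne] at this
  rw [Pi.sub_apply, mapCocycles₂_inf_apply]
  show _ = fbar (↑g, ↑g') - x.1 (g, g')
  rw [this]
  simp only [map_neg, d₁₂_hom_apply, Pi.neg_apply]
  abel

/-- If `H¹(S, A) = 0`, the sequence `H²(G ⧸ S, A^S) ⟶ H²(G, A) ⟶ H²(S, A)` is exact. -/
theorem H2InfRes_exact (h1 : Limits.IsZero (H1 (res S.subtype A))) : (H2InfRes A S).Exact := by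
  rw [ShortComplex.moduleCat_exact_iff_ker_sub_range]
  intro x hx
  exact exists_H2inf_eq_of_H2res_eq_zero A S h1 x hx

end Fermat.Agent.CFT.Coh
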