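import Fermat.Agent.CFT.Coh.Trace_helper9

/-!
# CFT (C0.2): torsion and Sylow dévissage for group cohomology, without corestriction

* `index_nsmul_groupCohomology_eq_zero`: if `Hⁿ(S, A) = 0` then `[G : S] • Hⁿ(G, A) = 0`;
* `card_nsmul_groupCohomology_eq_zero`: `|G| • Hⁿ(G, A) = 0` for `n ≥ 1`;
* `isZero_groupCohomology_of_sylow`: if `Hⁿ(P, A) = 0` for all Sylow subgroups `P`, then
  `Hⁿ(G, A) = 0` (`n ≥ 1`);
* `isZero_groupCohomology_of_bijective_card_smul`: uniquely `|G|`-divisible modules are acyclic.
-/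

open CategoryTheory groupCohomology Rep

namespace Fermat.Agent.CFT.Coh

variable {k G : Type} [CommRing k] [Group G]

lemma map_id_add {A B : Rep k G} (φ ψ : A ⟶ B) (n : ℕ) :
    groupCohomology.map (MonoidHom.id G) (φ + ψ) n =
      groupCohomology.map (MonoidHom.id G) φ n + groupCohomology.map (MonoidHom.id G) ψ n := by
  have h : cochainsMap (MonoidHom.id G) (φ + ψ) =
      cochainsMap (MonoidHom.id G) φ + cochainsMap (MonoidHom.id G) ψ :=
    (cochainsFunctor k G).map_add
  unfold groupCohomology.map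
  rw [h, HomologicalComplex.homologyMap_add]
  rfl

lemma map_id_nsmul {A B : Rep k G} (φ : A ⟶ B) (m n : ℕ) :
    groupCohomology.map (MonoidHom.id G) (m • φ) n =
      m • groupCohomology.map (MonoidHom.id G) φ n := by
  induction m with
  | zero =>
    simp only [zero_smul]
    exact (functor k G n).map_zero _ _
  | succ m ih => rw [succ_nsmul, succ_nsmul, map_id_add, ih]


/-- If `Hⁿ(S, A) = 0` then `[G : S] • Hⁿ(G, A) = 0`. -/
theorem index_nsmul_groupCohomology_eq_zero (S : Subgroup G) [S.FiniteIndex] (A : Rep k G) (n : ℕ)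
    (h : Limits.IsZero (groupCohomology (res S.subtype A) n)) (x : groupCohomology A n) :
    S.index • x = 0 := by
  have hz : Limits.IsZero (groupCohomology (coind S.subtype (res S.subtype A)) n) :=
    h.of_iso (coindIso (res S.subtype A) n)
  have h1 : groupCohomology.map (MonoidHom.id G) (coindUnit S A ≫ coindTrace S A) n = 0 := by
    rw [map_id_comp, hz.eq_of_tgt (groupCohomology.map (MonoidHom.id G) (coindUnit S A) n) 0,
      Limits.zero_comp]
  have h2 := coindUnit_comp_coindTrace S A
  rw [h2, map_id_nsmul, groupCohomology.map_id] at h1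
  have := congrArg (fun f => f.hom x) h1
  simpa using this


section Finite
variable [Finite G] (A : Rep k G)

/-- `|G| · Hⁿ(G, A) = 0` for `n ≥ 1`. -/
theorem card_nsmul_groupCohomology_eq_zero (n : ℕ) (x : groupCohomology A (n + 1)) :
    Nat.card G • x = 0 := by
  have := index_nsmul_groupCohomology_eq_zero (⊥ : Subgroup G) A (n + 1)
    (isZero_groupCohomology_succ_of_subsingleton _ n) x
  rwa [Subgroup.index_bot] at this

/-- Sylow dévissage: if `Hⁿ(P, A) = 0` for all Sylow subgroups then `Hⁿ(G, A) = 0` (`n ≥ 1`). -/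
theorem isZero_groupCohomology_of_sylow (n : ℕ)
    (h : ∀ (p : ℕ) [Fact p.Prime] (P : Sylow p G),
      Limits.IsZero (groupCohomology (res (P : Subgroup G).subtype A) (n + 1))) :
    Limits.IsZero (groupCohomology A (n + 1)) := by
  suffices hs : Subsingleton (groupCohomology A (n + 1)) from ModuleCat.isZero_of_subsingleton _
  refine ⟨fun x y => ?_⟩
  suffices h0 : ∀ x : groupCohomology A (n + 1), x = 0 by rw [h0 x, h0 y]
  intro x
  have hcard : addOrderOf x ∣ Nat.card G :=
    addOrderOf_dvd_of_nsmul_eq_zero (card_nsmul_groupCohomology_eq_zero A n x)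
  by_contra hx
  have hne : addOrderOf x ≠ 1 := fun h1 => hx (AddMonoid.addOrderOf_eq_one_iff.1 h1)
  obtain ⟨q, hq, hqx⟩ := Nat.exists_prime_and_dvd hne
  have := Fact.mk hq
  obtain ⟨P⟩ : Nonempty (Sylow q G) := inferInstance
  have h1 : addOrderOf x ∣ (P : Subgroup G).index :=
    addOrderOf_dvd_of_nsmul_eq_zero
      (index_nsmul_groupCohomology_eq_zero (P : Subgroup G) A (n + 1) (h q P) x)
  exact P.not_dvd_index (hqx.trans h1)

/-- uniquely `|G|`-divisible modules are acyclic -/
theorem isZero_groupCohomology_of_bijective_card_smul (n : ℕ)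
    (h : Function.Bijective fun a : A.V => Nat.card G • a) :
    Limits.IsZero (groupCohomology A (n + 1)) := by
  let e : A.V ≃ₗ[k] A.V := LinearEquiv.ofBijective (Nat.card G • LinearMap.id) (by
    convert h using 1
    ext a
    rw [LinearMap.smul_apply, LinearMap.id_apply])
  have he : ∀ a, e a = Nat.card G • a := fun a => by simp [e]
  let ψ : A ⟶ A := Rep.ofHom ⟨e.symm.toLinearMap, fun g => by
    ext a
    simp only [LinearMap.coe_comp, Function.comp_apply, LinearEquiv.coe_coe]
    apply e.injective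
    rw [LinearEquiv.apply_symm_apply, he, ← map_nsmul, ← he, LinearEquiv.apply_symm_apply]⟩
  have hψ : (Nat.card G • 𝟙 A) ≫ ψ = 𝟙 A := by
    ext a
    show e.symm ((Nat.card G • 𝟙 A : A ⟶ A).hom a) = a
    rw [Rep.nsmul_hom]
    show e.symm (Nat.card G • a) = a
    rw [← he, LinearEquiv.symm_apply_apply]
  suffices hs : Subsingleton (groupCohomology A (n + 1)) from ModuleCat.isZero_of_subsingleton _
  refine ⟨fun x y => ?_⟩
  suffices h0 : ∀ x : groupCohomology A (n + 1), x = 0 by rw [h0 x, h0 y]
  intro x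
  have h1 := congrArg (fun φ => groupCohomology.map (MonoidHom.id G) φ (n + 1)) hψ
  simp only [map_id_comp, map_id_nsmul, groupCohomology.map_id] at h1
  have h2 := congrArg (fun f => f.hom x) h1
  simp only [ModuleCat.hom_comp, LinearMap.comp_apply, ModuleCat.hom_id, LinearMap.id_apply] at h2
  rw [← h2]
  have h3 : (ModuleCat.Hom.hom (Nat.card G • 𝟙 (groupCohomology A (n + 1)))) x = 0 := by
    rw [ModuleCat.hom_nsmul, LinearMap.smul_apply, ModuleCat.hom_id, LinearMap.id_apply]
    exact card_nsmul_groupCohomology_eq_zero A n x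
  rw [h3, map_zero]

end Finite

end Fermat.Agent.CFT.Coh
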