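import Fermat.Agent.CFT.Coh.RelInj_helper9

/-!
# CFT (C0.2): restriction, connecting homomorphisms and dimension shifting

* `δ_res`: the connecting homomorphisms of group cohomology commute with restriction along a group
  homomorphism;
* `dimShift A`: the short exact sequence `0 ⟶ A ⟶ A* ⟶ A*/A ⟶ 0` with `A* = Coind_1^G A`;
* `index_nsmul_eq_zero_of_res_eq_zero`: if `res_S x = 0` for `x ∈ Hⁿ(G, A)`, `n ≥ 1`, then
  `[G : S] • x = 0` (no corestriction needed);
* `eq_zero_of_res_sylow_eq_zero`, `card_groupCohomology_dvd_of_sylow`: Sylow dévissage.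
-/

open CategoryTheory groupCohomology Rep

namespace Fermat.Agent.CFT.Coh

section ResDelta

variable {k G H : Type} [CommRing k] [Group G] [Group H] (f : H →* G)
  {X : ShortComplex (Rep.{0, 0, 0} k G)} (hX : X.ShortExact)

include hX in
/-- The restriction of a short exact sequence along a group homomorphism. -/
lemma shortExact_map_res : (X.map (resFunctor f)).ShortExact := (Rep.shortExact_res f).2 hX

/-- The morphism of short complexes of cochain complexes given by restriction. -/
noncomputable def resCochainsHom :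
    X.map (cochainsFunctor k G) ⟶ (X.map (resFunctor f)).map (cochainsFunctor k H) where
  τ₁ := cochainsMap f (𝟙 (res f X.X₁))
  τ₂ := cochainsMap f (𝟙 (res f X.X₂))
  τ₃ := cochainsMap f (𝟙 (res f X.X₃))
  comm₁₂ := by
    ext n x
    rfl
  comm₂₃ := by
    ext n x
    rfl

/-- The connecting homomorphisms commute with restriction. -/
theorem δ_res (i j : ℕ) (hij : i + 1 = j) :
    δ hX i j hij ≫ groupCohomology.map f (𝟙 (res f X.X₁)) j =
      groupCohomology.map f (𝟙 (res f X.X₃)) i ≫ δ (shortExact_map_res f hX) i j hij :=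
  HomologicalComplex.HomologySequence.δ_naturality (resCochainsHom f)
    (map_cochainsFunctor_shortExact hX) (map_cochainsFunctor_shortExact (shortExact_map_res f hX))
    i j hij

end ResDelta


section DimShift

variable {k G : Type} [CommRing k] [Group G]

lemma coindUnit_injective (S : Subgroup G) (A : Rep.{0, 0, 0} k G) :
    Function.Injective (coindUnit S A).hom := by
  intro a b hab
  have h1 : ((coindUnit S A).hom a).1 1 = ((coindUnit S A).hom b).1 1 := by rw [hab]
  rw [coindUnit_apply, coindUnit_apply, map_one, Module.End.one_apply, Module.End.one_apply] at h1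
  exact h1

instance (S : Subgroup G) (A : Rep.{0, 0, 0} k G) : Mono (coindUnit S A) :=
  (Rep.mono_iff_injective _).2 (coindUnit_injective S A)

/-- The dimension shifting sequence `0 ⟶ A ⟶ A* ⟶ A*/A ⟶ 0`. -/
noncomputable def dimShift (A : Rep.{0, 0, 0} k G) : ShortComplex (Rep.{0, 0, 0} k G) :=
  ShortComplex.mk (coindUnit ⊥ A) (Limits.cokernel.π (coindUnit ⊥ A))
    (Limits.cokernel.condition _)

lemma dimShift_shortExact (A : Rep.{0, 0, 0} k G) : (dimShift A).ShortExact where
  exact := ShortComplex.exact_cokernel _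
  mono_f := inferInstanceAs (Mono (coindUnit ⊥ A))
  epi_g := inferInstanceAs (Epi (Limits.cokernel.π (coindUnit ⊥ A)))

end DimShift


section Base

variable {k G : Type} [CommRing k] [Group G]

/-- The restriction map `Hⁿ(G, A) ⟶ Hⁿ(S, A)`. -/
noncomputable abbrev resMap (S : Subgroup G) (A : Rep.{0, 0, 0} k G) (n : ℕ) :
    groupCohomology A n ⟶ groupCohomology (res S.subtype A) n :=
  groupCohomology.map S.subtype (𝟙 (res S.subtype A)) n

/-- Degree one: if `res_S x = 0` then `[G : S] x = 0`. -/
theorem index_nsmul_eq_zero_of_res_eq_zero_one (S : Subgroup G) [S.FiniteIndex]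
    (A : Rep.{0, 0, 0} k G) (x : groupCohomology A 1) (hx : (resMap S A 1).hom x = 0) :
    S.index • x = 0 := by
  classical
  let _ := Fintype.ofFinite (G ⧸ S)
  induction x using H1_induction_on with | h f =>
  have h0 : H1π (res S.subtype A) (mapCocycles₁ S.subtype (𝟙 (res S.subtype A)) f) = 0 := by
    rw [← hx]
    exact (H1π_comp_map_apply S.subtype (𝟙 (res S.subtype A)) f).symm
  obtain ⟨a, ha⟩ := (H1π_eq_zero_iff _).1 h0
  have ha' : ∀ s : S, A.ρ (s : G) a - a = f (s : G) := fun s => congrFun ha s
  have hf : ∀ g h : G, f (g * h) = A.ρ g (f h) + f g := (mem_cocycles₁_iff f).1 f.2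
  -- the modified cocycle, vanishing on `S`
  set f' : G → A.V := fun g => f g - (A.ρ g a - a) with hf'
  have h1 : ∀ g h : G, f' (g * h) = f' g + A.ρ g (f' h) := by
    intro g h
    simp only [hf', hf g h, map_sub, map_mul, Module.End.mul_apply]
    abel
  have h2 : ∀ s : S, f' (s : G) = 0 := fun s => by simp only [hf', ← ha' s, sub_self]
  have h3 : ∀ (g : G) (s : S), f' (g * s) = f' g := fun g s => by
    rw [h1, h2, map_zero, add_zero]
  have h3' : ∀ g g' : G, (g : G ⧸ S) = (g' : G ⧸ S) → f' g = f' g' := by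
    intro g g' hgg'
    have hmem : g⁻¹ * g' ∈ S := QuotientGroup.eq.1 hgg'
    have := h3 g ⟨g⁻¹ * g', hmem⟩
    rw [← this]
    simp
  set b : A.V := ∑ q : G ⧸ S, f' q.out with hb
  have h4 : ∀ g : G, ∑ q : G ⧸ S, f' (g * q.out) = b := by
    intro g
    rw [hb]
    refine Fintype.sum_equiv (MulAction.toPerm g) _ _ fun q => ?_
    apply h3'
    show ((g * q.out : G) : G ⧸ S) = (((g • q : G ⧸ S).out : G) : G ⧸ S)
    rw [QuotientGroup.out_eq']
    conv_rhs => rw [← QuotientGroup.out_eq' q]
    rfl
  have h5 : ∀ g : G, S.index • f' g = b - A.ρ g b := by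
    intro g
    have : A.ρ g b = ∑ q : G ⧸ S, (f' (g * q.out) - f' g) := by
      rw [hb, map_sum]
      refine Finset.sum_congr rfl fun q _ => ?_
      rw [h1 g q.out, add_sub_cancel_left]
    rw [this, Finset.sum_sub_distrib, h4, Finset.sum_const, Finset.card_univ, Subgroup.index,
      Nat.card_eq_fintype_card]
    abel
  rw [← map_nsmul, H1π_eq_zero_iff]
  refine ⟨S.index • a - b, funext fun g => ?_⟩
  show A.ρ g (S.index • a - b) - (S.index • a - b) = S.index • f g
  have h6 : S.index • f g = S.index • f' g + S.index • (A.ρ g a - a) := by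
    rw [← smul_add]; simp only [hf', sub_add_cancel]
  rw [h6, h5, map_sub, map_nsmul, smul_sub]
  abel

end Base


section Main

variable {k G : Type} [CommRing k] [Group G] [Finite G]

/-- If `res_S x = 0` for `x ∈ Hⁿ(G, A)`, `n ≥ 1`, then `[G : S] x = 0`. -/
theorem index_nsmul_eq_zero_of_res_eq_zero (S : Subgroup G) (n : ℕ) :
    ∀ (A : Rep.{0, 0, 0} k G) (x : groupCohomology A (n + 1)),
      (resMap S A (n + 1)).hom x = 0 → S.index • x = 0 := by
  induction n with
  | zero => exact fun A x hx => index_nsmul_eq_zero_of_res_eq_zero_one S A x hx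
  | succ n ih =>
    intro A x hx
    have hX := dimShift_shortExact A
    have hX' := shortExact_map_res S.subtype hX
    have hepi : Epi (δ hX (n + 1) (n + 2) rfl) :=
      epi_δ_of_isZero hX (n + 1) ((isRelInjective_coindBot A).isZero_groupCohomology (n + 1))
    have hmono : Mono (δ hX' (n + 1) (n + 2) rfl) :=
      mono_δ_of_isZero hX' (n + 1)
        (((isRelInjective_coindBot A).res_subgroup S).isZero_groupCohomology n)
    obtain ⟨y, rfl⟩ := (ModuleCat.epi_iff_surjective _).1 hepi x
    have hnat := δ_res S.subtype hX (n + 1) (n + 2) rfl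
    have h1 : (δ hX' (n + 1) (n + 2) rfl).hom ((resMap S (dimShift A).X₃ (n + 1)).hom y) = 0 := by
      have := congrArg (fun φ => φ.hom y) hnat
      exact this.symm.trans hx
    have h2 : (resMap S (dimShift A).X₃ (n + 1)).hom y = 0 :=
      (ModuleCat.mono_iff_injective _).1 hmono
        (h1.trans (map_zero (δ hX' (n + 1) (n + 2) rfl).hom).symm)
    have h3 := ih (dimShift A).X₃ y h2
    have h4 : (δ hX (n + 1) (n + 2) rfl).hom (S.index • y) = 0 := by rw [h3, map_zero]
    rw [map_nsmul] at h4
    exact h4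

/-- Sylow injectivity: a class restricting to zero on one Sylow subgroup for each prime divisor of
`|G|` is zero. -/
theorem eq_zero_of_res_sylow_eq_zero (A : Rep.{0, 0, 0} k G) (n : ℕ)
    (x : groupCohomology A (n + 1))
    (h : ∀ (p : ℕ) [Fact p.Prime], p ∣ Nat.card G →
      ∃ P : Sylow p G, (resMap (P : Subgroup G) A (n + 1)).hom x = 0) : x = 0 := by
  have hcard : addOrderOf x ∣ Nat.card G :=
    addOrderOf_dvd_of_nsmul_eq_zero (card_nsmul_groupCohomology_eq_zero A n x)
  by_contra hx
  have hne : addOrderOf x ≠ 1 := fun h1 => hx (AddMonoid.addOrderOf_eq_one_iff.1 h1)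
  obtain ⟨q, hq, hqx⟩ := Nat.exists_prime_and_dvd hne
  have := Fact.mk hq
  obtain ⟨P, hP⟩ := h q (hqx.trans hcard)
  exact P.not_dvd_index (hqx.trans (addOrderOf_dvd_of_nsmul_eq_zero
    (index_nsmul_eq_zero_of_res_eq_zero (P : Subgroup G) n A x hP)))

/-- Sylow dévissage for cardinalities: if for every prime `p ∣ |G|` some Sylow `p`-subgroup `P` has
`Hⁿ(P, A)` finite of order dividing `|P|`, then `Hⁿ(G, A)` is finite of order dividing `|G|`. -/
theorem card_groupCohomology_dvd_of_sylow (A : Rep.{0, 0, 0} k G) (n : ℕ)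
    (h : ∀ (p : ℕ) [Fact p.Prime], p ∣ Nat.card G → ∃ P : Sylow p G,
      Finite (groupCohomology (res (P : Subgroup G).subtype A) (n + 1)) ∧
      Nat.card (groupCohomology (res (P : Subgroup G).subtype A) (n + 1)) ∣ Nat.card P) :
    Finite (groupCohomology A (n + 1)) ∧ Nat.card (groupCohomology A (n + 1)) ∣ Nat.card G := by
  classical
  have hG0 : Nat.card G ≠ 0 := Nat.card_pos.ne'
  -- choose the Sylow subgroups
  have hfact : ∀ p : (Nat.card G).primeFactors, Fact (p : ℕ).Prime :=
    fun p => ⟨Nat.prime_of_mem_primeFactors p.2⟩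
  have hdvd : ∀ p : (Nat.card G).primeFactors, (p : ℕ) ∣ Nat.card G :=
    fun p => Nat.dvd_of_mem_primeFactors p.2
  choose P hPfin hPcard using fun p : (Nat.card G).primeFactors =>
    @h (p : ℕ) (hfact p) (hdvd p)
  let Y : (Nat.card G).primeFactors → Type := fun p =>
    groupCohomology (res (P p : Subgroup G).subtype A) (n + 1)
  let φ : groupCohomology A (n + 1) →+ (∀ p, Y p) :=
    AddMonoidHom.mk' (fun x p => (resMap (P p : Subgroup G) A (n + 1)).hom x) (by
      intro x y; funext p; exact map_add _ x y)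
  have hφ : Function.Injective φ := by
    rw [injective_iff_map_eq_zero]
    intro x hx
    apply eq_zero_of_res_sylow_eq_zero A n x
    intro p _ hp
    have hmem : p ∈ (Nat.card G).primeFactors :=
      Nat.mem_primeFactors.2 ⟨Fact.out, hp, hG0⟩
    exact ⟨P ⟨p, hmem⟩, congrFun hx ⟨p, hmem⟩⟩
  have : ∀ p, Finite (Y p) := hPfin
  have hfin : Finite (groupCohomology A (n + 1)) := Finite.of_injective φ hφ
  refine ⟨hfin, (AddSubgroup.card_dvd_of_injective φ hφ).trans ?_⟩
  rw [Nat.card_pi]
  calc ∏ p, Nat.card (Y p) ∣ ∏ p : (Nat.card G).primeFactors, Nat.card (P p) :=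
        Finset.prod_dvd_prod_of_dvd _ _ fun p _ => hPcard p
    _ = ∏ p : (Nat.card G).primeFactors, (p : ℕ) ^ (Nat.card G).factorization p := by
        refine Finset.prod_congr rfl fun p _ => ?_
        exact @Sylow.card_eq_multiplicity G _ _ (p : ℕ) (hfact p) (P p)
    _ = Nat.card G := by
        conv_rhs => rw [← Nat.prod_factorization_pow_eq_self hG0]
        rw [Finsupp.prod, Nat.support_factorization]
        exact Finset.prod_coe_sort (Nat.card G).primeFactors
          (fun p => p ^ (Nat.card G).factorization p)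

end Main

end Fermat.Agent.CFT.Coh
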