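import Fermat.Agent.CFT.Coh.CohTriv_helper1_RelInj
import Fermat.Agent.CFT.Coh.ResDelta_helper9

/-!
# CFT (PT1): cohomologically trivial modules over a finite `p`-group (Serre, LF IX §5)

* `exists_eq_sub_of_isZero_H1`, `isZero_H1_of_forall_exists_eq_sub`: hands-on `H¹ = 0`;
* `isZero_H_X₁`, `isZero_H_X₂`, `isZero_H_X₃`, `isZero_H1_X₁_of_tateH0Trivial`: vanishing along the
  long exact sequence;
* `exists_ne_zero_mem_invariants_of_isPGroup`: the fixed point lemma;
* `isRelInjective_of_isPGroup_of_H1`, `isRelInjective_of_isPGroup_of_H2`: for a finite `p`-group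
  `G` and a `G`-module `V` killed by `p`, `H¹(G, V) = 0` (or `H²(G, V) = 0`) implies that `V` is
  (co)induced, hence relatively injective.
-/

open CategoryTheory groupCohomology Rep

namespace Fermat.Agent.CFT.Coh

variable {k G : Type} [CommRing k] [Group G]

/-- if `H¹(G, V) = 0`, every `1`-cocycle is a coboundary (hands-on form) -/
lemma exists_eq_sub_of_isZero_H1 (V : Rep.{0, 0, 0} k G)
    (h1 : Limits.IsZero (groupCohomology V 1)) (c : G → V.V)
    (hc : ∀ g h : G, c (g * h) = V.ρ g (c h) + c g) : ∃ v : V.V, ∀ g, c g = V.ρ g v - v := by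
  have hmem : c ∈ cocycles₁ V := (mem_cocycles₁_iff c).2 hc
  have h0 : H1π V ⟨c, hmem⟩ = 0 :=
    @Subsingleton.elim _ (ModuleCat.subsingleton_of_isZero h1) _ _
  obtain ⟨a, ha⟩ := (H1π_eq_zero_iff _).1 h0
  exact ⟨a, fun g => (congrFun ha g).symm⟩

/-- converse: if every `1`-cocycle is a coboundary then `H¹(G, V) = 0` -/
lemma isZero_H1_of_forall_exists_eq_sub (V : Rep.{0, 0, 0} k G)
    (h : ∀ c : G → V.V, (∀ g h : G, c (g * h) = V.ρ g (c h) + c g) →
      ∃ v : V.V, ∀ g, c g = V.ρ g v - v) : Limits.IsZero (groupCohomology V 1) := by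
  suffices hs : Subsingleton (groupCohomology V 1) from ModuleCat.isZero_of_subsingleton _
  refine ⟨fun x y => ?_⟩
  suffices h0 : ∀ x : groupCohomology V 1, x = 0 by rw [h0 x, h0 y]
  intro x
  induction x using H1_induction_on with | h c =>
  rw [H1π_eq_zero_iff]
  obtain ⟨v, hv⟩ := h c ((mem_cocycles₁_iff c).1 c.2)
  exact ⟨v, funext fun g => (hv g).symm⟩

section LES

variable {X : ShortComplex (Rep.{0, 0, 0} k G)} (hX : X.ShortExact)

include hX

/-- `Hⁿ(X₂) = 0` and `Hⁿ⁺¹(X₁) = 0` imply `Hⁿ(X₃) = 0`. -/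
lemma isZero_H_X₃ (n : ℕ) (h2 : Limits.IsZero (groupCohomology X.X₂ n))
    (h1 : Limits.IsZero (groupCohomology X.X₁ (n + 1))) :
    Limits.IsZero (groupCohomology X.X₃ n) :=
  (mapShortComplex₃_exact hX (i := n) (j := n + 1) rfl).isZero_of_both_isZero h2 h1

/-- `Hⁿ(X₃) = 0` and `Hⁿ⁺¹(X₂) = 0` imply `Hⁿ⁺¹(X₁) = 0`. -/
lemma isZero_H_X₁ (n : ℕ) (h3 : Limits.IsZero (groupCohomology X.X₃ n))
    (h2 : Limits.IsZero (groupCohomology X.X₂ (n + 1))) :
    Limits.IsZero (groupCohomology X.X₁ (n + 1)) :=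
  (mapShortComplex₁_exact hX (i := n) (j := n + 1) rfl).isZero_of_both_isZero h3 h2

/-- `Hⁿ(X₁) = 0` and `Hⁿ(X₃) = 0` imply `Hⁿ(X₂) = 0`. -/
lemma isZero_H_X₂ (n : ℕ) (h1 : Limits.IsZero (groupCohomology X.X₁ n))
    (h3 : Limits.IsZero (groupCohomology X.X₃ n)) :
    Limits.IsZero (groupCohomology X.X₂ n) :=
  (mapShortComplex₂_exact hX n).isZero_of_both_isZero h1 h3

end LES

section LES1

variable [Finite G] {X : ShortComplex (Rep.{0, 0, 0} k G)} (hX : X.ShortExact)

include hX in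
/-- `H¹(X₂) = 0` and `Ĥ⁰(X₃) = 0` imply `H¹(X₁) = 0`. -/
lemma isZero_H1_X₁_of_tateH0Trivial (h2 : Limits.IsZero (groupCohomology X.X₂ 1))
    (h3 : TateH0Trivial X.X₃) : Limits.IsZero (groupCohomology X.X₁ 1) := by
  apply isZero_H1_of_forall_exists_eq_sub
  intro c hc
  obtain ⟨b, hb⟩ := exists_eq_sub_of_isZero_H1 X.X₂ h2 (fun g => X.f.hom (c g)) (fun g h => by
    rw [hc, map_add, Rep.hom_comm_apply])
  have hinv : X.g.hom b ∈ X.X₃.ρ.invariants := by
    intro g
    have h4 := congrArg X.g.hom (hb g)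
    rw [ShortExact.g_f_apply hX, map_sub, Rep.hom_comm_apply] at h4
    exact (sub_eq_zero.1 h4.symm)
  obtain ⟨y, hy⟩ := h3 _ hinv
  obtain ⟨b', rfl⟩ := ShortExact.surjective_g hX y
  have h5 : X.g.hom (b - normMap X.X₂ b') = 0 := by
    rw [map_sub, hom_normMap, hy, sub_self]
  obtain ⟨a, ha⟩ := ShortExact.exists_of_g_eq_zero hX h5
  refine ⟨a, fun g => ShortExact.injective_f hX ?_⟩
  rw [hb g, map_sub, Rep.hom_comm_apply, ha, map_sub, ρ_normMap]
  abel

end LES1

section PGroup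

variable [Finite G]

/-- **Fixed point lemma**: a finite `p`-group acting on a nonzero module killed by `p` has a
nonzero fixed vector; version inside a stable submodule. -/
theorem exists_ne_zero_mem_invariants_of_isPGroup (p : ℕ) [Fact p.Prime] (hG : IsPGroup p G)
    (V : Rep.{0, 0, 0} k G) (hp : ∀ v : V.V, p • v = 0)
    (K : Submodule k V.V) (hK : ∀ (g : G), ∀ x ∈ K, V.ρ g x ∈ K) (v : V.V) (hv : v ∈ K)
    (hv0 : v ≠ 0) : ∃ w ∈ K, w ≠ 0 ∧ w ∈ V.ρ.invariants := by
  classical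
  -- the finite subgroup generated by the orbit of `v`
  let U : AddSubgroup V.V := AddSubgroup.closure (Set.range fun g : G => V.ρ g v)
  have hUK : ∀ u ∈ U, u ∈ K := by
    intro u hu
    refine AddSubgroup.closure_induction (p := fun u _ => u ∈ K) ?_ ?_ ?_ ?_ hu
    · rintro _ ⟨g, rfl⟩
      exact hK g v hv
    · exact K.zero_mem
    · intro x y _ _ hx hy; exact K.add_mem hx hy
    · intro x _ hx; exact K.neg_mem hx
  have hUst : ∀ (g : G), ∀ u ∈ U, V.ρ g u ∈ U := by
    intro g u hu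
    refine AddSubgroup.closure_induction (p := fun u _ => V.ρ g u ∈ U) ?_ ?_ ?_ ?_ hu
    · rintro _ ⟨h, rfl⟩
      refine AddSubgroup.subset_closure ⟨g * h, ?_⟩
      show V.ρ (g * h) v = V.ρ g (V.ρ h v)
      rw [map_mul]; rfl
    · rw [map_zero]; exact U.zero_mem
    · intro x y _ _ hx hy; rw [map_add]; exact U.add_mem hx hy
    · intro x _ hx; rw [map_neg]; exact U.neg_mem hx
  have hvU : v ∈ U := AddSubgroup.subset_closure ⟨1, by simp⟩
  have hfg : AddGroup.FG U := by
    rw [AddGroup.fg_iff_addSubgroup_fg, AddSubgroup.fg_iff]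
    exact ⟨_, rfl, Set.finite_range _⟩
  have htors : IsAddTorsion U := by
    intro u
    rw [isOfFinAddOrder_iff_nsmul_eq_zero]
    exact ⟨p, (Fact.out : p.Prime).pos, Subtype.ext (hp u.1)⟩
  have hfin : Finite U := AddCommGroup.finite_of_fg_isAddTorsion U htors
  let act : MulAction G U :=
    { smul := fun g u => ⟨V.ρ g u.1, hUst g u.1 u.2⟩
      one_smul := fun u => Subtype.ext (by show V.ρ 1 u.1 = u.1; rw [map_one]; rfl)
      mul_smul := fun g h u => Subtype.ext (by
        show V.ρ (g * h) u.1 = V.ρ g (V.ρ h u.1); rw [map_mul]; rfl) }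
  have hcard := hG.card_modEq_card_fixedPoints U
  have hpU : IsPGroup p (Multiplicative U) := by
    intro u
    refine ⟨1, ?_⟩
    rw [pow_one]
    exact congrArg Multiplicative.ofAdd (Subtype.ext (hp (Multiplicative.toAdd u).1) : p • Multiplicative.toAdd u = 0)
  have hnt : Nontrivial U := ⟨⟨⟨v, hvU⟩, 0, fun h => hv0 (congrArg Subtype.val h)⟩⟩
  have hdvd : p ∣ Nat.card U := by
    rcases hpU.card_eq_or_dvd with h | h
    · exfalso
      have : Nat.card U = 1 := h
      rw [Nat.card_eq_one_iff_unique] at this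
      exact not_subsingleton U this.1
    · exact h
  have hdvd' : p ∣ Nat.card (MulAction.fixedPoints G U) := (Nat.modEq_zero_iff_dvd.1
    (hcard.symm.trans (Nat.modEq_zero_iff_dvd.2 hdvd)))
  have hfin' : Finite (MulAction.fixedPoints G U) := Subtype.finite
  have h0 : (0 : U) ∈ MulAction.fixedPoints G U := fun g => Subtype.ext (map_zero (V.ρ g))
  have hlt : 1 < Nat.card (MulAction.fixedPoints G U) := by
    have hpos : 0 < Nat.card (MulAction.fixedPoints G U) :=
      Nat.card_pos_iff.2 ⟨⟨⟨0, h0⟩⟩, hfin'⟩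
    exact lt_of_lt_of_le (Fact.out : p.Prime).one_lt (Nat.le_of_dvd hpos hdvd')
  rw [Finite.one_lt_card_iff_nontrivial] at hlt
  obtain ⟨⟨w, hw⟩, hne⟩ := exists_ne (⟨0, h0⟩ : MulAction.fixedPoints G U)
  refine ⟨w.1, hUK w.1 w.2, fun h => hne (Subtype.ext (Subtype.ext h)), fun g => ?_⟩
  exact congrArg Subtype.val (hw g)


/-- **Serre, Local Fields IX Thm 5 (degree 1 form)**: for a finite `p`-group `G` and a
representation `V` killed by `p` with a linear retraction onto the invariants, `H¹(G, V) = 0`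
implies that `V` is (co)induced, hence relatively injective. -/
theorem isRelInjective_of_isPGroup_of_retraction (p : ℕ) [Fact p.Prime] (hG : IsPGroup p G)
    (V : Rep.{0, 0, 0} k G) (hp : ∀ v : V.V, p • v = 0)
    (π : V.V →ₗ[k] V.ρ.invariants) (hπ : ∀ w : V.ρ.invariants, π w.1 = w)
    (h1 : Limits.IsZero (groupCohomology V 1)) : IsRelInjective V := by
  classical
  let W : Rep.{0, 0, 0} k G := Rep.trivial k G V.ρ.invariants
  let I : Rep.{0, 0, 0} k G := coindBot W
  -- the comparison map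
  let Φl : V.V →ₗ[k] I.V :=
    (coindBotEquiv W).toLinearMap.comp (LinearMap.pi fun x : G => π.comp (V.ρ x))
  have hΦl : ∀ (v : V.V) (x : G), (Φl v).1 x = π (V.ρ x v) := fun v x => rfl
  let Φ : V ⟶ I := Rep.ofHom ⟨Φl, fun h => by
    refine LinearMap.ext fun v => ?_
    apply Subtype.ext
    funext x
    show (Φl (V.ρ h v)).1 x = ((coindBot W).ρ h (Φl v)).1 x
    rw [coindBot_ρ_apply, hΦl, hΦl, map_mul]; rfl⟩
  have hΦ : ∀ (v : V.V) (x : G), (Φ.hom v).1 x = π (V.ρ x v) := fun v x => rfl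
  -- injectivity
  have hinj : Function.Injective Φ.hom := by
    rw [injective_iff_map_eq_zero]
    intro v hv
    by_contra hv0
    obtain ⟨w, hwK, hw0, hw⟩ := exists_ne_zero_mem_invariants_of_isPGroup p hG V hp
      (LinearMap.ker Φ.hom.toLinearMap) (fun g x hx => by
        rw [LinearMap.mem_ker] at hx ⊢
        show Φ.hom (V.ρ g x) = 0
        rw [Rep.hom_comm_apply, show Φ.hom x = 0 from hx, map_zero]) v hv hv0
    have h2 : (Φ.hom w).1 1 = 0 := by
      rw [show Φ.hom w = 0 from hwK]; rfl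
    rw [hΦ, map_one, Module.End.one_apply, hπ ⟨w, hw⟩] at h2
    exact hw0 (congrArg Subtype.val h2)
  -- surjectivity
  have hIp : ∀ f : I.V, p • f = 0 := by
    intro f
    apply Subtype.ext
    funext x
    exact Subtype.ext (hp (f.1 x).1)
  have hsurj : Function.Surjective Φ.hom := by
    by_contra hns
    have hR : ∀ g, LinearMap.range Φ.hom.toLinearMap ≤
        (LinearMap.range Φ.hom.toLinearMap).comap (I.ρ g) := by
      rintro g _ ⟨v, rfl⟩
      exact ⟨V.ρ g v, Rep.hom_comm_apply Φ g v⟩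
    let Q : Rep.{0, 0, 0} k G := Rep.quotient I (LinearMap.range Φ.hom.toLinearMap) hR
    have hQρ : ∀ (g : G) (f : I.V), Q.ρ g (Submodule.Quotient.mk f) =
        Submodule.Quotient.mk (I.ρ g f) := fun g f => rfl
    have hQp : ∀ q : Q.V, p • q = 0 := by
      intro q
      obtain ⟨f, rfl⟩ := Submodule.Quotient.mk_surjective _ q
      rw [← Submodule.Quotient.mk_smul, hIp, Submodule.Quotient.mk_zero]
    obtain ⟨f₁, hf₁⟩ : ∃ f₁ : I.V, f₁ ∉ LinearMap.range Φ.hom.toLinearMap := by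
      by_contra hcon
      push Not at hcon
      exact hns fun f => hcon f
    have hq0 : (Submodule.Quotient.mk f₁ : Q.V) ≠ 0 := fun h =>
      hf₁ ((Submodule.Quotient.mk_eq_zero _).1 h)
    obtain ⟨q, -, hq, hqinv⟩ := exists_ne_zero_mem_invariants_of_isPGroup p hG Q hQp ⊤
      (fun _ _ _ => Submodule.mem_top) _ Submodule.mem_top hq0
    obtain ⟨f₀, rfl⟩ := Submodule.Quotient.mk_surjective _ q
    have hc : ∀ g : G, ∃ v : V.V, Φ.hom v = I.ρ g f₀ - f₀ := by
      intro g
      have h2 := hqinv g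
      rw [hQρ, ← sub_eq_zero, ← Submodule.Quotient.mk_sub, Submodule.Quotient.mk_eq_zero] at h2
      exact h2
    choose c hc using hc
    have hcoc : ∀ g h : G, c (g * h) = V.ρ g (c h) + c g := by
      intro g h
      apply hinj
      rw [map_add, Rep.hom_comm_apply, hc, hc, hc, map_mul, map_sub]
      simp only [Module.End.mul_apply]
      abel
    obtain ⟨v₀, hv₀⟩ := exists_eq_sub_of_isZero_H1 V h1 c hcoc
    have hfinv : ∀ g : G, I.ρ g (f₀ - Φ.hom v₀) = f₀ - Φ.hom v₀ := by
      intro g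
      have h3 : Φ.hom (c g) = Φ.hom (V.ρ g v₀) - Φ.hom v₀ := by rw [hv₀, map_sub]
      rw [hc, Rep.hom_comm_apply] at h3
      rw [map_sub]
      have h4 : I.ρ g f₀ = I.ρ g (Φ.hom v₀) - Φ.hom v₀ + f₀ := by rw [← h3]; abel
      rw [h4]; abel
    have hconst : ∀ x : G, (f₀ - Φ.hom v₀).1 x = (f₀ - Φ.hom v₀).1 1 := by
      intro x
      have h5 := congrArg (fun f : I.V => f.1 1) (hfinv x)
      simp only at h5
      rw [coindBot_ρ_apply, one_mul] at h5
      exact h5
    have hmem : f₀ - Φ.hom v₀ = Φ.hom ((f₀ - Φ.hom v₀).1 1).1 := by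
      apply Subtype.ext
      funext x
      rw [hΦ, hconst x]
      have h6 : V.ρ x ((f₀ - Φ.hom v₀).1 1).1 = ((f₀ - Φ.hom v₀).1 1).1 :=
        ((f₀ - Φ.hom v₀).1 1).2 x
      rw [h6, hπ]
    apply hq
    rw [Submodule.Quotient.mk_eq_zero]
    refine ⟨((f₀ - Φ.hom v₀).1 1).1 + v₀, ?_⟩
    show Φ.hom (((f₀ - Φ.hom v₀).1 1).1 + v₀) = f₀
    rw [map_add, ← hmem]; abel
  -- conclusion
  have hiso : IsIso Φ := by
    have : IsIso ((forget (Rep.{0, 0, 0} k G)).map Φ) := by
      rw [isIso_iff_bijective]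
      exact ⟨hinj, hsurj⟩
    exact isIso_of_reflects_iso Φ (forget (Rep.{0, 0, 0} k G))
  exact (isRelInjective_coindBot W).of_iso (asIso Φ).symm

/-- in a `ZMod p`-vector space every additive subgroup has an additive retraction -/
theorem exists_addMonoidHom_retraction_zmod (p : ℕ) [Fact p.Prime] {M : Type} [AddCommGroup M]
    [Module (ZMod p) M] (W : AddSubgroup M) :
    ∃ π : M →+ M, (∀ m, π m ∈ W) ∧ ∀ w ∈ W, π w = w := by
  obtain ⟨Q, hQ⟩ := Submodule.exists_isCompl (AddSubgroup.toZModSubmodule p W)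
  refine ⟨((AddSubgroup.toZModSubmodule p W).subtype.comp
    (Submodule.projectionOnto _ Q hQ)).toAddMonoidHom, fun m => ?_, fun w hw => ?_⟩
  · exact (Submodule.projectionOnto _ Q hQ m).2
  · exact congrArg Subtype.val (Submodule.projectionOnto_apply_left hQ ⟨w, hw⟩)

/-- a subgroup of an abelian group killed by a prime `p` is a direct summand -/
theorem exists_int_retraction_of_prime_nsmul (p : ℕ) [Fact p.Prime] {M : Type} [AddCommGroup M]
    [inst : Module ℤ M] (hp : ∀ m : M, p • m = 0) (W : Submodule ℤ M) :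
    ∃ π : @LinearMap ℤ ℤ _ _ (RingHom.id ℤ) M M _ _ inst inst,
      (∀ m, π m ∈ W) ∧ ∀ w ∈ W, π w = w := by
  have hinst : inst = AddCommGroup.toIntModule M := Subsingleton.elim _ _
  subst hinst
  let _ : Module (ZMod p) M := AddCommGroup.zmodModule hp
  obtain ⟨π, h1, h2⟩ := exists_addMonoidHom_retraction_zmod p W.toAddSubgroup
  exact ⟨π.toIntLinearMap, h1, h2⟩

/-- The coefficient ring `k` has `p`-retractions: in every `k`-module killed by `p`, every
submodule is a direct summand.  True for `k = ℤ` (`hasPRetractions_int`). -/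
def HasPRetractions (k : Type) [CommRing k] (p : ℕ) : Prop :=
  ∀ (M : Type) [AddCommGroup M] [Module k M], (∀ m : M, p • m = 0) → ∀ W : Submodule k M,
    ∃ π : M →ₗ[k] W, ∀ w : W, π w.1 = w

theorem hasPRetractions_int (p : ℕ) [Fact p.Prime] : HasPRetractions ℤ p :=
  fun M _ inst hp W => by
    obtain ⟨π, h1, h2⟩ := @exists_int_retraction_of_prime_nsmul p _ M _ inst hp W
    exact ⟨π.codRestrict W h1, fun w => Subtype.ext (h2 w.1 w.2)⟩

/-- **Serre, LF IX Thm 5, degree 1**: a module `V` killed by `p` over a finite `p`-group with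
`H¹(G, V) = 0` is relatively injective. -/
theorem isRelInjective_of_isPGroup_of_H1 (p : ℕ) [Fact p.Prime] (hk : HasPRetractions k p)
    (hG : IsPGroup p G) (V : Rep.{0, 0, 0} k G) (hp : ∀ v : V.V, p • v = 0)
    (h1 : Limits.IsZero (groupCohomology V 1)) : IsRelInjective V := by
  obtain ⟨π, hπ⟩ := hk V.V hp V.ρ.invariants
  exact isRelInjective_of_isPGroup_of_retraction p hG V hp π hπ h1

/-- **Serre, LF IX Thm 5, degree 2**: a module `V` killed by `p` over a finite `p`-group with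
`H²(G, V) = 0` is relatively injective. -/
theorem isRelInjective_of_isPGroup_of_H2 (p : ℕ) [Fact p.Prime] (hk : HasPRetractions k p)
    (hG : IsPGroup p G) (V : Rep.{0, 0, 0} k G) (hp : ∀ v : V.V, p • v = 0)
    (h2 : Limits.IsZero (groupCohomology V 2)) : IsRelInjective V := by
  have hX := dimShift_shortExact V
  have hI : IsRelInjective (dimShift V).X₂ := isRelInjective_coindBot V
  have hp2 : ∀ f : (dimShift V).X₂.V, p • f = 0 := by
    intro f
    apply Subtype.ext
    funext x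
    exact hp (f.1 x)
  have hp3 : ∀ q : (dimShift V).X₃.V, p • q = 0 := by
    intro q
    obtain ⟨f, rfl⟩ := ShortExact.surjective_g hX q
    rw [← map_nsmul, hp2, map_zero]
  have h13 : Limits.IsZero (groupCohomology (dimShift V).X₃ 1) :=
    isZero_H_X₃ hX 1 (hI.isZero_groupCohomology 0) h2
  have hI3 : IsRelInjective (dimShift V).X₃ :=
    isRelInjective_of_isPGroup_of_H1 p hk hG _ hp3 h13
  exact isRelInjective_of_isPGroup_of_H1 p hk hG V hp
    (isZero_H1_X₁_of_tateH0Trivial hX (hI.isZero_groupCohomology 0) hI3.tateH0Trivial)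

end PGroup

end Fermat.Agent.CFT.Coh
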