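import Fermat.Agent.CFT.Coh.Splitting_helper9

/-!
# CFT (C0.3): cohomology of the augmentation ideal and of the splitting module

For a finite group `G` and every subgroup `S`:

* `H¹(S, I_G)` is generated by the class `γ_S` of `s ↦ s - 1` (`exists_zsmul_augH1Class`) and
  `H²(S, I_G) = 0` (`isZero_H2_augRep`);
* `δ(γ_S) = res_S [f]` for the splitting sequence `0 ⟶ C ⟶ C(f) ⟶ I_G ⟶ 0`
  (`δ_splitSeqRes_augH1Class`);
* if `f` is a fundamental cocycle (`IsFundamentalCocycle C f`), then
  `H¹(S, C(f)) = H²(S, C(f)) = 0` for all `S` and hence `Ĥ⁰(G, C(f)) = Ĥ⁻¹(G, C(f)) = 0`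
  (`isZero_H1_splitRep`, `isZero_H2_splitRep`, `tateTrivial_splitRep`).
-/

open CategoryTheory groupCohomology Rep

namespace Fermat.Agent.CFT.Coh

section AugCoh

variable {G : Type} [Group G] [Finite G] (S : Subgroup G)

/-- `H¹(S, ℤ) = 0` for a finite group `S`. -/
lemma isZero_H1_trivial_int : Limits.IsZero (groupCohomology (res S.subtype (Rep.trivial ℤ G ℤ)) 1) := by
  apply isZero_of_h1Vanishes
  intro c hc
  refine ⟨0, fun s => ?_⟩
  have hc' : ∀ s t : S, c (s * t) = c t + c s := hc
  have hpow : ∀ (s : S) (n : ℕ), c (s ^ n) = n • c s := by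
    intro s n
    induction n with
    | zero =>
      have := hc' 1 1
      rw [mul_one] at this
      simp only [pow_zero, zero_smul]
      linarith
    | succ n ih => rw [pow_succ, hc', ih, succ_nsmul, add_comm]
  have h1 : c 1 = 0 := by simpa using hpow 1 0
  have := hpow s (Nat.card S)
  rw [pow_card_eq_one', h1] at this
  have hpos : 0 < Nat.card S := Nat.card_pos
  have h2 : c s = 0 := by
    rcases smul_eq_zero.1 this.symm with h | h
    · omega
    · exact h
  rw [h2]; simp

/-- The augmentation sequence restricted to `S`. -/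
noncomputable abbrev augSeqRes : ShortComplex (Rep.{0, 0, 0} ℤ S) :=
  (augSeq ℤ G).map (resFunctor S.subtype)

lemma augSeqRes_shortExact : (augSeqRes S).ShortExact :=
  shortExact_map_res S.subtype (augSeq_shortExact ℤ G)

/-- The 1-cocycle `s ↦ s - 1` of `S` with values in `I_G`. -/
noncomputable def augCocycle : cocycles₁ (res S.subtype (augRep ℤ G)) :=
  ⟨fun s => augGen (s : G), by
    rw [mem_cocycles₁_iff]
    intro s t
    show augGen ((s : G) * (t : G)) = (augRep ℤ G).ρ (s : G) (augGen (t : G)) + augGen (s : G)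
    rw [augRep_ρ_augGen, sub_add_cancel]⟩

lemma augCocycle_apply (s : S) : augCocycle S s = augGen (s : G) := rfl

/-- The class `γ_S = δ(1) ∈ H¹(S, I_G)`. -/
noncomputable def augH1Class : groupCohomology (res S.subtype (augRep ℤ G)) 1 :=
  H1π _ (augCocycle S)

/-- `1 ∈ H⁰(S, ℤ)`. -/
noncomputable def oneInv : (res S.subtype (Rep.trivial ℤ G ℤ)).ρ.invariants :=
  ⟨(1 : ℤ), fun _ => rfl⟩

open Classical in
lemma δ_augSeqRes_one :
    (δ (augSeqRes_shortExact S) 0 1 rfl).hom ((H0Iso (augSeqRes S).X₃).inv (oneInv S)) =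
      augH1Class S := by
  have := δ₀_apply (augSeqRes_shortExact S) (oneInv S) (Pi.single 1 1 : G → ℤ)
    (augLin_single (1 : G) (1 : ℤ)) (fun s => augGen (s : G)) (by
      funext s
      show ((augGen (s : G) : (augRep ℤ G).V) : G → ℤ) =
        (funRep ℤ G).ρ (s : G) (Pi.single 1 1) - Pi.single 1 1
      rw [funRep_ρ_single, mul_one, augGen_coe])
  exact this

/-- `H¹(S, I_G)` is generated by `γ_S`. -/
lemma exists_zsmul_augH1Class (w : groupCohomology (res S.subtype (augRep ℤ G)) 1) :
    ∃ m : ℤ, w = m • augH1Class S := by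
  have hepi : Epi (δ (augSeqRes_shortExact S) 0 1 rfl) :=
    epi_δ_of_isZero (augSeqRes_shortExact S) 0
      (((isRelInjective_funRep (k := ℤ) (G := G)).res_subgroup S).isZero_groupCohomology 0)
  obtain ⟨z, rfl⟩ := (ModuleCat.epi_iff_surjective _).1 hepi w
  obtain ⟨z', rfl⟩ : ∃ z', (H0Iso (augSeqRes S).X₃).inv z' = z :=
    ⟨(H0Iso (augSeqRes S).X₃).hom z, by simp⟩
  obtain ⟨m, hm⟩ : ∃ m : ℤ, z' = m • oneInv S := by
    refine ⟨(show ℤ from z'.1), ?_⟩
    apply Subtype.ext
    show (show ℤ from z'.1) = (show ℤ from z'.1) • (1 : ℤ)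
    simp
  refine ⟨m, ?_⟩
  rw [← δ_augSeqRes_one, hm]
  erw [map_zsmul, map_zsmul]
  rfl

/-- `H²(S, I_G) = 0`. -/
lemma isZero_H2_augRep : Limits.IsZero (groupCohomology (res S.subtype (augRep ℤ G)) 2) := by
  have hex := mapShortComplex₁_exact (augSeqRes_shortExact S) (i := 1) (j := 2) rfl
  refine hex.isZero_X₂ ?_ ?_
  · exact (isZero_H1_trivial_int S).eq_of_src _ _
  · exact (((isRelInjective_funRep (k := ℤ) (G := G)).res_subgroup S).isZero_groupCohomology
      1).eq_of_tgt _ _

end AugCoh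


section SplitCoh

variable {G : Type} [Group G] [Finite G] (C : Rep.{0, 0, 0} ℤ G) (f : cocycles₂ C)
  (S : Subgroup G)

/-- The splitting sequence restricted to `S`. -/
noncomputable abbrev splitSeqRes : ShortComplex (Rep.{0, 0, 0} ℤ S) :=
  (splitSeq C f).map (resFunctor S.subtype)

lemma splitSeqRes_shortExact : (splitSeqRes C f S).ShortExact :=
  shortExact_map_res S.subtype (splitSeq_shortExact C f)

/-- The restriction of the cocycle `f` to `S`. -/
noncomputable def resCocycle : cocycles₂ (res S.subtype C) :=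
  mapCocycles₂ S.subtype (𝟙 (res S.subtype C)) f

omit [Finite G] in
lemma resCocycle_apply (s t : S) : resCocycle C f S (s, t) = f ((s : G), (t : G)) :=
  mapCocycles₂_res_apply C S f s t

omit [Finite G] in
/-- The class `res_S [f] ∈ H²(S, C)`. -/
lemma resMap_H2π : (resMap S C 2).hom (H2π C f) = H2π _ (resCocycle C f S) :=
  H2res_H2π C S f

/-- `δ(γ_S) = res_S [f]`. -/
lemma δ_splitSeqRes_augH1Class :
    (δ (splitSeqRes_shortExact C f S) 1 2 rfl).hom (augH1Class S) =
      H2π _ (resCocycle C f S) := by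
  have := δ₁_apply (splitSeqRes_shortExact C f S) (augCocycle S)
    (fun s => splitGen C f (s : G)) (by
      funext s
      rfl) (fun st => f ((st.1 : G), (st.2 : G))) (by
      funext ⟨s, t⟩
      show (splitIncl C f).hom (f ((s : G), (t : G))) =
        (splitRep C f).ρ (s : G) (splitGen C f (t : G)) - splitGen C f ((s : G) * (t : G)) +
          splitGen C f (s : G)
      rw [splitRep_ρ_splitGen]
      abel)
  rw [augH1Class]
  refine this.trans ?_
  congr 1

/-- `f` is a *fundamental cocycle*: for every subgroup `S`, `H¹(S, C) = 0` and `H²(S, C)` is cyclic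
of order `|S|`, generated by `res_S [f]`. -/
structure IsFundamentalCocycle : Prop where
  h1 : ∀ S : Subgroup G, Limits.IsZero (groupCohomology (res S.subtype C) 1)
  gen : ∀ (S : Subgroup G) (x : groupCohomology (res S.subtype C) 2),
    ∃ m : ℤ, x = m • H2π _ (resCocycle C f S)
  ord : ∀ (S : Subgroup G) (m : ℤ), m • H2π _ (resCocycle C f S) = 0 → (Nat.card S : ℤ) ∣ m

variable {C f}

/-- `H²(S, C(f)) = 0`. -/
theorem isZero_H2_splitRep (hf : IsFundamentalCocycle C f) :
    Limits.IsZero (groupCohomology (res S.subtype (splitRep C f)) 2) := by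
  have hX := splitSeqRes_shortExact C f S
  rw [ModuleCat.isZero_iff_subsingleton]
  refine ⟨fun a b => ?_⟩
  suffices h0 : ∀ y : groupCohomology (res S.subtype (splitRep C f)) 2, y = 0 by
    rw [h0 a, h0 b]
  intro y
  -- exactness of `H²(S, C) ⟶ H²(S, C(f)) ⟶ H²(S, I_G) = 0`
  obtain ⟨c, rfl⟩ := (ShortComplex.moduleCat_exact_iff _).1
    (mapShortComplex₂_exact hX 2) y
    (@Subsingleton.elim _ (ModuleCat.subsingleton_of_isZero (isZero_H2_augRep S)) _ _)
  obtain ⟨m, hm⟩ := hf.gen S c
  -- `c = δ (m γ_S)`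
  have hc : c = (δ hX 1 2 rfl).hom (m • augH1Class S) :=
    hm.trans ((congrArg (fun z => m • z) (δ_splitSeqRes_augH1Class C f S).symm).trans
      (map_zsmul (δ hX 1 2 rfl).hom m (augH1Class S)).symm)
  -- the composite `H¹(S, I_G) ⟶ H²(S, C) ⟶ H²(S, C(f))` is zero
  have hz := (mapShortComplex₁ hX (i := 1) (j := 2) rfl).zero
  have h3 := congrArg (fun φ => φ.hom (m • augH1Class S)) hz
  rw [hc]
  exact h3

/-- `H¹(S, C(f)) = 0`. -/
theorem isZero_H1_splitRep (hf : IsFundamentalCocycle C f) :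
    Limits.IsZero (groupCohomology (res S.subtype (splitRep C f)) 1) := by
  have hX := splitSeqRes_shortExact C f S
  rw [ModuleCat.isZero_iff_subsingleton]
  refine ⟨fun a b => ?_⟩
  suffices h0 : ∀ y : groupCohomology (res S.subtype (splitRep C f)) 1, y = 0 by
    rw [h0 a, h0 b]
  intro y
  -- the image `w` of `y` in `H¹(S, I_G)` is a multiple of `γ_S`, killed by `δ`
  obtain ⟨m, hm⟩ := exists_zsmul_augH1Class S
    (((mapShortComplex₂ (splitSeqRes C f S) 1).g).hom y)
  have hz := (mapShortComplex₃ hX (i := 1) (j := 2) rfl).zero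
  have h1 : (δ hX 1 2 rfl).hom (((mapShortComplex₂ (splitSeqRes C f S) 1).g).hom y) = 0 :=
    congrArg (fun φ => φ.hom y) hz
  have h1' : m • H2π _ (resCocycle C f S) = 0 := by
    rw [← δ_splitSeqRes_augH1Class]
    exact ((map_zsmul (δ hX 1 2 rfl).hom m (augH1Class S)).symm.trans
      (congrArg (δ hX 1 2 rfl).hom hm.symm)).trans h1
  obtain ⟨d, rfl⟩ := hf.ord S m h1'
  have h2 : ((mapShortComplex₂ (splitSeqRes C f S) 1).g).hom y = 0 := by
    rw [hm, mul_smul, natCast_zsmul]
    exact card_nsmul_groupCohomology_eq_zero (res S.subtype (augRep ℤ G)) 0 (d • augH1Class S)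
  -- exactness of `H¹(S, C) = 0 ⟶ H¹(S, C(f)) ⟶ H¹(S, I_G)`
  obtain ⟨c, rfl⟩ := (ShortComplex.moduleCat_exact_iff _).1 (mapShortComplex₂_exact hX 1) y h2
  have hc : c = 0 := @Subsingleton.elim _ (ModuleCat.subsingleton_of_isZero (hf.h1 S)) _ _
  rw [hc, map_zero]
  rfl

/-- The splitting module of a fundamental cocycle has trivial Tate cohomology in degrees `0, -1`. -/
theorem tateTrivial_splitRep (hf : IsFundamentalCocycle C f) :
    TateH0Trivial (splitRep C f) ∧ TateHm1Trivial (splitRep C f) :=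
  tateTrivial_of_subgroups _ fun S => ⟨isZero_H1_splitRep S hf, isZero_H2_splitRep S hf⟩

end SplitCoh

end Fermat.Agent.CFT.Coh
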