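/-
S55 / CFT (PT5/PT8 interface) — helper4.
`p`-primary fundamental classes: the finite-level hypothesis of the abstract theorem
"levels ⇒ `PClassFormation`".
-/
import Fermat.Agent.CFT.Coh.H2InfRes_helper9
import Fermat.Agent.CFT.Coh.SplittingCoh_helper9

set_option autoImplicit false
set_option linter.unusedSectionVars false

open CategoryTheory groupCohomology Rep

namespace Fermat.Agent.CFT.Coh

/-- `γ ∈ H²(G, A)` is a `p`-primary fundamental class: for every subgroup `S` of `G`,
`H¹(S, A)[p] = 0` and the `p`-primary part of `H²(S, A)` is cyclic, generated by (the `p`-part of)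
`res_S γ`, whose order is divisible by the `p`-part of `|S|`. -/
structure IsPFundamental (p : ℕ) {G : Type} [Group G] (A : Rep.{0} ℤ G)
    (γ : groupCohomology A 2) : Prop where
  h1 : ∀ (S : Subgroup G) (x : groupCohomology (res S.subtype A) 1), p • x = 0 → x = 0
  gen : ∀ (S : Subgroup G) (x : groupCohomology (res S.subtype A) 2),
    (∃ k : ℕ, p ^ k • x = 0) → ∃ m : ℤ, x = m • (H2res A S).hom γ
  ord : ∀ (S : Subgroup G) (m : ℤ), m • (H2res A S).hom γ = 0 →
    ((p ^ (Nat.card S).factorization p : ℕ) : ℤ) ∣ m

/-- A fundamental cocycle gives a `p`-primary fundamental class for every prime `p`. -/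
theorem IsFundamentalCocycle.isPFundamental {G : Type} [Group G] [Finite G] {A : Rep.{0} ℤ G}
    {f : cocycles₂ A} (hf : IsFundamentalCocycle A f) (p : ℕ) :
    IsPFundamental p A ((H2π A).hom f) := by
  refine ⟨?_, ?_, ?_⟩
  · intro S x _
    exact (ModuleCat.isZero_iff_subsingleton.1 (hf.h1 S)).elim _ _
  · intro S x _
    obtain ⟨m, hm⟩ := hf.gen S x
    refine ⟨m, ?_⟩
    rw [hm]
    congr 1
    exact (H2res_H2π A S f).symm
  · intro S m hm
    have h := hf.ord S m (by
      have e : (H2res A S).hom ((H2π A).hom f) = (H2π _).hom (resCocycle A f S) :=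
        H2res_H2π A S f
      rw [← e]
      exact hm)
    refine dvd_trans ?_ h
    exact_mod_cast Nat.ordProj_dvd (Nat.card S) p

end Fermat.Agent.CFT.Coh
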