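import Fermat.Agent.CFT.Coh.LES_helper9

/-!
# CFT (C0.1): cyclic groups — the connecting map `Ĥ⁰(C) → Ĥ⁻¹(A)` and the exact hexagon

For a finite cyclic group `G = ⟨g⟩` and a short exact sequence `0 → A → B → C → 0` of
representations we construct `deltaH0 : Ĥ⁰(C) → Ĥ⁻¹(A)` and prove exactness of
`Ĥ⁰(B) → Ĥ⁰(C) → Ĥ⁻¹(A) → Ĥ⁻¹(B)`; together with `LES_helper9` this is the exact hexagon.
-/

set_option autoImplicit false

open CategoryTheory

namespace Fermat.Agent.CFT.Coh

section Generator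

variable {k G : Type} [CommRing k] [Group G]

/-- For a generator `g` of `G`, a vector is invariant iff it is fixed by `g`. -/
lemma mem_invariants_iff_of_generator {g : G} (hg : ∀ x, x ∈ Subgroup.zpowers g) (A : Rep k G)
    (a : A.V) : a ∈ A.ρ.invariants ↔ A.ρ g a = a := by
  refine ⟨fun h => h g, fun h x => ?_⟩
  let S : Subgroup G :=
    { carrier := {y | A.ρ y a = a}
      one_mem' := by simp
      mul_mem' := by
        intro y z hy hz
        simp only [Set.mem_ofPred_eq, map_mul, Module.End.mul_apply] at hy hz ⊢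
        rw [hz, hy]
      inv_mem' := by
        intro y hy
        simp only [Set.mem_ofPred_eq] at hy ⊢
        conv_lhs => rw [← hy]
        rw [← Module.End.mul_apply, ← map_mul, inv_mul_cancel, map_one, Module.End.one_apply] }
  have hgS : g ∈ S := h
  exact (Subgroup.zpowers_le.mpr hgS) (hg x)

/-- For a generator `g` of `G`, `I_G A = (g - 1) A`. -/
lemma coinvariantsKer_eq_range_sub {g : G} (hg : ∀ x, x ∈ Subgroup.zpowers g) (A : Rep k G) :
    Representation.Coinvariants.ker A.ρ = LinearMap.range (A.ρ g - 1) := by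
  apply le_antisymm
  · rw [Representation.Coinvariants.ker, Submodule.span_le]
    rintro _ ⟨⟨x, a⟩, rfl⟩
    let S : Subgroup G :=
      { carrier := {y | ∀ a : A.V, A.ρ y a - a ∈ LinearMap.range (A.ρ g - 1)}
        one_mem' := by
          intro a
          simp
        mul_mem' := by
          intro y z hy hz a
          have : A.ρ (y * z) a - a = (A.ρ y (A.ρ z a) - A.ρ z a) + (A.ρ z a - a) := by
            rw [map_mul, Module.End.mul_apply]
            abel
          rw [this]
          exact Submodule.add_mem _ (hy _) (hz _)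
        inv_mem' := by
          intro y hy a
          have : A.ρ y⁻¹ a - a = -(A.ρ y (A.ρ y⁻¹ a) - A.ρ y⁻¹ a) := by
            rw [← Module.End.mul_apply, ← map_mul, mul_inv_cancel, map_one, Module.End.one_apply]
            abel
          rw [this]
          exact Submodule.neg_mem _ (hy _) }
    have hgS : g ∈ S := fun a => ⟨a, rfl⟩
    exact (Subgroup.zpowers_le.mpr hgS) (hg x) a
  · rintro _ ⟨a, rfl⟩
    exact Representation.Coinvariants.sub_mem_ker g a

end Generator

section Snake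

variable {k G : Type} [CommRing k] [Group G] [Finite G]

/-- `g - 1` as a map `A → ker N`. -/
noncomputable def subOneKer (g : G) (A : Rep k G) : A.V →ₗ[k] LinearMap.ker (normMap A) :=
  (A.ρ g - 1).codRestrict _ fun a => by
    rw [LinearMap.mem_ker, LinearMap.sub_apply, map_sub, normMap_ρ, Module.End.one_apply, sub_self]

@[simp] lemma coe_subOneKer (g : G) (A : Rep k G) (a : A.V) :
    (subOneKer g A a : A.V) = A.ρ g a - a := rfl

lemma subtype_exact_subOneKer {g : G} (hg : ∀ x, x ∈ Subgroup.zpowers g) (A : Rep k G) :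
    Function.Exact A.ρ.invariants.subtype (subOneKer g A) := by
  intro a
  constructor
  · intro ha
    have h1 : A.ρ g a - a = 0 := congrArg Subtype.val ha
    exact ⟨⟨a, (mem_invariants_iff_of_generator hg A a).mpr (sub_eq_zero.mp h1)⟩, rfl⟩
  · rintro ⟨a, rfl⟩
    apply Subtype.ext
    rw [coe_subOneKer]
    exact sub_eq_zero.mpr (a.2 g)

lemma subOneKer_exact_mk {g : G} (hg : ∀ x, x ∈ Subgroup.zpowers g) (A : Rep k G) :
    Function.Exact (subOneKer g A) (TateHm1.mk A) := by
  intro x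
  rw [TateHm1.mk_eq_zero_iff, coinvariantsKer_eq_range_sub hg]
  constructor
  · rintro ⟨a, ha⟩
    exact ⟨a, Subtype.ext ha⟩
  · rintro ⟨a, rfl⟩
    exact ⟨a, rfl⟩

lemma kerNormMap_comp_subOneKer (g : G) {A B : Rep k G} (φ : A ⟶ B) :
    (kerNormMap φ).comp (subOneKer g A) = (subOneKer g B).comp φ.hom.toLinearMap := by
  ext a
  show φ.hom (A.ρ g a - a) = B.ρ g (φ.hom a) - φ.hom a
  rw [map_sub, Rep.hom_comm_apply]

variable {X : ShortComplex (Rep k G)} (hX : X.ShortExact)

include hX in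
lemma kerNormMap_exact : Function.Exact (kerNormMap X.f) (kerNormMap X.g) := by
  intro b
  constructor
  · intro hb
    have hb' : X.g.hom (b : X.X₂.V) = 0 := congrArg Subtype.val hb
    obtain ⟨a, ha⟩ := ShortExact.exists_of_g_eq_zero hX hb'
    have haker : a ∈ LinearMap.ker (normMap X.X₁) := by
      rw [LinearMap.mem_ker]
      apply ShortExact.injective_f hX
      rw [hom_normMap, ha, LinearMap.mem_ker.1 b.2, map_zero]
    exact ⟨⟨a, haker⟩, Subtype.ext ha⟩
  · rintro ⟨a, rfl⟩
    exact Subtype.ext (ShortExact.g_f_apply hX a.1)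

include hX in
lemma kerNormMap_f_injective : Function.Injective (kerNormMap X.f) := by
  intro a a' h
  exact Subtype.ext (ShortExact.injective_f hX (congrArg Subtype.val h))

variable {g : G} (hg : ∀ x, x ∈ Subgroup.zpowers g)

/-- The snake-lemma connecting map on `C^G`. -/
noncomputable def deltaH0Aux : X.X₃.ρ.invariants →ₗ[k] TateHm1 X.X₁ :=
  SnakeLemma.δ' (subOneKer g X.X₁) (subOneKer g X.X₂) (subOneKer g X.X₃)
    X.f.hom.toLinearMap X.g.hom.toLinearMap (ShortExact.function_exact hX)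
    (kerNormMap X.f) (kerNormMap X.g) (kerNormMap_exact hX)
    (kerNormMap_comp_subOneKer g X.f) (kerNormMap_comp_subOneKer g X.g)
    X.X₃.ρ.invariants.subtype (subtype_exact_subOneKer hg X.X₃)
    (TateHm1.mk X.X₁) (subOneKer_exact_mk hg X.X₁)
    (ShortExact.surjective_g hX) (kerNormMap_f_injective hX)

/-- Characterisation of the connecting map: if `b` lifts `c` and `f a = g b - b` then
`δ c = [a]`. -/
lemma deltaH0Aux_eq (c : X.X₃.ρ.invariants) (b : X.X₂.V) (hb : X.g.hom b = c)
    (a : LinearMap.ker (normMap X.X₁)) (ha : X.f.hom (a : X.X₁.V) = X.X₂.ρ g b - b) :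
    deltaH0Aux hX hg c = TateHm1.mk X.X₁ a :=
  SnakeLemma.δ'_eq _ _ _ _ _ _ _ _ _ _ _ _ _ _ _ _ _ c b hb a (Subtype.ext ha)

/-- The connecting homomorphism `Ĥ⁰(G, C) → Ĥ⁻¹(G, A)` of a short exact sequence
`0 → A → B → C → 0` for a cyclic group `G = ⟨g⟩`: for `c ∈ C^G` choose a lift `b`; then
`g b - b = f a` with `a ∈ ker N_A`. -/
noncomputable def deltaH0 : TateH0 X.X₃ →ₗ[k] TateHm1 X.X₁ :=
  Submodule.liftQ _ (deltaH0Aux hX hg) <| by
    rintro _ ⟨c, rfl⟩
    obtain ⟨b, rfl⟩ := ShortExact.surjective_g hX c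
    rw [LinearMap.mem_ker, deltaH0Aux_eq hX hg _ (normMap X.X₂ b) _ 0]
    · simp
    · simp
    · rw [coe_normInv, hom_normMap]

lemma deltaH0_mk (c : X.X₃.ρ.invariants) :
    deltaH0 hX hg (TateH0.mk X.X₃ c) = deltaH0Aux hX hg c := rfl

/-- Characterisation of the connecting map: if `b` lifts `c` and `f a = g b - b` then
`δ [c] = [a]`. -/
lemma deltaH0_eq (c : X.X₃.ρ.invariants) (b : X.X₂.V) (hb : X.g.hom b = c)
    (a : LinearMap.ker (normMap X.X₁)) (ha : X.f.hom (a : X.X₁.V) = X.X₂.ρ g b - b) :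
    deltaH0 hX hg (TateH0.mk X.X₃ c) = TateHm1.mk X.X₁ a :=
  deltaH0Aux_eq hX hg c b hb a ha

theorem tateH0_exact_delta : Function.Exact (TateH0.map X.g) (deltaH0 hX hg) := by
  have hex : Function.Exact (invMap X.g) (deltaH0Aux hX hg) :=
    SnakeLemma.exact_δ'_right (subOneKer g X.X₁) (subOneKer g X.X₂) (subOneKer g X.X₃)
      X.f.hom.toLinearMap X.g.hom.toLinearMap (ShortExact.function_exact hX)
      (kerNormMap X.f) (kerNormMap X.g) (kerNormMap_exact hX)
      (kerNormMap_comp_subOneKer g X.f) (kerNormMap_comp_subOneKer g X.g)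
      X.X₂.ρ.invariants.subtype (subtype_exact_subOneKer hg X.X₂)
      X.X₃.ρ.invariants.subtype (subtype_exact_subOneKer hg X.X₃)
      (TateHm1.mk X.X₁) (subOneKer_exact_mk hg X.X₁)
      (ShortExact.surjective_g hX) (kerNormMap_f_injective hX)
      (invMap X.g) (by ext b; rfl) Subtype.val_injective
  intro y
  obtain ⟨c, rfl⟩ := TateH0.mk_surjective _ y
  rw [deltaH0_mk, hex c]
  constructor
  · rintro ⟨b, rfl⟩
    exact ⟨TateH0.mk _ b, rfl⟩
  · rintro ⟨x, hx⟩
    obtain ⟨b, rfl⟩ := TateH0.mk_surjective _ x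
    rw [TateH0.map_mk, TateH0.mk_eq_mk_iff] at hx
    obtain ⟨c', hc'⟩ := hx
    obtain ⟨b', rfl⟩ := ShortExact.surjective_g hX c'
    refine ⟨b - normInv X.X₂ b', Subtype.ext ?_⟩
    simp only [map_sub, coe_invMap, AddSubgroupClass.coe_sub, coe_normInv] at hc' ⊢
    rw [hom_normMap, hc']
    abel

theorem deltaH0_exact_tateHm1 : Function.Exact (deltaH0 hX hg) (TateHm1.map X.f) := by
  have hex : Function.Exact (deltaH0Aux hX hg) (TateHm1.map X.f) :=
    SnakeLemma.exact_δ'_left (subOneKer g X.X₁) (subOneKer g X.X₂) (subOneKer g X.X₃)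
      X.f.hom.toLinearMap X.g.hom.toLinearMap (ShortExact.function_exact hX)
      (kerNormMap X.f) (kerNormMap X.g) (kerNormMap_exact hX)
      (kerNormMap_comp_subOneKer g X.f) (kerNormMap_comp_subOneKer g X.g)
      X.X₃.ρ.invariants.subtype (subtype_exact_subOneKer hg X.X₃)
      (TateHm1.mk X.X₁) (subOneKer_exact_mk hg X.X₁)
      (TateHm1.mk X.X₂) (subOneKer_exact_mk hg X.X₂)
      (ShortExact.surjective_g hX) (kerNormMap_f_injective hX)
      (TateHm1.map X.f) (by ext a; rfl) (TateHm1.mk_surjective _)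
  intro y
  rw [hex y]
  constructor
  · rintro ⟨c, rfl⟩
    exact ⟨TateH0.mk _ c, rfl⟩
  · rintro ⟨x, rfl⟩
    obtain ⟨c, rfl⟩ := TateH0.mk_surjective _ x
    exact ⟨c, rfl⟩

end Snake

end Fermat.Agent.CFT.Coh
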