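import Fermat.Agent.CFT.Coh.H2InfRes_helper9
import Fermat.Agent.CFT.Coh.LES_helper9

/-!
# CFT (C0.3): the triviality lemma for Tate's theorem

If `H¹(S, M) = H²(S, M) = 0` for all subgroups `S` of a finite group `G`, then
`Ĥ⁰(G, M) = Ĥ⁻¹(G, M) = 0` (`tateTrivial_of_subgroups`, `tateTrivial_of_H12Vanish`).

Ingredients: norm transitivity via coset representatives (`normMap_eq_sum_out`,
`normMap_eq_normMap_sum_out_inv`), the cyclic case (Mathlib's periodicity), gluing along a normal
subgroup (`tateH0Trivial_of_normal`, `tateHm1Trivial_of_normal`), induction on `p`-groups and a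
Sylow argument (`tateH0Trivial_of_sylow`, `tateHm1Trivial_of_sylow`).
-/

open CategoryTheory groupCohomology Rep

namespace Fermat.Agent.CFT.Coh

variable {k G : Type} [CommRing k] [Group G]

/-- `(q, s) ↦ q.out * s` as an equivalence `(G ⧸ S) × S ≃ G`. -/
noncomputable def quotProdEquiv (S : Subgroup G) : (G ⧸ S) × S ≃ G where
  toFun x := x.1.out * x.2
  invFun g := ((g : G ⧸ S), ⟨(g : G ⧸ S).out⁻¹ * g, by
    rw [← QuotientGroup.eq]; exact QuotientGroup.out_eq' _⟩)
  left_inv := by
    rintro ⟨q, s⟩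
    have h : ((q.out * (s : G) : G) : G ⧸ S) = q := by
      rw [QuotientGroup.mk_mul_of_mem _ s.2]; exact QuotientGroup.out_eq' _
    ext
    · exact h
    · simp only [h]; simp
  right_inv g := by simp

variable [Finite G]

omit [Finite G] in
lemma res_ρ_apply {H : Type} [Group H] (i : H →* G) (A : Rep k G) (h : H) (a : A.V) :
    (res i A).ρ h a = A.ρ (i h) a := rfl

lemma normMap_eq_sum_out (S : Subgroup G) (A : Rep k G) [Fintype (G ⧸ S)] (a : A.V) :
    normMap A a = ∑ q : G ⧸ S, A.ρ q.out (normMap (res S.subtype A) a) := by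
  classical
  let _ := Fintype.ofFinite G
  let _ := Fintype.ofFinite S
  rw [normMap_apply, ← (quotProdEquiv S).sum_comp, Fintype.sum_prod_type]
  refine Finset.sum_congr rfl fun q _ => ?_
  rw [normMap_apply, map_sum]
  refine Finset.sum_congr rfl fun s _ => ?_
  show A.ρ (q.out * s) a = A.ρ q.out (A.ρ s a)
  rw [map_mul]; rfl

lemma normMap_eq_normMap_sum_out_inv (S : Subgroup G) (A : Rep k G) [Fintype (G ⧸ S)] (a : A.V) :
    normMap A a = normMap (res S.subtype A) (∑ q : G ⧸ S, A.ρ (q.out)⁻¹ a) := by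
  classical
  let _ := Fintype.ofFinite G
  let _ := Fintype.ofFinite S
  have hR : normMap (res S.subtype A) (∑ q : G ⧸ S, A.ρ (q.out)⁻¹ a) =
      ∑ s : S, A.ρ ((s⁻¹ : S) : G) (∑ q : G ⧸ S, A.ρ (q.out)⁻¹ a) := by
    rw [normMap_apply, ← Equiv.sum_comp (Equiv.inv S)]
    rfl
  rw [hR, normMap_apply, ← Equiv.sum_comp (Equiv.inv G), ← (quotProdEquiv S).sum_comp,
    Fintype.sum_prod_type, Finset.sum_comm]
  refine Finset.sum_congr rfl fun s _ => ?_
  rw [map_sum]
  refine Finset.sum_congr rfl fun q _ => ?_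
  show A.ρ ((q.out * s)⁻¹) a = A.ρ ((s⁻¹ : S) : G) (A.ρ q.out⁻¹ a)
  rw [mul_inv_rev, map_mul]; rfl


/-- `Ĥ⁰(G, M) = 0`, concretely. -/
def TateH0Trivial (M : Rep.{0, 0, 0} k G) : Prop := ∀ m ∈ M.ρ.invariants, ∃ b, normMap M b = m

/-- `Ĥ⁻¹(G, M) = 0`, concretely. -/
def TateHm1Trivial (M : Rep.{0, 0, 0} k G) : Prop :=
  ∀ m, normMap M m = 0 → m ∈ Representation.Coinvariants.ker M.ρ

lemma tateH0Trivial_iff (M : Rep.{0, 0, 0} k G) : TateH0Trivial M ↔ Subsingleton (TateH0 M) := by
  constructor
  · intro h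
    refine ⟨fun x y => ?_⟩
    suffices h0 : ∀ x : TateH0 M, x = 0 by rw [h0 x, h0 y]
    intro x
    obtain ⟨⟨m, hm⟩, rfl⟩ := TateH0.mk_surjective M x
    rw [TateH0.mk_eq_zero_iff]
    exact h m hm
  · intro h m hm
    exact (TateH0.mk_eq_zero_iff M ⟨m, hm⟩).1 (Subsingleton.elim _ _)

lemma tateHm1Trivial_iff (M : Rep.{0, 0, 0} k G) : TateHm1Trivial M ↔ Subsingleton (TateHm1 M) := by
  constructor
  · intro h
    refine ⟨fun x y => ?_⟩
    suffices h0 : ∀ x : TateHm1 M, x = 0 by rw [h0 x, h0 y]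
    intro x
    obtain ⟨⟨m, hm⟩, rfl⟩ := TateHm1.mk_surjective M x
    rw [TateHm1.mk_eq_zero_iff]
    exact h m (LinearMap.mem_ker.1 hm)
  · intro h m hm
    exact (TateHm1.mk_eq_zero_iff M ⟨m, LinearMap.mem_ker.2 hm⟩).1 (Subsingleton.elim _ _)

section Cyclic

/-- cyclic case of the triviality lemma, `Ĥ⁰` from `H²`. -/
theorem tateH0Trivial_of_isCyclic [IsCyclic G] (M : Rep k G)
    (h2 : Limits.IsZero (groupCohomology M 2)) : TateH0Trivial M := by
  classical
  obtain ⟨g, hg⟩ := IsCyclic.exists_generator (α := G)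
  let _ : CommGroup G := IsCyclic.commGroup
  let _ := Fintype.ofFinite G
  intro m hm
  have hmem : m ∈ LinearMap.ker (applyAsHom M g - 𝟙 M).hom.toLinearMap := by
    rw [LinearMap.mem_ker]
    show M.ρ g m - m = 0
    rw [hm g, sub_self]
  have := (Rep.FiniteCyclicGroup.groupCohomologyπEven_eq_zero_iff M g hg 2 even_two ⟨m, hmem⟩).1
    (by
      have := ModuleCat.subsingleton_of_isZero h2
      exact Subsingleton.elim _ _)
  obtain ⟨b, hb⟩ := this
  refine ⟨b, ?_⟩
  rw [normMap_eq_norm]
  exact hb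

/-- cyclic case of the triviality lemma, `Ĥ⁻¹` from `H¹`. -/
theorem tateHm1Trivial_of_isCyclic [IsCyclic G] (M : Rep k G)
    (h1 : Limits.IsZero (groupCohomology M 1)) : TateHm1Trivial M := by
  classical
  obtain ⟨g, hg⟩ := IsCyclic.exists_generator (α := G)
  let _ : CommGroup G := IsCyclic.commGroup
  let _ := Fintype.ofFinite G
  intro m hm
  have hmem : m ∈ LinearMap.ker M.norm.hom.toLinearMap := by
    rw [LinearMap.mem_ker]
    rw [normMap_eq_norm] at hm
    exact hm
  have := (Rep.FiniteCyclicGroup.groupCohomologyπOdd_eq_zero_iff M g hg 1 odd_one ⟨m, hmem⟩).1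
    (by
      have := ModuleCat.subsingleton_of_isZero h1
      exact Subsingleton.elim _ _)
  obtain ⟨b, hb⟩ := this
  exact Representation.Coinvariants.mem_ker_of_eq g b m hb

end Cyclic


section Sylow

lemma eq_zero_of_forall_sylow_index_nsmul {X : Type*} [AddMonoid X] (x : X)
    (h : ∀ (p : ℕ) [Fact p.Prime] (P : Sylow p G), (P : Subgroup G).index • x = 0) : x = 0 := by
  by_contra hx
  have hne : addOrderOf x ≠ 1 := fun h1 => hx (AddMonoid.addOrderOf_eq_one_iff.1 h1)
  obtain ⟨q, hq, hqx⟩ := Nat.exists_prime_and_dvd hne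
  have := Fact.mk hq
  obtain ⟨P⟩ : Nonempty (Sylow q G) := inferInstance
  exact P.not_dvd_index (hqx.trans (addOrderOf_dvd_of_nsmul_eq_zero (h q P)))

omit [Finite G] in
lemma coinvariantsKer_res_le {H : Type} [Group H] (i : H →* G) (M : Rep k G) :
    Representation.Coinvariants.ker (res i M).ρ ≤ Representation.Coinvariants.ker M.ρ := by
  rw [Representation.Coinvariants.ker, Submodule.span_le]
  rintro _ ⟨⟨h, a⟩, rfl⟩
  exact Representation.Coinvariants.sub_mem_ker (ρ := M.ρ) (i h) a

theorem tateH0Trivial_of_sylow (M : Rep k G)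
    (h : ∀ (p : ℕ) [Fact p.Prime] (P : Sylow p G),
      TateH0Trivial (res (P : Subgroup G).subtype M)) : TateH0Trivial M := by
  classical
  intro m hm
  rw [← TateH0.mk_eq_zero_iff M ⟨m, hm⟩]
  apply eq_zero_of_forall_sylow_index_nsmul (G := G)
  intro p _ P
  let _ := Fintype.ofFinite (G ⧸ (P : Subgroup G))
  obtain ⟨b, hb⟩ := h p P m (fun s => hm s)
  rw [← map_nsmul, TateH0.mk_eq_zero_iff]
  refine ⟨b, ?_⟩
  rw [normMap_eq_sum_out (P : Subgroup G), hb, Finset.sum_congr rfl fun q _ => hm q.out,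
    Finset.sum_const, Finset.card_univ, Subgroup.index, Nat.card_eq_fintype_card]
  rfl

theorem tateHm1Trivial_of_sylow (M : Rep k G)
    (h : ∀ (p : ℕ) [Fact p.Prime] (P : Sylow p G),
      TateHm1Trivial (res (P : Subgroup G).subtype M)) : TateHm1Trivial M := by
  classical
  intro m hm
  rw [← TateHm1.mk_eq_zero_iff M ⟨m, LinearMap.mem_ker.2 hm⟩]
  apply eq_zero_of_forall_sylow_index_nsmul (G := G)
  intro p _ P
  let _ := Fintype.ofFinite (G ⧸ (P : Subgroup G))
  rw [← map_nsmul, TateHm1.mk_eq_zero_iff]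
  show (P : Subgroup G).index • m ∈ _
  have h1 : (∑ q : G ⧸ (P : Subgroup G), M.ρ (q.out)⁻¹ m) ∈
      Representation.Coinvariants.ker M.ρ := by
    apply coinvariantsKer_res_le (P : Subgroup G).subtype M
    apply h p P
    rw [← normMap_eq_normMap_sum_out_inv, hm]
  have h2 : (∑ q : G ⧸ (P : Subgroup G), M.ρ (q.out)⁻¹ m) - (P : Subgroup G).index • m ∈
      Representation.Coinvariants.ker M.ρ := by
    rw [Subgroup.index, Nat.card_eq_fintype_card, ← Finset.card_univ, ← Finset.sum_const,
      ← Finset.sum_sub_distrib]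
    exact Submodule.sum_mem _ fun q _ => Representation.Coinvariants.sub_mem_ker _ _
  have := Submodule.sub_mem _ h1 h2
  rwa [sub_sub_cancel] at this

end Sylow


section Normal

variable (H : Subgroup G) [H.Normal] (M : Rep.{0, 0, 0} k G)

omit [Finite G] in
lemma quotientToInvariants_ρ_mk (g : G) (y : (M.quotientToInvariants H).V) :
    (((M.quotientToInvariants H).ρ (g : G ⧸ H) y : (M.quotientToInvariants H).V) : M.V) =
      M.ρ g y.1 := rfl

/-- `N_H b` as an element of `M^H`. -/
noncomputable def normToInvariants (b : M.V) : (M.quotientToInvariants H).V :=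
  ⟨normMap (res H.subtype M) b, fun h => ρ_normMap (res H.subtype M) h b⟩

lemma coe_normMap_quotientToInvariants [Fintype (G ⧸ H)] (y : (M.quotientToInvariants H).V) :
    ((normMap (M.quotientToInvariants H) y : (M.quotientToInvariants H).V) : M.V) =
      ∑ q : G ⧸ H, M.ρ q.out y.1 := by
  rw [normMap_apply, AddSubmonoidClass.coe_finsetSum]
  refine Finset.sum_congr rfl fun q _ => ?_
  conv_lhs => rw [← QuotientGroup.out_eq' q]
  rfl

/-- `N_G = N_{G/H} ∘ N_H`. -/
lemma coe_normMap_normToInvariants (b : M.V) :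
    ((normMap (M.quotientToInvariants H) (normToInvariants H M b) :
      (M.quotientToInvariants H).V) : M.V) = normMap M b := by
  classical
  let _ := Fintype.ofFinite (G ⧸ H)
  rw [coe_normMap_quotientToInvariants, normMap_eq_sum_out H]
  rfl

/-- `N_H (g b) = g (N_H b)` for normal `H`. -/
lemma normMap_res_ρ (g : G) (b : M.V) :
    normMap (res H.subtype M) (M.ρ g b) = M.ρ g (normMap (res H.subtype M) b) := by
  classical
  let _ := Fintype.ofFinite H
  rw [normMap_apply, normMap_apply, map_sum]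
  refine Fintype.sum_equiv (MulAut.conjNormal g⁻¹ : H ≃* H).toEquiv _ _ fun h => ?_
  show M.ρ (h : G) (M.ρ g b) = M.ρ g (M.ρ ((MulAut.conjNormal g⁻¹ h : H) : G) b)
  rw [MulAut.conjNormal_apply, ← Module.End.mul_apply, ← Module.End.mul_apply, ← map_mul,
    ← map_mul]
  congr 2
  group

theorem tateH0Trivial_of_normal
    (h0H : TateH0Trivial (res H.subtype M))
    (h0Q : TateH0Trivial (M.quotientToInvariants H)) : TateH0Trivial M := by
  intro m hm
  have hmH : m ∈ Representation.invariants (M.ρ.comp H.subtype) := fun h => hm h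
  obtain ⟨y', hy'⟩ := h0Q ⟨m, hmH⟩ (by
    intro q
    induction q using QuotientGroup.induction_on with | H g =>
    exact Subtype.ext (hm g))
  obtain ⟨b, hb⟩ := h0H y'.1 y'.2
  refine ⟨b, ?_⟩
  rw [← coe_normMap_normToInvariants H M b]
  have : normToInvariants H M b = y' := Subtype.ext hb
  rw [this, hy']

theorem tateHm1Trivial_of_normal
    (h0H : TateH0Trivial (res H.subtype M)) (hm1H : TateHm1Trivial (res H.subtype M))
    (hm1Q : TateHm1Trivial (M.quotientToInvariants H)) : TateHm1Trivial M := by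
  intro m hm
  have key : ∀ y ∈ Representation.Coinvariants.ker (M.quotientToInvariants H).ρ,
      ∃ c ∈ Representation.Coinvariants.ker M.ρ, normMap (res H.subtype M) c = y.1 := by
    intro y hy
    induction hy using Submodule.span_induction with
    | mem y hy =>
      obtain ⟨⟨q, y'⟩, rfl⟩ := hy
      induction q using QuotientGroup.induction_on with | H g =>
      obtain ⟨b, hb⟩ := h0H y'.1 y'.2
      refine ⟨M.ρ g b - b, Representation.Coinvariants.sub_mem_ker _ _, ?_⟩
      rw [map_sub, normMap_res_ρ, hb]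
      rfl
    | zero => exact ⟨0, Submodule.zero_mem _, by simp⟩
    | add y₁ y₂ _ _ h₁ h₂ =>
      obtain ⟨c₁, hc₁, e₁⟩ := h₁
      obtain ⟨c₂, hc₂, e₂⟩ := h₂
      exact ⟨c₁ + c₂, Submodule.add_mem _ hc₁ hc₂, by rw [map_add, e₁, e₂]; rfl⟩
    | smul r y _ h₁ =>
      obtain ⟨c₁, hc₁, e₁⟩ := h₁
      exact ⟨r • c₁, Submodule.smul_mem _ r hc₁, by rw [map_smul, e₁]; rfl⟩
  obtain ⟨c, hc, hcm⟩ := key (normToInvariants H M m) (hm1Q _ (Subtype.ext (by
    rw [coe_normMap_normToInvariants, hm]; rfl)))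
  have h3 : m - c ∈ Representation.Coinvariants.ker M.ρ := by
    apply coinvariantsKer_res_le H.subtype M
    apply hm1H
    rw [map_sub, hcm]
    exact sub_self _
  have := Submodule.add_mem _ h3 hc
  rwa [sub_add_cancel] at this

end Normal


section Main

/-- All "subgroups" (injective homomorphisms into `G`) have vanishing `H¹` and `H²`. -/
def H12Vanish {G : Type} [Group G] (M : Rep.{0, 0, 0} k G) : Prop :=
  ∀ (S : Type) [Group S] (i : S →* G), Function.Injective i →
    Limits.IsZero (groupCohomology (res i M) 1) ∧ Limits.IsZero (groupCohomology (res i M) 2)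

lemma H12Vanish.res {G H : Type} [Group G] [Group H] {M : Rep.{0, 0, 0} k G} (h : H12Vanish M)
    (j : H →* G) (hj : Function.Injective j) : H12Vanish (res j M) :=
  fun S _ i hi => h S (j.comp i) (hj.comp hi)

lemma H12Vanish.self {G : Type} [Group G] {M : Rep.{0, 0, 0} k G} (h : H12Vanish M) :
    Limits.IsZero (groupCohomology M 1) ∧ Limits.IsZero (groupCohomology M 2) :=
  h G (MonoidHom.id G) Function.injective_id

theorem tateTrivial_of_card_eq_prime_pow (p : ℕ) [Fact p.Prime] (n : ℕ) :
    ∀ (G : Type) [Group G] [Finite G] (M : Rep.{0, 0, 0} k G), Nat.card G = p ^ n → H12Vanish M →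
      TateH0Trivial M ∧ TateHm1Trivial M := by
  induction n with
  | zero =>
    intro G _ _ M hcard h
    rw [pow_zero, Nat.card_eq_one_iff_unique] at hcard
    have := hcard.1
    have : IsCyclic G := isCyclic_of_subsingleton
    exact ⟨tateH0Trivial_of_isCyclic M h.self.2, tateHm1Trivial_of_isCyclic M h.self.1⟩
  | succ n ih =>
    intro G _ _ M hcard h
    obtain ⟨H, hH⟩ := Sylow.exists_subgroup_card_pow_prime (G := G) p (n := n)
      (by rw [hcard]; exact pow_dvd_pow p n.le_succ)
    have hidx : H.index = p := by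
      have := H.card_mul_index
      rw [hH, hcard, pow_succ] at this
      exact Nat.eq_of_mul_eq_mul_left (pow_pos (Fact.out : p.Prime).pos n) this
    have hnorm : H.Normal := by
      apply Subgroup.normal_of_index_eq_minFac_card
      rw [hidx, hcard, Nat.pow_minFac n.succ_ne_zero, (Fact.out : p.Prime).minFac_eq]
    obtain ⟨ih0, ihm1⟩ := ih H (res H.subtype M) hH (h.res H.subtype H.subtype_injective)
    have hcQ : Nat.card (G ⧸ H) = p := hidx
    have : IsCyclic (G ⧸ H) := isCyclic_of_prime_card hcQ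
    have hH1 : Limits.IsZero (groupCohomology (res H.subtype M) 1) :=
      (h H H.subtype H.subtype_injective).1
    have h1Q : Limits.IsZero (groupCohomology (M.quotientToInvariants H) 1) := by
      have h1 : Limits.IsZero (H1InfRes M H).X₂ := h.self.1
      have : Limits.IsZero (H1InfRes M H).X₁ := Limits.IsZero.of_mono (H1InfRes M H).f h1
      exact this
    have h2Q : Limits.IsZero (groupCohomology (M.quotientToInvariants H) 2) := by
      have := H2InfRes_mono M H hH1
      have h2 : Limits.IsZero (H2InfRes M H).X₂ := h.self.2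
      have : Limits.IsZero (H2InfRes M H).X₁ := Limits.IsZero.of_mono (H2InfRes M H).f h2
      exact this
    exact ⟨tateH0Trivial_of_normal H M ih0 (tateH0Trivial_of_isCyclic _ h2Q),
      tateHm1Trivial_of_normal H M ih0 ihm1 (tateHm1Trivial_of_isCyclic _ h1Q)⟩

/-- **Triviality lemma**: if `H¹(S, M) = H²(S, M) = 0` for all subgroups `S ≤ G`, then
`Ĥ⁰(G, M) = Ĥ⁻¹(G, M) = 0`. -/
theorem tateTrivial_of_H12Vanish (M : Rep.{0, 0, 0} k G) (h : H12Vanish M) :
    TateH0Trivial M ∧ TateHm1Trivial M := by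
  have key : ∀ (p : ℕ) [Fact p.Prime] (P : Sylow p G),
      TateH0Trivial (res (P : Subgroup G).subtype M) ∧
        TateHm1Trivial (res (P : Subgroup G).subtype M) := by
    intro p _ P
    obtain ⟨n, hn⟩ := IsPGroup.iff_card.1 P.2
    exact tateTrivial_of_card_eq_prime_pow p n _ _ hn
      (h.res _ (P : Subgroup G).subtype_injective)
  exact ⟨tateH0Trivial_of_sylow M fun p _ P => (key p P).1,
    tateHm1Trivial_of_sylow M fun p _ P => (key p P).2⟩

omit [Finite G] in
/-- `H12Vanish` from the vanishing for honest subgroups. -/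
lemma h12Vanish_of_subgroups (M : Rep.{0, 0, 0} k G)
    (h : ∀ S : Subgroup G, Limits.IsZero (groupCohomology (res S.subtype M) 1) ∧
      Limits.IsZero (groupCohomology (res S.subtype M) 2)) : H12Vanish M := by
  intro S' _ i hi
  have key : ∀ n, Limits.IsZero (groupCohomology (res i.range.subtype M) n) →
      Limits.IsZero (groupCohomology (res i M) n) := fun n hn =>
    hn.of_iso (mapIso (A := res i.range.subtype M) (B := res i M) (MonoidHom.ofInjective hi)
      (LinearEquiv.refl k _) (fun g => rfl) n)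
  exact ⟨key 1 (h i.range).1, key 2 (h i.range).2⟩

/-- **Triviality lemma**, subgroup version. -/
theorem tateTrivial_of_subgroups (M : Rep.{0, 0, 0} k G)
    (h : ∀ S : Subgroup G, Limits.IsZero (groupCohomology (res S.subtype M) 1) ∧
      Limits.IsZero (groupCohomology (res S.subtype M) 2)) :
    TateH0Trivial M ∧ TateHm1Trivial M :=
  tateTrivial_of_H12Vanish M (h12Vanish_of_subgroups M h)

/-- **Triviality lemma**, `Subsingleton` form. -/
theorem subsingleton_tate_of_subgroups (M : Rep.{0, 0, 0} k G)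
    (h : ∀ S : Subgroup G, Limits.IsZero (groupCohomology (res S.subtype M) 1) ∧
      Limits.IsZero (groupCohomology (res S.subtype M) 2)) :
    Subsingleton (TateH0 M) ∧ Subsingleton (TateHm1 M) :=
  ⟨(tateH0Trivial_iff M).1 (tateTrivial_of_subgroups M h).1,
    (tateHm1Trivial_iff M).1 (tateTrivial_of_subgroups M h).2⟩

end Main

end Fermat.Agent.CFT.Coh
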