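/-
CFT (Coh) — helper2: small functoriality lemmas for `groupCohomology.map`:
composition with coefficient maps on either side, and bijectivity of the map induced by a group
isomorphism together with an isomorphism of representations.
-/
import Mathlib.RepresentationTheory.Homological.GroupCohomology.Functoriality

set_option autoImplicit false

open CategoryTheory groupCohomology Rep

namespace Fermat.Agent.CFT.Coh

variable {k G H : Type} [CommRing k] [Group G] [Group H]

/-- coefficient map on the source side, then change of group. -/
lemma map_id_comp_map (e : G →* H) {A A' : Rep k H} {B : Rep k G} (ψ : A ⟶ A')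
    (φ : res e A' ⟶ B) (n : ℕ) :
    groupCohomology.map (MonoidHom.id H) ψ n ≫ groupCohomology.map e φ n =
      groupCohomology.map e ((resFunctor e).map ψ ≫ φ) n := by
  rw [← groupCohomology.map_comp]
  exact groupCohomology.map_congr rfl rfl n

/-- change of group, then coefficient map on the target side. -/
lemma map_comp_map_id (e : G →* H) {A : Rep k H} {B B' : Rep k G} (φ : res e A ⟶ B)
    (ψ : B ⟶ B') (n : ℕ) :
    groupCohomology.map e φ n ≫ groupCohomology.map (MonoidHom.id G) ψ n =
      groupCohomology.map e (φ ≫ ψ) n := by
  rw [← groupCohomology.map_comp]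
  exact groupCohomology.map_congr rfl rfl n

/-- the map on cohomology induced by a group isomorphism `e : G ≃* H` and an isomorphism
`Res(e)(A) ≅ B` of representations is bijective. -/
theorem map_bijective_of_mulEquiv_of_iso (e : G ≃* H) {A : Rep k H} {B : Rep k G}
    (φ : res e.toMonoidHom A ≅ B) (n : ℕ) :
    Function.Bijective (groupCohomology.map e.toMonoidHom φ.hom n).hom := by
  let e' : A.V ≃ₗ[k] B.V :=
    { toFun := φ.hom.hom
      map_add' := map_add _
      map_smul' := map_smul _
      invFun := φ.inv.hom
      left_inv := fun a => by
        have := congrArg (fun t => t.hom a) φ.hom_inv_id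
        exact this
      right_inv := fun b => by
        have := congrArg (fun t => t.hom b) φ.inv_hom_id
        exact this }
  have he : ∀ h : H, e'.toLinearMap ∘ₗ A.ρ h = B.ρ (e.symm h) ∘ₗ e'.toLinearMap := by
    intro h
    refine LinearMap.ext fun a => ?_
    have h1 := Rep.hom_comm_apply φ.hom (e.symm h) a
    have h2 : (res e.toMonoidHom A).ρ (e.symm h) a = A.ρ h a := by
      change A.ρ (e (e.symm h)) a = A.ρ h a
      rw [MulEquiv.apply_symm_apply]
    rw [h2] at h1
    exact h1
  have hh : (groupCohomology.mapIso (A := B) (B := A) e.symm e' he n).hom =
      groupCohomology.map e.toMonoidHom φ.hom n := rfl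
  rw [← hh]
  exact ConcreteCategory.bijective_of_isIso _

end Fermat.Agent.CFT.Coh
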