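import Fermat.Agent.CFT.Coh.Nakayama_helper9
import Fermat.Agent.CFT.Coh.Cup_helper2_Nat

/-!
# CFT (C0.4): the character formula for the Nakayama map

For a finite group `G`, `C : Rep k G`, `f ∈ Z²(G, C)` and the Nakayama elements
`nak_f(σ) = ∑_τ f(τ, σ) ∈ C^G`:

* `cupInv_nakayamaInv` : **symmetry** `nak_f(σ) ∪ [n] = nak_n(σ) • [f]` for `n ∈ Z²(G, k)`
  (explicit correcting 1-cochain `charCochA - charCochB`);
* `cupδ_nakayamaClass` : **character formula** `nak_f(σ) ∪ δχ = (|G| χ̃(σ)) • [f]`, i.e.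
  `inv(a ∪ δχ) = χ(rec a)`;
* `nakayamaElt_eq_sum_out` : **norm compatibility** `nak_{G,f}(s) = N_{G/S} nak_{S,f|S}(s)`;
* `nakayamaClass_congr` : the Nakayama class only depends on `[f]`;
* `nakayamaClass_generator` : for `G = ⟨g⟩`, `nak_f(g) = ` image of `[f]` under `H² ≃ Ĥ⁰`.
-/

set_option autoImplicit false
set_option linter.style.haveILetI false

open CategoryTheory groupCohomology Rep

namespace Fermat.Agent.CFT.Coh

section Core

variable {k G : Type} [CommRing k] [Group G] [Fintype G] (C : Rep.{0, 0, 0} k G)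
  (f : G × G → C.V) (n : G × G → k) (σ : G)

/-- first half of the correcting cochain -/
noncomputable def charCochA (τ : G) : C.V := ∑ ρ : G, n (τ, ρ) • f (τ * ρ, σ)

/-- second half of the correcting cochain -/
noncomputable def charCochB (τ : G) : C.V := ∑ ρ : G, n (ρ * σ⁻¹, σ) • f (τ, ρ)

variable {C f n}

lemma d_charCochA (hf : f ∈ cocycles₂ C)
    (hn : ∀ g h j : G, n (g * h, j) + n (g, h) = n (h, j) + n (g, h * j)) (τ π : G) :
    C.ρ τ (charCochA C f n σ π) - charCochA C f n σ (τ * π) + charCochA C f n σ τ =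
      n (τ, π) • (∑ μ : G, f (μ, σ)) +
        ∑ ρ : G, (n (π * ρ * σ⁻¹, σ) - n (ρ * σ⁻¹, σ)) • f (τ, π * ρ) := by
  have hc := (mem_cocycles₂_iff f).1 hf
  unfold charCochA
  rw [map_sum]
  have e1 : ∑ ρ : G, n (τ, ρ) • f (τ * ρ, σ) = ∑ ρ : G, n (τ, π * ρ) • f (τ * (π * ρ), σ) :=
    (Fintype.sum_equiv (Equiv.mulLeft π) _ _ fun ρ => rfl).symm
  have e2 : ∑ μ : G, f (μ, σ) = ∑ ρ : G, f (τ * (π * ρ), σ) :=
    (Fintype.sum_equiv ((Equiv.mulLeft π).trans (Equiv.mulLeft τ)) _ _ fun ρ => rfl).symm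
  have e3 : ∑ ρ : G, n (π, ρ) • f (τ, π * ρ * σ) =
      ∑ ρ : G, n (π, ρ * σ⁻¹) • f (τ, π * ρ) := by
    refine (Fintype.sum_equiv (Equiv.mulRight σ) _ _ fun ρ => ?_)
    simp [mul_assoc]
  have key : ∀ ρ : G, C.ρ τ (n (π, ρ) • f (π * ρ, σ)) - n (τ * π, ρ) • f (τ * π * ρ, σ) +
      n (τ, π * ρ) • f (τ * (π * ρ), σ) =
      n (τ, π) • f (τ * (π * ρ), σ) + n (π, ρ) • f (τ, π * ρ) - n (π, ρ) • f (τ, π * ρ * σ) := by
    intro ρ
    have h1 := hc τ (π * ρ) σ
    have h2 := hn τ π ρ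
    have h3 : C.ρ τ (f (π * ρ, σ)) = f (τ * (π * ρ), σ) + f (τ, π * ρ) - f (τ, π * ρ * σ) := by
      rw [eq_sub_iff_add_eq, h1]
    have h4 : n (τ, π) = n (π, ρ) + n (τ, π * ρ) - n (τ * π, ρ) := by
      rw [eq_sub_iff_add_eq, add_comm, h2]
    rw [map_smul, h3, h4, mul_assoc τ π ρ]
    simp only [smul_add, smul_sub, add_smul, sub_smul]
    abel
  rw [e1, ← Finset.sum_sub_distrib, ← Finset.sum_add_distrib, Finset.sum_congr rfl fun ρ _ => key ρ,
    Finset.sum_sub_distrib, Finset.sum_add_distrib, e3, ← Finset.smul_sum, ← e2, add_sub_assoc,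
    ← Finset.sum_sub_distrib]
  congr 1
  refine Finset.sum_congr rfl fun ρ _ => ?_
  have h5 := hn π (ρ * σ⁻¹) σ
  have h6 : n (π, ρ) - n (π, ρ * σ⁻¹) = n (π * ρ * σ⁻¹, σ) - n (ρ * σ⁻¹, σ) := by
    have : ρ * σ⁻¹ * σ = ρ := by group
    rw [this, ← mul_assoc] at h5
    rw [sub_eq_sub_iff_add_eq_add, add_comm, ← h5, add_comm]
  rw [← sub_smul, h6]

lemma d_charCochB (hf : f ∈ cocycles₂ C) (τ π : G) :
    C.ρ τ (charCochB C f n σ π) - charCochB C f n σ (τ * π) + charCochB C f n σ τ =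
      (∑ ρ : G, n (ρ, σ)) • f (τ, π) +
        ∑ ρ : G, (n (π * ρ * σ⁻¹, σ) - n (ρ * σ⁻¹, σ)) • f (τ, π * ρ) := by
  have hc := (mem_cocycles₂_iff f).1 hf
  unfold charCochB
  rw [map_sum]
  have e1 : ∑ ρ : G, n (ρ * σ⁻¹, σ) • f (τ, ρ) =
      ∑ ρ : G, n (π * ρ * σ⁻¹, σ) • f (τ, π * ρ) :=
    (Fintype.sum_equiv (Equiv.mulLeft π) _ _ fun ρ => rfl).symm
  have e2 : ∑ ρ : G, n (ρ, σ) = ∑ ρ : G, n (ρ * σ⁻¹, σ) :=
    (Fintype.sum_equiv (Equiv.mulRight σ⁻¹) _ _ fun ρ => rfl).symm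
  have key : ∀ ρ : G, C.ρ τ (n (ρ * σ⁻¹, σ) • f (π, ρ)) - n (ρ * σ⁻¹, σ) • f (τ * π, ρ) +
      n (π * ρ * σ⁻¹, σ) • f (τ, π * ρ) =
      n (ρ * σ⁻¹, σ) • f (τ, π) + (n (π * ρ * σ⁻¹, σ) - n (ρ * σ⁻¹, σ)) • f (τ, π * ρ) := by
    intro ρ
    have h1 := hc τ π ρ
    have h3 : C.ρ τ (f (π, ρ)) = f (τ * π, ρ) + f (τ, π) - f (τ, π * ρ) := by
      rw [eq_sub_iff_add_eq, h1]
    rw [map_smul, h3]
    simp only [smul_add, smul_sub, sub_smul]
    abel
  rw [e1, ← Finset.sum_sub_distrib, ← Finset.sum_add_distrib, Finset.sum_congr rfl fun ρ _ => key ρ,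
    Finset.sum_add_distrib, ← Finset.sum_smul, e2]

end Core

section Main

variable {k G : Type} [CommRing k] [Group G] [Finite G] (C : Rep.{0, 0, 0} k G)
  (f : cocycles₂ C)

/-- the Nakayama element as an invariant -/
noncomputable def nakayamaInv (σ : G) : C.ρ.invariants :=
  ⟨nakayamaElt C f σ, nakayamaElt_mem_invariants C f σ⟩

lemma nakayamaClass_eq (σ : G) : nakayamaClass C f σ = TateH0.mk C (nakayamaInv C f σ) := rfl

/-- **Symmetry of the Nakayama map**: `nak_f(σ) ∪ [n] = nak_n(σ) • [f]` in `H²(G, C)`, for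
`f ∈ Z²(G, C)` and `n ∈ Z²(G, k)`. -/
theorem cupInv_nakayamaInv [Fintype G] (n : cocycles₂ (Rep.trivial k G k)) (σ : G) :
    cupInv C (nakayamaInv C f σ) ((H2π _).hom n) =
      (∑ ρ : G, n (ρ, σ)) • (H2π C).hom f := by
  rw [cupInv_π, ← sub_eq_zero, ← map_smul, ← map_sub, H2π_eq_zero_iff]
  have hn := (cocycles₂_trivial_iff (n : G × G → k)).1 n.2
  refine ⟨fun τ => charCochA C f n σ τ - charCochB C f n σ τ, ?_⟩
  ext ⟨τ, π⟩
  have hA := d_charCochA (C := C) (f := f) (n := n) σ f.2 hn τ π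
  have hB := d_charCochB (C := C) (f := f) (n := n) σ f.2 τ π
  rw [d₁₂_hom_apply]
  simp only [map_sub]
  have e : C.ρ τ (charCochA C f n σ π) - C.ρ τ (charCochB C f n σ π) -
      (charCochA C f n σ (τ * π) - charCochB C f n σ (τ * π)) +
      (charCochA C f n σ τ - charCochB C f n σ τ) =
      (C.ρ τ (charCochA C f n σ π) - charCochA C f n σ (τ * π) + charCochA C f n σ τ) -
      (C.ρ τ (charCochB C f n σ π) - charCochB C f n σ (τ * π) + charCochB C f n σ τ) := by abel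
  rw [e, hA, hB, add_sub_add_right_eq_sub]
  show _ = n (τ, π) • nakayamaElt C f σ - (∑ ρ : G, n (ρ, σ)) • f (τ, π)
  rw [nakayamaElt_eq]

end Main

section CharNum

variable {G : Type} [Group G] [Finite G]

/-- The integer `|G| · ℓ(σ)` attached to a lift `ℓ` of a character, as `∑_ρ δℓ(ρ, σ)`. -/
noncomputable def liftNum (ℓ : G → ℚ) (σ : G) : ℤ :=
  letI := Fintype.ofFinite G
  ∑ ρ : G, δcochain ℓ (ρ, σ)

lemma liftNum_eq [Fintype G] (ℓ : G → ℚ) (σ : G) : liftNum ℓ σ = ∑ ρ : G, δcochain ℓ (ρ, σ) := by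
  unfold liftNum
  exact Finset.sum_congr (by ext; simp) fun x _ => rfl

lemma liftNum_cast {ℓ : G → ℚ} (hℓ : IsQZLift ℓ) (σ : G) :
    ((liftNum ℓ σ : ℤ) : ℚ) = Nat.card G * ℓ σ := by
  classical
  letI := Fintype.ofFinite G
  rw [liftNum_eq, Int.cast_sum]
  simp only [δcochain_cast hℓ]
  rw [Finset.sum_sub_distrib, Finset.sum_add_distrib]
  have e : ∑ ρ : G, ℓ (ρ * σ) = ∑ ρ : G, ℓ ρ :=
    Fintype.sum_equiv (Equiv.mulRight σ) _ _ fun ρ => rfl
  rw [e, Finset.sum_const, Finset.card_univ, Nat.card_eq_fintype_card, nsmul_eq_mul]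
  ring

/-- The integer `|G| · χ̃(σ) ∈ [0, |G|)`, `χ̃` the lift of `χ` with values in `[0, 1)`. -/
noncomputable def charNum (χ : QZChar G) (σ : G) : ℤ := liftNum (charLift χ) σ

lemma charNum_cast (χ : QZChar G) (σ : G) :
    ((charNum χ σ : ℤ) : ℚ) = Nat.card G * charLift χ σ :=
  liftNum_cast (liftsChar_charLift χ).isQZLift σ

/-- `χ(σ) = charNum χ σ / |G|` in `ℚ/ℤ`. -/
lemma coe_charNum_div (χ : QZChar G) (σ : G) :
    (((charNum χ σ : ℚ) / Nat.card G : ℚ) : AddCircle (1 : ℚ)) = χ (Additive.ofMul σ) := by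
  have hn : (Nat.card G : ℚ) ≠ 0 := by exact_mod_cast Nat.card_pos.ne'
  rw [charNum_cast, mul_div_cancel_left₀ _ hn]
  exact liftsChar_charLift χ σ

lemma liftNum_sub_of_liftsChar {χ : QZChar G} {ℓ ℓ' : G → ℚ} (h : LiftsChar χ ℓ)
    (h' : LiftsChar χ ℓ') (σ : G) : (Nat.card G : ℤ) ∣ liftNum ℓ σ - liftNum ℓ' σ := by
  obtain ⟨m, hm⟩ := h.sub_int h' σ
  refine ⟨m, ?_⟩
  have : ((liftNum ℓ σ - liftNum ℓ' σ : ℤ) : ℚ) = ((Nat.card G * m : ℤ) : ℚ) := by
    push_cast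
    rw [liftNum_cast h.isQZLift, liftNum_cast h'.isQZLift, ← hm]
    ring
  exact_mod_cast this

end CharNum

section CharFormula

variable {k G : Type} [CommRing k] [Group G] [Finite G] (C : Rep.{0, 0, 0} k G)
  (f : cocycles₂ C)

/-- **Character formula**, cocycle form with an arbitrary lift `ℓ` of `χ`:
`nak_f(σ) ∪ δχ = (|G| ℓ(σ)) • [f]`. -/
theorem cupδ_nakayamaClass_of_liftsChar (σ : G) {χ : QZChar G} {ℓ : G → ℚ}
    (hℓ : LiftsChar χ ℓ) :
    cupδ C (nakayamaClass C f σ) χ = ((liftNum ℓ σ : ℤ) : k) • (H2π C).hom f := by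
  classical
  letI := Fintype.ofFinite G
  rw [nakayamaClass_eq, cupδ_mk_eq C hℓ, ← cupInv_π, cupInv_nakayamaInv, liftNum_eq, Int.cast_sum]
  rfl

/-- **Character formula**: `nak_f(σ) ∪ δχ = (|G| χ̃(σ)) • [f]`. -/
theorem cupδ_nakayamaClass (σ : G) (χ : QZChar G) :
    cupδ C (nakayamaClass C f σ) χ = ((charNum χ σ : ℤ) : k) • (H2π C).hom f :=
  cupδ_nakayamaClass_of_liftsChar C f σ (liftsChar_charLift χ)

end CharFormula

section Subgroup

variable {k G : Type} [CommRing k] [Group G] [Finite G] (C : Rep.{0, 0, 0} k G)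
  (f : cocycles₂ C) (S : Subgroup G)

/-- **Norm compatibility of Nakayama elements**: for `s ∈ S ≤ G`,
`nak_{G,f}(s) = N_{G/S} (nak_{S, f|_S}(s))`. -/
theorem nakayamaElt_eq_sum_out [Fintype (G ⧸ S)] (f' : cocycles₂ (res S.subtype C))
    (hf' : ∀ s t : S, f' (s, t) = f ((s : G), (t : G))) (s : S) :
    nakayamaElt C f (s : G) =
      ∑ q : G ⧸ S, C.ρ q.out (nakayamaElt (res S.subtype C) f' s) := by
  classical
  letI := Fintype.ofFinite G
  letI := Fintype.ofFinite S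
  have hc := (mem_cocycles₂_iff (f : G × G → C.V)).1 f.2
  rw [nakayamaElt_eq, ← (quotProdEquiv S).sum_comp, Fintype.sum_prod_type]
  refine Finset.sum_congr rfl fun q _ => ?_
  rw [nakayamaElt_eq, map_sum]
  have key : ∀ t : S, C.ρ q.out (f' (t, s)) =
      f (q.out * (t : G), (s : G)) + f (q.out, (t : G)) - f (q.out, ((t * s : S) : G)) := by
    intro t
    rw [hf', eq_sub_iff_add_eq]
    exact (hc q.out t s).symm
  rw [Finset.sum_congr rfl fun t _ => key t, Finset.sum_sub_distrib, Finset.sum_add_distrib]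
  have e : ∑ t : S, f (q.out, ((t * s : S) : G)) = ∑ t : S, f (q.out, (t : G)) :=
    Fintype.sum_equiv (Equiv.mulRight s) _ _ fun t => rfl
  rw [e, add_sub_cancel_right]
  rfl

end Subgroup

section Congr

variable {k G : Type} [CommRing k] [Group G] [Finite G] (C : Rep.{0, 0, 0} k G)

/-- The Nakayama element of a coboundary is a norm. -/
lemma nakayamaElt_sub_eq_normMap {f f' : cocycles₂ C} {b : G → C.V}
    (hb : (d₁₂ C).hom b = (f : G × G → C.V) - f') (σ : G) :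
    nakayamaElt C f σ - nakayamaElt C f' σ = normMap C (b σ) := by
  classical
  letI := Fintype.ofFinite G
  rw [nakayamaElt_eq, nakayamaElt_eq, ← Finset.sum_sub_distrib, normMap_apply]
  have key : ∀ τ : G, f (τ, σ) - f' (τ, σ) = C.ρ τ (b σ) - b (τ * σ) + b τ := by
    intro τ
    have := congrFun hb (τ, σ)
    rw [d₁₂_hom_apply] at this
    exact this.symm
  rw [Finset.sum_congr rfl fun τ _ => key τ, Finset.sum_add_distrib, Finset.sum_sub_distrib]
  have e : ∑ τ : G, b (τ * σ) = ∑ τ : G, b τ :=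
    Fintype.sum_equiv (Equiv.mulRight σ) _ _ fun τ => rfl
  rw [e, sub_add_cancel]

/-- The Nakayama class only depends on the cohomology class of the cocycle. -/
theorem nakayamaClass_congr {f f' : cocycles₂ C} (h : H2π C f = H2π C f') (σ : G) :
    nakayamaClass C f σ = nakayamaClass C f' σ := by
  rw [H2π_eq_iff] at h
  obtain ⟨b, hb⟩ := h
  rw [nakayamaClass, nakayamaClass, TateH0.mk_eq_mk_iff]
  exact ⟨b σ, (nakayamaElt_sub_eq_normMap C hb σ).symm⟩

end Congr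

section Cyclic

variable {k G : Type} [CommRing k] [Group G] [Finite G] (C : Rep.{0, 0, 0} k G)
  (f : cocycles₂ C) {g : G} (hg : ∀ x, x ∈ Subgroup.zpowers g)

/-- For a cyclic group with generator `g`, the Nakayama class of `g` is the image of `[f]` under
the periodicity isomorphism `H² ≃ Ĥ⁰` attached to `g`. -/
theorem nakayamaClass_generator :
    nakayamaClass C f g = H2EquivTateH0 hg C ((H2π C).hom f) := by
  classical
  letI := Fintype.ofFinite G
  rw [H2EquivTateH0_π, nakayamaClass]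
  congr 1
  apply Subtype.ext
  rw [coe_genSumInv, genSum_apply]
  show nakayamaElt C f g = _
  rw [nakayamaElt_eq, sum_range_orderOf_eq_finsum hg (fun x => f (x, g)),
    finsum_eq_sum_of_fintype]

end Cyclic

section InjHom

variable {k G H : Type} [CommRing k] [Group G] [Finite G] [Group H] (C : Rep.{0, 0, 0} k G)
  (f : cocycles₂ C) (ι : H →* G) (hι : Function.Injective ι)

include hι in
/-- **Norm compatibility of Nakayama elements**, for an injective homomorphism `ι : H →* G`: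
`∑_{τ ∈ G} f(τ, ι s) = ∑_{q ∈ G/ι(H)} q (∑_{t ∈ H} f(ι t, ι s))`. -/
theorem nakayamaElt_eq_sum_out_of_injective [Fintype (G ⧸ ι.range)] [Fintype H] (s : H) :
    nakayamaElt C f (ι s) =
      ∑ q : G ⧸ ι.range, C.ρ q.out (∑ t : H, f (ι t, ι s)) := by
  classical
  letI := Fintype.ofFinite G
  letI := Fintype.ofFinite ι.range
  have hc := (mem_cocycles₂_iff (f : G × G → C.V)).1 f.2
  rw [nakayamaElt_eq, ← (quotProdEquiv ι.range).sum_comp, Fintype.sum_prod_type]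
  refine Finset.sum_congr rfl fun q _ => ?_
  rw [map_sum]
  have key : ∀ t : H, C.ρ q.out (f (ι t, ι s)) =
      f (q.out * ι t, ι s) + f (q.out, ι t) - f (q.out, ι (t * s)) := by
    intro t
    rw [eq_sub_iff_add_eq, map_mul]
    exact (hc q.out (ι t) (ι s)).symm
  rw [Finset.sum_congr rfl fun t _ => key t, Finset.sum_sub_distrib, Finset.sum_add_distrib]
  have e : ∑ t : H, f (q.out, ι (t * s)) = ∑ t : H, f (q.out, ι t) :=
    Fintype.sum_equiv (Equiv.mulRight s) _ _ fun t => rfl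
  rw [e, add_sub_cancel_right]
  exact (Fintype.sum_equiv (MonoidHom.ofInjective hι).toEquiv
    (fun t : H => f (q.out * ι t, ι s))
    (fun t : ι.range => f ((quotProdEquiv ι.range) (q, t), ι s)) (fun t => rfl)).symm

end InjHom

end Fermat.Agent.CFT.Coh
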