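/-
S55 / CFT — helper4.
"Top-level" fundamental cocycles: `IsTopFundamental A f` says `H¹(G, A) = 0` and `H²(G, A)` is
cyclic of order `|G|` generated by `[f]`; the attached invariant map
`fundInv : H²(G, A) →+ ℚ/ℤ`, `m • [f] ↦ m / |G|`; transport along an injective group
homomorphism; the bridge between `H2π` and the class map `CC.mk` of the inhomogeneous
cochain complex.
-/
import Fermat.Agent.CFT.Coh.CharFormula_helper4
import Fermat.Agent.CFT.Sm.HomologyElts_helper9

set_option autoImplicit false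
set_option linter.unusedSectionVars false
set_option linter.style.haveILetI false

open CategoryTheory groupCohomology Rep

namespace Fermat.Agent.CFT.Coh

open Fermat.Agent.CFT.Sm (CC.mk CC.Z CC.cyclesIso CC.iCycles_injective
  CC.iCycles_cyclesIso_inv_apply CC.mem_Z_iff)

section Bridge

variable {k G : Type} [CommRing k] [Group G] (A : Rep.{0} k G)

/-- The inhomogeneous `2`-cochain `q ↦ F (q 0, q 1)` attached to a `2`-cocycle `F` is a cocycle
of the inhomogeneous cochain complex. -/
lemma cochainsIso₂_inv_mem_Z (F : cocycles₂ A) :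
    ((cochainsIso₂ A).inv.hom (F : G × G → A.V) : (Fin 2 → G) → A.V) ∈
      CC.Z (inhomogeneousCochains A) 2 := by
  rw [CC.mem_Z_iff]
  have h1 := congrArg (fun t => t.hom (F : G × G → A.V)) (eq_d₂₃_comp_inv A)
  have h2 : (d₂₃ A).hom (F : G × G → A.V) = 0 := F.2
  simp only [ModuleCat.hom_comp, LinearMap.comp_apply] at h1
  rw [h1, h2, map_zero]

lemma cochainsIso₂_inv_apply (F : G × G → A.V) (q : Fin 2 → G) :
    ((cochainsIso₂ A).inv.hom F : (Fin 2 → G) → A.V) q = F (q 0, q 1) := rfl

/-- `H2π` in terms of the class map of the inhomogeneous cochain complex. -/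
lemma H2π_eq_mk (F : cocycles₂ A) :
    (H2π A).hom F = CC.mk (inhomogeneousCochains A) 2
      ⟨(cochainsIso₂ A).inv.hom (F : G × G → A.V), cochainsIso₂_inv_mem_Z A F⟩ := by
  change ((inhomogeneousCochains A).homologyπ 2).hom ((isoCocycles₂ A).inv.hom F) =
    ((inhomogeneousCochains A).homologyπ 2).hom ((CC.cyclesIso (inhomogeneousCochains A) 2).inv.hom
      ⟨(cochainsIso₂ A).inv.hom (F : G × G → A.V), cochainsIso₂_inv_mem_Z A F⟩)
  congr 1
  apply CC.iCycles_injective (inhomogeneousCochains A) 2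
  rw [CC.iCycles_cyclesIso_inv_apply]
  have := congrArg (fun t => t.hom F) (isoCocycles₂_inv_comp_iCocycles A)
  exact this

end Bridge

section Top

variable {G : Type} [Group G] [Finite G] (A : Rep.{0} ℤ G) (f : cocycles₂ A)

/-- `f` is a fundamental cocycle "at the top level": `H¹(G, A) = 0` and `H²(G, A)` is cyclic of
order `|G|`, generated by `[f]`. -/
structure IsTopFundamental : Prop where
  h1 : Limits.IsZero (H1 A)
  gen : ∀ x : H2 A, ∃ m : ℤ, x = m • (H2π A).hom f
  ord : ∀ m : ℤ, m • (H2π A).hom f = 0 → (Nat.card G : ℤ) ∣ m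

variable {A f}

lemma IsTopFundamental.zsmul_eq_zero_iff (hf : IsTopFundamental A f) (m : ℤ) :
    m • (H2π A).hom f = 0 ↔ (Nat.card G : ℤ) ∣ m := by
  refine ⟨hf.ord m, ?_⟩
  rintro ⟨d, rfl⟩
  rw [mul_comm, mul_zsmul, natCast_zsmul]
  have := card_nsmul_groupCohomology_eq_zero A 1 ((H2π A).hom f)
  rw [show (Nat.card G • (H2π A).hom f) = 0 from this, zsmul_zero]

lemma coe_div_card_eq_of_dvd_sub {n : ℕ} (hn : 0 < n) {m m' : ℤ} (h : (n : ℤ) ∣ m - m') :
    (((m : ℚ) / n : ℚ) : AddCircle (1 : ℚ)) = (((m' : ℚ) / n : ℚ) : AddCircle (1 : ℚ)) := by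
  obtain ⟨d, hd⟩ := h
  have hn' : (n : ℚ) ≠ 0 := by exact_mod_cast hn.ne'
  have : ((m : ℚ) / n : ℚ) = (m' : ℚ) / n + d := by
    have : (m : ℚ) = m' + n * d := by
      have := congrArg (Int.cast : ℤ → ℚ) hd
      push_cast at this
      linarith
    rw [this]
    field_simp
  rw [this, AddCircle.coe_add]
  have h0 : ((d : ℚ) : AddCircle (1 : ℚ)) = 0 := by
    rw [AddCircle.coe_eq_zero_iff]
    exact ⟨d, by simp⟩
  rw [h0, add_zero]

lemma dvd_sub_of_coe_div_card_eq {n : ℕ} (hn : 0 < n) {m m' : ℤ}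
    (h : (((m : ℚ) / n : ℚ) : AddCircle (1 : ℚ)) = (((m' : ℚ) / n : ℚ) : AddCircle (1 : ℚ))) :
    (n : ℤ) ∣ m - m' := by
  have hn' : (n : ℚ) ≠ 0 := by exact_mod_cast hn.ne'
  rw [← sub_eq_zero, ← AddCircle.coe_sub, AddCircle.coe_eq_zero_iff] at h
  obtain ⟨d, hd⟩ := h
  refine ⟨d, ?_⟩
  have : ((m - m' : ℤ) : ℚ) = ((n * d : ℤ) : ℚ) := by
    push_cast
    rw [zsmul_eq_mul, mul_one] at hd
    have : (m : ℚ) / n - m' / n = (m - m') / n := by ring
    rw [this] at hd
    field_simp at hd
    linarith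
  exact_mod_cast this

/-- The underlying function of the invariant map. -/
noncomputable def fundInvFun (hf : IsTopFundamental A f) (x : H2 A) : AddCircle (1 : ℚ) :=
  ((((hf.gen x).choose : ℤ) : ℚ) / (Nat.card G : ℚ) : ℚ)

lemma fundInvFun_zsmul (hf : IsTopFundamental A f) (m : ℤ) :
    fundInvFun hf (m • (H2π A).hom f) = (((m : ℚ) / (Nat.card G : ℚ) : ℚ) : AddCircle (1 : ℚ)) := by
  unfold fundInvFun
  apply coe_div_card_eq_of_dvd_sub Nat.card_pos
  apply hf.ord
  rw [sub_zsmul, ← sub_eq_add_neg]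
  exact sub_eq_zero.2 (hf.gen (m • (H2π A).hom f)).choose_spec.symm

/-- **The invariant map** attached to a fundamental cocycle: `m • [f] ↦ m / |G|`. -/
noncomputable def fundInv (hf : IsTopFundamental A f) : H2 A →+ AddCircle (1 : ℚ) :=
  AddMonoidHom.mk' (fundInvFun hf) (by
    intro x y
    obtain ⟨m, rfl⟩ := hf.gen x
    obtain ⟨n, rfl⟩ := hf.gen y
    rw [← add_zsmul, fundInvFun_zsmul, fundInvFun_zsmul, fundInvFun_zsmul, ← AddCircle.coe_add]
    congr 1
    push_cast
    ring)

lemma fundInv_zsmul (hf : IsTopFundamental A f) (m : ℤ) :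
    fundInv hf (m • (H2π A).hom f) = (((m : ℚ) / (Nat.card G : ℚ) : ℚ) : AddCircle (1 : ℚ)) :=
  fundInvFun_zsmul hf m

lemma fundInv_injective (hf : IsTopFundamental A f) : Function.Injective (fundInv hf) := by
  rw [injective_iff_map_eq_zero]
  intro x hx
  obtain ⟨m, rfl⟩ := hf.gen x
  rw [fundInv_zsmul] at hx
  rw [hf.zsmul_eq_zero_iff]
  have h0 : (((0 : ℤ) : ℚ) / (Nat.card G : ℚ) : ℚ) = 0 := by simp
  have := dvd_sub_of_coe_div_card_eq (n := Nat.card G) Nat.card_pos (m := m) (m' := 0)
    (by rw [hx, h0]; rfl)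
  simpa using this

end Top

section TransportIso

variable {k G G' : Type} [CommRing k] [Group G] [Group G'] (A : Rep.{0} k G)

/-- For an injective group homomorphism `ψ : G' →* G` and an isomorphism `φ : Res(ψ) A ≅ B`,
the cohomology of `B` is the cohomology of the subgroup `ψ(G')` with coefficients in `A`;
the isomorphism sends the restriction of a `2`-cocycle to its pull-back. -/
theorem exists_iso_of_injective (ψ : G' →* G) (hψ : Function.Injective ψ)
    (B : Rep.{0} k G') (φ : res ψ A ⟶ B) (hφ : Function.Bijective φ.hom) :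
    ∃ Φ : ∀ n, groupCohomology (res ψ.range.subtype A) n ≅ groupCohomology B n,
      ∀ F : cocycles₂ A, (Φ 2).hom.hom ((H2π _).hom ((mapCocycles₂ ψ.range.subtype
        (𝟙 (res ψ.range.subtype A))).hom F)) = (H2π B).hom ((mapCocycles₂ ψ φ).hom F) := by
  -- the isomorphism `G' ≃* ψ(G')`
  set e : G' ≃* ψ.range := MonoidHom.ofInjective hψ with he
  have hψe : ∀ g : ψ.range, ψ (e.symm g) = (g : G) := fun g =>
    congrArg Subtype.val (e.apply_symm_apply g)
  -- `φ` as a linear equivalence
  let φe : (res ψ.range.subtype A).V ≃ₗ[k] B.V := LinearEquiv.ofBijective φ.hom.toLinearMap hφ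
  have hcomm : ∀ g : ψ.range, φe.toLinearMap ∘ₗ (res ψ.range.subtype A).ρ g =
      B.ρ (e.symm g) ∘ₗ φe.toLinearMap := by
    intro g
    ext a
    have h1 := Rep.hom_comm_apply φ (e.symm g) a
    change φ.hom ((res ψ.range.subtype A).ρ g a) = B.ρ (e.symm g) (φ.hom a)
    rw [← h1]
    change φ.hom (A.ρ (g : G) a) = φ.hom (A.ρ (ψ (e.symm g)) a)
    rw [hψe]
  refine ⟨fun n => mapIso (A := B) (B := res ψ.range.subtype A) e.symm φe hcomm n, ?_⟩
  intro F
  have h := H2π_comp_map_apply (A := res ψ.range.subtype A) (B := B)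
    (e.symm.symm : G' →* ψ.range) (ofHom ⟨φe, fun g => by
      ext a
      exact Rep.hom_comm_apply φ g a⟩) ((mapCocycles₂ ψ.range.subtype
        (𝟙 (res ψ.range.subtype A))).hom F)
  refine h.trans ?_
  congr 1

end TransportIso

section Transport

variable {G G' : Type} [Group G] [Finite G] [Group G'] [Finite G'] (A : Rep.{0} ℤ G)
  (f : cocycles₂ A)

/-- Transport of top-level fundamentality along an injective group homomorphism `ψ : G' →* G`
and an isomorphism `Res(ψ) A ≅ B`: if `f` restricted to the subgroup `ψ(G')` is top-level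
fundamental, so is the pulled-back cocycle. -/
theorem IsTopFundamental.of_injective (ψ : G' →* G) (hψ : Function.Injective ψ)
    (B : Rep.{0} ℤ G') (φ : res ψ A ⟶ B) (hφ : Function.Bijective φ.hom)
    (hS : IsTopFundamental (res ψ.range.subtype A) (resCocycle A f ψ.range)) :
    IsTopFundamental B ((mapCocycles₂ ψ φ).hom f) := by
  obtain ⟨Φ, hΦ'⟩ := exists_iso_of_injective A ψ hψ B φ hφ
  have hΦ : (Φ 2).hom.hom ((H2π _).hom (resCocycle A f ψ.range)) =
      (H2π B).hom ((mapCocycles₂ ψ φ).hom f) := hΦ' f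
  refine ⟨?_, ?_, ?_⟩
  · exact hS.h1.of_iso (Φ 1).symm
  · intro x
    obtain ⟨m, hm⟩ := hS.gen ((Φ 2).inv.hom x)
    refine ⟨m, ?_⟩
    have := congrArg (Φ 2).hom.hom hm
    rw [map_zsmul, hΦ] at this
    rw [← this]
    exact (congrArg (fun t => t.hom x) (Φ 2).inv_hom_id).symm
  · intro m hm
    rw [← hΦ, ← map_zsmul] at hm
    have hinj : Function.Injective (Φ 2).hom.hom :=
      (ModuleCat.mono_iff_injective _).1 inferInstance
    have := hS.ord m (hinj (by rw [hm, map_zero]))
    rwa [Nat.card_congr (MonoidHom.ofInjective hψ).toEquiv]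

/-- A fundamental cocycle is top-level fundamental on every subgroup. -/
lemma IsFundamentalCocycle.isTopFundamental_res {f : cocycles₂ A}
    (hf : IsFundamentalCocycle A f) (S : Subgroup G) :
    IsTopFundamental (res S.subtype A) (resCocycle A f S) :=
  ⟨hf.h1 S, hf.gen S, hf.ord S⟩

/-- A fundamental cocycle is top-level fundamental. -/
lemma IsFundamentalCocycle.isTopFundamental {f : cocycles₂ A}
    (hf : IsFundamentalCocycle A f) : IsTopFundamental A f := by
  have h := IsTopFundamental.of_injective A f (MonoidHom.id G) (fun _ _ h => h) A (𝟙 A)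
    (Function.bijective_id) (IsFundamentalCocycle.isTopFundamental_res A hf _)
  have e : (mapCocycles₂ (MonoidHom.id G) (𝟙 A)).hom f = f := by
    apply Subtype.ext
    funext p
    rfl
  rwa [e] at h

/-- Pulling back a fundamental cocycle along an injective group homomorphism `ψ : G' →* G` and
an isomorphism `Res(ψ) A ≅ B` gives a top-level fundamental cocycle. -/
theorem IsFundamentalCocycle.isTopFundamental_of_injective {f : cocycles₂ A}
    (hf : IsFundamentalCocycle A f) (ψ : G' →* G) (hψ : Function.Injective ψ)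
    (B : Rep.{0} ℤ G') (φ : res ψ A ⟶ B) (hφ : Function.Bijective φ.hom) :
    IsTopFundamental B ((mapCocycles₂ ψ φ).hom f) :=
  IsTopFundamental.of_injective A f ψ hψ B φ hφ (IsFundamentalCocycle.isTopFundamental_res A hf _)

end Transport

end Fermat.Agent.CFT.Coh
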