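/-
S55 / CFT (PT5/PT8, abstract part) — helper4.
Pure algebra: `p`-primary elements of torsion abelian groups, the `p`-primary projection,
cyclic `p`-group arithmetic, characters with values in `ℚ/ℤ`.
-/
import Mathlib

set_option autoImplicit false
set_option linter.unusedSectionVars false

namespace Fermat.Agent.CFT.Coh

section Primary

variable (p : ℕ) {X Y : Type*} [AddCommGroup X] [AddCommGroup Y]

/-- `x` is killed by a power of `p`. -/
def IsPPrimary (x : X) : Prop := ∃ k : ℕ, p ^ k • x = 0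

/-- `x` is killed by an integer prime to `p`. -/
def IsPrimeTo (x : X) : Prop := ∃ m : ℕ, ¬ p ∣ m ∧ m • x = 0

variable {p}

lemma isPPrimary_zero : IsPPrimary p (0 : X) := ⟨0, by simp⟩

lemma IsPPrimary.add {x y : X} (hx : IsPPrimary p x) (hy : IsPPrimary p y) :
    IsPPrimary p (x + y) := by
  obtain ⟨k, hk⟩ := hx
  obtain ⟨l, hl⟩ := hy
  refine ⟨k + l, ?_⟩
  have h1 : p ^ (k + l) • x = 0 := by rw [pow_add, mul_comm, mul_smul, hk, smul_zero]
  have h2 : p ^ (k + l) • y = 0 := by rw [pow_add, mul_smul, hl, smul_zero]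
  rw [smul_add, h1, h2, add_zero]

lemma IsPPrimary.neg {x : X} (hx : IsPPrimary p x) : IsPPrimary p (-x) := by
  obtain ⟨k, hk⟩ := hx
  exact ⟨k, by rw [smul_neg, hk, neg_zero]⟩

lemma IsPPrimary.sub {x y : X} (hx : IsPPrimary p x) (hy : IsPPrimary p y) :
    IsPPrimary p (x - y) := by
  rw [sub_eq_add_neg]
  exact hx.add hy.neg

lemma IsPPrimary.nsmul {x : X} (hx : IsPPrimary p x) (n : ℕ) : IsPPrimary p (n • x) := by
  obtain ⟨k, hk⟩ := hx
  exact ⟨k, by rw [smul_comm, hk, smul_zero]⟩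

lemma IsPPrimary.zsmul {x : X} (hx : IsPPrimary p x) (n : ℤ) : IsPPrimary p (n • x) := by
  obtain ⟨k, hk⟩ := hx
  exact ⟨k, by rw [smul_comm, hk, smul_zero]⟩

lemma IsPPrimary.map {x : X} (hx : IsPPrimary p x) (f : X →+ Y) : IsPPrimary p (f x) := by
  obtain ⟨k, hk⟩ := hx
  exact ⟨k, by rw [← map_nsmul, hk, map_zero]⟩

lemma isPPrimary_of_nsmul_eq_zero {x : X} (h : p • x = 0) : IsPPrimary p x :=
  ⟨1, by rwa [pow_one]⟩

lemma isPPrimary_of_pow_nsmul_eq_zero {x : X} {k : ℕ} (h : p ^ k • x = 0) : IsPPrimary p x :=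
  ⟨k, h⟩

lemma isPrimeTo_zero (hp : p ≠ 1) : IsPrimeTo p (0 : X) :=
  ⟨1, by simpa using hp, by simp⟩

lemma IsPrimeTo.neg {x : X} (hx : IsPrimeTo p x) : IsPrimeTo p (-x) := by
  obtain ⟨m, hm, h⟩ := hx
  exact ⟨m, hm, by rw [smul_neg, h, neg_zero]⟩

lemma IsPrimeTo.map {x : X} (hx : IsPrimeTo p x) (f : X →+ Y) : IsPrimeTo p (f x) := by
  obtain ⟨m, hm, h⟩ := hx
  exact ⟨m, hm, by rw [← map_nsmul, h, map_zero]⟩

variable [hp : Fact p.Prime]

lemma IsPrimeTo.add {x y : X} (hx : IsPrimeTo p x) (hy : IsPrimeTo p y) :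
    IsPrimeTo p (x + y) := by
  obtain ⟨m, hm, h⟩ := hx
  obtain ⟨n, hn, h'⟩ := hy
  refine ⟨m * n, ?_, ?_⟩
  · intro hd
    rcases (Nat.Prime.dvd_mul hp.out).1 hd with hd | hd
    · exact hm hd
    · exact hn hd
  · have h1 : (m * n) • x = 0 := by rw [mul_comm, mul_smul, h, smul_zero]
    have h2 : (m * n) • y = 0 := by rw [mul_smul, h', smul_zero]
    rw [smul_add, h1, h2, add_zero]

lemma IsPrimeTo.sub {x y : X} (hx : IsPrimeTo p x) (hy : IsPrimeTo p y) :
    IsPrimeTo p (x - y) := by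
  rw [sub_eq_add_neg]
  exact hx.add hy.neg

/-- An element killed by coprime integers is zero. -/
lemma eq_zero_of_nsmul_of_coprime {x : X} {a b : ℕ} (hab : a.Coprime b) (ha : a • x = 0)
    (hb : b • x = 0) : x = 0 := by
  have h2 : ((a : ℤ) * Nat.gcdA a b + b * Nat.gcdB a b) = 1 := by
    have := Nat.gcd_eq_gcd_ab a b
    rw [hab] at this
    exact_mod_cast this.symm
  have h3 : (1 : ℤ) • x = 0 := by
    rw [← h2, add_smul, mul_comm, mul_smul, mul_comm (b : ℤ), mul_smul, natCast_zsmul,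
      natCast_zsmul, ha, hb, smul_zero, smul_zero, add_zero]
  rwa [one_smul] at h3

lemma coprime_pow_of_not_dvd {m : ℕ} (hm : ¬ p ∣ m) (k : ℕ) : (p ^ k).Coprime m :=
  Nat.Coprime.pow_left k ((Nat.Prime.coprime_iff_not_dvd hp.out).2 hm)

/-- `p`-primary and prime-to-`p` torsion elements meet trivially. -/
lemma eq_zero_of_isPPrimary_of_isPrimeTo {x : X} (h1 : IsPPrimary p x) (h2 : IsPrimeTo p x) :
    x = 0 := by
  obtain ⟨k, hk⟩ := h1
  obtain ⟨m, hm, h⟩ := h2
  exact eq_zero_of_nsmul_of_coprime (coprime_pow_of_not_dvd hm k) hk h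

/-- A `p`-primary element killed by `p^v * m` with `m` prime to `p` is killed by `p^v`. -/
lemma IsPPrimary.pow_nsmul_eq_zero {x : X} (hx : IsPPrimary p x) {v m : ℕ} (hm : ¬ p ∣ m)
    (h : (p ^ v * m) • x = 0) : p ^ v • x = 0 := by
  apply eq_zero_of_isPPrimary_of_isPrimeTo (hx.nsmul _)
  exact ⟨m, hm, by rw [← mul_smul, mul_comm]; exact h⟩

/-- Existence of the `p`-primary decomposition of a torsion element. -/
lemma exists_pPrimary_decomp {x : X} (hx : ∃ n : ℕ, 0 < n ∧ n • x = 0) :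
    ∃ z : X, IsPPrimary p z ∧ IsPrimeTo p (x - z) := by
  obtain ⟨n, hn, hnx⟩ := hx
  obtain ⟨a, m, hm, rfl⟩ := Nat.exists_eq_pow_mul_and_not_dvd hn.ne' p hp.out.ne_one
  have hcop := coprime_pow_of_not_dvd hm a
  have h2 : (((p ^ a : ℕ) : ℤ) * Nat.gcdA (p ^ a) m + m * Nat.gcdB (p ^ a) m) = 1 := by
    have := Nat.gcd_eq_gcd_ab (p ^ a) m
    rw [hcop] at this
    exact_mod_cast this.symm
  set u := Nat.gcdA (p ^ a) m
  set w := Nat.gcdB (p ^ a) m
  refine ⟨((m : ℤ) * w) • x, ⟨a, ?_⟩, ⟨m, hm, ?_⟩⟩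
  · rw [← natCast_zsmul, ← mul_smul, ← mul_assoc, ← Nat.cast_mul, mul_comm _ w, mul_smul,
      natCast_zsmul, hnx, smul_zero]
  · have e : x - ((m : ℤ) * w) • x = (((p ^ a : ℕ) : ℤ) * u) • x := by
      have : (((p ^ a : ℕ) : ℤ) * u) • x + ((m : ℤ) * w) • x = x := by
        rw [← add_smul, h2, one_smul]
      rw [sub_eq_iff_eq_add]
      exact this.symm
    rw [e, ← natCast_zsmul, ← mul_smul, ← mul_assoc, ← Nat.cast_mul, mul_comm m, mul_comm _ u,
      mul_smul, natCast_zsmul, hnx, smul_zero]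

lemma pPrimary_decomp_unique {x z z' : X} (h1 : IsPPrimary p z) (h2 : IsPrimeTo p (x - z))
    (h1' : IsPPrimary p z') (h2' : IsPrimeTo p (x - z')) : z = z' := by
  have h3 : IsPPrimary p (z - z') := h1.sub h1'
  have h4 : IsPrimeTo p (z - z') := by
    have : z - z' = (x - z') - (x - z) := by abel
    rw [this]
    exact h2'.sub h2
  exact sub_eq_zero.1 (eq_zero_of_isPPrimary_of_isPrimeTo h3 h4)

variable (p)

/-- The `p`-primary projection of a torsion abelian group. -/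
noncomputable def pProj (hX : ∀ x : X, ∃ n : ℕ, 0 < n ∧ n • x = 0) : X →+ X :=
  AddMonoidHom.mk' (fun x => Classical.choose (exists_pPrimary_decomp (p := p) (hX x)))
    (fun x y => by
      have hx := Classical.choose_spec (exists_pPrimary_decomp (p := p) (hX x))
      have hy := Classical.choose_spec (exists_pPrimary_decomp (p := p) (hX y))
      have hxy := Classical.choose_spec (exists_pPrimary_decomp (p := p) (hX (x + y)))
      refine pPrimary_decomp_unique hxy.1 hxy.2 (hx.1.add hy.1) ?_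
      have : x + y - (Classical.choose (exists_pPrimary_decomp (p := p) (hX x)) +
          Classical.choose (exists_pPrimary_decomp (p := p) (hX y))) =
          (x - Classical.choose (exists_pPrimary_decomp (p := p) (hX x))) +
          (y - Classical.choose (exists_pPrimary_decomp (p := p) (hX y))) := by abel
      rw [this]
      exact hx.2.add hy.2)

variable {p}
variable (hX : ∀ x : X, ∃ n : ℕ, 0 < n ∧ n • x = 0) (hY : ∀ y : Y, ∃ n : ℕ, 0 < n ∧ n • y = 0)

lemma isPPrimary_pProj (x : X) : IsPPrimary p (pProj p hX x) :=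
  (Classical.choose_spec (exists_pPrimary_decomp (p := p) (hX x))).1

lemma isPrimeTo_sub_pProj (x : X) : IsPrimeTo p (x - pProj p hX x) :=
  (Classical.choose_spec (exists_pPrimary_decomp (p := p) (hX x))).2

lemma pProj_eq_of {x z : X} (h1 : IsPPrimary p z) (h2 : IsPrimeTo p (x - z)) :
    pProj p hX x = z :=
  pPrimary_decomp_unique (isPPrimary_pProj hX x) (isPrimeTo_sub_pProj hX x) h1 h2

lemma pProj_eq_self {x : X} (h : IsPPrimary p x) : pProj p hX x = x :=
  pProj_eq_of hX h (by rw [sub_self]; exact isPrimeTo_zero hp.out.ne_one)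

lemma pProj_eq_zero {x : X} (h : IsPrimeTo p x) : pProj p hX x = 0 :=
  pProj_eq_of hX isPPrimary_zero (by rwa [sub_zero])

lemma pProj_pProj (x : X) : pProj p hX (pProj p hX x) = pProj p hX x :=
  pProj_eq_self hX (isPPrimary_pProj hX x)

/-- Naturality of the `p`-primary projection. -/
lemma map_pProj (f : X →+ Y) (x : X) : f (pProj p hX x) = pProj p hY (f x) := by
  symm
  refine pProj_eq_of hY ((isPPrimary_pProj hX x).map f) ?_
  rw [← map_sub]
  exact (isPrimeTo_sub_pProj hX x).map f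

/-- A homomorphism which is injective on the `p`-torsion is injective on `p`-primary elements. -/
lemma eq_zero_of_isPPrimary_of_socle (f : X →+ Y) (hf : ∀ x : X, p • x = 0 → f x = 0 → x = 0)
    {x : X} (hx : IsPPrimary p x) (hfx : f x = 0) : x = 0 := by
  obtain ⟨k, hk⟩ := hx
  induction k generalizing x with
  | zero => simpa using hk
  | succ k ih =>
    have h1 : p ^ k • x = 0 := by
      apply hf
      · rw [← mul_smul, ← pow_succ']; exact hk
      · rw [map_nsmul, hfx, smul_zero]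
    exact ih hfx h1

/-- A prime-to-`p` torsion element is divisible by `p`. -/
lemma exists_nsmul_eq_of_isPrimeTo {x : X} (h : IsPrimeTo p x) : ∃ y : X, p • y = x := by
  obtain ⟨m, hm, hmx⟩ := h
  have hcop : p.Coprime m := (Nat.Prime.coprime_iff_not_dvd hp.out).2 hm
  have h2 : ((p : ℤ) * Nat.gcdA p m + m * Nat.gcdB p m) = 1 := by
    have := Nat.gcd_eq_gcd_ab p m
    rw [hcop] at this
    exact_mod_cast this.symm
  refine ⟨Nat.gcdA p m • x, ?_⟩
  have e : ((p : ℤ) * Nat.gcdA p m) • x + ((m : ℤ) * Nat.gcdB p m) • x = x := by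
    rw [← add_smul, h2, one_smul]
  have e2 : ((m : ℤ) * Nat.gcdB p m) • x = 0 := by
    rw [mul_comm, mul_smul, natCast_zsmul, hmx, smul_zero]
  rw [e2, add_zero, mul_smul, natCast_zsmul] at e
  exact e

/-- In a group without `p`-torsion every torsion element is prime-to-`p` torsion. -/
lemma isPrimeTo_of_torsion_free (h : ∀ x : X, p • x = 0 → x = 0) {x : X}
    (hx : ∃ n : ℕ, 0 < n ∧ n • x = 0) : IsPrimeTo p x := by
  obtain ⟨n, hn, hnx⟩ := hx
  obtain ⟨a, m, hm, rfl⟩ := Nat.exists_eq_pow_mul_and_not_dvd hn.ne' p hp.out.ne_one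
  refine ⟨m, hm, ?_⟩
  refine eq_zero_of_isPPrimary_of_socle (0 : X →+ X) (fun y hy _ => h y hy) ⟨a, ?_⟩ rfl
  rw [← mul_smul]
  exact hnx

/-- If multiplication by `p` is injective on a torsion group, it is bijective. -/
lemma bijective_nsmul_of_torsion (hX : ∀ x : X, ∃ n : ℕ, 0 < n ∧ n • x = 0)
    (h : ∀ x : X, p • x = 0 → x = 0) :
    Function.Bijective (fun x : X => p • x) := by
  constructor
  · intro x y hxy
    have : p • (x - y) = 0 := by rw [smul_sub]; exact sub_eq_zero.2 hxy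
    exact sub_eq_zero.1 (h _ this)
  · intro x
    exact exists_nsmul_eq_of_isPrimeTo (isPrimeTo_of_torsion_free h (hX x))

end Primary

section Cyclic

variable {p : ℕ} [hp : Fact p.Prime] {X : Type*} [AddCommGroup X]

/-- Cyclic `p`-group arithmetic: in a cyclic group `⟨g⟩` of order `p^b`, an element `h` of exact
order `p^a` generates the `p^a`-torsion. -/
lemma exists_zsmul_eq_of_exact_order {g h x : X} {a b : ℕ}
    (hg : ∀ t : ℤ, t • g = 0 ↔ ((p ^ b : ℕ) : ℤ) ∣ t)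
    (hh : ∀ t : ℤ, t • h = 0 ↔ ((p ^ a : ℕ) : ℤ) ∣ t)
    (hhg : ∃ s : ℤ, h = s • g) (hxg : ∃ t : ℤ, x = t • g) (hx : p ^ a • x = 0) :
    ∃ r : ℤ, x = r • h := by
  obtain ⟨s, rfl⟩ := hhg
  obtain ⟨t, rfl⟩ := hxg
  have hp0 : (p : ℤ) ≠ 0 := by exact_mod_cast hp.out.ne_zero
  have hpp : Prime (p : ℤ) := Nat.prime_iff_prime_int.1 hp.out
  rcases Nat.eq_zero_or_pos a with rfl | ha
  · refine ⟨0, ?_⟩
    rw [pow_zero, one_smul] at hx
    rw [hx, zero_smul]
  -- `a ≤ b`
  have hab : a ≤ b := by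
    have h1 : ((p ^ b : ℕ) : ℤ) • (s • g) = 0 := by
      rw [smul_comm, (hg _).2 (dvd_refl _), smul_zero]
    have h2 := (hh _).1 h1
    have h3 : p ^ a ∣ p ^ b := by exact_mod_cast h2
    exact (Nat.pow_dvd_pow_iff_le_right hp.out.one_lt).1 h3
  obtain ⟨d, rfl⟩ := Nat.exists_eq_add_of_le hab
  have hpow : ((p ^ (a + d) : ℕ) : ℤ) = (p : ℤ) ^ a * (p : ℤ) ^ d := by
    push_cast
    rw [pow_add]
  have hpa0 : ((p : ℤ) ^ a) ≠ 0 := pow_ne_zero _ hp0
  -- `p^d ∣ t`
  have ht : ((p : ℤ) ^ d) ∣ t := by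
    have h1 : (((p ^ a : ℕ) : ℤ) * t) • g = 0 := by
      rw [mul_smul, natCast_zsmul]; exact hx
    have h2 := (hg _).1 h1
    rw [hpow] at h2
    push_cast at h2
    exact (mul_dvd_mul_iff_left hpa0).1 h2
  -- `p^d ∣ s`
  have hs : ((p : ℤ) ^ d) ∣ s := by
    have h1 : (((p ^ a : ℕ) : ℤ) * s) • g = 0 := by
      rw [mul_smul]; exact (hh _).2 (dvd_refl _)
    have h2 := (hg _).1 h1
    rw [hpow] at h2
    push_cast at h2
    exact (mul_dvd_mul_iff_left hpa0).1 h2
  obtain ⟨t', rfl⟩ := ht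
  obtain ⟨s', rfl⟩ := hs
  -- `p ∤ s'`
  have hs' : ¬ (p : ℤ) ∣ s' := by
    rintro ⟨s'', rfl⟩
    obtain ⟨a', rfl⟩ := Nat.exists_eq_succ_of_ne_zero ha.ne'
    have h1 : ((p ^ a' : ℕ) : ℤ) • (((p : ℤ) ^ d * ((p : ℤ) * s'')) • g) = 0 := by
      rw [← mul_smul]
      apply (hg _).2
      refine ⟨s'', ?_⟩
      push_cast
      rw [pow_add, pow_succ]
      ring
    have h2 := (hh _).1 h1
    have h3 : p ^ (a' + 1) ∣ p ^ a' := by exact_mod_cast h2
    have := (Nat.pow_dvd_pow_iff_le_right hp.out.one_lt).1 h3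
    omega
  have hcop : IsCoprime s' ((p : ℤ) ^ a) :=
    IsCoprime.pow_right ((Prime.coprime_iff_not_dvd hpp).2 hs').symm
  obtain ⟨u, w, huw⟩ := hcop
  refine ⟨t' * u, ?_⟩
  rw [← mul_smul, ← sub_eq_zero, ← sub_smul]
  apply (hg _).2
  refine ⟨t' * w, ?_⟩
  rw [hpow]
  have : (1 : ℤ) - u * s' = w * (p : ℤ) ^ a := by rw [← huw]; ring
  calc (p : ℤ) ^ d * t' - t' * u * ((p : ℤ) ^ d * s')
      = (p : ℤ) ^ d * t' * (1 - u * s') := by ring
    _ = (p : ℤ) ^ d * t' * (w * (p : ℤ) ^ a) := by rw [this]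
    _ = (p : ℤ) ^ a * (p : ℤ) ^ d * (t' * w) := by ring

/-- An element of prime order `p` has exact order `p`. -/
lemma zsmul_eq_zero_iff_of_prime_order {x : X} (hx0 : x ≠ 0) (hpx : p • x = 0) (t : ℤ) :
    t • x = 0 ↔ ((p ^ 1 : ℕ) : ℤ) ∣ t := by
  rw [pow_one]
  constructor
  · intro ht
    by_contra hnd
    have hpp : Prime (p : ℤ) := Nat.prime_iff_prime_int.1 hp.out
    obtain ⟨u, w, huw⟩ := ((Prime.coprime_iff_not_dvd hpp).2 hnd).symm
    apply hx0
    have : (u * t + w * (p : ℤ)) • x = 0 := by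
      rw [add_smul, mul_smul, ht, smul_zero, mul_smul, natCast_zsmul, hpx, smul_zero, add_zero]
    rwa [huw, one_smul] at this
  · rintro ⟨c, rfl⟩
    rw [mul_comm, mul_smul, natCast_zsmul, hpx, smul_zero]

/-- The generator of a cyclic `p`-primary group: exact order. -/
lemma zsmul_eq_zero_iff_of_ord {g : X} {n v : ℕ} (hg : IsPPrimary p g) (hn : n ≠ 0)
    (hv : v = n.factorization p) (hng : n • g = 0)
    (hord : ∀ m : ℤ, m • g = 0 → ((p ^ v : ℕ) : ℤ) ∣ m) (m : ℤ) :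
    m • g = 0 ↔ ((p ^ v : ℕ) : ℤ) ∣ m := by
  refine ⟨hord m, ?_⟩
  rintro ⟨c, rfl⟩
  have h1 : p ^ v • g = 0 := by
    refine hg.pow_nsmul_eq_zero (m := n / p ^ v) ?_ ?_
    · rw [hv]; exact Nat.not_dvd_ordCompl hp.out hn
    · rw [hv, Nat.ordProj_mul_ordCompl_eq_self]; exact hng
  rw [mul_comm, mul_smul, natCast_zsmul, h1, smul_zero]

end Cyclic

section Characters

variable {p : ℕ} [hp : Fact p.Prime]

/-- The `p`-torsion of `ℚ/ℤ` is cyclic of order `p`: any nonzero element generates it. -/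
lemma exists_zsmul_eq_of_nsmul_eq_zero_addCircle {y y₀ : AddCircle (1 : ℚ)} (hy : p • y = 0)
    (hy₀ : p • y₀ = 0) (h0 : y₀ ≠ 0) : ∃ a : ℤ, y = a • y₀ := by
  have hpQ : (p : ℚ) ≠ 0 := by exact_mod_cast hp.out.ne_zero
  have key : ∀ z : AddCircle (1 : ℚ), p • z = 0 →
      ∃ m : ℤ, z = (((m : ℚ) / p : ℚ) : AddCircle (1 : ℚ)) := by
    intro z hz
    obtain ⟨q, rfl⟩ := QuotientAddGroup.mk_surjective z
    change p • ((q : ℚ) : AddCircle (1 : ℚ)) = 0 at hz
    rw [← AddCircle.coe_nsmul, AddCircle.coe_eq_zero_iff] at hz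
    obtain ⟨m, hm⟩ := hz
    refine ⟨m, ?_⟩
    change ((q : ℚ) : AddCircle (1 : ℚ)) = _
    congr 1
    rw [zsmul_eq_mul, mul_one, nsmul_eq_mul] at hm
    rw [hm]
    field_simp
  obtain ⟨m, rfl⟩ := key y hy
  obtain ⟨m₀, rfl⟩ := key y₀ hy₀
  have hm₀ : ¬ (p : ℤ) ∣ m₀ := by
    rintro ⟨c, rfl⟩
    apply h0
    rw [AddCircle.coe_eq_zero_iff]
    refine ⟨c, ?_⟩
    rw [zsmul_eq_mul, mul_one]
    push_cast
    field_simp
  have hpp : Prime (p : ℤ) := Nat.prime_iff_prime_int.1 hp.out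
  obtain ⟨u, w, huw⟩ := ((Prime.coprime_iff_not_dvd hpp).2 hm₀).symm
  refine ⟨m * u, ?_⟩
  rw [← AddCircle.coe_zsmul, ← sub_eq_zero, ← AddCircle.coe_sub, AddCircle.coe_eq_zero_iff]
  refine ⟨m * w, ?_⟩
  rw [zsmul_eq_mul, mul_one, zsmul_eq_mul]
  have : (1 : ℚ) - u * m₀ = w * p := by
    have := congrArg (fun z : ℤ => (z : ℚ)) huw
    push_cast at this
    rw [← this]; ring
  push_cast
  have e : (m : ℚ) / p - (m : ℚ) * u * ((m₀ : ℚ) / p) = (m : ℚ) * (1 - u * m₀) / p := by ring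
  rw [e, this]
  field_simp

variable {X : Type*} [AddCommGroup X]

/-- A character of `X` with value `1/p` on a given nonzero element of order `p`. -/
lemma exists_character_apply_eq_inv {e : X} (he : e ≠ 0) (hpe : p • e = 0) :
    ∃ j : X →+ AddCircle (1 : ℚ), j e = (((p : ℚ)⁻¹ : ℚ) : AddCircle (1 : ℚ)) := by
  obtain ⟨c, hc⟩ := CharacterModule.exists_character_apply_ne_zero_of_ne_zero he
  have hpQ : (p : ℚ) ≠ 0 := by exact_mod_cast hp.out.ne_zero
  have h1 : p • (((p : ℚ)⁻¹ : ℚ) : AddCircle (1 : ℚ)) = 0 := by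
    rw [← AddCircle.coe_nsmul, nsmul_eq_mul, mul_inv_cancel₀ hpQ]
    exact AddCircle.coe_period 1
  have h2 : p • c e = 0 := by
    have : c (p • e) = p • c e := map_nsmul c p e
    rw [← this, hpe, map_zero]
  obtain ⟨a, ha⟩ := exists_zsmul_eq_of_nsmul_eq_zero_addCircle h1 h2 hc
  refine ⟨a • (c : X →+ AddCircle (1 : ℚ)), ?_⟩
  rw [ha]
  exact map_zsmul (AddMonoidHom.eval e) a (c : X →+ AddCircle (1 : ℚ))

/-- If the kernel of `ρ` is contained in the kernel of `φ` (characters of a group killed by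
`p`), then `φ` is a multiple of `ρ`. -/
lemma exists_zsmul_eq_of_ker_le (hX : ∀ x : X, p • x = 0) (ρ φ : X →+ AddCircle (1 : ℚ))
    (h : ∀ x, ρ x = 0 → φ x = 0) : ∃ a : ℤ, φ = a • ρ := by
  by_cases hρ : ∀ x, ρ x = 0
  · refine ⟨0, ?_⟩
    ext x
    rw [zero_zsmul, AddMonoidHom.zero_apply]
    exact h x (hρ x)
  push Not at hρ
  obtain ⟨x₀, hx₀⟩ := hρ
  have tors : ∀ (ψ : X →+ AddCircle (1 : ℚ)) (x : X), p • ψ x = 0 := by
    intro ψ x
    rw [← map_nsmul, hX, map_zero]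
  obtain ⟨a, ha⟩ := exists_zsmul_eq_of_nsmul_eq_zero_addCircle (tors φ x₀) (tors ρ x₀) hx₀
  refine ⟨a, ?_⟩
  ext x
  obtain ⟨b, hb⟩ := exists_zsmul_eq_of_nsmul_eq_zero_addCircle (tors ρ x) (tors ρ x₀) hx₀
  have h1 : ρ (x - b • x₀) = 0 := by rw [map_sub, map_zsmul, hb, sub_self]
  have h2 := h _ h1
  rw [map_sub, map_zsmul, sub_eq_zero] at h2
  have h3 : (a • ρ) x = a • ρ x := map_zsmul (AddMonoidHom.eval x) a ρ
  rw [h3, h2, ha, hb, smul_comm]

/-- **Separating families of characters span.** If finitely many characters of a group killed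
by `p` separate points, every character is an integral combination of them. -/
theorem exists_int_comb_of_separating {ι : Type*} (s : Finset ι) :
    ∀ (H : Type) [AddCommGroup H] (_ : ∀ x : H, p • x = 0) (ρ : ι → (H →+ AddCircle (1 : ℚ)))
      (_ : ∀ x : H, (∀ i ∈ s, ρ i x = 0) → x = 0) (φ : H →+ AddCircle (1 : ℚ)),
      ∃ a : ι → ℤ, φ = ∑ i ∈ s, a i • ρ i := by
  classical
  induction s using Finset.induction_on with
  | empty =>
    intro H _ _ ρ hsep φ
    refine ⟨fun _ => 0, ?_⟩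
    ext x
    have : x = 0 := hsep x (fun i hi => by simp at hi)
    rw [this, map_zero, map_zero]
  | insert i₀ s hi₀ ih =>
    intro H _ hH ρ hsep φ
    -- restrict to the kernel of `ρ i₀`
    let K : AddSubgroup H := (ρ i₀).ker
    obtain ⟨a, ha⟩ := ih K (fun x => Subtype.ext (hH x.1)) (fun i => (ρ i).comp K.subtype)
      (fun x hx => by
        apply Subtype.ext
        apply hsep x.1
        intro i hi
        rcases Finset.mem_insert.1 hi with rfl | hi
        · exact x.2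
        · exact hx i hi) (φ.comp K.subtype)
    -- `φ - Σ a_i ρ_i` vanishes on the kernel of `ρ i₀`
    obtain ⟨b, hb⟩ := exists_zsmul_eq_of_ker_le hH (ρ i₀) (φ - ∑ i ∈ s, a i • ρ i) (by
      intro x hx
      have h1 := congrArg (fun ψ : K →+ AddCircle (1 : ℚ) => ψ ⟨x, hx⟩) ha
      simp only [AddMonoidHom.comp_apply, AddSubgroup.coe_subtype] at h1
      rw [AddMonoidHom.sub_apply, h1, sub_eq_zero]
      rw [AddMonoidHom.finsetSum_apply, AddMonoidHom.finsetSum_apply]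
      refine Finset.sum_congr rfl fun i _ => ?_
      have e1 : (a i • (ρ i).comp K.subtype) ⟨x, hx⟩ = a i • ((ρ i).comp K.subtype) ⟨x, hx⟩ :=
        map_zsmul (AddMonoidHom.eval (⟨x, hx⟩ : K)) (a i) ((ρ i).comp K.subtype)
      have e2 : (a i • ρ i) x = a i • ρ i x := map_zsmul (AddMonoidHom.eval x) (a i) (ρ i)
      rw [e1, e2]
      rfl)
    refine ⟨fun i => if i = i₀ then b else a i, ?_⟩
    rw [Finset.sum_insert hi₀]
    have e : ∑ i ∈ s, (fun i => if i = i₀ then b else a i) i • ρ i = ∑ i ∈ s, a i • ρ i := by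
      refine Finset.sum_congr rfl fun i hi => ?_
      have : i ≠ i₀ := by
        rintro rfl
        exact hi₀ hi
      simp only [if_neg this]
    rw [e]
    simp only [if_pos]
    rw [← hb]
    abel

end Characters

end Fermat.Agent.CFT.Coh
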