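/-
S55 / CFT (PT5/PT8, abstract part) — helper4.
Transport of `p`-primary fundamental classes along an injective group homomorphism and an
isomorphism of coefficients (restriction of a level to an open subgroup).
-/
import Fermat.Agent.CFT.Coh.PFund_helper4
import Fermat.Agent.CFT.Coh.FundInv_helper4
import Fermat.Agent.CFT.Coh.PPrimary_helper4

set_option autoImplicit false
set_option linter.unusedSectionVars false

open CategoryTheory groupCohomology Rep

namespace Fermat.Agent.CFT.Coh

section ResSub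

variable {k G G' : Type} [CommRing k] [Group G] [Group G'] {A : Rep.{0} k G}

/-- The pull-back of the coefficient isomorphism to a subgroup. -/
noncomputable def resSubHom (ψ : G' →* G) (B : Rep.{0} k G') (φ : res ψ A ⟶ B)
    (S' : Subgroup G') : res (ψ.comp S'.subtype) A ⟶ res S'.subtype B :=
  Rep.ofHom ⟨φ.hom.toLinearMap, fun s => by
    ext a
    exact Rep.hom_comm_apply φ (s : G') a⟩

lemma resSubHom_apply (ψ : G' →* G) (B : Rep.{0} k G') (φ : res ψ A ⟶ B)
    (S' : Subgroup G') (a : A.V) : (resSubHom ψ B φ S').hom a = φ.hom a := rfl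

lemma resSubHom_bijective (ψ : G' →* G) (B : Rep.{0} k G') (φ : res ψ A ⟶ B)
    (S' : Subgroup G') (hφ : Function.Bijective φ.hom) :
    Function.Bijective (resSubHom ψ B φ S').hom := hφ

end ResSub

section Transport

variable {G G' : Type} [Group G] [Group G'] {A : Rep.{0} ℤ G}

/-- **Transport of `p`-primary fundamental classes.** -/
theorem IsPFundamental.of_injective {p : ℕ} {γ : groupCohomology A 2}
    (h : IsPFundamental p A γ) (ψ : G' →* G) (hψ : Function.Injective ψ)
    (B : Rep.{0} ℤ G') (φ : res ψ A ⟶ B) (hφ : Function.Bijective φ.hom) :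
    IsPFundamental p B ((groupCohomology.map ψ φ 2).hom γ) := by
  have hsurj : Function.Surjective (H2π A).hom :=
    (ModuleCat.epi_iff_surjective _).1 inferInstance
  obtain ⟨F, rfl⟩ := hsurj γ
  have key : ∀ S' : Subgroup G',
      ∃ Φ : ∀ n, groupCohomology (res (ψ.comp S'.subtype).range.subtype A) n ≅
          groupCohomology (res S'.subtype B) n,
        (Φ 2).hom.hom ((H2res A (ψ.comp S'.subtype).range).hom ((H2π A).hom F)) =
          (H2res B S').hom ((groupCohomology.map ψ φ 2).hom ((H2π A).hom F)) := by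
    intro S'
    have hψ' : Function.Injective (ψ.comp S'.subtype) :=
      hψ.comp Subtype.val_injective
    obtain ⟨Φ, hΦ⟩ := exists_iso_of_injective A (ψ.comp S'.subtype) hψ' (res S'.subtype B)
      (resSubHom ψ B φ S') (resSubHom_bijective ψ B φ S' hφ)
    refine ⟨Φ, ?_⟩
    have e1 : (H2res A (ψ.comp S'.subtype).range).hom ((H2π A).hom F) =
        (H2π _).hom ((mapCocycles₂ (ψ.comp S'.subtype).range.subtype
          (𝟙 (res (ψ.comp S'.subtype).range.subtype A))).hom F) :=
      H2res_H2π A _ F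
    have e2 : (groupCohomology.map ψ φ 2).hom ((H2π A).hom F) =
        (H2π B).hom ((mapCocycles₂ ψ φ).hom F) := H2π_comp_map_apply ψ φ F
    have e3 : (H2res B S').hom ((H2π B).hom ((mapCocycles₂ ψ φ).hom F)) =
        (H2π _).hom ((mapCocycles₂ S'.subtype (𝟙 (res S'.subtype B))).hom
          ((mapCocycles₂ ψ φ).hom F)) := H2res_H2π B S' _
    rw [e1, hΦ F, e2, e3]
    congr 1
  refine ⟨?_, ?_, ?_⟩
  · intro S' x hx
    obtain ⟨Φ, -⟩ := key S'
    have h1 : p • (Φ 1).inv.hom x = 0 := by rw [← map_nsmul, hx, map_zero]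
    have h2 := h.h1 _ _ h1
    have h3 : (Φ 1).hom.hom ((Φ 1).inv.hom x) = x :=
      congrArg (fun t => t.hom x) (Φ 1).inv_hom_id
    rw [← h3, h2, map_zero]
  · intro S' x hx
    obtain ⟨Φ, hΦ⟩ := key S'
    obtain ⟨k, hk⟩ := hx
    have h1 : p ^ k • (Φ 2).inv.hom x = 0 := by rw [← map_nsmul, hk, map_zero]
    obtain ⟨m, hm⟩ := h.gen _ _ ⟨k, h1⟩
    refine ⟨m, ?_⟩
    have h3 : (Φ 2).hom.hom ((Φ 2).inv.hom x) = x :=
      congrArg (fun t => t.hom x) (Φ 2).inv_hom_id
    rw [← h3, hm, map_zsmul, hΦ]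
  · intro S' m hm
    obtain ⟨Φ, hΦ⟩ := key S'
    rw [← hΦ, ← map_zsmul] at hm
    have hinj : Function.Injective (Φ 2).hom.hom :=
      (ModuleCat.mono_iff_injective _).1 inferInstance
    have h1 := h.ord _ m (hinj (by rw [hm, map_zero]))
    have hψ' : Function.Injective (ψ.comp S'.subtype) :=
      hψ.comp Subtype.val_injective
    rwa [Nat.card_congr (MonoidHom.ofInjective hψ').toEquiv.symm] at h1

/-- The top-level content of a `p`-primary fundamental class. -/
theorem IsPFundamental.top [Finite G] {p : ℕ} {γ : groupCohomology A 2}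
    (h : IsPFundamental p A γ) :
    (∀ x : groupCohomology A 1, p • x = 0 → x = 0) ∧
    (∀ x : groupCohomology A 2, IsPPrimary p x → ∃ m : ℤ, x = m • γ) ∧
    (∀ m : ℤ, m • γ = 0 → ((p ^ (Nat.card G).factorization p : ℕ) : ℤ) ∣ m) := by
  have hsurj : Function.Surjective (H2π A).hom :=
    (ModuleCat.epi_iff_surjective _).1 inferInstance
  obtain ⟨F, rfl⟩ := hsurj γ
  have hid : Function.Injective (MonoidHom.id G) := fun _ _ h => h
  obtain ⟨Φ, hΦ'⟩ := exists_iso_of_injective A (MonoidHom.id G) hid A (𝟙 A)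
    Function.bijective_id
  have hΦ : (Φ 2).hom.hom ((H2res A (MonoidHom.id G).range).hom ((H2π A).hom F)) =
      (H2π A).hom F := by
    have e1 : (H2res A (MonoidHom.id G).range).hom ((H2π A).hom F) =
        (H2π _).hom ((mapCocycles₂ (MonoidHom.id G).range.subtype
          (𝟙 (res (MonoidHom.id G).range.subtype A))).hom F) :=
      H2res_H2π A _ F
    rw [e1, hΦ' F]
    congr 1
  refine ⟨?_, ?_, ?_⟩
  · intro x hx
    have h1 : p • (Φ 1).inv.hom x = 0 := by rw [← map_nsmul, hx, map_zero]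
    have h2 := h.h1 _ _ h1
    have h3 : (Φ 1).hom.hom ((Φ 1).inv.hom x) = x :=
      congrArg (fun t => t.hom x) (Φ 1).inv_hom_id
    rw [← h3, h2, map_zero]
  · intro x hx
    obtain ⟨k, hk⟩ := hx
    have h1 : p ^ k • (Φ 2).inv.hom x = 0 := by rw [← map_nsmul, hk, map_zero]
    obtain ⟨m, hm⟩ := h.gen _ _ ⟨k, h1⟩
    refine ⟨m, ?_⟩
    have h3 : (Φ 2).hom.hom ((Φ 2).inv.hom x) = x :=
      congrArg (fun t => t.hom x) (Φ 2).inv_hom_id
    rw [← h3, hm, map_zsmul, hΦ]
  · intro m hm
    rw [← hΦ, ← map_zsmul] at hm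
    have hinj : Function.Injective (Φ 2).hom.hom :=
      (ModuleCat.mono_iff_injective _).1 inferInstance
    have h1 := h.ord _ m (hinj (by rw [hm, map_zero]))
    rwa [Nat.card_congr (MonoidHom.ofInjective hid).toEquiv.symm] at h1

/-- Transport of `p`-torsion-freeness of `Hⁿ` of all subgroups along an injective group
homomorphism and an isomorphism of coefficients. -/
theorem torsion_free_of_injective {p : ℕ} (n : ℕ)
    (h : ∀ (S : Subgroup G) (x : groupCohomology (res S.subtype A) n), p • x = 0 → x = 0)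
    (ψ : G' →* G) (hψ : Function.Injective ψ)
    (B : Rep.{0} ℤ G') (φ : res ψ A ⟶ B) (hφ : Function.Bijective φ.hom)
    (x : groupCohomology B n) (hx : p • x = 0) : x = 0 := by
  obtain ⟨Φ, -⟩ := exists_iso_of_injective A ψ hψ B φ hφ
  have h1 : p • (Φ n).inv.hom x = 0 := by rw [← map_nsmul, hx, map_zero]
  have h2 := h _ _ h1
  have h3 : (Φ n).hom.hom ((Φ n).inv.hom x) = x :=
    congrArg (fun t => t.hom x) (Φ n).inv_hom_id
  rw [← h3, h2, map_zero]

end Transport

end Fermat.Agent.CFT.Coh
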