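/-
S55 / CFT (PT5/PT8, abstract part) — helper4.
Pure algebra: transfer of an invariant map along a "restriction" homomorphism `r : X → X'`
between torsion groups whose `p`-primary parts behave like `ℚ_p/ℤ_p`.
-/
import Fermat.Agent.CFT.Coh.PPrimary_helper4

set_option autoImplicit false
set_option linter.unusedSectionVars false

namespace Fermat.Agent.CFT.Coh

section Transfer

variable {p : ℕ} [hp : Fact p.Prime] {X X' : Type*} [AddCommGroup X] [AddCommGroup X']

/-- Iterated `p`-divisibility of the `p`-primary part. -/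
lemma exists_pow_nsmul_eq_of_isPPrimary
    (hdiv : ∀ x : X, IsPPrimary p x → ∃ y : X, IsPPrimary p y ∧ p • y = x) (a : ℕ) (x : X)
    (hx : IsPPrimary p x) : ∃ y : X, IsPPrimary p y ∧ p ^ a • y = x := by
  induction a with
  | zero => exact ⟨x, hx, by rw [pow_zero, one_smul]⟩
  | succ a ih =>
    obtain ⟨y, hy, hyx⟩ := ih
    obtain ⟨y', hy', hy'y⟩ := hdiv y hy
    exact ⟨y', hy', by rw [pow_succ, mul_smul, hy'y, hyx]⟩

/-- **Transfer of the invariant map.** -/
theorem exists_transfer_inv (tX : ∀ x : X, ∃ n : ℕ, 0 < n ∧ n • x = 0)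
    (tX' : ∀ x : X', ∃ n : ℕ, 0 < n ∧ n • x = 0) (r : X →+ X') (n : ℕ) (hn : n ≠ 0)
    (inv : X →+ AddCircle (1 : ℚ))
    (I1 : ∀ x, IsPPrimary p x → inv x = 0 → x = 0) (I2 : ∀ x, IsPrimeTo p x → inv x = 0)
    (I3 : ∃ x : X, p • x = 0 ∧ inv x = (((p : ℚ)⁻¹ : ℚ) : AddCircle (1 : ℚ)))
    (hdiv : ∀ x : X, IsPPrimary p x → ∃ y : X, IsPPrimary p y ∧ p • y = x)
    (R1 : ∀ z : X', IsPPrimary p z → ∃ y : X, IsPPrimary p y ∧ r y = z)
    (R2 : ∀ y : X, IsPPrimary p y → (r y = 0 ↔ n • y = 0)) :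
    ∃ inv' : X' →+ AddCircle (1 : ℚ),
      (∀ z, IsPPrimary p z → inv' z = 0 → z = 0) ∧ (∀ z, IsPrimeTo p z → inv' z = 0) ∧
      (∃ z : X', p • z = 0 ∧ inv' z = (((p : ℚ)⁻¹ : ℚ) : AddCircle (1 : ℚ))) ∧
      (∀ y : X, inv' (r y) = n • inv y) := by
  classical
  -- well-definedness
  have wd : ∀ y y' : X, IsPPrimary p y → IsPPrimary p y' → r y = r y' →
      n • inv y = n • inv y' := by
    intro y y' hy hy' hr
    have h1 : r (y - y') = 0 := by rw [map_sub, hr, sub_self]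
    have h2 := (R2 _ (hy.sub hy')).1 h1
    have h3 : n • inv (y - y') = 0 := by rw [← map_nsmul, h2, map_zero]
    rw [map_sub, smul_sub, sub_eq_zero] at h3
    exact h3
  have hinv : ∀ y : X, inv y = inv (pProj p tX y) := by
    intro y
    have h1 : inv (y - pProj p tX y) = 0 := I2 _ (isPrimeTo_sub_pProj tX y)
    rw [map_sub, sub_eq_zero] at h1
    exact h1
  let F : X' → AddCircle (1 : ℚ) := fun z =>
    n • inv (Classical.choose (R1 (pProj p tX' z) (isPPrimary_pProj tX' z)))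
  have hF : ∀ (z : X') (y : X), IsPPrimary p y → r y = pProj p tX' z → F z = n • inv y := by
    intro z y hy hr
    have hs := Classical.choose_spec (R1 (pProj p tX' z) (isPPrimary_pProj tX' z))
    exact wd _ _ hs.1 hy (hs.2.trans hr.symm)
  let inv' : X' →+ AddCircle (1 : ℚ) := AddMonoidHom.mk' F (fun z z' => by
    have hs := Classical.choose_spec (R1 (pProj p tX' z) (isPPrimary_pProj tX' z))
    have hs' := Classical.choose_spec (R1 (pProj p tX' z') (isPPrimary_pProj tX' z'))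
    rw [hF (z + z') _ (hs.1.add hs'.1) (by rw [map_add, hs.2, hs'.2, map_add]), map_add,
      smul_add])
  have hinv' : ∀ z, inv' z = F z := fun z => rfl
  have hres : ∀ y : X, inv' (r y) = n • inv y := by
    intro y
    rw [hinv', hF (r y) (pProj p tX y) (isPPrimary_pProj tX y) (map_pProj tX tX' r y), ← hinv]
  refine ⟨inv', ?_, ?_, ?_, hres⟩
  · intro z hz h0
    obtain ⟨y, hy, rfl⟩ := R1 z hz
    rw [hres, ← map_nsmul] at h0
    have h1 := I1 _ (hy.nsmul n) h0
    exact (R2 y hy).2 h1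
  · intro z hz
    rw [hinv', hF z 0 isPPrimary_zero (by rw [map_zero, pProj_eq_zero tX' hz]), map_zero,
      smul_zero]
  · obtain ⟨x₁, hpx₁, hx₁⟩ := I3
    obtain ⟨a, m, hm, rfl⟩ := Nat.exists_eq_pow_mul_and_not_dvd hn p hp.out.ne_one
    obtain ⟨y, hy, hyx⟩ := exists_pow_nsmul_eq_of_isPPrimary hdiv a x₁
      (isPPrimary_of_nsmul_eq_zero hpx₁)
    have hpp : Prime (p : ℤ) := Nat.prime_iff_prime_int.1 hp.out
    have hm' : ¬ (p : ℤ) ∣ (m : ℤ) := by
      intro hd
      exact hm (by exact_mod_cast hd)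
    obtain ⟨u, w, huw⟩ := ((Prime.coprime_iff_not_dvd hpp).2 hm').symm
    -- `n • (u • y) = (m u) • x₁`
    have key : (p ^ a * m) • (u • y) = ((m : ℤ) * u) • x₁ := by
      rw [← hyx, ← natCast_zsmul, ← mul_smul, ← natCast_zsmul, ← mul_smul]
      congr 1
      push_cast
      ring
    refine ⟨r (u • y), ?_, ?_⟩
    · rw [← map_nsmul]
      apply (R2 _ ((hy.zsmul u).nsmul p)).2
      rw [smul_comm, key, smul_comm, hpx₁, smul_zero]
    · rw [hres, ← map_nsmul, key, map_zsmul, hx₁]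
      have h1 : ((m : ℤ) * u) = 1 - w * p := by rw [← huw]; ring
      rw [h1, sub_smul, one_smul, mul_smul, natCast_zsmul]
      have hpQ : (p : ℚ) ≠ 0 := by exact_mod_cast hp.out.ne_zero
      have h2 : p • (((p : ℚ)⁻¹ : ℚ) : AddCircle (1 : ℚ)) = 0 := by
        rw [← AddCircle.coe_nsmul, nsmul_eq_mul, mul_inv_cancel₀ hpQ]
        exact AddCircle.coe_period 1
      rw [h2, smul_zero, sub_zero]

end Transfer

end Fermat.Agent.CFT.Coh
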