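import Fermat.Agent.CFT.Coh.ResDelta_helper9

/-!
# CFT (C0.3): the regular representation on functions and the augmentation ideal

For a finite group `G`:

* `funRep k G`: the regular representation on `G → k`, `(g • φ)(x) = φ(g⁻¹ x)`; it is relatively
  injective (`isRelInjective_funRep`);
* `augLin`, `augHom : funRep k G ⟶ trivial k G k`, `augRep k G` (the augmentation ideal `I_G`),
  `augSeq`, `augSeq_shortExact`: the sequence `0 ⟶ I_G ⟶ k[G] ⟶ k ⟶ 0`;
* `augGen σ = σ - 1`, `augRep_ρ_augGen`, `augRep_eq_sum`, `normMap_augRep`;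
* `augClass : G →* Multiplicative (TateHm1 (augRep ℤ G))`, `σ ↦ [σ - 1]`: surjective with kernel the
  commutator subgroup (`augClass_surjective`, `augClass_eq_one_iff`), i.e. `Ĥ⁻¹(G, I_G) ≅ G^ab`.
-/

open CategoryTheory groupCohomology Rep

namespace Fermat.Agent.CFT.Coh

section FunRep

variable (k G : Type) [CommRing k] [Group G]

/-- The regular representation on functions `G → k`: `(g • φ)(x) = φ(g⁻¹ x)`. -/
noncomputable def funRepρ : Representation k G (G → k) where
  toFun g := LinearMap.funLeft k k (fun x => g⁻¹ * x)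
  map_one' := by
    ext φ x
    simp [LinearMap.funLeft_apply]
  map_mul' g h := by
    ext φ x
    simp [LinearMap.funLeft_apply, mul_assoc]

/-- The regular representation on functions `G → k`: `(g • φ)(x) = φ(g⁻¹ x)`. -/
noncomputable abbrev funRep : Rep.{0, 0, 0} k G := Rep.of (funRepρ k G)

variable {k G}

lemma funRep_ρ_apply (g : G) (φ : G → k) (x : G) : (funRep k G).ρ g φ x = φ (g⁻¹ * x) := rfl

lemma funRep_ρ_single [DecidableEq G] (g τ : G) (r : k) :
    (funRep k G).ρ g (Pi.single τ r) = Pi.single (g * τ) r := by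
  funext x
  rw [funRep_ρ_apply, Pi.single_apply, Pi.single_apply]
  congr 1
  rw [eq_iff_iff]
  constructor
  · intro h; rw [← h]; group
  · intro h; rw [h]; group

end FunRep


section Aug

variable (k G : Type) [CommRing k] [Group G] [Finite G]

/-- The augmentation `φ ↦ ∑_x φ x`. -/
noncomputable def augLin : (G → k) →ₗ[k] k :=
  letI := Fintype.ofFinite G
  ∑ x : G, LinearMap.proj x

variable {k G}

omit [Group G] in
lemma augLin_apply [Fintype G] (φ : G → k) : augLin k G φ = ∑ x : G, φ x := by
  unfold augLin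
  rw [LinearMap.sum_apply]
  exact Finset.sum_congr (by ext; simp) fun x _ => rfl

lemma augLin_ρ (g : G) (φ : G → k) : augLin k G ((funRep k G).ρ g φ) = augLin k G φ := by
  classical
  let _ := Fintype.ofFinite G
  rw [augLin_apply, augLin_apply]
  exact Fintype.sum_equiv (Equiv.mulLeft g⁻¹) _ _ fun x => rfl

omit [Group G] in
lemma augLin_single [DecidableEq G] (τ : G) (r : k) : augLin k G (Pi.single τ r) = r := by
  let _ := Fintype.ofFinite G
  rw [augLin_apply, Finset.sum_pi_single' τ r Finset.univ, if_pos (Finset.mem_univ _)]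

variable (k G)

/-- The augmentation as a morphism of representations `k[G] ⟶ k`. -/
noncomputable def augHom : funRep k G ⟶ Rep.trivial k G k :=
  Rep.ofHom ⟨augLin k G, fun g => by
    ext φ
    exact augLin_ρ g φ⟩

/-- The augmentation ideal `I_G`, as a representation. -/
noncomputable abbrev augRep : Rep.{0, 0, 0} k G :=
  Rep.of ((funRep k G).ρ.subrepresentation (LinearMap.ker (augLin k G)) fun g φ hφ => by
    rw [Submodule.mem_comap, LinearMap.mem_ker, augLin_ρ]
    exact hφ)

/-- The inclusion `I_G ⟶ k[G]`. -/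
noncomputable def augIncl : augRep k G ⟶ funRep k G :=
  Rep.ofHom ⟨Submodule.subtype _, fun _ => rfl⟩

variable {k G}

lemma augRep_ρ_coe (g : G) (x : (augRep k G).V) :
    (((augRep k G).ρ g x : (augRep k G).V) : G → k) = (funRep k G).ρ g x.1 := rfl

lemma augIncl_apply (x : (augRep k G).V) : (augIncl k G).hom x = x.1 := rfl

lemma augHom_apply (φ : G → k) : (augHom k G).hom φ = augLin k G φ := rfl

variable (k G)

/-- The augmentation sequence `0 ⟶ I_G ⟶ k[G] ⟶ k ⟶ 0`. -/
noncomputable def augSeq : ShortComplex (Rep.{0, 0, 0} k G) :=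
  ShortComplex.mk (augIncl k G) (augHom k G) (by
    ext x
    exact x.2)

lemma augSeq_shortExact : (augSeq k G).ShortExact := by
  classical
  obtain ⟨_, h⟩ := shortExact_mk (augIncl k G) (augHom k G) Subtype.val_injective
    (fun r => ⟨Pi.single 1 r, augLin_single 1 r⟩) (fun φ => by
      constructor
      · intro h
        exact ⟨⟨φ, h⟩, rfl⟩
      · rintro ⟨x, rfl⟩
        exact x.2)
  exact h

open Classical in
theorem isRelInjective_funRep : IsRelInjective (funRep k G) := by
  let _ := Fintype.ofFinite G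
  refine ⟨(LinearMap.single k (fun _ : G => k) 1).comp (LinearMap.proj 1), fun φ => ?_⟩
  rw [conjSum_apply]
  have : ∀ g : G, (funRep k G).ρ g (((LinearMap.single k (fun _ : G => k) 1).comp
      (LinearMap.proj 1)) ((funRep k G).ρ g⁻¹ φ)) = Pi.single g (φ g) := by
    intro g
    show (funRep k G).ρ g (Pi.single 1 ((funRep k G).ρ g⁻¹ φ 1)) = _
    rw [funRep_ρ_single, funRep_ρ_apply, inv_inv, mul_one]
  rw [Finset.sum_congr rfl fun g _ => this g]
  exact Finset.univ_sum_single φ

end Aug


section AugGen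

variable {k G : Type} [CommRing k] [Group G] [Finite G]

open Classical in
/-- The generator `σ - 1` of the augmentation ideal. -/
noncomputable def augGen (σ : G) : (augRep k G).V :=
  ⟨Pi.single σ 1 - Pi.single 1 1, by
    rw [LinearMap.mem_ker, map_sub, augLin_single, augLin_single, sub_self]⟩

open Classical in
lemma augGen_coe (σ : G) : ((augGen σ : (augRep k G).V) : G → k) = Pi.single σ 1 - Pi.single 1 1 :=
  rfl

lemma augRep_ρ_augGen (g σ : G) :
    (augRep k G).ρ g (augGen σ) = augGen (g * σ) - augGen g := by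
  classical
  apply Subtype.ext
  rw [augRep_ρ_coe, augGen_coe, map_sub, funRep_ρ_single, funRep_ρ_single, mul_one]
  show _ = (Pi.single (g * σ) 1 - Pi.single 1 1) - (Pi.single g 1 - Pi.single 1 1)
  abel

lemma augRep_eq_sum [Fintype G] (x : (augRep k G).V) : x = ∑ σ : G, x.1 σ • augGen σ := by
  classical
  apply Subtype.ext
  rw [AddSubmonoidClass.coe_finsetSum]
  simp only [SetLike.val_smul, augGen_coe, smul_sub, Finset.sum_sub_distrib]
  have h1 : ∑ σ : G, x.1 σ • (Pi.single σ 1 : G → k) = x.1 := by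
    rw [← Finset.univ_sum_single x.1]
    refine Finset.sum_congr rfl fun σ _ => ?_
    rw [← Pi.single_smul, smul_eq_mul, mul_one, Finset.univ_sum_single x.1]
  have h2 : ∑ σ : G, x.1 σ • (Pi.single 1 1 : G → k) = 0 := by
    rw [← Finset.sum_smul, ← augLin_apply, LinearMap.mem_ker.1 x.2, zero_smul]
  rw [h1, h2, sub_zero]

lemma normMap_augRep (x : (augRep k G).V) : normMap (augRep k G) x = 0 := by
  classical
  let _ := Fintype.ofFinite G
  apply Subtype.ext
  rw [normMap_apply, AddSubmonoidClass.coe_finsetSum]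
  funext y
  rw [Finset.sum_apply]
  show ∑ g : G, x.1 (g⁻¹ * y) = 0
  rw [← LinearMap.mem_ker.1 x.2, augLin_apply]
  exact Fintype.sum_equiv ((Equiv.inv G).trans (Equiv.mulRight y)) _ _ fun g => rfl

end AugGen


section AugClass

variable {G : Type} [Group G] [Finite G]

/-- `σ - 1` as an element of `ker N` on `I_G`. -/
noncomputable def augGenKer (σ : G) : LinearMap.ker (normMap (augRep ℤ G)) :=
  ⟨augGen σ, LinearMap.mem_ker.2 (normMap_augRep _)⟩

/-- The homomorphism `G → Ĥ⁻¹(G, I_G) = I_G / I_G²`, `σ ↦ [σ - 1]`. -/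
noncomputable def augClass : G →* Multiplicative (TateHm1 (augRep ℤ G)) :=
  MonoidHom.mk' (fun σ => Multiplicative.ofAdd (TateHm1.mk _ (augGenKer σ))) (by
    intro σ τ
    rw [← ofAdd_add, ← map_add]
    congr 1
    rw [TateHm1.mk_eq_mk_iff]
    show augGen (σ * τ) - (augGen σ + augGen τ) ∈ _
    have : augGen (σ * τ) - (augGen σ + augGen τ) =
        (augRep ℤ G).ρ σ (augGen τ) - augGen τ := by
      rw [augRep_ρ_augGen]; abel
    rw [this]
    exact Representation.Coinvariants.sub_mem_ker _ _)

lemma augClass_apply (σ : G) :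
    augClass σ = Multiplicative.ofAdd (TateHm1.mk _ (augGenKer σ)) := rfl

lemma augClass_surjective : Function.Surjective (augClass (G := G)) := by
  classical
  let _ := Fintype.ofFinite G
  intro y
  obtain ⟨⟨x, hx⟩, hy⟩ := TateHm1.mk_surjective _ (Multiplicative.toAdd y)
  -- `x = ∑ x(σ) (σ - 1)` is the image of `∏ σ ^ x(σ)`
  have key : ∀ (s : Finset G) (c : G → ℤ), ∃ g : G, Multiplicative.toAdd (augClass g) =
      ∑ σ ∈ s, c σ • TateHm1.mk _ (augGenKer σ) := by
    intro s c
    induction s using Finset.induction_on with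
    | empty => exact ⟨1, by simp⟩
    | insert a s ha ih =>
      obtain ⟨g, hg⟩ := ih
      refine ⟨a ^ c a * g, ?_⟩
      rw [map_mul, map_zpow, toAdd_mul, toAdd_zpow, hg, Finset.sum_insert ha]
      rfl
  obtain ⟨g, hg⟩ := key Finset.univ x.1
  refine ⟨g, ?_⟩
  apply Multiplicative.toAdd.injective
  rw [hg, ← hy]
  have hx' : (⟨x, hx⟩ : LinearMap.ker (normMap (augRep ℤ G))) =
      ∑ σ : G, x.1 σ • augGenKer σ := by
    apply Subtype.ext
    rw [AddSubmonoidClass.coe_finsetSum]
    exact augRep_eq_sum x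
  rw [hx', map_sum]
  exact Finset.sum_congr rfl fun σ _ => (map_zsmul _ _ _).symm

/-- `φ ↦ ∑_σ φ(σ) • [σ]`, `ℤ[G] → G^ab`. -/
noncomputable def abLin : (G → ℤ) →ₗ[ℤ] Additive (Abelianization G) :=
  letI := Fintype.ofFinite G
  ∑ σ : G, (LinearMap.proj σ).smulRight (Additive.ofMul (Abelianization.of σ))

lemma abLin_apply [Fintype G] (φ : G → ℤ) :
    abLin φ = ∑ σ : G, φ σ • Additive.ofMul (Abelianization.of σ) := by
  unfold abLin
  rw [LinearMap.sum_apply]
  exact Finset.sum_congr (by ext; simp) fun x _ => rfl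

lemma abLin_single [DecidableEq G] (σ : G) (r : ℤ) :
    abLin (Pi.single σ r) = r • Additive.ofMul (Abelianization.of σ) := by
  let _ := Fintype.ofFinite G
  rw [abLin_apply, Finset.sum_eq_single σ]
  · rw [Pi.single_eq_same]
  · intro τ _ hτ
    rw [Pi.single_eq_of_ne hτ, zero_smul]
  · intro h; exact absurd (Finset.mem_univ _) h

lemma abLin_ρ (g : G) (φ : G → ℤ) :
    abLin ((funRep ℤ G).ρ g φ) =
      augLin ℤ G φ • Additive.ofMul (Abelianization.of g) + abLin φ := by
  classical
  let _ := Fintype.ofFinite G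
  rw [abLin_apply, abLin_apply, augLin_apply, Finset.sum_smul, ← Finset.sum_add_distrib]
  refine Fintype.sum_equiv (Equiv.mulLeft g⁻¹) _ _ fun σ => ?_
  show φ (g⁻¹ * σ) • Additive.ofMul (Abelianization.of σ) =
    φ (g⁻¹ * σ) • Additive.ofMul (Abelianization.of g) +
      φ (g⁻¹ * σ) • Additive.ofMul (Abelianization.of (g⁻¹ * σ))
  rw [← smul_add, ← ofMul_mul, ← map_mul, mul_inv_cancel_left]

lemma abLin_augGen (σ : G) :
    abLin ((augGen σ : (augRep ℤ G).V) : G → ℤ) = Additive.ofMul (Abelianization.of σ) := by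
  classical
  rw [augGen_coe, map_sub, abLin_single, abLin_single, one_smul, one_smul, map_one, ofMul_one,
    sub_zero]

lemma abLin_eq_zero_of_mem_coinvariantsKer {x : (augRep ℤ G).V}
    (hx : x ∈ Representation.Coinvariants.ker (augRep ℤ G).ρ) : abLin x.1 = 0 := by
  induction hx using Submodule.span_induction with
  | mem y hy =>
    obtain ⟨⟨g, z⟩, rfl⟩ := hy
    show abLin ((funRep ℤ G).ρ g z.1 - z.1) = 0
    rw [map_sub, abLin_ρ, LinearMap.mem_ker.1 z.2, zero_smul, zero_add, sub_self]
  | zero => exact map_zero _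
  | add y₁ y₂ _ _ h₁ h₂ =>
    show abLin (y₁.1 + y₂.1) = 0
    rw [map_add, h₁, h₂, add_zero]
  | smul r y _ h₁ =>
    show abLin (r • y.1) = 0
    rw [map_smul, h₁, smul_zero]

lemma augClass_eq_one_iff (σ : G) : augClass σ = 1 ↔ σ ∈ commutator G := by
  constructor
  · intro h
    have h0 : TateHm1.mk _ (augGenKer σ) = 0 := by
      have := congrArg Multiplicative.toAdd h
      exact this
    rw [TateHm1.mk_eq_zero_iff] at h0
    have := abLin_eq_zero_of_mem_coinvariantsKer h0
    rw [show ((augGenKer σ : LinearMap.ker (normMap (augRep ℤ G))) : (augRep ℤ G).V) = augGen σ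
      from rfl, abLin_augGen] at this
    have h1 : Abelianization.of σ = 1 := this
    rwa [← Abelianization.ker_of G, MonoidHom.mem_ker]
  · intro h
    have : commutator G ≤ (augClass (G := G)).ker := Abelianization.commutator_subset_ker _
    exact this h

end AugClass

end Fermat.Agent.CFT.Coh
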