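import Fermat.Agent.CFT.Coh.CohTriv_helper1_PGroup

/-!
# CFT (PT1): `Hom(B, A)` is cohomologically trivial (Serre, LF IX Thm 9, `p`-group case)

* `homRepMapRight`, `homRepMapLeft`, `homRep_shortExact_right`: functoriality and exactness of
  `Hom(B, ·)` for `B` projective over `k`;
* `exists_relInjective_cover`: every representation is a quotient of a relatively injective
  representation with free underlying module;
* `isZero_groupCohomology_of_nsmul_shortExact`: the `p`-divisibility argument;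
* `isZero_groupCohomology_homRep_of_isPGroup`: for a finite `p`-group `G`, `A` with
  `H¹(G, A) = H²(G, A) = 0` and `B` projective over `k`: `Hⁿ⁺¹(G, Hom(B, A)) = 0` for all `n`.
-/

open CategoryTheory groupCohomology Rep

namespace Fermat.Agent.CFT.Coh

section General

variable {k G : Type} [CommRing k] [Group G]

/-- `Hom(B, ·)` on morphisms: `x ↦ ψ ∘ x`. -/
noncomputable def homRepMapRight (B : Rep.{0, 0, 0} k G) {A A' : Rep.{0, 0, 0} k G} (ψ : A ⟶ A') :
    homRep B A ⟶ homRep B A' :=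
  Rep.ofHom ⟨LinearMap.compRight k ψ.hom.toLinearMap, fun g => by
    refine LinearMap.ext fun x => LinearMap.ext fun b => ?_
    show ψ.hom (A.ρ g (x (B.ρ g⁻¹ b))) = A'.ρ g (ψ.hom (x (B.ρ g⁻¹ b)))
    exact Rep.hom_comm_apply ψ g _⟩

lemma homRepMapRight_apply (B : Rep.{0, 0, 0} k G) {A A' : Rep.{0, 0, 0} k G} (ψ : A ⟶ A')
    (x : B.V →ₗ[k] A.V) (b : B.V) :
    ((homRepMapRight B ψ).hom x : B.V →ₗ[k] A'.V) b = ψ.hom (x b) := rfl

/-- `Hom(·, A)` on morphisms: `x ↦ x ∘ β`. -/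
noncomputable def homRepMapLeft {B B' : Rep.{0, 0, 0} k G} (β : B' ⟶ B) (A : Rep.{0, 0, 0} k G) :
    homRep B A ⟶ homRep B' A :=
  Rep.ofHom ⟨LinearMap.lcomp k A.V β.hom.toLinearMap, fun g => by
    refine LinearMap.ext fun x => LinearMap.ext fun b => ?_
    show A.ρ g (x (B.ρ g⁻¹ (β.hom b))) = A.ρ g (x (β.hom (B'.ρ g⁻¹ b)))
    rw [Rep.hom_comm_apply β]⟩

lemma homRepMapLeft_apply {B B' : Rep.{0, 0, 0} k G} (β : B' ⟶ B) (A : Rep.{0, 0, 0} k G)
    (x : B.V →ₗ[k] A.V) (b : B'.V) :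
    ((homRepMapLeft β A).hom x : B'.V →ₗ[k] A.V) b = x (β.hom b) := rfl

/-- `Hom(B, ·)` is exact on short exact sequences if `B` is projective as a `k`-module. -/
theorem homRep_shortExact_right (B : Rep.{0, 0, 0} k G) [Module.Projective k B.V]
    {X : ShortComplex (Rep.{0, 0, 0} k G)} (hX : X.ShortExact) :
    ∃ h : homRepMapRight B X.f ≫ homRepMapRight B X.g = 0,
      (ShortComplex.mk (homRepMapRight B X.f) (homRepMapRight B X.g) h).ShortExact := by
  apply shortExact_mk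
  · intro x y hxy
    refine LinearMap.ext fun b => ShortExact.injective_f hX ?_
    have := congrArg (fun z : B.V →ₗ[k] X.X₂.V => z b) hxy
    exact this
  · intro y
    obtain ⟨x, hx⟩ := Module.projective_lifting_property X.g.hom.toLinearMap
      (y : B.V →ₗ[k] X.X₃.V) (ShortExact.surjective_g hX)
    exact ⟨x, hx⟩
  · intro y
    constructor
    · intro hy
      have hy' : ∀ b, X.g.hom ((y : B.V →ₗ[k] X.X₂.V) b) = 0 := fun b =>
        congrArg (fun z : B.V →ₗ[k] X.X₃.V => z b) hy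
      have hmem : ∀ b, (y : B.V →ₗ[k] X.X₂.V) b ∈ LinearMap.range X.f.hom.toLinearMap := by
        intro b
        obtain ⟨a, ha⟩ := ShortExact.exists_of_g_eq_zero hX (hy' b)
        exact ⟨a, ha⟩
      let e := LinearEquiv.ofInjective X.f.hom.toLinearMap (ShortExact.injective_f hX)
      refine ⟨e.symm.toLinearMap.comp (LinearMap.codRestrict _ (y : B.V →ₗ[k] X.X₂.V) hmem), ?_⟩
      refine LinearMap.ext fun b => ?_
      show X.f.hom (e.symm ⟨(y : B.V →ₗ[k] X.X₂.V) b, hmem b⟩) = (y : B.V →ₗ[k] X.X₂.V) b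
      exact congrArg Subtype.val (e.apply_symm_apply ⟨_, hmem b⟩)
    · rintro ⟨x, rfl⟩
      refine LinearMap.ext fun b => ?_
      exact ShortExact.g_f_apply hX _

lemma eq_zero_of_nsmul_eq_zero_of_free {M : Type} [AddCommGroup M] [Module k M] [Module.Free k M]
    (p : ℕ) (hkp : ∀ x : k, p • x = 0 → x = 0) (m : M) (h : p • m = 0) : m = 0 := by
  let b := Module.Free.chooseBasis k M
  apply b.repr.injective
  rw [map_zero]
  ext i
  apply hkp
  have := congrArg (fun z => b.repr z i) h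
  simpa using this

lemma nsmul_id_hom_apply (R : Rep.{0, 0, 0} k G) (p : ℕ) (v : R.V) :
    (p • 𝟙 R : R ⟶ R).hom v = p • v := by
  rw [Rep.nsmul_hom]; rfl

lemma shortExact_congr_f {A B C : Rep.{0, 0, 0} k G} {f f' : A ⟶ B} (hf : f = f') {g : B ⟶ C}
    (h : f ≫ g = 0) (hS : (ShortComplex.mk f g h).ShortExact) :
    (ShortComplex.mk f' g (hf ▸ h)).ShortExact := by
  subst hf; exact hS

/-- `0 ⟶ ker Ψ ⟶ L ⟶ A ⟶ 0` for a surjective morphism `Ψ`. -/
theorem exists_shortExact_of_surjective {L A : Rep.{0, 0, 0} k G} (Ψ : L ⟶ A)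
    (hΨ : Function.Surjective Ψ.hom) :
    ∃ (R : Rep.{0, 0, 0} k G) (ι : R ⟶ L) (h : ι ≫ Ψ = 0),
      (ShortComplex.mk ι Ψ h).ShortExact ∧ Function.Injective ι.hom := by
  have hK : ∀ g, LinearMap.ker Ψ.hom.toLinearMap ≤
      (LinearMap.ker Ψ.hom.toLinearMap).comap (L.ρ g) := by
    intro g x hx
    rw [Submodule.mem_comap, LinearMap.mem_ker] at *
    show Ψ.hom (L.ρ g x) = 0
    rw [Rep.hom_comm_apply, show Ψ.hom x = 0 from hx, map_zero]
  have hinj : Function.Injective (Rep.subtype L _ hK).hom := Subtype.val_injective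
  obtain ⟨h, hS⟩ := shortExact_mk (Rep.subtype L _ hK) Ψ hinj hΨ (by
    intro y
    constructor
    · intro hy
      exact ⟨⟨y, hy⟩, rfl⟩
    · rintro ⟨x, rfl⟩
      exact x.2)
  exact ⟨_, _, h, hS, hinj⟩

/-- `0 ⟶ R ⟶ R ⟶ R/pR ⟶ 0` for a `p`-torsion-free representation. -/
theorem exists_shortExact_nsmul (R : Rep.{0, 0, 0} k G) (p : ℕ)
    (htf : ∀ v : R.V, p • v = 0 → v = 0) :
    ∃ (Rbar : Rep.{0, 0, 0} k G) (q : R ⟶ Rbar) (h : (p • 𝟙 R) ≫ q = 0),
      (ShortComplex.mk (p • 𝟙 R) q h).ShortExact ∧ ∀ v : Rbar.V, p • v = 0 := by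
  let W : Submodule k R.V := LinearMap.range (p • 𝟙 R : R ⟶ R).hom.toLinearMap
  have hW : ∀ g, W ≤ W.comap (R.ρ g) := by
    rintro g _ ⟨v, rfl⟩
    exact ⟨R.ρ g v, (Rep.hom_comm_apply (p • 𝟙 R : R ⟶ R) g v)⟩
  have hinj : Function.Injective (p • 𝟙 R : R ⟶ R).hom := by
    rw [injective_iff_map_eq_zero]
    intro v hv
    rw [nsmul_id_hom_apply] at hv
    exact htf v hv
  obtain ⟨h, hS⟩ := shortExact_mk (p • 𝟙 R : R ⟶ R) (Rep.mkQ R W hW) hinj
    (Submodule.Quotient.mk_surjective W) (by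
      intro y
      show Submodule.Quotient.mk y = 0 ↔ _
      rw [Submodule.Quotient.mk_eq_zero]
      rfl)
  refine ⟨_, _, h, hS, fun v => ?_⟩
  obtain ⟨y, rfl⟩ := Submodule.Quotient.mk_surjective W v
  rw [← Submodule.Quotient.mk_smul, Submodule.Quotient.mk_eq_zero]
  exact ⟨y, nsmul_id_hom_apply R p y⟩

end General

section Fin

variable {k G : Type} [CommRing k] [Group G] [Finite G]

/-- Every representation is a quotient of a relatively injective representation whose underlying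
module is free: `L = Coind_1^G (free module on A)`. -/
theorem exists_relInjective_cover (A : Rep.{0, 0, 0} k G) :
    ∃ (L : Rep.{0, 0, 0} k G) (Ψ : L ⟶ A), IsRelInjective L ∧ Module.Free k L.V ∧
      Function.Surjective Ψ.hom := by
  classical
  let _ := Fintype.ofFinite G
  let T : Rep.{0, 0, 0} k G := Rep.trivial k G (A.V →₀ k)
  let π : (A.V →₀ k) →ₗ[k] A.V := Finsupp.linearCombination k id
  have hπ : Function.Surjective π := fun a => ⟨Finsupp.single a 1, by simp [π]⟩
  let φ : (coindBot T).V →ₗ[k] A.V :=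
    π.comp ((LinearMap.proj (1 : G)).comp (coindBotEquiv T).symm.toLinearMap)
  have hφ : ∀ f : (coindBot T).V, φ f = π (f.1 1) := fun f => rfl
  refine ⟨coindBot T, avgHom φ, isRelInjective_coindBot T, ?_, ?_⟩
  · exact Module.Free.of_equiv (coindBotEquiv T)
  · intro a
    obtain ⟨x, hx⟩ := hπ a
    refine ⟨coindBotEquiv T (Pi.single 1 x), ?_⟩
    rw [avgHom_apply]
    have h1 : ∀ g : G, A.ρ g (φ ((coindBot T).ρ g⁻¹ (coindBotEquiv T (Pi.single 1 x)))) =
        if g = 1 then a else 0 := by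
      intro g
      rw [hφ, coindBot_ρ_apply, one_mul]
      show A.ρ g (π ((Pi.single (1 : G) x : G → (A.V →₀ k)) g⁻¹)) = _
      by_cases hg : g = 1
      · subst hg
        simp [hx]
      · rw [if_neg hg, Pi.single_apply, if_neg (by simpa using hg), map_zero, map_zero]
    rw [Finset.sum_congr rfl fun g _ => h1 g, Finset.sum_ite_eq' Finset.univ 1,
      if_pos (Finset.mem_univ _)]

/-- If `0 ⟶ R ⟶ R ⟶ R̄ ⟶ 0` is exact with first map multiplication by `p`, `|G|` is a power of `p`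
and `Hⁿ⁺¹(G, R̄) = 0`, then `Hⁿ⁺¹(G, R) = 0`. -/
theorem isZero_groupCohomology_of_nsmul_shortExact (p a : ℕ) (hcard : Nat.card G = p ^ a)
    {R Rbar : Rep.{0, 0, 0} k G} (q : R ⟶ Rbar) (hzero : (p • 𝟙 R) ≫ q = 0)
    (hY : (ShortComplex.mk (p • 𝟙 R) q hzero).ShortExact) (n : ℕ)
    (hbar : Limits.IsZero (groupCohomology Rbar (n + 1))) :
    Limits.IsZero (groupCohomology R (n + 1)) := by
  have hdiv : ∀ y : groupCohomology R (n + 1), ∃ y' : groupCohomology R (n + 1), y = p • y' := by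
    intro y
    obtain ⟨y', hy'⟩ := (ShortComplex.moduleCat_exact_iff _).1
      (mapShortComplex₂_exact hY (n + 1)) y
      (@Subsingleton.elim _ (ModuleCat.subsingleton_of_isZero hbar) _ _)
    refine ⟨y', ?_⟩
    rw [← hy']
    show (groupCohomology.map (MonoidHom.id G) (p • 𝟙 R) (n + 1)).hom y' = p • y'
    rw [map_id_nsmul, groupCohomology.map_id]
    rfl
  have hpow : ∀ (j : ℕ) (y : groupCohomology R (n + 1)),
      ∃ y' : groupCohomology R (n + 1), y = p ^ j • y' := by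
    intro j
    induction j with
    | zero => exact fun y => ⟨y, by simp⟩
    | succ j ih =>
      intro y
      obtain ⟨y₁, rfl⟩ := ih y
      obtain ⟨y₂, rfl⟩ := hdiv y₁
      exact ⟨y₂, by rw [pow_succ, mul_smul]⟩
  suffices hs : Subsingleton (groupCohomology R (n + 1)) from ModuleCat.isZero_of_subsingleton _
  refine ⟨fun x y => ?_⟩
  suffices h0 : ∀ x : groupCohomology R (n + 1), x = 0 by rw [h0 x, h0 y]
  intro x
  obtain ⟨x', rfl⟩ := hpow a x
  rw [← hcard]
  exact card_nsmul_groupCohomology_eq_zero R n x'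

omit [Finite G] in
lemma homRepMapRight_nsmul_id (B R : Rep.{0, 0, 0} k G) (p : ℕ) :
    homRepMapRight B (p • 𝟙 R) = p • 𝟙 (homRep B R) := by
  apply Rep.hom_ext
  apply Representation.IntertwiningMap.ext
  refine LinearMap.ext fun x => LinearMap.ext fun b => ?_
  have h1 : ((homRepMapRight B (p • 𝟙 R)).hom x : B.V →ₗ[k] R.V) b = p • (x b) := by
    rw [homRepMapRight_apply, nsmul_id_hom_apply]
  have h2 : ((p • 𝟙 (homRep B R) : homRep B R ⟶ homRep B R).hom x : B.V →ₗ[k] R.V) b =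
      p • (x b) := by
    rw [nsmul_id_hom_apply]; rfl
  exact h1.trans h2.symm

/-- **Serre, LF IX Thm 9 (`p`-group case)**: if `G` is a finite `p`-group, `H¹(G, A) = H²(G, A) = 0`
and `B` is projective as a `k`-module, then `Hom(B, A)` is acyclic. -/
theorem isZero_groupCohomology_homRep_of_isPGroup (p : ℕ) [Fact p.Prime]
    (hk : HasPRetractions k p) (hkp : ∀ x : k, p • x = 0 → x = 0) (hG : IsPGroup p G)
    (A : Rep.{0, 0, 0} k G) (h1 : Limits.IsZero (groupCohomology A 1))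
    (h2 : Limits.IsZero (groupCohomology A 2)) (B : Rep.{0, 0, 0} k G) [Module.Projective k B.V]
    (n : ℕ) : Limits.IsZero (groupCohomology (homRep B A) (n + 1)) := by
  obtain ⟨a, hcard⟩ := hG.exists_card_eq
  -- the cover `0 ⟶ R ⟶ L ⟶ A ⟶ 0`
  obtain ⟨L, Ψ, hL, hLfree, hΨ⟩ := exists_relInjective_cover A
  obtain ⟨R, ι, hιΨ, hX, hι⟩ := exists_shortExact_of_surjective Ψ hΨ
  have hR2 : Limits.IsZero (groupCohomology R 2) :=
    isZero_H_X₁ hX 1 h1 (hL.isZero_groupCohomology 1)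
  have hR3 : Limits.IsZero (groupCohomology R 3) :=
    isZero_H_X₁ hX 2 h2 (hL.isZero_groupCohomology 2)
  have htf : ∀ v : R.V, p • v = 0 → v = 0 := by
    intro v hv
    apply hι
    rw [map_zero]
    apply eq_zero_of_nsmul_eq_zero_of_free p hkp
    rw [← map_nsmul, hv, map_zero]
  -- `0 ⟶ R ⟶ R ⟶ R/pR ⟶ 0`
  obtain ⟨Rbar, q, hq, hY, hbar⟩ := exists_shortExact_nsmul R p htf
  have hbar2 : Limits.IsZero (groupCohomology Rbar 2) := isZero_H_X₃ hY 2 hR2 hR3
  have hIbar : IsRelInjective Rbar := isRelInjective_of_isPGroup_of_H2 p hk hG Rbar hbar hbar2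
  -- `Hom(B, R)` is acyclic
  have hBR : ∀ m : ℕ, Limits.IsZero (groupCohomology (homRep B R) (m + 1)) := by
    intro m
    obtain ⟨h, hS⟩ := homRep_shortExact_right B hY
    have hS' := shortExact_congr_f (homRepMapRight_nsmul_id B R p) h hS
    exact isZero_groupCohomology_of_nsmul_shortExact p a hcard _ _ hS' m
      ((hIbar.homRep B).isZero_groupCohomology m)
  -- conclusion
  obtain ⟨h, hS⟩ := homRep_shortExact_right B hX
  exact isZero_H_X₃ hS (n + 1) ((hL.homRep B).isZero_groupCohomology n) (hBR (n + 1))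

end Fin

end Fermat.Agent.CFT.Coh
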