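import Fermat.Agent.CFT.Coh.RelInj_helper9

/-!
# CFT (PT1): relatively injective representations — averaging, lifting, extension, `Hom`

Complements to helper9's `IsRelInjective` (`∃ e, ∑_g g e g⁻¹ = id`):

* `avgHom φ`: the morphism `∑_g ρ_B(g) ∘ φ ∘ ρ_A(g⁻¹) : A ⟶ B` attached to a linear map `φ`;
* `IsRelInjective.exists_lift`: a relatively injective representation with projective underlying
  module has the lifting property along surjective morphisms;
* `IsRelInjective.exists_extension`: morphisms into a relatively injective representation extend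
  along linearly split injections;
* `homRep B A`, `IsRelInjective.homRep`: `Hom(B, A)` is relatively injective if `A` is;
* `IsRelInjective.of_iso`.
-/

open CategoryTheory groupCohomology Rep

namespace Fermat.Agent.CFT.Coh

variable {k G : Type} [CommRing k] [Group G] [Finite G]

/-- The averaged linear map `∑_g ρ_B(g) ∘ φ ∘ ρ_A(g⁻¹)`. -/
noncomputable def avgLin {A B : Rep.{0, 0, 0} k G} (φ : A.V →ₗ[k] B.V) : A.V →ₗ[k] B.V :=
  letI := Fintype.ofFinite G
  ∑ g : G, (B.ρ g).comp (φ.comp (A.ρ g⁻¹))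

lemma avgLin_apply [Fintype G] {A B : Rep.{0, 0, 0} k G} (φ : A.V →ₗ[k] B.V) (a : A.V) :
    avgLin φ a = ∑ g : G, B.ρ g (φ (A.ρ g⁻¹ a)) := by
  unfold avgLin
  rw [LinearMap.sum_apply]
  refine Finset.sum_congr (by ext; simp) fun g _ => rfl

lemma avgLin_ρ {A B : Rep.{0, 0, 0} k G} (φ : A.V →ₗ[k] B.V) (h : G) (a : A.V) :
    avgLin φ (A.ρ h a) = B.ρ h (avgLin φ a) := by
  classical
  let _ := Fintype.ofFinite G
  rw [avgLin_apply, avgLin_apply, map_sum]
  refine Fintype.sum_equiv (Equiv.mulLeft h⁻¹) _ _ fun g => ?_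
  show B.ρ g (φ (A.ρ g⁻¹ (A.ρ h a))) = B.ρ h (B.ρ (h⁻¹ * g) (φ (A.ρ (h⁻¹ * g)⁻¹ a)))
  rw [← Module.End.mul_apply, ← map_mul, ← Module.End.mul_apply (B.ρ h), ← map_mul,
    mul_inv_cancel_left, mul_inv_rev, inv_inv]

/-- The morphism of representations `∑_g ρ_B(g) ∘ φ ∘ ρ_A(g⁻¹)`. -/
noncomputable def avgHom {A B : Rep.{0, 0, 0} k G} (φ : A.V →ₗ[k] B.V) : A ⟶ B :=
  Rep.ofHom ⟨avgLin φ, fun h => by
    ext a
    exact avgLin_ρ φ h a⟩

lemma avgHom_apply [Fintype G] {A B : Rep.{0, 0, 0} k G} (φ : A.V →ₗ[k] B.V) (a : A.V) :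
    (avgHom φ).hom a = ∑ g : G, B.ρ g (φ (A.ρ g⁻¹ a)) :=
  avgLin_apply φ a

/-- **Lifting property**: a relatively injective representation whose underlying module is
projective lifts along surjective morphisms. -/
theorem IsRelInjective.exists_lift {F B B' : Rep.{0, 0, 0} k G} (hF : IsRelInjective F)
    [Module.Projective k F.V] (π : B' ⟶ B) (hπ : Function.Surjective π.hom) (Φ : F ⟶ B) :
    ∃ Φ' : F ⟶ B', Φ' ≫ π = Φ := by
  classical
  let _ := Fintype.ofFinite G
  obtain ⟨e, he⟩ := hF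
  obtain ⟨φ', hφ'⟩ := Module.projective_lifting_property π.hom.toLinearMap Φ.hom.toLinearMap hπ
  refine ⟨avgHom (φ'.comp e), ?_⟩
  ext a
  show π.hom ((avgHom (φ'.comp e)).hom a) = Φ.hom a
  rw [avgHom_apply, map_sum]
  conv_rhs => rw [← he a, conjSum_apply, map_sum]
  refine Finset.sum_congr rfl fun g _ => ?_
  rw [Rep.hom_comm_apply π, Rep.hom_comm_apply Φ]
  congr 1
  exact congrArg (fun ψ : F.V →ₗ[k] B.V => ψ (e (F.ρ g⁻¹ a))) hφ'

/-- **Extension property**: morphisms into a relatively injective representation extend along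
linearly split injections. -/
theorem IsRelInjective.exists_extension {I B B' : Rep.{0, 0, 0} k G} (hI : IsRelInjective I)
    (ι : B ⟶ B') (r : B'.V →ₗ[k] B.V) (hr : ∀ b, r (ι.hom b) = b) (Φ : B ⟶ I) :
    ∃ Φ' : B' ⟶ I, ι ≫ Φ' = Φ := by
  classical
  let _ := Fintype.ofFinite G
  obtain ⟨e, he⟩ := hI
  refine ⟨avgHom (e.comp (Φ.hom.toLinearMap.comp r)), ?_⟩
  ext b
  show (avgHom (e.comp (Φ.hom.toLinearMap.comp r))).hom (ι.hom b) = Φ.hom b
  rw [avgHom_apply]
  conv_rhs => rw [← he (Φ.hom b), conjSum_apply]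
  refine Finset.sum_congr rfl fun g _ => ?_
  show I.ρ g (e (Φ.hom (r (B'.ρ g⁻¹ (ι.hom b))))) = I.ρ g (e (I.ρ g⁻¹ (Φ.hom b)))
  rw [← Rep.hom_comm_apply ι, hr, Rep.hom_comm_apply Φ]

/-- Relative injectivity is invariant under isomorphisms. -/
theorem IsRelInjective.of_iso {A A' : Rep.{0, 0, 0} k G} (hA : IsRelInjective A) (i : A ≅ A') :
    IsRelInjective A' := by
  classical
  let _ := Fintype.ofFinite G
  obtain ⟨e, he⟩ := hA
  refine ⟨i.hom.hom.toLinearMap.comp (e.comp i.inv.hom.toLinearMap), fun a => ?_⟩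
  rw [conjSum_apply]
  have h1 : a = i.hom.hom (i.inv.hom a) := (Rep.hom_inv_apply _ _ i a).symm
  conv_rhs => rw [h1, ← he (i.inv.hom a), conjSum_apply, map_sum]
  refine Finset.sum_congr rfl fun g _ => ?_
  show A'.ρ g (i.hom.hom (e (i.inv.hom (A'.ρ g⁻¹ a)))) = i.hom.hom (A.ρ g (e (A.ρ g⁻¹ (i.inv.hom a))))
  rw [Rep.hom_comm_apply i.hom, Rep.hom_comm_apply i.inv]

/-- The representation `Hom_k(B, A)` with `g • x = ρ_A(g) ∘ x ∘ ρ_B(g⁻¹)`. -/
noncomputable abbrev homRep (B A : Rep.{0, 0, 0} k G) : Rep.{0, 0, 0} k G :=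
  Rep.of (Representation.linHom B.ρ A.ρ)

omit [Finite G] in
lemma homRep_ρ_apply (B A : Rep.{0, 0, 0} k G) (g : G) (x : B.V →ₗ[k] A.V) :
    (homRep B A).ρ g x = (A.ρ g).comp (x.comp (B.ρ g⁻¹)) := rfl

omit [Finite G] in
lemma homRep_ρ_apply_apply (B A : Rep.{0, 0, 0} k G) (g : G) (x : B.V →ₗ[k] A.V) (b : B.V) :
    ((homRep B A).ρ g x : B.V →ₗ[k] A.V) b = A.ρ g (x (B.ρ g⁻¹ b)) := rfl

omit [Finite G] in
/-- invariants of `Hom(B, A)` are the equivariant maps -/
lemma mem_invariants_homRep_iff (B A : Rep.{0, 0, 0} k G) (x : B.V →ₗ[k] A.V) :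
    x ∈ (homRep B A).ρ.invariants ↔ ∀ (g : G) (b : B.V), x (B.ρ g b) = A.ρ g (x b) := by
  constructor
  · intro hx g b
    have h1 : A.ρ g (x (B.ρ g⁻¹ (B.ρ g b))) = x (B.ρ g b) :=
      congrArg (fun y : B.V →ₗ[k] A.V => y (B.ρ g b)) (hx g)
    rw [← h1, ← Module.End.mul_apply, ← map_mul, inv_mul_cancel, map_one, Module.End.one_apply]
  · intro hx g
    apply LinearMap.ext
    intro b
    rw [homRep_ρ_apply_apply, ← hx, ← Module.End.mul_apply, ← map_mul, mul_inv_cancel, map_one,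
      Module.End.one_apply]

/-- `Hom(B, A)` is relatively injective if `A` is. -/
theorem IsRelInjective.homRep {A : Rep.{0, 0, 0} k G} (hA : IsRelInjective A)
    (B : Rep.{0, 0, 0} k G) : IsRelInjective (homRep B A) := by
  classical
  let _ := Fintype.ofFinite G
  obtain ⟨e, he⟩ := hA
  refine ⟨LinearMap.compRight k e, fun x => ?_⟩
  rw [conjSum_apply]
  apply LinearMap.ext
  intro b
  conv_rhs => rw [← he (x b), conjSum_apply]
  rw [LinearMap.sum_apply]
  refine Finset.sum_congr rfl fun g _ => ?_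
  rw [homRep_ρ_apply_apply, LinearMap.compRight_apply, LinearMap.comp_apply, homRep_ρ_apply_apply,
    ← Module.End.mul_apply (B.ρ g⁻¹⁻¹), ← map_mul, inv_inv, mul_inv_cancel, map_one,
    Module.End.one_apply]

end Fermat.Agent.CFT.Coh
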