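import Mathlib

/-!
# CFT / Coh: recognising coinduced representations (lead)

* `coindRecognitionIso`: if `π : res D A ⟶ B` is such that `a ↦ (g ↦ π (g • a))` is bijective onto
  the coinduced module, then `A ≅ coind D B`;
* `cohomologyIsoOfRecognition`: hence `Hⁿ(G, A) ≅ Hⁿ(D, B)` (Shapiro);
* `isZero_groupCohomology_of_recognition`.
-/

set_option autoImplicit false

open CategoryTheory

namespace Fermat.Agent.CFT.Coh

section recognition

variable {k G : Type} [CommRing k] [Group G] {D : Subgroup G} (A : Rep.{0} k G) (B : Rep.{0} k D)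
  (π : Rep.res D.subtype A ⟶ B)

/-- The comparison map `a ↦ (g ↦ π (g • a))` from `A` to the coinduced representation. -/
noncomputable def coindCompare : A ⟶ Rep.coind D.subtype B :=
  Rep.resCoindToHom D.subtype A B π

lemma coindCompare_apply (a : A.V) (g : G) :
    ((coindCompare A B π).hom a).1 g = π.hom (A.ρ g a) := rfl

variable (hinj : ∀ a : A.V, (∀ g : G, π.hom (A.ρ g a) = 0) → a = 0)
  (hsurj : ∀ f : G → B.V, (∀ (d : D) (g : G), f ((d : G) * g) = B.ρ d (f g)) →
    ∃ a : A.V, ∀ g : G, π.hom (A.ρ g a) = f g)

include hinj hsurj in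
lemma coindCompare_bijective : Function.Bijective (coindCompare A B π).hom := by
  constructor
  · rw [injective_iff_map_eq_zero]
    intro a ha
    apply hinj
    intro g
    rw [← coindCompare_apply, ha]
    rfl
  · intro f
    obtain ⟨a, ha⟩ := hsurj f.1 (fun d g => f.2 d g)
    refine ⟨a, ?_⟩
    apply Subtype.ext
    funext g
    rw [coindCompare_apply, ha]

/-- Recognition of coinduced representations. -/
noncomputable def coindRecognitionIso : A ≅ Rep.coind D.subtype B :=
  let e : A.ρ.Equiv (Rep.coind D.subtype B).ρ :=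
    { (coindCompare A B π).hom, Equiv.ofBijective _ (coindCompare_bijective A B π hinj hsurj) with }
  Rep.mkIso e

/-- Shapiro for recognised coinduced representations: `Hⁿ(G, A) ≅ Hⁿ(D, B)`. -/
noncomputable def cohomologyIsoOfRecognition (n : ℕ) :
    groupCohomology A n ≅ groupCohomology B n :=
  (groupCohomology.functor k G n).mapIso (coindRecognitionIso A B π hinj hsurj) ≪≫
    groupCohomology.coindIso B n

include hinj hsurj in
theorem isZero_groupCohomology_of_recognition (n : ℕ)
    (h : Limits.IsZero (groupCohomology B n)) : Limits.IsZero (groupCohomology A n) :=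
  h.of_iso (cohomologyIsoOfRecognition A B π hinj hsurj n)

end recognition

end Fermat.Agent.CFT.Coh

namespace Fermat.Agent.CFT.Coh

section mulComponents

variable {G M N : Type} [Group G] [CommGroup M] [MulDistribMulAction G M] (D : Subgroup G)
  [D.FiniteIndex] [CommGroup N] [MulDistribMulAction D N]
  (π : M →* N) (ι : N →* M)
  (hπ : ∀ (d : D) (m : M), π ((d : G) • m) = d • π m)

/-- The projection onto a component as a morphism of representations of the stabiliser. -/
noncomputable def mulCompProj :
    Rep.res D.subtype (Rep.ofMulDistribMulAction G M) ⟶ Rep.ofMulDistribMulAction D N :=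
  Rep.ofHom ⟨(MonoidHom.toAdditive π).toIntLinearMap, fun d => by
    ext v
    exact congrArg Additive.ofMul (hπ d (Additive.toMul v))⟩

omit [D.FiniteIndex] in
lemma mulCompProj_apply (v : Additive M) :
    (mulCompProj D π hπ).hom v = Additive.ofMul (π (Additive.toMul v)) := rfl

variable (hπι : ∀ n, π (ι n) = n)
  (hoff : ∀ (g : G) (n : N), g ∉ D → π (g • ι n) = 1)
  (hinj : ∀ m : M, (∀ g : G, π (g • m) = 1) → m = 1)

include hπ hπι hoff in
lemma mulComp_surj (f : G → N) (hf : ∀ (d : D) (g : G), f ((d : G) * g) = d • f g) :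
    ∃ m : M, ∀ g : G, π (g • m) = f g := by
  classical
  let _ : Fintype (G ⧸ D) := Fintype.ofFinite _
  refine ⟨∏ c : G ⧸ D, (Quotient.out c : G) • ι (f (Quotient.out c : G)⁻¹), fun h => ?_⟩
  rw [Finset.smul_prod', map_prod, Finset.prod_eq_single (QuotientGroup.mk h⁻¹ : G ⧸ D)]
  · set r : G := Quotient.out (QuotientGroup.mk h⁻¹ : G ⧸ D) with hr
    have hmem : h * r ∈ D := by
      have h1 : (QuotientGroup.mk r : G ⧸ D) = QuotientGroup.mk h⁻¹ := Quotient.out_eq' _
      rw [QuotientGroup.eq] at h1
      have h2 := D.inv_mem h1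
      rwa [mul_inv_rev, inv_inv, inv_inv] at h2
    rw [← mul_smul]
    have h3 := hπ ⟨h * r, hmem⟩ (ι (f r⁻¹))
    rw [Subgroup.coe_mk] at h3
    rw [h3, hπι, ← hf]
    congr 1
    rw [Subgroup.coe_mk, mul_assoc, mul_inv_cancel, mul_one]
  · intro c _ hc
    rw [← mul_smul]
    apply hoff
    intro hmem
    apply hc
    have h1 : (QuotientGroup.mk (Quotient.out c : G) : G ⧸ D) = c := Quotient.out_eq' _
    rw [← h1, QuotientGroup.eq]
    have h2 := D.inv_mem hmem
    rwa [mul_inv_rev] at h2
  · intro h0
    exact absurd (Finset.mem_univ _) h0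

/-- **Recognition, multiplicative form**: a `G`-module `M` with a `D`-equivariant retraction onto
a `D`-module `N` whose translates `g • N` (`g ∈ G/D`) are independent and generate is coinduced:
`Hⁿ(G, M) ≅ Hⁿ(D, N)`. -/
noncomputable def cohomologyIsoOfMulComponents (n : ℕ) :
    groupCohomology (Rep.ofMulDistribMulAction G M) n ≅
      groupCohomology (Rep.ofMulDistribMulAction D N) n :=
  cohomologyIsoOfRecognition (Rep.ofMulDistribMulAction G M) (Rep.ofMulDistribMulAction D N)
    (mulCompProj D π hπ)
    (fun a ha => by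
      have := hinj (Additive.toMul a) fun g => by
        have h1 := ha g
        rw [mulCompProj_apply] at h1
        exact congrArg Additive.toMul h1
      exact congrArg Additive.ofMul this)
    (fun f hf => by
      obtain ⟨m, hm⟩ := mulComp_surj D π ι hπ hπι hoff (fun g => Additive.toMul (f g))
        (fun d g => congrArg Additive.toMul (hf d g))
      exact ⟨Additive.ofMul m, fun g => by
        rw [mulCompProj_apply]
        exact congrArg Additive.ofMul (hm g)⟩) n

include hπ hπι hoff hinj in
theorem isZero_groupCohomology_of_mulComponents (n : ℕ)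
    (h : Limits.IsZero (groupCohomology (Rep.ofMulDistribMulAction D N) n)) :
    Limits.IsZero (groupCohomology (Rep.ofMulDistribMulAction G M) n) :=
  h.of_iso (cohomologyIsoOfMulComponents D π ι hπ hπι hoff hinj n)

end mulComponents

end Fermat.Agent.CFT.Coh
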