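import Fermat.Agent.CFT.Coh.Basic_helper9

/-!
# CFT (C0.2)(c), part 1: the elementary cup product `Ĥ⁰(G, A) × H²(G, k) → H²(G, A)`

For `A : Rep k G`, an invariant `a ∈ A^G` and a `2`-cocycle `n : G × G → k` (trivial action),
`(σ, τ) ↦ n(σ, τ) • a` is a `2`-cocycle of `A`.  This gives

* `cupInv A : A^G →ₗ[k] H²(G, k) →ₗ[k] H²(G, A)` for an arbitrary group `G`;
* `cup₀₂ A : Ĥ⁰(G, A) →ₗ[k] H²(G, k) →ₗ[k] H²(G, A)` for a finite group `G`
  (norms are killed: `n(σ,τ) • N b = d(σ ↦ ∑_ρ n(σ, ρ) • σρ b)`).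
-/

set_option autoImplicit false

open CategoryTheory groupCohomology

namespace Fermat.Agent.CFT.Coh

section CupInv

variable {k G : Type} [CommRing k] [Group G] (A : Rep k G)

/-- `n ↦ ((σ, τ) ↦ n(σ, τ) • a)`, linear in the scalar cochain `n`. -/
def cupCochain (a : A.V) : (G × G → k) →ₗ[k] (G × G → A.V) where
  toFun n p := n p • a
  map_add' n n' := by ext p; simp [add_smul]
  map_smul' r n := by ext p; simp [mul_smul]

@[simp] lemma cupCochain_apply (a : A.V) (n : G × G → k) (p : G × G) :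
    cupCochain A a n p = n p • a := rfl

lemma cocycles₂_trivial_iff (n : G × G → k) :
    n ∈ cocycles₂ (Rep.trivial k G k) ↔
      ∀ g h j : G, n (g * h, j) + n (g, h) = n (h, j) + n (g, h * j) := by
  rw [mem_cocycles₂_iff]
  rfl

lemma cupCochain_mem_cocycles₂ {a : A.V} (ha : a ∈ A.ρ.invariants) {n : G × G → k}
    (hn : n ∈ cocycles₂ (Rep.trivial k G k)) : cupCochain A a n ∈ cocycles₂ A := by
  rw [mem_cocycles₂_iff]
  intro g h j
  have := (cocycles₂_trivial_iff n).1 hn g h j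
  simp only [cupCochain_apply, map_smul, ha g, ← add_smul, this]

/-- `(σ ↦ m σ • a)`, linear in the scalar `1`-cochain `m`. -/
def cupCochain₁ (a : A.V) : (G → k) →ₗ[k] (G → A.V) where
  toFun m g := m g • a
  map_add' m m' := by ext g; simp [add_smul]
  map_smul' r m := by ext g; simp [mul_smul]

lemma cupCochain_d₁₂ {a : A.V} (ha : a ∈ A.ρ.invariants) (m : G → k) :
    cupCochain A a ((d₁₂ (Rep.trivial k G k)).hom m) = (d₁₂ A).hom (cupCochain₁ A a m) := by
  ext p
  simp only [cupCochain_apply, d₁₂_hom_apply, cupCochain₁, LinearMap.coe_mk, AddHom.coe_mk,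
    map_smul, ha p.1, add_smul, sub_smul]
  rfl

/-- cup product with an invariant on cocycles -/
def cupCocycles (a : A.ρ.invariants) : cocycles₂ (Rep.trivial k G k) →ₗ[k] cocycles₂ A :=
  ((cupCochain A a.1).comp (cocycles₂ (Rep.trivial k G k)).subtype).codRestrict _
    fun n => cupCochain_mem_cocycles₂ A a.2 n.2

@[simp] lemma cupCocycles_apply (a : A.ρ.invariants) (n : cocycles₂ (Rep.trivial k G k))
    (p : G × G) : cupCocycles A a n p = n p • a.1 := rfl

lemma H2π_surjective' (B : Rep k G) : Function.Surjective (H2π B).hom :=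
  (ModuleCat.epi_iff_surjective _).1 inferInstance

/-- descend a linear map on `2`-cocycles killing coboundaries to `H²` -/
noncomputable def H2desc {B : Rep k G} {M : Type*} [AddCommGroup M] [Module k M]
    (f : cocycles₂ B →ₗ[k] M) (hf : ∀ c : cocycles₂ B, ⇑c ∈ coboundaries₂ B → f c = 0) :
    H2 B →ₗ[k] M :=
  (Submodule.liftQ (LinearMap.ker (H2π B).hom) f (by
    intro c hc
    rw [LinearMap.mem_ker] at hc ⊢
    exact hf c ((H2π_eq_zero_iff c).1 hc))).comp
  ((H2π B).hom.quotKerEquivOfSurjective (H2π_surjective' B)).symm.toLinearMap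

lemma H2desc_π {B : Rep k G} {M : Type*} [AddCommGroup M] [Module k M]
    (f : cocycles₂ B →ₗ[k] M) (hf : ∀ c : cocycles₂ B, ⇑c ∈ coboundaries₂ B → f c = 0)
    (c : cocycles₂ B) : H2desc f hf ((H2π B).hom c) = f c := by
  rw [H2desc, LinearMap.comp_apply]
  have : ((H2π B).hom.quotKerEquivOfSurjective (H2π_surjective' B)).symm ((H2π B).hom c) =
      Submodule.Quotient.mk c := by
    rw [LinearEquiv.symm_apply_eq]
    rfl
  rw [LinearEquiv.coe_coe, this]
  rfl

/-- cup product with a fixed invariant, `H²(G, k) → H²(G, A)` -/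
noncomputable def cupH2 (a : A.ρ.invariants) : H2 (Rep.trivial k G k) →ₗ[k] H2 A :=
  H2desc ((H2π A).hom.comp (cupCocycles A a)) (by
    intro n hn
    obtain ⟨m, hm⟩ := hn
    rw [LinearMap.comp_apply, H2π_eq_zero_iff]
    refine ⟨cupCochain₁ A a.1 m, ?_⟩
    rw [← cupCochain_d₁₂ A a.2 m, hm]
    rfl)

lemma cupH2_π (a : A.ρ.invariants) (n : cocycles₂ (Rep.trivial k G k)) :
    cupH2 A a ((H2π _).hom n) = (H2π A).hom (cupCocycles A a n) :=
  H2desc_π _ _ n

lemma cupCocycles_val (a : A.ρ.invariants) (n : cocycles₂ (Rep.trivial k G k)) :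
    (cupCocycles A a n).1 = cupCochain A a.1 n.1 := rfl

lemma cupCocycles_add (a b : A.ρ.invariants) (n : cocycles₂ (Rep.trivial k G k)) :
    cupCocycles A (a + b) n = cupCocycles A a n + cupCocycles A b n := by
  apply Subtype.ext
  rw [Submodule.coe_add, cupCocycles_val, cupCocycles_val, cupCocycles_val]
  funext p
  simp [smul_add]

lemma cupCocycles_smul (r : k) (a : A.ρ.invariants) (n : cocycles₂ (Rep.trivial k G k)) :
    cupCocycles A (r • a) n = r • cupCocycles A a n := by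
  apply Subtype.ext
  rw [Submodule.coe_smul, cupCocycles_val, cupCocycles_val]
  funext p
  simp [smul_comm r]

/-- **cup product** `A^G × H²(G, k) → H²(G, A)`, `(a, [n]) ↦ [(σ,τ) ↦ n(σ,τ) • a]`. -/
noncomputable def cupInv : A.ρ.invariants →ₗ[k] H2 (Rep.trivial k G k) →ₗ[k] H2 A where
  toFun a := cupH2 A a
  map_add' a b := by
    ext x
    induction x using H2_induction_on with
    | h n =>
      rw [LinearMap.add_apply]
      erw [cupH2_π, cupH2_π, cupH2_π]
      rw [cupCocycles_add, map_add]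
  map_smul' r a := by
    ext x
    induction x using H2_induction_on with
    | h n =>
      rw [LinearMap.smul_apply, RingHom.id_apply]
      erw [cupH2_π, cupH2_π]
      rw [cupCocycles_smul, map_smul]

lemma cupInv_π (a : A.ρ.invariants) (n : cocycles₂ (Rep.trivial k G k)) :
    cupInv A a ((H2π _).hom n) = (H2π A).hom (cupCocycles A a n) :=
  cupH2_π A a n

end CupInv

section Cup02

variable {k G : Type} [CommRing k] [Group G] [Finite G] (A : Rep k G)

/-- the `1`-cochain `σ ↦ ∑_ρ n(σ, ρ) • σρ b` bounding `(σ,τ) ↦ n(σ,τ) • N b` -/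
noncomputable def normBound (n : G × G → k) (b : A.V) : G → A.V :=
  letI := Fintype.ofFinite G
  fun σ => ∑ ρ : G, n (σ, ρ) • A.ρ (σ * ρ) b

lemma normBound_apply [Fintype G] (n : G × G → k) (b : A.V) (σ : G) :
    normBound A n b σ = ∑ ρ : G, n (σ, ρ) • A.ρ (σ * ρ) b := by
  unfold normBound
  congr!

lemma cupCochain_normMap {n : G × G → k} (hn : n ∈ cocycles₂ (Rep.trivial k G k)) (b : A.V) :
    cupCochain A (normMap A b) n = (d₁₂ A).hom (normBound A n b) := by
  let _ := Fintype.ofFinite G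
  have hc := (cocycles₂_trivial_iff n).1 hn
  ext ⟨σ, τ⟩
  simp only [cupCochain_apply, d₁₂_hom_apply, normBound_apply, map_sum, map_smul]
  -- reindex the third sum by `ρ ↦ τ * ρ`
  have h3 : ∑ ρ : G, n (σ, ρ) • A.ρ (σ * ρ) b = ∑ ρ : G, n (σ, τ * ρ) • A.ρ (σ * (τ * ρ)) b :=
    (Equiv.sum_comp (Equiv.mulLeft τ) (fun ρ => n (σ, ρ) • A.ρ (σ * ρ) b)).symm
  rw [h3, ← Finset.sum_sub_distrib, ← Finset.sum_add_distrib]
  have h4 : ∀ ρ : G, n (τ, ρ) • A.ρ σ (A.ρ (τ * ρ) b) - n (σ * τ, ρ) • A.ρ (σ * τ * ρ) b +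
      n (σ, τ * ρ) • A.ρ (σ * (τ * ρ)) b = n (σ, τ) • A.ρ (σ * τ * ρ) b := by
    intro ρ
    have e1 : A.ρ σ (A.ρ (τ * ρ) b) = A.ρ (σ * τ * ρ) b := by
      rw [mul_assoc, map_mul A.ρ σ (τ * ρ)]; rfl
    have e2 : σ * (τ * ρ) = σ * τ * ρ := (mul_assoc _ _ _).symm
    rw [e1, e2, ← sub_smul, ← add_smul]
    congr 1
    have := hc σ τ ρ
    linear_combination -this
  rw [Finset.sum_congr rfl fun ρ _ => h4 ρ, ← Finset.smul_sum, normMap_apply]
  congr 1
  exact (Equiv.sum_comp (Equiv.mulLeft (σ * τ)) (fun ρ => A.ρ ρ b)).symm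

lemma cupInv_normInv (b : A.V) : cupInv A (normInv A b) = 0 := by
  ext x
  induction x using H2_induction_on with
  | h n =>
    erw [cupInv_π]
    rw [LinearMap.zero_apply]
    erw [H2π_eq_zero_iff]
    exact ⟨normBound A n.1 b, (cupCochain_normMap A n.2 b).symm⟩

/-- **cup product** `Ĥ⁰(G, A) × H²(G, k) → H²(G, A)`. -/
noncomputable def cup₀₂ : TateH0 A →ₗ[k] H2 (Rep.trivial k G k) →ₗ[k] H2 A :=
  Submodule.liftQ _ (cupInv A) (by
    rintro _ ⟨b, rfl⟩
    exact LinearMap.mem_ker.2 (cupInv_normInv A b))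

@[simp] lemma cup₀₂_mk (a : A.ρ.invariants) : cup₀₂ A (TateH0.mk A a) = cupInv A a := rfl

lemma cup₀₂_mk_π (a : A.ρ.invariants) (n : cocycles₂ (Rep.trivial k G k)) :
    cup₀₂ A (TateH0.mk A a) ((H2π _).hom n) = (H2π A).hom (cupCocycles A a n) :=
  cupInv_π A a n

end Cup02

end Fermat.Agent.CFT.Coh
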