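import Fermat.Agent.CFT.Coh.Cup_helper2

/-!
# CFT (C0.2)(c), part 2: the connecting map `δ : Hom(G, ℚ/ℤ) → H²(G, ℤ)` and `a ∪ δχ`

`ℚ/ℤ` is `AddCircle (1 : ℚ)`.  For a function `ℓ : G → ℚ` which is a homomorphism modulo `ℤ`
(`IsQZLift ℓ`), `δlift k ℓ` is the class of the `2`-cocycle
`(σ, τ) ↦ ℓ σ + ℓ τ - ℓ (σ τ) ∈ ℤ → k`; it only depends on `ℓ` modulo `ℤ` and is additive.
For a character `χ : Additive G →+ AddCircle (1 : ℚ)`,
`δchar k χ := δlift k (the lift of χ with values in [0, 1))`, so that its cocycle is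
`(σ, τ) ↦ ⌊χ̃ σ + χ̃ τ⌋`.  `cupδ A a χ = a ∪ δχ ∈ H²(G, A)`.

The coefficient ring `k` is arbitrary (`k = ℤ` for class field theory; the general case avoids
the `ℤ`-module instance diamond on `Rep ℤ G` and also serves `k = ZMod p`).
`G` is an arbitrary group in this file (finiteness only for `cupδ` on `Ĥ⁰`).
-/

set_option autoImplicit false

open CategoryTheory groupCohomology

namespace Fermat.Agent.CFT.Coh

section DeltaInt

variable {G : Type} [Group G]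

/-- `ℓ : G → ℚ` is a homomorphism modulo `ℤ`. -/
def IsQZLift (ℓ : G → ℚ) : Prop := ∀ σ τ : G, ∃ m : ℤ, ℓ σ + ℓ τ - ℓ (σ * τ) = m

/-- the integer `ℓ σ + ℓ τ - ℓ (σ τ)` -/
def δcochain (ℓ : G → ℚ) : G × G → ℤ := fun p => ⌊ℓ p.1 + ℓ p.2 - ℓ (p.1 * p.2)⌋

lemma δcochain_cast {ℓ : G → ℚ} (hℓ : IsQZLift ℓ) (σ τ : G) :
    ((δcochain ℓ (σ, τ) : ℤ) : ℚ) = ℓ σ + ℓ τ - ℓ (σ * τ) := by
  obtain ⟨m, hm⟩ := hℓ σ τ
  simp [δcochain, hm]

lemma δcochain_cocycle {ℓ : G → ℚ} (hℓ : IsQZLift ℓ) (g h j : G) :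
    δcochain ℓ (g * h, j) + δcochain ℓ (g, h) = δcochain ℓ (h, j) + δcochain ℓ (g, h * j) := by
  have : ((δcochain ℓ (g * h, j) + δcochain ℓ (g, h) : ℤ) : ℚ) =
      ((δcochain ℓ (h, j) + δcochain ℓ (g, h * j) : ℤ) : ℚ) := by
    push_cast
    rw [δcochain_cast hℓ, δcochain_cast hℓ, δcochain_cast hℓ, δcochain_cast hℓ, mul_assoc]
    ring
  exact_mod_cast this

lemma IsQZLift.add {ℓ ℓ' : G → ℚ} (hℓ : IsQZLift ℓ) (hℓ' : IsQZLift ℓ') : IsQZLift (ℓ + ℓ') := by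
  intro σ τ
  obtain ⟨m, hm⟩ := hℓ σ τ
  obtain ⟨m', hm'⟩ := hℓ' σ τ
  refine ⟨m + m', ?_⟩
  simp only [Pi.add_apply, Int.cast_add, ← hm, ← hm']
  ring

lemma IsQZLift.neg {ℓ : G → ℚ} (hℓ : IsQZLift ℓ) : IsQZLift (-ℓ) := by
  intro σ τ
  obtain ⟨m, hm⟩ := hℓ σ τ
  refine ⟨-m, ?_⟩
  simp only [Pi.neg_apply, Int.cast_neg, ← hm]
  ring

lemma isQZLift_of_int {ℓ : G → ℚ} (h : ∀ σ, ∃ m : ℤ, ℓ σ = m) : IsQZLift ℓ := by
  intro σ τ
  obtain ⟨a, ha⟩ := h σ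
  obtain ⟨b, hb⟩ := h τ
  obtain ⟨c, hc⟩ := h (σ * τ)
  exact ⟨a + b - c, by rw [ha, hb, hc]; push_cast; ring⟩

lemma δcochain_add {ℓ ℓ' : G → ℚ} (hℓ : IsQZLift ℓ) (hℓ' : IsQZLift ℓ') (p : G × G) :
    δcochain (ℓ + ℓ') p = δcochain ℓ p + δcochain ℓ' p := by
  obtain ⟨σ, τ⟩ := p
  have : ((δcochain (ℓ + ℓ') (σ, τ) : ℤ) : ℚ) =
      ((δcochain ℓ (σ, τ) + δcochain ℓ' (σ, τ) : ℤ) : ℚ) := by
    push_cast
    rw [δcochain_cast hℓ, δcochain_cast hℓ', δcochain_cast (hℓ.add hℓ')]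
    simp only [Pi.add_apply]
    ring
  exact_mod_cast this

lemma δcochain_of_int {ℓ : G → ℚ} (h : ∀ σ, ∃ m : ℤ, ℓ σ = m) (σ τ : G) :
    δcochain ℓ (σ, τ) = ⌊ℓ τ⌋ - ⌊ℓ (σ * τ)⌋ + ⌊ℓ σ⌋ := by
  have hfl : ∀ σ, ((⌊ℓ σ⌋ : ℤ) : ℚ) = ℓ σ := by
    intro σ
    obtain ⟨m, hm⟩ := h σ
    simp [hm]
  have : ((δcochain ℓ (σ, τ) : ℤ) : ℚ) = ((⌊ℓ τ⌋ - ⌊ℓ (σ * τ)⌋ + ⌊ℓ σ⌋ : ℤ) : ℚ) := by
    rw [δcochain_cast (isQZLift_of_int h)]
    push_cast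
    rw [hfl, hfl, hfl]
    ring
  exact_mod_cast this

end DeltaInt

section Delta

variable (k : Type) [CommRing k] {G : Type} [Group G]

/-- the `2`-cocycle `(σ, τ) ↦ ℓ σ + ℓ τ - ℓ (σ τ)` with values in `k` -/
def δcocycle {ℓ : G → ℚ} (hℓ : IsQZLift ℓ) : cocycles₂ (Rep.trivial k G k) :=
  ⟨fun p => ((δcochain ℓ p : ℤ) : k), by
    rw [cocycles₂_trivial_iff]
    intro g h j
    have := congrArg (Int.cast : ℤ → k) (δcochain_cocycle hℓ g h j)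
    push_cast at this
    exact this⟩

@[simp] lemma δcocycle_apply {ℓ : G → ℚ} (hℓ : IsQZLift ℓ) (p : G × G) :
    δcocycle k hℓ p = ((δcochain ℓ p : ℤ) : k) := rfl

/-- the class `δ(ℓ mod ℤ) ∈ H²(G, k)` -/
noncomputable def δlift {ℓ : G → ℚ} (hℓ : IsQZLift ℓ) : H2 (Rep.trivial k G k) :=
  (H2π _).hom (δcocycle k hℓ)

/-- an integer valued `ℓ` gives the trivial class -/
lemma δlift_of_int {ℓ : G → ℚ} (h : ∀ σ, ∃ m : ℤ, ℓ σ = m) :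
    δlift k (isQZLift_of_int h) = 0 := by
  rw [δlift]
  erw [H2π_eq_zero_iff]
  refine ⟨fun σ => ((⌊ℓ σ⌋ : ℤ) : k), ?_⟩
  ext ⟨σ, τ⟩
  simp only [d₁₂_hom_apply]
  change ((⌊ℓ τ⌋ : ℤ) : k) - ((⌊ℓ (σ * τ)⌋ : ℤ) : k) + ((⌊ℓ σ⌋ : ℤ) : k) = _
  rw [δcocycle_apply, δcochain_of_int h]
  push_cast
  ring

lemma δlift_add {ℓ ℓ' : G → ℚ} (hℓ : IsQZLift ℓ) (hℓ' : IsQZLift ℓ') :
    δlift k (hℓ.add hℓ') = δlift k hℓ + δlift k hℓ' := by
  rw [δlift, δlift, δlift, ← map_add]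
  congr 1
  apply Subtype.ext
  rw [Submodule.coe_add]
  funext p
  change ((δcochain (ℓ + ℓ') p : ℤ) : k) = ((δcochain ℓ p : ℤ) : k) + ((δcochain ℓ' p : ℤ) : k)
  rw [δcochain_add hℓ hℓ']
  push_cast
  ring

/-- `δlift` only depends on `ℓ` modulo `ℤ`. -/
lemma δlift_congr {ℓ ℓ' : G → ℚ} (hℓ : IsQZLift ℓ) (hℓ' : IsQZLift ℓ')
    (h : ∀ σ, ∃ m : ℤ, ℓ σ - ℓ' σ = m) : δlift k hℓ = δlift k hℓ' := by
  have h1 : ∀ σ, ∃ m : ℤ, (ℓ - ℓ') σ = m := h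
  have h2 := δlift_add k hℓ' (isQZLift_of_int h1)
  rw [δlift_of_int k h1, add_zero] at h2
  rw [← h2]
  congr 1
  · funext σ; simp

end Delta

section Char

variable {G : Type} [Group G]

/-- the group of characters `G → ℚ/ℤ` -/
abbrev QZChar (G : Type) [Group G] : Type := Additive G →+ AddCircle (1 : ℚ)

/-- `ℓ` lifts the character `χ` -/
def LiftsChar (χ : QZChar G) (ℓ : G → ℚ) : Prop :=
  ∀ σ : G, ((ℓ σ : ℚ) : AddCircle (1 : ℚ)) = χ (Additive.ofMul σ)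

lemma LiftsChar.isQZLift {χ : QZChar G} {ℓ : G → ℚ} (h : LiftsChar χ ℓ) : IsQZLift ℓ := by
  intro σ τ
  have h0 : ((ℓ σ + ℓ τ - ℓ (σ * τ) : ℚ) : AddCircle (1 : ℚ)) = 0 := by
    rw [AddCircle.coe_sub, AddCircle.coe_add, h σ, h τ, h (σ * τ), ofMul_mul, map_add, sub_self]
  rw [AddCircle.coe_eq_zero_iff] at h0
  obtain ⟨m, hm⟩ := h0
  exact ⟨m, by rw [← hm]; simp⟩

lemma LiftsChar.add {χ χ' : QZChar G} {ℓ ℓ' : G → ℚ} (h : LiftsChar χ ℓ) (h' : LiftsChar χ' ℓ') :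
    LiftsChar (χ + χ') (ℓ + ℓ') := by
  intro σ
  rw [Pi.add_apply, AddCircle.coe_add, h σ, h' σ, AddMonoidHom.add_apply]

/-- two lifts of the same character differ by integers -/
lemma LiftsChar.sub_int {χ : QZChar G} {ℓ ℓ' : G → ℚ} (h : LiftsChar χ ℓ) (h' : LiftsChar χ ℓ')
    (σ : G) : ∃ m : ℤ, ℓ σ - ℓ' σ = m := by
  have h0 : ((ℓ σ - ℓ' σ : ℚ) : AddCircle (1 : ℚ)) = 0 := by
    rw [AddCircle.coe_sub, h σ, h' σ, sub_self]
  rw [AddCircle.coe_eq_zero_iff] at h0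
  obtain ⟨m, hm⟩ := h0
  exact ⟨m, by rw [← hm]; simp⟩

/-- the lift of a character with values in `[0, 1)` -/
noncomputable def charLift (χ : QZChar G) : G → ℚ :=
  fun σ => ((AddCircle.equivIco (1 : ℚ) 0) (χ (Additive.ofMul σ))).1

lemma charLift_mem (χ : QZChar G) (σ : G) : 0 ≤ charLift χ σ ∧ charLift χ σ < 1 := by
  have := ((AddCircle.equivIco (1 : ℚ) 0) (χ (Additive.ofMul σ))).2
  refine ⟨this.1, ?_⟩
  have h2 : charLift χ σ < 0 + 1 := this.2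
  linarith

lemma liftsChar_charLift (χ : QZChar G) : LiftsChar χ (charLift χ) :=
  fun _ => AddCircle.coe_equivIco

/-- the cocycle of `δχ` is `(σ, τ) ↦ ⌊χ̃ σ + χ̃ τ⌋` -/
lemma δcochain_charLift (χ : QZChar G) (σ τ : G) :
    δcochain (charLift χ) (σ, τ) = ⌊charLift χ σ + charLift χ τ⌋ := by
  have hℓ := (liftsChar_charLift χ).isQZLift
  have h1 := δcochain_cast hℓ σ τ
  have h3 := charLift_mem χ (σ * τ)
  symm
  rw [Int.floor_eq_iff, h1]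
  constructor <;> linarith

variable (k : Type) [CommRing k]

/-- **the connecting map** `δ : Hom(G, ℚ/ℤ) → H²(G, k)` (`k = ℤ`), with cocycle
`(σ, τ) ↦ χ̃ σ + χ̃ τ - χ̃ (σ τ) = ⌊χ̃ σ + χ̃ τ⌋`, `χ̃` the lift with values in `[0, 1)`. -/
noncomputable def δchar (χ : QZChar G) : H2 (Rep.trivial k G k) :=
  δlift k (liftsChar_charLift χ).isQZLift

/-- `δchar` may be computed with any lift of the character. -/
lemma δchar_eq_δlift {χ : QZChar G} {ℓ : G → ℚ} (h : LiftsChar χ ℓ) :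
    δchar k χ = δlift k h.isQZLift :=
  δlift_congr k _ _ ((liftsChar_charLift χ).sub_int h)

lemma δchar_add (χ χ' : QZChar G) : δchar k (χ + χ') = δchar k χ + δchar k χ' := by
  rw [δchar_eq_δlift k ((liftsChar_charLift χ).add (liftsChar_charLift χ'))]
  exact δlift_add k _ _

/-- `δ` as an additive map -/
noncomputable def δcharHom : QZChar G →+ H2 (Rep.trivial k G k) :=
  AddMonoidHom.mk' (δchar k) (δchar_add k)

@[simp] lemma δcharHom_apply (χ : QZChar G) : δcharHom k χ = δchar k χ := rfl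

end Char

section CupDelta

variable {k G : Type} [CommRing k] [Group G] (A : Rep k G)

/-- `a ∪ δχ` for an invariant `a ∈ A^G` (any group `G`) -/
noncomputable def cupδInv (a : A.ρ.invariants) (χ : QZChar G) : H2 A := cupInv A a (δchar k χ)

/-- cocycle-level description of `a ∪ δχ`, computed with any lift `ℓ` of `χ`:
it is the class of `(σ, τ) ↦ (ℓ σ + ℓ τ - ℓ (σ τ)) • a` -/
lemma cupδInv_eq {χ : QZChar G} {ℓ : G → ℚ} (h : LiftsChar χ ℓ) (a : A.ρ.invariants) :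
    cupδInv A a χ = (H2π A).hom (cupCocycles A a (δcocycle k h.isQZLift)) := by
  rw [cupδInv, δchar_eq_δlift k h, δlift]
  exact cupInv_π A a _

lemma cupδInv_add_left (a b : A.ρ.invariants) (χ : QZChar G) :
    cupδInv A (a + b) χ = cupδInv A a χ + cupδInv A b χ := by
  simp [cupδInv]

lemma cupδInv_add_right (a : A.ρ.invariants) (χ χ' : QZChar G) :
    cupδInv A a (χ + χ') = cupδInv A a χ + cupδInv A a χ' := by
  simp [cupδInv, δchar_add]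

variable [Finite G]

/-- **`a ∪ δχ`** for `a ∈ Ĥ⁰(G, A)`, `χ : G → ℚ/ℤ`, as a biadditive map -/
noncomputable def cupδ : TateH0 A →+ QZChar G →+ H2 A :=
  AddMonoidHom.mk' (fun a => (cup₀₂ A a).toAddMonoidHom.comp (δcharHom k)) (by
    intro a b
    ext χ
    simp)

lemma cupδ_apply (a : TateH0 A) (χ : QZChar G) : cupδ A a χ = cup₀₂ A a (δchar k χ) := rfl

lemma cupδ_mk (a : A.ρ.invariants) (χ : QZChar G) :
    cupδ A (TateH0.mk A a) χ = cupδInv A a χ := rfl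

/-- cocycle-level description of `a ∪ δχ` -/
lemma cupδ_mk_eq {χ : QZChar G} {ℓ : G → ℚ} (h : LiftsChar χ ℓ) (a : A.ρ.invariants) :
    cupδ A (TateH0.mk A a) χ = (H2π A).hom (cupCocycles A a (δcocycle k h.isQZLift)) :=
  cupδInv_eq A h a

end CupDelta

end Fermat.Agent.CFT.Coh
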