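import Fermat.Agent.CFT.Coh.Cyclic_helper6_H2

/-!
# CFT (C0.1/L4): the pullback rule for `H²` of finite cyclic groups

Let `G = ⟨g⟩` and `G' = ⟨g'⟩` be finite cyclic groups of orders `n`, `n'`, let `ρ : G' →* G` be a
group homomorphism with `ρ g' = g ^ f`, and let `ι : res ρ A ⟶ A'` be a morphism of representations.
Under helper6's explicit isomorphisms `H² ≃ Ĥ⁰` the pullback
`map ρ ι 2 : H²(G, A) → H²(G', A')` is `[a] ↦ [t • ι a]`, where `t = f n' / n`
(`cyclic_pullback`).  This is the rule `inv_L (res x) = [L : K] inv_K x` of local class field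
theory on unramified classes.
-/

set_option autoImplicit false

open CategoryTheory groupCohomology Rep

namespace Fermat.Agent.CFT.Coh

/-- The telescoping carry sum. -/
lemma sum_carry_add (n f L : ℕ) (hn : 0 < n) :
    ∑ l ∈ Finset.range L, ((f * l) % n + f % n) / n + L * (f / n) = (f * L) / n := by
  induction L with
  | zero => simp
  | succ L ih =>
    rw [Finset.sum_range_succ, Nat.succ_mul, Nat.mul_succ]
    have key : (f * L + f) / n = (f * L) / n + f / n + ((f * L) % n + f % n) / n := by
      have h1 := Nat.mod_add_div (f * L) n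
      have h2 := Nat.mod_add_div f n
      have : f * L + f = (f * L % n + f % n) + n * (f * L / n + f / n) := by
        rw [mul_add]; omega
      rw [this, Nat.add_mul_div_left _ _ hn]
      omega
    omega

section Pullback

variable {k G G' : Type} [CommRing k] [Group G] [Finite G] [Group G'] [Finite G']
  {g : G} (hg : ∀ x, x ∈ Subgroup.zpowers g) {g' : G'} (hg' : ∀ x, x ∈ Subgroup.zpowers g')
  (A : Rep k G) (A' : Rep k G') (ρ : G' →* G) (ι : res ρ A ⟶ A')

omit [Finite G] [Finite G'] in
/-- A morphism `res ρ A ⟶ A'` maps `G`-invariants to `G'`-invariants. -/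
lemma hom_mem_invariants_of_res {a : A.V} (ha : a ∈ A.ρ.invariants) :
    ι.hom a ∈ A'.ρ.invariants := by
  intro x
  have := Rep.hom_comm_apply ι x a
  rw [← this]
  show ι.hom (A.ρ (ρ x) a) = _
  rw [ha (ρ x)]

/-- The map on invariants induced by `(ρ, ι)`. -/
noncomputable def pullbackInv : A.ρ.invariants →ₗ[k] A'.ρ.invariants :=
  (ι.hom.toLinearMap.comp A.ρ.invariants.subtype).codRestrict A'.ρ.invariants fun a =>
    hom_mem_invariants_of_res A A' ρ ι a.2

omit [Finite G] [Finite G'] in
@[simp] lemma coe_pullbackInv (a : A.ρ.invariants) :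
    (pullbackInv A A' ρ ι a : A'.V) = ι.hom (a : A.V) := rfl

omit [Finite G] [Finite G'] in
lemma mapCocycles₂_apply (c : cocycles₂ A) (x y : G') :
    (mapCocycles₂ ρ ι c : G' × G' → A'.V) (x, y) = ι.hom (c (ρ x, ρ y)) := by
  rw [coe_mapCocycles₂]; rfl

variable {f : ℕ}

include hg in
omit [Finite G'] in
/-- The trace of the pulled back carry cocycle. -/
lemma genSum_mapCocycles₂_cocycleOfInvariant (hf : ρ g' = g ^ f) (a : A.ρ.invariants) :
    genSum A' g' (mapCocycles₂ ρ ι (cocycleOfInvariant hg A a) : G' × G' → A'.V) =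
      (∑ l ∈ Finset.range (orderOf g'), ((f * l) % orderOf g + f % orderOf g) / orderOf g) •
        ι.hom (a : A.V) := by
  rw [genSum_apply, Finset.sum_smul]
  refine Finset.sum_congr rfl fun l _ => ?_
  rw [mapCocycles₂_apply, map_pow, hf, ← pow_mul]
  show ι.hom (carryCochain hg A (a : A.V) (g ^ (f * l), g ^ f)) = _
  rw [carryCochain_apply, cycExp_pow, cycExp_pow, map_nsmul]

include hg' in
/-- `n' • b` is a norm for an invariant `b`. -/
lemma mk_card_nsmul_eq_zero (b : A'.ρ.invariants) (m : ℕ) :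
    TateH0.mk A' ((m * orderOf g') • b) = 0 := by
  rw [TateH0.mk_eq_zero_iff]
  refine ⟨m • (b : A'.V), ?_⟩
  rw [map_nsmul, normMap_of_mem_invariants A' b.2, ← orderOf_eq_card_of_generator hg', mul_smul]
  rfl

include hg hg' in
/-- **Cyclic pullback rule**, in terms of `H² → Ĥ⁰`. -/
theorem H2EquivTateH0_map_symm_mk (hf : ρ g' = g ^ f) {t : ℕ}
    (ht : t * orderOf g = f * orderOf g') (a : A.ρ.invariants) :
    H2EquivTateH0 hg' A' (groupCohomology.map ρ ι 2
      ((H2EquivTateH0 hg A).symm (TateH0.mk A a))) =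
      TateH0.mk A' (t • pullbackInv A A' ρ ι a) := by
  rw [H2EquivTateH0_symm_mk]
  have h1 : groupCohomology.map ρ ι 2 ((H2π A).hom (cocycleOfInvariant hg A a)) =
      (H2π A').hom (mapCocycles₂ ρ ι (cocycleOfInvariant hg A a)) :=
    H2π_comp_map_apply ρ ι _
  rw [h1, H2EquivTateH0_π]
  have hn : 0 < orderOf g := orderOf_pos g
  set s := ∑ l ∈ Finset.range (orderOf g'), ((f * l) % orderOf g + f % orderOf g) / orderOf g
    with hs
  have h2 : genSumInv hg' A' (mapCocycles₂ ρ ι (cocycleOfInvariant hg A a)) =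
      s • pullbackInv A A' ρ ι a := by
    apply Subtype.ext
    rw [coe_genSumInv, genSum_mapCocycles₂_cocycleOfInvariant hg A A' ρ ι hf a]
    rfl
  have h3 : s + orderOf g' * (f / orderOf g) = t := by
    rw [hs, sum_carry_add _ _ _ hn, ← ht, Nat.mul_div_cancel _ hn]
  rw [h2, ← h3, add_smul, map_add, mul_comm, mk_card_nsmul_eq_zero hg', add_zero]

include hg hg' in
/-- **Cyclic pullback rule**: the pullback of the class attached to `a ∈ A^G` is the class
attached to `t • ι a`, `t = f n' / n`. -/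
theorem map_H2EquivTateH0_symm_mk (hf : ρ g' = g ^ f) {t : ℕ}
    (ht : t * orderOf g = f * orderOf g') (a : A.ρ.invariants) :
    groupCohomology.map ρ ι 2 ((H2EquivTateH0 hg A).symm (TateH0.mk A a)) =
      (H2EquivTateH0 hg' A').symm (TateH0.mk A' (t • pullbackInv A A' ρ ι a)) := by
  rw [LinearEquiv.eq_symm_apply]
  exact H2EquivTateH0_map_symm_mk hg hg' A A' ρ ι hf ht a

end Pullback

end Fermat.Agent.CFT.Coh
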