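import Fermat.Agent.CFT.Coh.Cyclic_helper6_Hexagon

/-!
# CFT / Coh: vanishing of the cohomology of a finite cyclic group from `Ĥ⁰ = Ĥ⁻¹ = 0` (lead)
-/

set_option autoImplicit false
set_option linter.style.haveILetI false

open CategoryTheory

namespace Fermat.Agent.CFT.Coh

section cyclicVanish

variable {k G : Type} [CommRing k] [Group G] [Finite G] (A : Rep.{0} k G) {g : G}
  (hg : ∀ x, x ∈ Subgroup.zpowers g)

include hg in
/-- For a finite cyclic group, `Ĥ⁰ = Ĥ⁻¹ = 0` implies `Hⁿ = 0` for all `n ≥ 1`. -/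
theorem isZero_groupCohomology_succ_of_cyclic (h0 : Subsingleton (TateH0 A))
    (h1 : Subsingleton (TateHm1 A)) (n : ℕ) : Limits.IsZero (groupCohomology A (n + 1)) := by
  classical
  letI : Fintype G := Fintype.ofFinite G
  letI : CommGroup G :=
    { ‹Group G› with
      mul_comm := fun a b => by
        obtain ⟨i, rfl⟩ := Subgroup.mem_zpowers_iff.1 (hg a)
        obtain ⟨j, rfl⟩ := Subgroup.mem_zpowers_iff.1 (hg b)
        rw [← zpow_add, ← zpow_add, add_comm] }
  rcases Nat.even_or_odd (n + 1) with he | ho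
  · refine Limits.IsZero.of_iso ?_ (Rep.FiniteCyclicGroup.groupCohomologyIsoEven A g hg (n + 1) he)
    rw [← ShortComplex.exact_iff_isZero_homology, ShortComplex.moduleCat_exact_iff]
    intro x hx
    have hx' : A.ρ g x - x = 0 := by simpa [Rep.sub_hom, Rep.applyAsHom] using hx
    have hinv : x ∈ A.ρ.invariants := by
      rw [Representation.mem_invariants_iff_of_forall_mem_zpowers A.ρ g hg]
      exact sub_eq_zero.1 hx'
    have := (TateH0.mk_eq_zero_iff A ⟨x, hinv⟩).1 (Subsingleton.elim _ _)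
    obtain ⟨a, ha⟩ := this
    refine ⟨a, ?_⟩
    rw [normMap_eq_norm] at ha
    exact ha
  · refine Limits.IsZero.of_iso ?_ (Rep.FiniteCyclicGroup.groupCohomologyIsoOdd A g hg (n + 1) ho)
    rw [← ShortComplex.exact_iff_isZero_homology, ShortComplex.moduleCat_exact_iff]
    intro x hx
    have hx' : normMap A x = 0 := by
      rw [normMap_eq_norm]
      exact hx
    have := (TateHm1.mk_eq_zero_iff A ⟨x, hx'⟩).1 (Subsingleton.elim _ _)
    rw [coinvariantsKer_eq_range_sub hg] at this
    obtain ⟨b, hb⟩ := this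
    refine ⟨b, ?_⟩
    simpa [Rep.sub_hom, Rep.applyAsHom] using hb

end cyclicVanish

end Fermat.Agent.CFT.Coh
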