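import Fermat.Agent.CFT.Coh.Cyclic_helper6_Hexagon

/-!
# CFT (C0.1): exponents in a finite cyclic group and geometric sums of a generator

Infrastructure for the explicit comparison of `H¹`, `H²` of a finite cyclic group with the Tate
groups `Ĥ⁻¹`, `Ĥ⁰`.
-/

set_option autoImplicit false

namespace Fermat.Agent.CFT.Coh

section Exp

variable {G : Type} [Group G] [Finite G] {g : G} (hg : ∀ x, x ∈ Subgroup.zpowers g)

include hg in
lemma exists_pow_eq_of_generator (x : G) : ∃ n : ℕ, g ^ n = x :=
  (Submonoid.mem_powers_iff x g).mp ((mem_powers_iff_mem_zpowers).mpr (hg x))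

/-- The exponent `0 ≤ e < orderOf g` with `g ^ e = x`. -/
noncomputable def cycExp (x : G) : ℕ :=
  Classical.choose (exists_pow_eq_of_generator hg x) % orderOf g

lemma pow_cycExp (x : G) : g ^ cycExp hg x = x := by
  rw [cycExp, pow_mod_orderOf]
  exact Classical.choose_spec (exists_pow_eq_of_generator hg x)

lemma cycExp_lt (x : G) : cycExp hg x < orderOf g :=
  Nat.mod_lt _ (orderOf_pos g)

lemma cycExp_pow (i : ℕ) : cycExp hg (g ^ i) = i % orderOf g := by
  have h1 : g ^ cycExp hg (g ^ i) = g ^ i := pow_cycExp hg _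
  have h2 : cycExp hg (g ^ i) ≡ i [MOD orderOf g] := pow_eq_pow_iff_modEq.mp h1
  have h3 := Nat.mod_eq_of_lt (cycExp_lt hg (g ^ i))
  rw [← h3]
  exact h2

lemma cycExp_mul (x y : G) :
    cycExp hg (x * y) = (cycExp hg x + cycExp hg y) % orderOf g := by
  rw [← cycExp_pow hg, pow_add, pow_cycExp, pow_cycExp]

lemma cycExp_one : cycExp hg (1 : G) = 0 := by
  have := cycExp_pow hg 0
  rwa [pow_zero, Nat.zero_mod] at this

lemma cycExp_self (h1 : 1 < orderOf g) : cycExp hg g = 1 := by
  have := cycExp_pow hg 1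
  rwa [pow_one, Nat.mod_eq_of_lt h1] at this

omit [Finite G] in
include hg in
lemma orderOf_eq_card_of_generator : orderOf g = Nat.card G :=
  orderOf_eq_card_of_forall_mem_zpowers hg

end Exp

section GeomSum

variable {k G : Type} [CommRing k] [Group G]

/-- `1 + g + ⋯ + g^(i-1)` acting on `A`. -/
noncomputable def geomSum (A : Rep k G) (g : G) (i : ℕ) : A.V →ₗ[k] A.V :=
  ∑ l ∈ Finset.range i, A.ρ (g ^ l)

lemma geomSum_apply (A : Rep k G) (g : G) (i : ℕ) (a : A.V) :
    geomSum A g i a = ∑ l ∈ Finset.range i, A.ρ (g ^ l) a := by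
  rw [geomSum, LinearMap.sum_apply]

@[simp] lemma geomSum_zero (A : Rep k G) (g : G) : geomSum A g 0 = 0 := by
  rw [geomSum, Finset.range_zero, Finset.sum_empty]

@[simp] lemma geomSum_one_apply (A : Rep k G) (g : G) (a : A.V) : geomSum A g 1 a = a := by
  rw [geomSum_apply, Finset.sum_range_one, pow_zero, map_one, Module.End.one_apply]

lemma geomSum_add_apply (A : Rep k G) (g : G) (i j : ℕ) (a : A.V) :
    geomSum A g (i + j) a = geomSum A g i a + A.ρ (g ^ i) (geomSum A g j a) := by
  rw [geomSum_apply, geomSum_apply, geomSum_apply, Finset.sum_range_add, map_sum]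
  congr 1
  refine Finset.sum_congr rfl fun l _ => ?_
  rw [pow_add, map_mul, Module.End.mul_apply]

lemma geomSum_succ_apply (A : Rep k G) (g : G) (i : ℕ) (a : A.V) :
    geomSum A g (i + 1) a = geomSum A g i a + A.ρ (g ^ i) a := by
  rw [geomSum_add_apply, geomSum_one_apply]

variable [Finite G]

lemma geomSum_orderOf_apply {g : G} (hg : ∀ x, x ∈ Subgroup.zpowers g) (A : Rep k G)
    (a : A.V) : geomSum A g (orderOf g) a = normMap A a := by
  classical
  let _ := Fintype.ofFinite G
  rw [normMap_apply, geomSum_apply, ← IsCyclic.image_range_orderOf hg, Finset.sum_image]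
  intro i hi j hj hij
  exact pow_injOn_Iio_orderOf (by simpa using hi) (by simpa using hj) hij

/-- `S(i) a = S(i mod n) a + (i / n) • N a`. -/
lemma geomSum_eq_mod_add {g : G} (hg : ∀ x, x ∈ Subgroup.zpowers g) (A : Rep k G) (i : ℕ)
    (a : A.V) : geomSum A g i a =
      geomSum A g (i % orderOf g) a + (i / orderOf g) • normMap A a := by
  have key : ∀ (m r : ℕ), geomSum A g (r + orderOf g * m) a =
      geomSum A g r a + m • normMap A a := by
    intro m r
    induction m with
    | zero => simp
    | succ m ih =>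
      rw [Nat.mul_succ, ← add_assoc, geomSum_add_apply, ih, geomSum_orderOf_apply hg, ρ_normMap,
        succ_nsmul, add_assoc]
  conv_lhs => rw [← Nat.mod_add_div i (orderOf g)]
  exact key _ _

end GeomSum

end Fermat.Agent.CFT.Coh
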