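import Fermat.Agent.CFT.Coh.Cyclic_helper6_HerbrandCalc
import Fermat.Agent.CFT.Coh.Cyclic_helper6_Exp
import Fermat.Agent.REG.Kummer_helper6_Hilbert92

/-!
# CFT (C0.1): the rank formula for Herbrand quotients in prime order

For `G` cyclic of prime order `p` and `A : Rep ℤ G` finitely generated over `ℤ`:
`h(A)^(p-1) * p^(rank A) = p^(p * rank A^G)`.

The proof: `h(A) = h(A^G) h(A/A^G)`, `h(A^G) = p^(rank A^G)` (trivial action), and on `Y = A/A^G`
the norm vanishes, so `h(Y) = q(1 - σ)` for every generator `σ`, where `q(f) = #ker f / #coker f`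
is multiplicative; finally `∏_{0<k<p} (1 - σ^k) = p` on `Y`, and `q(p) = p^(-rank Y)`.
-/

set_option autoImplicit false

open CategoryTheory Polynomial

namespace Fermat.Agent.CFT.Coh

section EndQ

variable {R M : Type*} [CommRing R] [AddCommGroup M] [Module R M]

/-- An endomorphism with finite kernel and finite cokernel. -/
def QFinite (f : Module.End R M) : Prop :=
  Finite (LinearMap.ker f) ∧ Finite (M ⧸ LinearMap.range f)

/-- `q(f) = #ker f / #coker f`. -/
noncomputable def endQ (f : Module.End R M) : ℚ :=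
  (Nat.card (LinearMap.ker f) : ℚ) / (Nat.card (M ⧸ LinearMap.range f) : ℚ)

variable (f g : Module.End R M)

/-- `ker g → ker (f g)`. -/
def sixTerm₁ : LinearMap.ker g →ₗ[R] LinearMap.ker (f * g) :=
  Submodule.inclusion fun x hx => by
    rw [LinearMap.mem_ker] at hx ⊢
    rw [Module.End.mul_apply, hx, map_zero]

/-- `g : ker (f g) → ker f`. -/
def sixTerm₂ : LinearMap.ker (f * g) →ₗ[R] LinearMap.ker f :=
  g.restrict fun x hx => by
    rw [LinearMap.mem_ker] at hx ⊢
    exact hx

/-- `ker f → M / g M`. -/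
def sixTerm₃ : LinearMap.ker f →ₗ[R] M ⧸ LinearMap.range g :=
  (LinearMap.range g).mkQ ∘ₗ (LinearMap.ker f).subtype

/-- `f : M / g M → M / f g M`. -/
def sixTerm₄ : (M ⧸ LinearMap.range g) →ₗ[R] M ⧸ LinearMap.range (f * g) :=
  Submodule.mapQ _ _ f (by
    rintro _ ⟨x, rfl⟩
    exact ⟨x, rfl⟩)

/-- `M / f g M → M / f M`. -/
def sixTerm₅ : (M ⧸ LinearMap.range (f * g)) →ₗ[R] M ⧸ LinearMap.range f :=
  Submodule.mapQ _ _ LinearMap.id (by
    rintro _ ⟨x, rfl⟩
    exact ⟨g x, rfl⟩)

theorem sixTerm₁_injective : Function.Injective (sixTerm₁ f g) := by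
  intro x y h
  have : ((sixTerm₁ f g x : LinearMap.ker (f * g)) : M) = (sixTerm₁ f g y : LinearMap.ker (f * g)) :=
    congrArg Subtype.val h
  exact Subtype.ext this

theorem sixTerm_exact₂ : Function.Exact (sixTerm₁ f g) (sixTerm₂ f g) := by
  intro y
  constructor
  · intro hy
    have : g (y : M) = 0 := congrArg Subtype.val hy
    exact ⟨⟨y, this⟩, Subtype.ext rfl⟩
  · rintro ⟨z, rfl⟩
    apply Subtype.ext
    exact z.2

theorem sixTerm_exact₃ : Function.Exact (sixTerm₂ f g) (sixTerm₃ f g) := by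
  intro y
  constructor
  · intro hy
    have : (LinearMap.range g).mkQ (y : M) = 0 := hy
    rw [Submodule.mkQ_apply, Submodule.Quotient.mk_eq_zero] at this
    obtain ⟨x, hx⟩ := this
    refine ⟨⟨x, ?_⟩, Subtype.ext hx⟩
    rw [LinearMap.mem_ker, Module.End.mul_apply, hx]
    exact y.2
  · rintro ⟨z, rfl⟩
    show (LinearMap.range g).mkQ (g (z : M)) = 0
    rw [Submodule.mkQ_apply, Submodule.Quotient.mk_eq_zero]
    exact ⟨z, rfl⟩

theorem sixTerm_exact₄ : Function.Exact (sixTerm₃ f g) (sixTerm₄ f g) := by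
  intro y
  obtain ⟨m, rfl⟩ := Submodule.mkQ_surjective _ y
  constructor
  · intro hy
    have : (LinearMap.range (f * g)).mkQ (f m) = 0 := hy
    rw [Submodule.mkQ_apply, Submodule.Quotient.mk_eq_zero] at this
    obtain ⟨x, hx⟩ := this
    refine ⟨⟨m - g x, ?_⟩, ?_⟩
    · rw [LinearMap.mem_ker, map_sub, ← hx, Module.End.mul_apply, sub_self]
    · show (LinearMap.range g).mkQ (m - g x) = (LinearMap.range g).mkQ m
      rw [map_sub, sub_eq_self, Submodule.mkQ_apply, Submodule.Quotient.mk_eq_zero]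
      exact ⟨x, rfl⟩
  · rintro ⟨z, hz⟩
    have hz' : (LinearMap.range g).mkQ (z : M) = (LinearMap.range g).mkQ m := hz
    rw [← hz']
    show (LinearMap.range (f * g)).mkQ (f (z : M)) = 0
    rw [LinearMap.mem_ker.1 z.2, map_zero]

theorem sixTerm_exact₅ : Function.Exact (sixTerm₄ f g) (sixTerm₅ f g) := by
  intro y
  obtain ⟨m, rfl⟩ := Submodule.mkQ_surjective _ y
  constructor
  · intro hy
    have : (LinearMap.range f).mkQ m = 0 := hy
    rw [Submodule.mkQ_apply, Submodule.Quotient.mk_eq_zero] at this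
    obtain ⟨x, rfl⟩ := this
    exact ⟨(LinearMap.range g).mkQ x, rfl⟩
  · rintro ⟨z, hz⟩
    obtain ⟨x, rfl⟩ := Submodule.mkQ_surjective _ z
    have hz' : (LinearMap.range (f * g)).mkQ (f x) = (LinearMap.range (f * g)).mkQ m := hz
    rw [← hz']
    show (LinearMap.range f).mkQ (f x) = 0
    rw [Submodule.mkQ_apply, Submodule.Quotient.mk_eq_zero]
    exact ⟨x, rfl⟩

theorem sixTerm₅_surjective : Function.Surjective (sixTerm₅ f g) := by
  intro y
  obtain ⟨m, rfl⟩ := Submodule.mkQ_surjective _ y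
  exact ⟨(LinearMap.range (f * g)).mkQ m, rfl⟩

/-- The kernel–cokernel six term exact sequence of a composition, on cardinalities. -/
theorem card_six_term :
    Nat.card (LinearMap.ker g) * Nat.card (LinearMap.ker f) *
        Nat.card (M ⧸ LinearMap.range (f * g)) =
      Nat.card (LinearMap.ker (f * g)) * Nat.card (M ⧸ LinearMap.range g) *
        Nat.card (M ⧸ LinearMap.range f) := by
  refine card_hexagon (sixTerm₁ f g).toAddMonoidHom (sixTerm₂ f g).toAddMonoidHom
    (sixTerm₃ f g).toAddMonoidHom (sixTerm₄ f g).toAddMonoidHom (sixTerm₅ f g).toAddMonoidHom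
    (0 : (M ⧸ LinearMap.range f) →+ LinearMap.ker g) ?_ (sixTerm_exact₂ f g) (sixTerm_exact₃ f g)
    (sixTerm_exact₄ f g) (sixTerm_exact₅ f g) ?_
  · intro y
    constructor
    · intro hy
      refine ⟨0, ?_⟩
      exact (sixTerm₁_injective f g (hy.trans (map_zero _).symm)).symm
    · rintro ⟨z, rfl⟩
      exact map_zero (sixTerm₁ f g)
  · intro y
    constructor
    · intro _
      exact sixTerm₅_surjective f g y
    · intro _
      rfl

variable {f g}

theorem QFinite.mul (hf : QFinite f) (hg : QFinite g) : QFinite (f * g) := by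
  obtain ⟨hf1, hf2⟩ := hf
  obtain ⟨hg1, hg2⟩ := hg
  constructor
  · exact finite_of_exact (sixTerm₁ f g).toAddMonoidHom (sixTerm₂ f g).toAddMonoidHom
      (sixTerm_exact₂ f g)
  · exact finite_of_exact (sixTerm₄ f g).toAddMonoidHom (sixTerm₅ f g).toAddMonoidHom
      (sixTerm_exact₅ f g)

lemma endQ_pos (hf : QFinite f) : 0 < endQ f := by
  obtain ⟨h0, h1⟩ := hf
  unfold endQ
  have : 0 < Nat.card (LinearMap.ker f) := Nat.card_pos
  have : 0 < Nat.card (M ⧸ LinearMap.range f) := Nat.card_pos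
  positivity

/-- **Multiplicativity of `q`**. -/
theorem endQ_mul (hf : QFinite f) (hg : QFinite g) : endQ (f * g) = endQ f * endQ g := by
  have hfg := hf.mul hg
  obtain ⟨hf1, hf2⟩ := hf
  obtain ⟨hg1, hg2⟩ := hg
  obtain ⟨h1, h2⟩ := hfg
  have key := card_six_term f g
  have p1 : (Nat.card (M ⧸ LinearMap.range f) : ℚ) ≠ 0 := by
    have : 0 < Nat.card (M ⧸ LinearMap.range f) := Nat.card_pos
    positivity
  have p2 : (Nat.card (M ⧸ LinearMap.range g) : ℚ) ≠ 0 := by
    have : 0 < Nat.card (M ⧸ LinearMap.range g) := Nat.card_pos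
    positivity
  have p3 : (Nat.card (M ⧸ LinearMap.range (f * g)) : ℚ) ≠ 0 := by
    have : 0 < Nat.card (M ⧸ LinearMap.range (f * g)) := Nat.card_pos
    positivity
  have key' : (Nat.card (LinearMap.ker g) : ℚ) * Nat.card (LinearMap.ker f) *
        Nat.card (M ⧸ LinearMap.range (f * g)) =
      Nat.card (LinearMap.ker (f * g)) * Nat.card (M ⧸ LinearMap.range g) *
        Nat.card (M ⧸ LinearMap.range f) := by exact_mod_cast key
  unfold endQ
  rw [div_mul_div_comm, div_eq_div_iff p3 (mul_ne_zero p1 p2)]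
  linear_combination -key'

end EndQ

section EndQ2

variable {R M : Type*} [CommRing R] [AddCommGroup M] [Module R M]

theorem qFinite_of_bijective {f : Module.End R M} (hf : Function.Bijective f) :
    QFinite f ∧ endQ f = 1 := by
  have h1 : LinearMap.ker f = ⊥ := LinearMap.ker_eq_bot.mpr hf.1
  have h2 : LinearMap.range f = ⊤ := LinearMap.range_eq_top.mpr hf.2
  have s1 : Subsingleton (LinearMap.ker f) := by rw [h1]; infer_instance
  have s2 : Subsingleton (M ⧸ LinearMap.range f) := by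
    rw [h2]; exact Submodule.Quotient.subsingleton_iff.mpr rfl
  refine ⟨⟨inferInstance, inferInstance⟩, ?_⟩
  unfold endQ
  rw [Nat.card_unique, Nat.card_unique]
  simp

theorem qFinite_one : QFinite (1 : Module.End R M) ∧ endQ (1 : Module.End R M) = 1 :=
  qFinite_of_bijective Function.bijective_id

/-- `∏_{k<m} (1 - σ^(k+1))` in the (non-commutative) endomorphism ring. -/
def prodOneSub (σ : Module.End R M) : ℕ → Module.End R M
  | 0 => 1
  | m + 1 => prodOneSub σ m * (1 - σ ^ (m + 1))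

theorem qFinite_prodOneSub (σ : Module.End R M) (m : ℕ) (q : ℚ)
    (h : ∀ k < m, QFinite (1 - σ ^ (k + 1)) ∧ endQ (1 - σ ^ (k + 1)) = q) :
    QFinite (prodOneSub σ m) ∧ endQ (prodOneSub σ m) = q ^ m := by
  induction m with
  | zero =>
    rw [pow_zero]
    exact qFinite_one
  | succ m ih =>
    obtain ⟨h1, h2⟩ := ih fun k hk => h k (Nat.lt_succ_of_lt hk)
    obtain ⟨h3, h4⟩ := h m (Nat.lt_succ_self m)
    exact ⟨h1.mul h3, by rw [prodOneSub, endQ_mul h1 h3, h2, h4, pow_succ]⟩

end EndQ2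

section NatCast

variable {M : Type*} [AddCommGroup M]

theorem card_quotient_eq_index [Module ℤ M] (S : Submodule ℤ M) :
    Nat.card (M ⧸ S) = S.toAddSubgroup.index :=
  rfl

/-- `q(n) = n ^ (-rank)` on a finitely generated abelian group (for any `ℤ`-module instance). -/
theorem qFinite_natCast [inst : Module ℤ M] [Module.Finite ℤ M] (n : ℕ) (hn : n ≠ 0) :
    QFinite (n : Module.End ℤ M) ∧
      endQ (n : Module.End ℤ M) * (n : ℚ) ^ Module.finrank ℤ M = 1 := by
  obtain rfl : inst = AddCommGroup.toIntModule M := Subsingleton.elim _ _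
  have hker : ∀ x : M, x ∈ LinearMap.ker (n : Module.End ℤ M) ↔
      x ∈ (nsmulAddMonoidHom (α := M) n).ker := by
    intro x
    rw [LinearMap.mem_ker, AddMonoidHom.mem_ker, Module.End.natCast_apply]
    rfl
  have hrange : (LinearMap.range (n : Module.End ℤ M)).toAddSubgroup =
      (nsmulAddMonoidHom (α := M) n).range := by
    ext x
    rw [Submodule.mem_toAddSubgroup, LinearMap.mem_range, AddMonoidHom.mem_range]
    refine exists_congr fun y => ?_
    rw [Module.End.natCast_apply]
    rfl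
  have e : LinearMap.ker (n : Module.End ℤ M) ≃ (nsmulAddMonoidHom (α := M) n).ker :=
    Equiv.subtypeEquivRight hker
  have hfinker : Finite (LinearMap.ker (n : Module.End ℤ M)) := by
    have := Fermat.Agent.REG.finite_ker_nsmul (A := M) n hn
    exact Finite.of_equiv _ e.symm
  have hidx := Fermat.Agent.REG.index_range_nsmul_eq (X := M) n hn
  have hcardker : Nat.card (LinearMap.ker (n : Module.End ℤ M)) =
      Nat.card (nsmulAddMonoidHom (α := M) n).ker := Nat.card_congr e
  have hcard : Nat.card (M ⧸ LinearMap.range (n : Module.End ℤ M)) =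
      n ^ Module.finrank ℤ M * Nat.card (LinearMap.ker (n : Module.End ℤ M)) := by
    rw [card_quotient_eq_index, hrange, hidx, hcardker]
  have hkpos : 0 < Nat.card (LinearMap.ker (n : Module.End ℤ M)) := Nat.card_pos
  have hfincoker : Finite (M ⧸ LinearMap.range (n : Module.End ℤ M)) := by
    apply Nat.finite_of_card_ne_zero
    rw [hcard]
    exact (Nat.mul_pos (pow_pos (Nat.pos_of_ne_zero hn) _) hkpos).ne'
  refine ⟨⟨hfinker, hfincoker⟩, ?_⟩
  unfold endQ
  rw [hcard]
  have h1 : (Nat.card (LinearMap.ker (n : Module.End ℤ M)) : ℚ) ≠ 0 := by positivity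
  have h2 : (n : ℚ) ≠ 0 := by exact_mod_cast hn
  push_cast
  field_simp

end NatCast

section Cyclotomic

/-- `∏_{0<k<p} (1 - X^k) ≡ p` modulo `1 + X + ... + X^(p-1)`. -/
theorem exists_prod_one_sub_X_pow_eq (p : ℕ) (hp : p.Prime) :
    ∃ c : ℤ[X], ∏ k ∈ Finset.range (p - 1), (1 - X ^ (k + 1) : ℤ[X]) =
      C (p : ℤ) + (∑ i ∈ Finset.range p, X ^ i) * c := by
  have hpos : 0 < p := hp.pos
  have : Fact p.Prime := ⟨hp⟩
  set ζ : ℂ := Complex.exp (2 * Real.pi * Complex.I / p) with hζdef
  have hζ : IsPrimitiveRoot ζ p := Complex.isPrimitiveRoot_exp p hp.ne_zero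
  have hζ' : IsPrimitiveRoot ζ ((p - 1) + 1) := by rwa [Nat.sub_add_cancel hp.one_le]
  have h1 := hζ'.prod_one_sub_pow_eq_order
  have h2 : aeval ζ (∏ k ∈ Finset.range (p - 1), (1 - X ^ (k + 1) : ℤ[X]) - C (p : ℤ)) = 0 := by
    rw [map_sub, map_prod, aeval_C]
    simp only [map_sub, map_one, map_pow, aeval_X]
    rw [h1]
    have : ((p - 1 : ℕ) : ℂ) + 1 = (p : ℂ) := by
      rw [← Nat.cast_add_one, Nat.sub_add_cancel hp.one_le]
    rw [this]
    simp
  have h3 := minpoly.isIntegrallyClosed_dvd (hζ.isIntegral hpos) h2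
  rw [← cyclotomic_eq_minpoly hζ hpos, cyclotomic_prime] at h3
  obtain ⟨c, hc⟩ := h3
  exact ⟨c, by rw [← hc]; ring⟩

/-- If `1 + σ + ... + σ^(p-1) = 0` then `∏_{0<k<p} (1 - σ^k) = p`. -/
theorem prodOneSub_eq_natCast {R M : Type*} [CommRing R] [AddCommGroup M] [Module R M] (p : ℕ)
    (hp : p.Prime) (σ : Module.End R M) (hσ : ∑ i ∈ Finset.range p, σ ^ i = 0) :
    prodOneSub σ (p - 1) = (p : Module.End R M) := by
  have key : ∀ m : ℕ, aeval σ (∏ k ∈ Finset.range m, (1 - X ^ (k + 1) : ℤ[X])) =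
      prodOneSub σ m := by
    intro m
    induction m with
    | zero => rw [Finset.prod_range_zero, map_one]; rfl
    | succ m ih =>
      rw [Finset.prod_range_succ, map_mul, ih, prodOneSub]
      simp only [map_sub, map_one, map_pow, aeval_X]
  obtain ⟨c, hc⟩ := exists_prod_one_sub_X_pow_eq p hp
  rw [← key, hc, map_add, map_mul, map_sum]
  simp only [map_pow, aeval_X]
  rw [hσ, zero_mul, add_zero]
  simp

end Cyclotomic

section NormZero

variable {k G : Type} [CommRing k] [Group G] [Finite G]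

omit [Finite G] in
theorem invariants_eq_ker_one_sub {g : G} (hg : ∀ x, x ∈ Subgroup.zpowers g) (A : Rep k G) :
    A.ρ.invariants = LinearMap.ker (1 - A.ρ g) := by
  ext a
  rw [mem_invariants_iff_of_generator hg, LinearMap.mem_ker, LinearMap.sub_apply,
    Module.End.one_apply, sub_eq_zero, eq_comm]

omit [Finite G] in
theorem coinvariantsKer_eq_range_one_sub {g : G} (hg : ∀ x, x ∈ Subgroup.zpowers g)
    (A : Rep k G) : Representation.Coinvariants.ker A.ρ = LinearMap.range (1 - A.ρ g) := by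
  rw [coinvariantsKer_eq_range_sub hg]
  ext a
  constructor
  · rintro ⟨b, rfl⟩
    exact ⟨-b, by simp only [map_neg, LinearMap.sub_apply, Module.End.one_apply]; abel⟩
  · rintro ⟨b, rfl⟩
    exact ⟨-b, by simp only [map_neg, LinearMap.sub_apply, Module.End.one_apply]; abel⟩

/-- If the norm vanishes on `Y`, then `Ĥ⁰(Y) = ker (1 - σ)`. -/
noncomputable def tateH0EquivOfNormZero {g : G} (hg : ∀ x, x ∈ Subgroup.zpowers g) (Y : Rep k G)
    (hN : normMap Y = 0) : TateH0 Y ≃ₗ[k] LinearMap.ker (1 - Y.ρ g) :=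
  (Submodule.quotEquivOfEqBot _ (by
    rw [LinearMap.range_eq_bot]
    ext a
    show normMap Y a = 0
    rw [hN]; rfl)).trans (LinearEquiv.ofEq _ _ (invariants_eq_ker_one_sub hg Y))

/-- If the norm vanishes on `Y`, then `Ĥ⁻¹(Y) = Y / (1 - σ) Y`. -/
noncomputable def tateHm1EquivOfNormZero {g : G} (hg : ∀ x, x ∈ Subgroup.zpowers g) (Y : Rep k G)
    (hN : normMap Y = 0) : TateHm1 Y ≃ₗ[k] Y.V ⧸ LinearMap.range (1 - Y.ρ g) :=
  Submodule.Quotient.equiv (augKer Y) (LinearMap.range (1 - Y.ρ g))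
    (LinearEquiv.ofTop (LinearMap.ker (normMap Y)) (by rw [hN]; exact LinearMap.ker_zero))
    (by
      rw [← coinvariantsKer_eq_range_one_sub hg]
      ext a
      constructor
      · rintro ⟨x, hx, rfl⟩
        exact hx
      · intro ha
        exact ⟨⟨a, by rw [hN]; simp⟩, ha, rfl⟩)

/-- If the norm vanishes on `Y`, then `h(Y) = q(1 - σ)`. -/
theorem herbrand_eq_endQ_of_normMap_eq_zero {g : G} (hg : ∀ x, x ∈ Subgroup.zpowers g)
    (Y : Rep k G) (hN : normMap Y = 0) :
    (HerbrandFinite Y ↔ QFinite (1 - Y.ρ g)) ∧ herbrand Y = endQ (1 - Y.ρ g) := by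
  have e0 := (tateH0EquivOfNormZero hg Y hN).toEquiv
  have e1 := (tateHm1EquivOfNormZero hg Y hN).toEquiv
  refine ⟨⟨fun h => ⟨?_, ?_⟩, fun h => ⟨?_, ?_⟩⟩, ?_⟩
  · have := h.1; exact Finite.of_equiv _ e0
  · have := h.2; exact Finite.of_equiv _ e1
  · have := h.1; exact Finite.of_equiv _ e0.symm
  · have := h.2; exact Finite.of_equiv _ e1.symm
  · unfold herbrand endQ
    rw [Nat.card_congr e0, Nat.card_congr e1]

end NormZero

section Trivial

variable {k G : Type} [CommRing k] [Group G] [Finite G]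

theorem normMap_eq_natCast_of_trivial (B : Rep k G) (hB : ∀ x, B.ρ x = 1) :
    normMap B = (Nat.card G : Module.End k B.V) := by
  ext a
  rw [normMap_of_mem_invariants B (fun x => by rw [hB]; rfl), Module.End.natCast_apply]

/-- Trivial action: `Ĥ⁰(B) = B / n B`. -/
noncomputable def tateH0EquivOfTrivial (B : Rep k G) (hB : ∀ x, B.ρ x = 1) :
    TateH0 B ≃ₗ[k] B.V ⧸ LinearMap.range (Nat.card G : Module.End k B.V) :=
  Submodule.Quotient.equiv (LinearMap.range (normInv B))
    (LinearMap.range (Nat.card G : Module.End k B.V))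
    (LinearEquiv.ofTop B.ρ.invariants (by
      rw [eq_top_iff]
      intro a _ x
      rw [hB]; rfl))
    (by
      ext a
      constructor
      · rintro ⟨_, ⟨b, rfl⟩, rfl⟩
        refine ⟨b, ?_⟩
        rw [← normMap_eq_natCast_of_trivial B hB]
        rfl
      · rintro ⟨b, rfl⟩
        refine ⟨normInv B b, ⟨b, rfl⟩, ?_⟩
        rw [← normMap_eq_natCast_of_trivial B hB]
        rfl)

/-- Trivial action: `Ĥ⁻¹(B) = B[n]`. -/
noncomputable def tateHm1EquivOfTrivial (B : Rep k G) (hB : ∀ x, B.ρ x = 1) :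
    TateHm1 B ≃ₗ[k] LinearMap.ker (Nat.card G : Module.End k B.V) :=
  (Submodule.quotEquivOfEqBot _ (by
    rw [eq_bot_iff]
    intro x hx
    have hx' : (x : B.V) ∈ Representation.Coinvariants.ker B.ρ := hx
    have h0 : Representation.Coinvariants.ker B.ρ = ⊥ := by
      rw [eq_bot_iff, Representation.Coinvariants.ker, Submodule.span_le]
      rintro _ ⟨⟨y, a⟩, rfl⟩
      show B.ρ y a - a ∈ _
      rw [hB]
      simp
    rw [h0, Submodule.mem_bot] at hx'
    rw [Submodule.mem_bot]
    exact Subtype.ext hx')).trans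
    (LinearEquiv.ofEq _ _ (by rw [normMap_eq_natCast_of_trivial B hB]))

/-- Trivial action: `h(B) = 1 / q(n)`. -/
theorem herbrand_mul_endQ_of_trivial (B : Rep k G) (hB : ∀ x, B.ρ x = 1) :
    (HerbrandFinite B ↔ QFinite (Nat.card G : Module.End k B.V)) ∧
      (QFinite (Nat.card G : Module.End k B.V) →
        herbrand B * endQ (Nat.card G : Module.End k B.V) = 1) := by
  have e0 := (tateH0EquivOfTrivial B hB).toEquiv
  have e1 := (tateHm1EquivOfTrivial B hB).toEquiv
  refine ⟨⟨fun h => ⟨?_, ?_⟩, fun h => ⟨?_, ?_⟩⟩, ?_⟩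
  · have := h.2; exact Finite.of_equiv _ e1
  · have := h.1; exact Finite.of_equiv _ e0
  · have := h.2; exact Finite.of_equiv _ e0.symm
  · have := h.1; exact Finite.of_equiv _ e1.symm
  · intro h
    obtain ⟨h1, h2⟩ := h
    unfold herbrand endQ
    rw [Nat.card_congr e0, Nat.card_congr e1]
    have p1 : (Nat.card (LinearMap.ker (Nat.card G : Module.End k B.V)) : ℚ) ≠ 0 := by
      have : 0 < Nat.card (LinearMap.ker (Nat.card G : Module.End k B.V)) := Nat.card_pos
      positivity
    have p2 : (Nat.card (B.V ⧸ LinearMap.range (Nat.card G : Module.End k B.V)) : ℚ) ≠ 0 := by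
      have : 0 < Nat.card (B.V ⧸ LinearMap.range (Nat.card G : Module.End k B.V)) :=
        Nat.card_pos
      positivity
    field_simp

end Trivial

section SubQuot

variable {k G : Type} [CommRing k] [Group G] [Finite G]

/-- Multiplicativity for a subrepresentation and its quotient. -/
theorem herbrand_sub_quot {g : G} (hg : ∀ x, x ∈ Subgroup.zpowers g) (A : Rep k G)
    (W : Submodule k A.V) (hW : ∀ x, W ≤ W.comap (A.ρ x))
    (h₁ : HerbrandFinite (Rep.subrepresentation A W hW))
    (h₃ : HerbrandFinite (Rep.quotient A W hW)) :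
    HerbrandFinite A ∧ herbrand A =
      herbrand (Rep.subrepresentation A W hW) * herbrand (Rep.quotient A W hW) := by
  have hφ : Function.Injective (Rep.subtype A W hW).hom := Subtype.val_injective
  have hπ : Function.Surjective (Rep.mkQ A W hW).hom := Submodule.mkQ_surjective _
  have hex : Function.Exact (Rep.subtype A W hW).hom (Rep.mkQ A W hW).hom := by
    intro b
    show Submodule.mkQ _ b = 0 ↔ _
    rw [Submodule.mkQ_apply, Submodule.Quotient.mk_eq_zero]
    constructor
    · intro hb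
      exact ⟨⟨b, hb⟩, rfl⟩
    · rintro ⟨a, rfl⟩
      exact a.2
  obtain ⟨h0, hX⟩ := shortExact_mk _ _ hφ hπ hex
  exact herbrand_mul₁₃ hX hg h₁ h₃

end SubQuot

section FG

variable {G : Type} [Group G] [Finite G]

/-- `#G • x - N x ∈ I_G A`. -/
theorem card_nsmul_sub_normMap_mem {k : Type} [CommRing k] (A : Rep k G) (a : A.V) :
    Nat.card G • a - normMap A a ∈ Representation.Coinvariants.ker A.ρ := by
  let _ := Fintype.ofFinite G
  rw [normMap_apply, Nat.card_eq_fintype_card, ← Finset.card_univ, ← Finset.sum_const,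
    ← Finset.sum_sub_distrib]
  refine Submodule.sum_mem _ fun x _ => ?_
  have := Representation.Coinvariants.sub_mem_ker (ρ := A.ρ) x a
  rw [← neg_sub]
  exact Submodule.neg_mem _ this

/-- The Tate groups of a finitely generated `ℤ[G]`-module are finite (`G` any finite group). -/
theorem herbrandFinite_of_moduleFinite {M : Type} [AddCommGroup M]
    [Module.Finite ℤ M] (ρ : Representation ℤ G M) : HerbrandFinite (Rep.of ρ) := by
  set A : Rep ℤ G := Rep.of ρ with hA
  have hn : (Nat.card G : ℤ) ≠ 0 := by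
    have : 0 < Nat.card G := Nat.card_pos
    exact_mod_cast this.ne'
  have hfin0 : Module.Finite ℤ (TateH0 A) :=
    Module.Finite.of_surjective (TateH0.mk A) (TateH0.mk_surjective A)
  have hfin1 : Module.Finite ℤ (TateHm1 A) :=
    Module.Finite.of_surjective (TateHm1.mk A) (TateHm1.mk_surjective A)
  constructor
  · refine @Module.finite_of_fg_torsion (TateH0 A) _ _ hfin0 ?_
    intro x
    refine ⟨⟨(Nat.card G : ℤ), mem_nonZeroDivisors_of_ne_zero hn⟩, ?_⟩
    obtain ⟨a, rfl⟩ := Submodule.mkQ_surjective _ x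
    rw [Submonoid.smul_def]
    show (Nat.card G : ℤ) • _ = 0
    rw [← map_smul, Submodule.mkQ_apply, Submodule.Quotient.mk_eq_zero]
    refine ⟨a.1, Subtype.ext ?_⟩
    rw [coe_normInv, normMap_of_mem_invariants A a.2, natCast_zsmul]
    rfl
  · refine @Module.finite_of_fg_torsion (TateHm1 A) _ _ hfin1 ?_
    intro x
    refine ⟨⟨(Nat.card G : ℤ), mem_nonZeroDivisors_of_ne_zero hn⟩, ?_⟩
    obtain ⟨a, rfl⟩ := Submodule.mkQ_surjective _ x
    rw [Submonoid.smul_def]
    show (Nat.card G : ℤ) • _ = 0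
    rw [← map_smul, Submodule.mkQ_apply, Submodule.Quotient.mk_eq_zero]
    show ((((Nat.card G : ℤ) • a : LinearMap.ker (normMap A)) : A.V)) ∈
      Representation.Coinvariants.ker A.ρ
    have h := card_nsmul_sub_normMap_mem A a.1
    rw [LinearMap.mem_ker.1 a.2, sub_zero] at h
    rw [natCast_zsmul]
    exact h

end FG

section Main

variable {G : Type} [Group G] [Finite G]

/-- **Rank formula** for the Herbrand quotient of a finitely generated module over a cyclic group
of prime order `p`: `h(M)^(p-1) * p^(rank M) = p^(p * rank M^G)`. -/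
theorem herbrand_rank_formula {g : G} (hg : ∀ x, x ∈ Subgroup.zpowers g) {p : ℕ} (hp : p.Prime)
    (hcard : Nat.card G = p) {M : Type} [AddCommGroup M] [Module.Finite ℤ M]
    (ρ : Representation ℤ G M) :
    HerbrandFinite (Rep.of ρ) ∧
      herbrand (Rep.of ρ) ^ (p - 1) * (p : ℚ) ^ Module.finrank ℤ M =
        (p : ℚ) ^ (p * Module.finrank ℤ ρ.invariants) := by
  have hp0 : (p : ℚ) ≠ 0 := by exact_mod_cast hp.ne_zero
  set A : Rep ℤ G := Rep.of ρ with hA
  set W : Submodule ℤ M := ρ.invariants with hWdef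
  have hW : ∀ x, W ≤ W.comap (A.ρ x) := by
    intro x a ha
    show ρ x a ∈ ρ.invariants
    rw [ha x]
    exact ha
  -- the invariants, with trivial action
  set B : Rep ℤ G := Rep.subrepresentation A W hW with hB
  have hBtriv : ∀ x, B.ρ x = 1 := by
    intro x
    refine LinearMap.ext fun b => Subtype.ext ?_
    exact b.2 x
  have hBfin : Module.Finite ℤ B.V := (inferInstance : Module.Finite ℤ W)
  obtain ⟨hB1, hB2⟩ := herbrand_mul_endQ_of_trivial B hBtriv
  obtain ⟨hBq, hBq'⟩ := qFinite_natCast (M := B.V) p hp.ne_zero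
  rw [hcard] at hB1 hB2
  have hBH : HerbrandFinite B := hB1.mpr hBq
  have hBrk : Module.finrank ℤ B.V = Module.finrank ℤ W := rfl
  have hBh : herbrand B = (p : ℚ) ^ Module.finrank ℤ W := by
    have h1 := hB2 hBq
    rw [hBrk] at hBq'
    have h2 : endQ (p : Module.End ℤ B.V) ≠ 0 := (endQ_pos hBq).ne'
    have : herbrand B * endQ (p : Module.End ℤ B.V) =
        (p : ℚ) ^ Module.finrank ℤ W * endQ (p : Module.End ℤ B.V) := by
      rw [h1, mul_comm, hBq']
    exact mul_right_cancel₀ h2 this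
  -- the quotient, on which the norm vanishes
  set Y : Rep ℤ G := Rep.quotient A W hW with hY
  have hYN : normMap Y = 0 := by
    refine LinearMap.ext fun y => ?_
    obtain ⟨a, rfl⟩ := Submodule.mkQ_surjective W y
    have h1 := hom_normMap (Rep.mkQ A W hW) a
    have h2 : (Rep.mkQ A W hW).hom (normMap A a) = 0 := by
      show W.mkQ (normMap A a) = 0
      rw [Submodule.mkQ_apply, Submodule.Quotient.mk_eq_zero]
      exact normMap_mem_invariants A a
    rw [h2] at h1
    exact h1.symm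
  have hYfin : Module.Finite ℤ Y.V := (inferInstance : Module.Finite ℤ (M ⧸ W))
  have hYH : HerbrandFinite Y := herbrandFinite_of_moduleFinite Y.ρ
  have hord : orderOf g = p := by rw [orderOf_eq_card_of_generator hg, hcard]
  -- every `g^(k+1)`, `k < p - 1`, is a generator
  have hgen : ∀ k < p - 1, ∀ x, x ∈ Subgroup.zpowers (g ^ (k + 1)) := by
    intro k hk x
    have : Fact p.Prime := ⟨hp⟩
    have hne : g ^ (k + 1) ≠ 1 := by
      intro h1
      have := orderOf_dvd_of_pow_eq_one h1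
      rw [hord] at this
      have := Nat.le_of_dvd (Nat.succ_pos k) this
      omega
    rw [zpowers_eq_top_of_prime_card hcard hne]
    exact Subgroup.mem_top x
  set σ : Module.End ℤ Y.V := Y.ρ g with hσ
  have hσsum : ∑ i ∈ Finset.range p, σ ^ i = 0 := by
    refine LinearMap.ext fun y => ?_
    have h1 := geomSum_orderOf_apply hg Y y
    rw [hord, geomSum_apply] at h1
    have h0 : normMap Y y = 0 := by rw [hYN]; rfl
    rw [LinearMap.sum_apply, LinearMap.zero_apply, ← h0, ← h1]
    refine Finset.sum_congr rfl fun i _ => ?_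
    rw [hσ, ← map_pow]
  have hq : ∀ k < p - 1, QFinite (1 - σ ^ (k + 1)) ∧ endQ (1 - σ ^ (k + 1)) = herbrand Y := by
    intro k hk
    obtain ⟨h1, h2⟩ := herbrand_eq_endQ_of_normMap_eq_zero (hgen k hk) Y hYN
    rw [map_pow] at h1 h2
    exact ⟨h1.mp hYH, h2.symm⟩
  obtain ⟨hP1, hP2⟩ := qFinite_prodOneSub σ (p - 1) (herbrand Y) hq
  rw [prodOneSub_eq_natCast p hp σ hσsum] at hP1 hP2
  obtain ⟨hYq, hYq'⟩ := qFinite_natCast (M := Y.V) p hp.ne_zero
  rw [hP2] at hYq'
  -- assemble
  obtain ⟨hAH, hAh⟩ := herbrand_sub_quot hg A W hW hBH hYH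
  refine ⟨hAH, ?_⟩
  have hrk : Module.finrank ℤ Y.V + Module.finrank ℤ W = Module.finrank ℤ M :=
    Submodule.finrank_quotient_add_finrank W
  rw [hAh, hBh, ← hrk, mul_pow, pow_add, ← pow_mul]
  have e : p * Module.finrank ℤ W = Module.finrank ℤ W * (p - 1) + Module.finrank ℤ W := by
    obtain ⟨q, rfl⟩ : ∃ q, p = q + 1 := ⟨p - 1, (Nat.sub_add_cancel hp.one_le).symm⟩
    rw [Nat.add_sub_cancel]
    ring
  rw [e, pow_add]
  linear_combination ((p : ℚ) ^ (Module.finrank ℤ W * (p - 1)) * (p : ℚ) ^ Module.finrank ℤ W) * hYq'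

end Main

section Main2

variable {G : Type} [Group G] [Finite G]

/-- The rank formula with an integer exponent: `h(M)^(p-1) = p^(p * rank M^G - rank M)`. -/
theorem herbrand_pow_eq_zpow {g : G} (hg : ∀ x, x ∈ Subgroup.zpowers g) {p : ℕ} (hp : p.Prime)
    (hcard : Nat.card G = p) {M : Type} [AddCommGroup M] [Module.Finite ℤ M]
    (ρ : Representation ℤ G M) :
    herbrand (Rep.of ρ) ^ (p - 1) =
      (p : ℚ) ^ ((p : ℤ) * Module.finrank ℤ ρ.invariants - Module.finrank ℤ M) := by
  have hp0 : (p : ℚ) ≠ 0 := by exact_mod_cast hp.ne_zero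
  obtain ⟨-, h⟩ := herbrand_rank_formula hg hp hcard ρ
  rw [zpow_sub₀ hp0, eq_div_iff (zpow_ne_zero _ hp0), zpow_natCast, h, ← Nat.cast_mul,
    zpow_natCast]

/-- If `p * rank M^G - rank M = (p - 1) * m`, then `h(M) = p^m`. -/
theorem herbrand_eq_zpow_of_rank {g : G} (hg : ∀ x, x ∈ Subgroup.zpowers g) {p : ℕ}
    (hp : p.Prime) (hcard : Nat.card G = p) {M : Type} [AddCommGroup M] [Module.Finite ℤ M]
    (ρ : Representation ℤ G M) (m : ℤ)
    (hm : (p : ℤ) * Module.finrank ℤ ρ.invariants - Module.finrank ℤ M = ((p : ℤ) - 1) * m) :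
    herbrand (Rep.of ρ) = (p : ℚ) ^ m := by
  have hp0 : (0 : ℚ) < p := by exact_mod_cast hp.pos
  have h1 := herbrand_pow_eq_zpow hg hp hcard ρ
  obtain ⟨hfin, -⟩ := herbrand_rank_formula hg hp hcard ρ
  rw [hm] at h1
  have h2 : ((p : ℚ) ^ m) ^ (p - 1) = (p : ℚ) ^ (((p : ℤ) - 1) * m) := by
    rw [← zpow_natCast, ← zpow_mul, mul_comm, Nat.cast_sub hp.one_le, Nat.cast_one]
  rw [← h2] at h1
  have hne : p - 1 ≠ 0 := by have := hp.two_le; omega
  exact (pow_left_inj₀ (herbrand_pos hfin).le (zpow_pos hp0 m).le hne).mp h1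

end Main2

end Fermat.Agent.CFT.Coh
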