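import Mathlib

/-!
# CFT (C0.2): inflation–restriction in degree 2, elementary core

`G` a group, `S` a normal subgroup, `A : Rep k G` with `H¹(S, A) = 0` (in the elementary form
`H1Vanishes`).  We prove, in terms of explicit cochains:

* `inf_injective_core`: a 2-cocycle of `G ⧸ S` in `A^S` whose inflation is a coboundary is a
  coboundary;
* `infres_exact_core`: a 2-cocycle of `G` whose restriction to `S` is a coboundary is cohomologous
  to an inflated cocycle.
-/

open groupCohomology CategoryTheory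

namespace Fermat.Agent.CFT.Coh

variable {k G : Type} [CommRing k] [Group G] (A : Rep k G) (S : Subgroup G)

/-- Elementary form of `H¹(S, A) = 0`: every 1-cocycle `S → A` is a coboundary. -/
def H1Vanishes : Prop :=
  ∀ c : S → A.V, (∀ s t : S, c (s * t) = A.ρ s (c t) + c s) →
    ∃ a : A.V, ∀ s : S, c s = A.ρ s a - a

variable {A S}

section Inj

variable [S.Normal]

/-- Injectivity of inflation on `H²` when `H¹(S, A) = 0`, cochain form. -/
theorem inf_injective_core (hS : H1Vanishes A S)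
    (fbar : (G ⧸ S) × (G ⧸ S) → (A.quotientToInvariants S).V)
    (hf : fbar ∈ cocycles₂ (A.quotientToInvariants S))
    (h : G → A.V)
    (hh : ∀ g g' : G, ((fbar ((g : G ⧸ S), (g' : G ⧸ S))) : A.V) =
      A.ρ g (h g') - h (g * g') + h g) :
    ∃ hbar : G ⧸ S → (A.quotientToInvariants S).V, ∀ q q' : G ⧸ S,
      fbar (q, q') = (A.quotientToInvariants S).ρ q (hbar q') - hbar (q * q') + hbar q := by
  classical
  set a₀ : A.V := (fbar (1, 1) : A.V) with ha₀
  have ha₀inv : ∀ s : S, A.ρ s a₀ = a₀ := fun s => (fbar (1, 1)).2 s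
  have hone : ∀ s : S, ((s : G) : G ⧸ S) = 1 := fun s => (QuotientGroup.eq_one_iff s.1).2 s.2
  -- values of `fbar` on `(1, q)` and `(q, 1)`
  have h1q : ∀ q : G ⧸ S, fbar (1, q) = fbar (1, 1) :=
    fun q => cocycles₂_map_one_fst ⟨fbar, hf⟩ q
  have hq1 : ∀ g : G, ((fbar ((g : G ⧸ S), 1)) : A.V) = A.ρ g a₀ := by
    intro g
    have := cocycles₂_map_one_snd ⟨fbar, hf⟩ (g : G ⧸ S)
    have h2 : fbar ((g : G ⧸ S), 1) = (A.quotientToInvariants S).ρ (g : G ⧸ S) (fbar (1, 1)) := this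
    rw [h2]; rfl
  -- `c s = h s - a₀` is a 1-cocycle on `S`
  obtain ⟨y, hy⟩ := hS (fun s => h s - a₀) (by
    intro s t
    have := hh s t
    rw [hone s, hone t, ← ha₀] at this
    simp only [Subgroup.coe_mul, map_sub, ha₀inv s]
    have e : h (↑s * ↑t) = A.ρ s (h t) + h s - a₀ := by
      rw [this]; abel
    rw [e]; abel)
  -- modify `h` by a coboundary
  set h₁ : G → A.V := fun g => h g - (A.ρ g y - y) with hh₁
  have hh' : ∀ g g' : G, ((fbar ((g : G ⧸ S), (g' : G ⧸ S))) : A.V) =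
      A.ρ g (h₁ g') - h₁ (g * g') + h₁ g := by
    intro g g'
    rw [hh g g']
    simp only [hh₁, map_sub, map_mul, Module.End.mul_apply]
    abel
  have h₁S : ∀ s : S, h₁ s = a₀ := by
    intro s
    have := hy s
    simp only [hh₁]
    rw [← this]; abel
  have hleft : ∀ (s : S) (g : G), h₁ (s * g) = A.ρ s (h₁ g) := by
    intro s g
    have := hh' s g
    rw [hone s, h1q, ← ha₀, h₁S s] at this
    have e : h₁ (↑s * g) = A.ρ s (h₁ g) + a₀ - a₀ := by
      nth_rewrite 2 [this]; abel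
    rw [e]; abel
  have hright : ∀ (g : G) (s : S), h₁ (g * s) = h₁ g := by
    intro g s
    have := hh' g s
    rw [hone s, hq1 g, h₁S s] at this
    have e : h₁ (g * ↑s) = A.ρ g a₀ + h₁ g - A.ρ g a₀ := by
      nth_rewrite 2 [this]; abel
    rw [e]; abel
  have hinv : ∀ (g : G) (s : S), A.ρ s (h₁ g) = h₁ g := by
    intro g s
    rw [← hleft s g]
    have hmem : g⁻¹ * s * g ∈ S := Subgroup.Normal.conj_mem' ‹_› s.1 s.2 g
    have : (s : G) * g = g * ((⟨g⁻¹ * s * g, hmem⟩ : S) : G) := by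
      simp [mul_assoc]
    rw [this, hright]
  have hout : ∀ g : G, h₁ ((g : G ⧸ S).out) = h₁ g := by
    intro g
    obtain ⟨s, hs⟩ := QuotientGroup.mk_out_eq_mul S g
    rw [hs, hright]
  refine ⟨fun q => ⟨h₁ q.out, fun s => hinv _ s⟩, ?_⟩
  intro q q'
  induction q using QuotientGroup.induction_on with | H g =>
  induction q' using QuotientGroup.induction_on with | H g' =>
  apply Subtype.ext
  rw [hh' g g']
  have e1 : (((A.quotientToInvariants S).ρ (g : G ⧸ S)
      (⟨h₁ (g' : G ⧸ S).out, fun s => hinv _ s⟩ : (A.quotientToInvariants S).V) : A.V)) =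
      A.ρ g (h₁ g') := by
    rw [← hout g']; rfl
  simp only [Submodule.coe_add, Submodule.coe_sub, e1]
  rw [← QuotientGroup.mk_mul, hout, hout]

end Inj

section Exact

/-- the coboundary of a 1-cochain, as a plain function -/
def dOne (A : Rep k G) (w : G → A.V) : G × G → A.V :=
  fun p => A.ρ p.1 (w p.2) - w (p.1 * p.2) + w p.1

lemma dOne_eq (w : G → A.V) : dOne A w = (d₁₂ A).hom w := rfl

lemma dOne_mem_cocycles₂ (w : G → A.V) : dOne A w ∈ cocycles₂ A :=
  d₁₂_apply_mem_cocycles₂ w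

lemma sub_dOne_mem_cocycles₂ {f : G × G → A.V} (hf : f ∈ cocycles₂ A) (w : G → A.V) :
    f - dOne A w ∈ cocycles₂ A :=
  Submodule.sub_mem _ hf (dOne_mem_cocycles₂ w)

/-- Step 1: make the cocycle vanish on `S × S`. -/
lemma exists_vanish_SS {f : G × G → A.V}
    (u : S → A.V) (hu : ∀ s t : S, f (s, t) = A.ρ s (u t) - u (s * t) + u s) :
    ∃ w : G → A.V, ∀ s t : S, (f - dOne A w) (s, t) = 0 := by
  classical
  refine ⟨fun g => if hg : g ∈ S then u ⟨g, hg⟩ else 0, fun s t => ?_⟩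
  simp only [Pi.sub_apply, dOne, hu s t]
  have hst : (s : G) * t ∈ S := S.mul_mem s.2 t.2
  simp only [s.2, t.2, hst, dite_true]
  have : (⟨(s : G) * t, hst⟩ : S) = s * t := rfl
  simp [this]

variable [S.Normal]

/-- the coset representative of `x`, and `x = tOf x * rOf x` with `tOf x ∈ S` -/
noncomputable def rOf (S : Subgroup G) (x : G) : G := (x : G ⧸ S).out

lemma rOf_mul_left (s : S) (x : G) : rOf S (s * x) = rOf S x := by
  unfold rOf
  congr 1
  rw [QuotientGroup.eq]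
  have : (↑s * x)⁻¹ * x = x⁻¹ * (s⁻¹ : S) * x := by simp [mul_assoc]
  rw [this]
  exact Subgroup.Normal.conj_mem' ‹_› _ (s⁻¹).2 x

lemma mul_rOf_inv_mem (x : G) : x * (rOf S x)⁻¹ ∈ S := by
  obtain ⟨s, hs⟩ := QuotientGroup.mk_out_eq_mul S x
  have : x * (rOf S x)⁻¹ = x * (s⁻¹ : S) * x⁻¹ := by
    unfold rOf; rw [hs]; simp [mul_assoc]
  rw [this]
  exact Subgroup.Normal.conj_mem ‹_› _ (s⁻¹).2 x

/-- the `S`-component of `x`: `x = tOf x * rOf x` -/
noncomputable def tOf (S : Subgroup G) [S.Normal] (x : G) : S := ⟨x * (rOf S x)⁻¹, mul_rOf_inv_mem x⟩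

lemma tOf_mul_rOf (x : G) : (tOf S x : G) * rOf S x = x := by simp [tOf]

lemma tOf_mul_left (s : S) (x : G) : tOf S (s * x) = s * tOf S x := by
  apply Subtype.ext
  simp [tOf, rOf_mul_left, mul_assoc]

/-- Step 2: a cocycle vanishing on `S × S` is cohomologous to one vanishing on `S × G`. -/
lemma exists_vanish_SG {f : G × G → A.V} (hf : f ∈ cocycles₂ A)
    (h0 : ∀ s t : S, f (s, t) = 0) :
    ∃ w : G → A.V, ∀ (s : S) (x : G), (f - dOne A w) (s, x) = 0 := by
  refine ⟨fun x => - f (tOf S x, rOf S x), fun s x => ?_⟩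
  have hc := (mem_cocycles₂_iff f).1 hf s (tOf S x) (rOf S x)
  rw [tOf_mul_rOf, h0] at hc
  -- `hc : f (s * t, r) + 0 = ρ s (f (t, r)) + f (s, x)`
  have hs : f (↑(tOf S (s : G)), rOf S (s : G)) = 0 := by
    have hr : rOf S (s : G) ∈ S := by
      have := (tOf S (s : G)).2
      have h2 := tOf_mul_rOf (S := S) (s : G)
      have : rOf S (s : G) = ((tOf S (s : G))⁻¹ : S) * s := by
        nth_rewrite 3 [← h2]; simp
      rw [this]; exact S.mul_mem (Subtype.property _) s.2
    exact h0 (tOf S (s : G)) ⟨_, hr⟩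
  simp only [Pi.sub_apply, dOne, rOf_mul_left, tOf_mul_left, Subgroup.coe_mul, map_neg, hs,
    neg_zero, add_zero]
  have e : f (↑s, x) = f (↑s * ↑(tOf S x), rOf S x) - A.ρ s (f (↑(tOf S x), rOf S x)) := by
    rw [add_zero] at hc
    rw [hc]; abel
  rw [e]; abel

/-- Step 3: a cocycle vanishing on `S × G` is cohomologous (when `H¹(S, A) = 0`) to one vanishing
on `S × G` and on `G × S`. -/
lemma exists_vanish_SG_GS (hS : H1Vanishes A S) {f : G × G → A.V} (hf : f ∈ cocycles₂ A)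
    (h0 : ∀ (s : S) (x : G), f (s, x) = 0) :
    ∃ w : G → A.V, (∀ (s : S) (x : G), (f - dOne A w) (s, x) = 0) ∧
      (∀ (x : G) (s : S), (f - dOne A w) (x, s) = 0) := by
  classical
  have hcoc := (mem_cocycles₂_iff f).1 hf
  have idA : ∀ (g : G) (s s' : S), f (g, s * s') = f (g, s) + f (g * s, s') := by
    intro g s s'
    have := hcoc g s s'
    rw [h0, map_zero, zero_add] at this
    rw [← this]; abel
  have idB : ∀ (s : S) (g x : G), f (s * g, x) = A.ρ s (f (g, x)) := by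
    intro s g x
    have := hcoc s g x
    rw [h0, h0, add_zero, add_zero] at this
    exact this
  have hconj : ∀ (g : G) (t : S), g⁻¹ * t * g ∈ S :=
    fun g t => Subgroup.Normal.conj_mem' ‹_› t.1 t.2 g
  -- the cocycles `c_g`
  have hc : ∀ g : G, ∃ a : A.V, ∀ t : S, f (g, g⁻¹ * t * g) = A.ρ t a - a := by
    intro g
    refine hS (fun t => f (g, g⁻¹ * t * g)) ?_
    intro t t'
    have e : g⁻¹ * ((t * t' : S) : G) * g =
        ((⟨g⁻¹ * t * g, hconj g t⟩ : S) : G) * ((⟨g⁻¹ * t' * g, hconj g t'⟩ : S) : G) := by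
      simp [mul_assoc]
    show f (g, g⁻¹ * ((t * t' : S) : G) * g) = _
    rw [e, idA]
    have e2 : g * ((⟨g⁻¹ * t * g, hconj g t⟩ : S) : G) = t * g := by simp [mul_assoc]
    rw [e2, idB]
    abel
  choose α hα using hc
  set a : G → A.V := fun x => A.ρ (tOf S x) (α (rOf S x)) with ha
  have hax : ∀ (x : G) (t : S), f (x, x⁻¹ * t * x) = A.ρ t (a x) - a x := by
    intro x t
    -- write `x = s * r`
    set s := tOf S x with hs
    set r := rOf S x with hr
    have hx : x = s * r := (tOf_mul_rOf x).symm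
    have hmem : (s : G)⁻¹ * t * s ∈ S := S.mul_mem (S.mul_mem (S.inv_mem s.2) t.2) s.2
    have e1 : x⁻¹ * t * x = r⁻¹ * ((⟨(s : G)⁻¹ * t * s, hmem⟩ : S) : G) * r := by
      rw [hx]; simp [mul_assoc]
    have e3 : f (x, x⁻¹ * ↑t * x) = A.ρ s (f (r, r⁻¹ * ((⟨(s : G)⁻¹ * t * s, hmem⟩ : S) : G) * r)) := by
      rw [e1, ← idB, ← hx]
    rw [e3, hα r ⟨(s : G)⁻¹ * t * s, hmem⟩]
    simp only [ha, map_sub]
    rw [← hs, ← hr]
    simp only [← Module.End.mul_apply, ← map_mul]
    congr 2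
    simp [mul_assoc]
  have ha_left : ∀ (s : S) (x : G), a (s * x) = A.ρ s (a x) := by
    intro s x
    simp only [ha, tOf_mul_left, rOf_mul_left, Subgroup.coe_mul, map_mul, Module.End.mul_apply]
  have ha1 : ∀ t : S, A.ρ t (a 1) = a 1 := by
    intro t
    have := hax 1 t
    simp only [inv_one, one_mul, mul_one] at this
    have h1 : f ((1 : G), (t : G)) = 0 := h0 1 t
    rw [h1] at this
    exact (sub_eq_zero.1 this.symm)
  have haS : ∀ s : S, a s = a 1 := by
    intro s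
    have := ha_left s 1
    rw [mul_one] at this
    rw [this, ha1]
  refine ⟨fun x => -(a x - a 1), ?_, ?_⟩
  · intro s x
    simp only [Pi.sub_apply, dOne, h0, ha_left, haS, map_neg, map_sub, ha1]
    abel
  · intro x s
    have hmem : x * s * x⁻¹ ∈ S := Subgroup.Normal.conj_mem ‹_› s.1 s.2 x
    have e1 : x * (s : G) = ((⟨x * s * x⁻¹, hmem⟩ : S) : G) * x := by simp
    have e2 := hax x ⟨x * s * x⁻¹, hmem⟩
    have e3 : x⁻¹ * ((⟨x * s * x⁻¹, hmem⟩ : S) : G) * x = s := by simp [mul_assoc]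
    rw [e3] at e2
    simp only [Pi.sub_apply, dOne, haS, sub_self, neg_zero, map_zero]
    rw [e1, ha_left, e2]
    abel

/-- Step 4: a cocycle vanishing on `S × G` and `G × S` is inflated from `G ⧸ S`. -/
lemma exists_inflated {f : G × G → A.V} (hf : f ∈ cocycles₂ A)
    (h0 : ∀ (s : S) (x : G), f (s, x) = 0) (h0' : ∀ (x : G) (s : S), f (x, s) = 0) :
    ∃ fbar : (G ⧸ S) × (G ⧸ S) → (A.quotientToInvariants S).V,
      fbar ∈ cocycles₂ (A.quotientToInvariants S) ∧
      ∀ g g' : G, f (g, g') = (fbar ((g : G ⧸ S), (g' : G ⧸ S)) : A.V) := by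
  have hcoc := (mem_cocycles₂_iff f).1 hf
  have idB : ∀ (s : S) (g x : G), f (s * g, x) = A.ρ s (f (g, x)) := by
    intro s g x
    have := hcoc s g x
    rw [h0, h0, add_zero, add_zero] at this
    exact this
  have idC : ∀ (g : G) (s : S) (x : G), f (g * s, x) = f (g, s * x) := by
    intro g s x
    have := hcoc g s x
    rw [h0, h0', map_zero, add_zero, zero_add] at this
    exact this
  have idD : ∀ (g x : G) (s : S), f (g, x * s) = f (g, x) := by
    intro g x s
    have := hcoc g x s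
    rw [h0', h0', map_zero, zero_add, zero_add] at this
    exact this.symm
  have idE : ∀ (g : G) (s : S) (x : G), f (g * s, x) = f (g, x) := by
    intro g s x
    rw [idC]
    have hmem : x⁻¹ * s * x ∈ S := Subgroup.Normal.conj_mem' ‹_› s.1 s.2 x
    have : (s : G) * x = x * ((⟨x⁻¹ * s * x, hmem⟩ : S) : G) := by simp [mul_assoc]
    rw [this, idD]
  have hinv : ∀ (g x : G) (s : S), A.ρ s (f (g, x)) = f (g, x) := by
    intro g x s
    rw [← idB]
    have hmem : g⁻¹ * s * g ∈ S := Subgroup.Normal.conj_mem' ‹_› s.1 s.2 g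
    have : (s : G) * g = g * ((⟨g⁻¹ * s * g, hmem⟩ : S) : G) := by simp [mul_assoc]
    rw [this, idE]
  have hout : ∀ g g' : G, f ((g : G ⧸ S).out, (g' : G ⧸ S).out) = f (g, g') := by
    intro g g'
    obtain ⟨s, hs⟩ := QuotientGroup.mk_out_eq_mul S g
    obtain ⟨s', hs'⟩ := QuotientGroup.mk_out_eq_mul S g'
    rw [hs, hs', idE, idD]
  refine ⟨fun q => ⟨f (q.1.out, q.2.out), fun s => hinv _ _ s⟩, ?_, fun g g' => (hout g g').symm⟩
  rw [mem_cocycles₂_iff]
  intro q₁ q₂ q₃
  induction q₁ using QuotientGroup.induction_on with | H g₁ =>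
  induction q₂ using QuotientGroup.induction_on with | H g₂ =>
  induction q₃ using QuotientGroup.induction_on with | H g₃ =>
  apply Subtype.ext
  have e1 : (((A.quotientToInvariants S).ρ (g₁ : G ⧸ S)
      (⟨f ((g₂ : G ⧸ S).out, (g₃ : G ⧸ S).out), fun s => hinv _ _ s⟩ :
        (A.quotientToInvariants S).V) : A.V)) = A.ρ g₁ (f (g₂, g₃)) := by
    rw [← hout g₂ g₃]; rfl
  simp only [Submodule.coe_add, e1]
  rw [← QuotientGroup.mk_mul, ← QuotientGroup.mk_mul, hout, hout, hout]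
  exact hcoc g₁ g₂ g₃

/-- Exactness of inflation–restriction on `H²` when `H¹(S, A) = 0`, cochain form: a 2-cocycle of
`G` whose restriction to `S` is a coboundary is cohomologous to an inflated cocycle. -/
theorem infres_exact_core (hS : H1Vanishes A S) {f : G × G → A.V} (hf : f ∈ cocycles₂ A)
    (u : S → A.V) (hu : ∀ s t : S, f (s, t) = A.ρ s (u t) - u (s * t) + u s) :
    ∃ (fbar : (G ⧸ S) × (G ⧸ S) → (A.quotientToInvariants S).V) (w : G → A.V),
      fbar ∈ cocycles₂ (A.quotientToInvariants S) ∧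
      ∀ g g' : G, f (g, g') = (fbar ((g : G ⧸ S), (g' : G ⧸ S)) : A.V) + dOne A w (g, g') := by
  obtain ⟨w₁, h₁⟩ := exists_vanish_SS u hu
  have hf₁ := sub_dOne_mem_cocycles₂ hf w₁
  obtain ⟨w₂, h₂⟩ := exists_vanish_SG hf₁ h₁
  have hf₂ := sub_dOne_mem_cocycles₂ hf₁ w₂
  obtain ⟨w₃, h₃, h₃'⟩ := exists_vanish_SG_GS hS hf₂ h₂
  have hf₃ := sub_dOne_mem_cocycles₂ hf₂ w₃
  obtain ⟨fbar, hfbar, hfb⟩ := exists_inflated hf₃ h₃ h₃'
  refine ⟨fbar, w₁ + w₂ + w₃, hfbar, fun g g' => ?_⟩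
  rw [← hfb g g']
  simp only [Pi.sub_apply, dOne, Pi.add_apply, map_add]
  abel

end Exact

end Fermat.Agent.CFT.Coh
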