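import Fermat.Agent.CFT.Coh.H2InfRes_helper9
import Fermat.Agent.CFT.Coh.Torsion_helper9

/-!
# CFT (C0.2): the kernel of inflation on `H²` is killed by the exponent of `H¹(S, A)`

For a normal subgroup `S` of `G` and `A : Rep k G`:

* `inf_core_of_exists`: helper9's `inf_injective_core`, with the vanishing hypothesis only for the
  relevant 1-cocycle;
* `inf_nsmul_core`: cochain form of `e • ker(inf) = 0` if `e • H¹(S, A) = 0`;
* `H2inf_nsmul_eq_zero`: if `e • H¹(S, A) = 0` and `inf x = 0` then `e • x = 0`;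
* `H2inf_eq_zero_imp_of_coprime`: if moreover `m • x = 0` with `m` prime to `e` then `x = 0`;
* `H2inf_injective_of_isPGroup`: for `G ⧸ S` a finite `p`-group, `S` finite and
  `H¹(P, A) = 0` for one Sylow `p`-subgroup `P` of `S`, inflation is injective.
-/

open groupCohomology CategoryTheory Rep

namespace Fermat.Agent.CFT.Coh

variable {k G : Type} [CommRing k] [Group G] {A : Rep k G} {S : Subgroup G} [S.Normal]

/-- the 1-cochain `s ↦ h s - f̄(1,1)` on `S` attached to a trivialisation `h` of an inflated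
2-cocycle is a 1-cocycle. -/
lemma inflation_cocycle (fbar : (G ⧸ S) × (G ⧸ S) → (A.quotientToInvariants S).V)
    (h : G → A.V)
    (hh : ∀ g g' : G, ((fbar ((g : G ⧸ S), (g' : G ⧸ S))) : A.V) =
      A.ρ g (h g') - h (g * g') + h g) (s t : S) :
    h ((s * t : S) : G) - (fbar (1, 1) : A.V) =
      A.ρ s (h t - (fbar (1, 1) : A.V)) + (h s - (fbar (1, 1) : A.V)) := by
  have ha₀inv : ∀ s : S, A.ρ s (fbar (1, 1) : A.V) = (fbar (1, 1) : A.V) :=
    fun s => (fbar (1, 1)).2 s
  have hone : ∀ s : S, ((s : G) : G ⧸ S) = 1 := fun s => (QuotientGroup.eq_one_iff s.1).2 s.2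
  have := hh s t
  rw [hone s, hone t] at this
  simp only [Subgroup.coe_mul, map_sub, ha₀inv s]
  have e : h (↑s * ↑t) = A.ρ s (h t) + h s - (fbar (1, 1) : A.V) := by
    rw [this]; abel
  rw [e]; abel

/-- helper9's `inf_injective_core` with the vanishing of `H¹` only used for one cocycle. -/
theorem inf_core_of_exists
    (fbar : (G ⧸ S) × (G ⧸ S) → (A.quotientToInvariants S).V)
    (hf : fbar ∈ cocycles₂ (A.quotientToInvariants S))
    (h : G → A.V)
    (hh : ∀ g g' : G, ((fbar ((g : G ⧸ S), (g' : G ⧸ S))) : A.V) =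
      A.ρ g (h g') - h (g * g') + h g)
    (y : A.V) (hy : ∀ s : S, h s - (fbar (1, 1) : A.V) = A.ρ s y - y) :
    ∃ hbar : G ⧸ S → (A.quotientToInvariants S).V, ∀ q q' : G ⧸ S,
      fbar (q, q') = (A.quotientToInvariants S).ρ q (hbar q') - hbar (q * q') + hbar q := by
  classical
  set a₀ : A.V := (fbar (1, 1) : A.V) with ha₀
  have ha₀inv : ∀ s : S, A.ρ s a₀ = a₀ := fun s => (fbar (1, 1)).2 s
  have hone : ∀ s : S, ((s : G) : G ⧸ S) = 1 := fun s => (QuotientGroup.eq_one_iff s.1).2 s.2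
  have h1q : ∀ q : G ⧸ S, fbar (1, q) = fbar (1, 1) :=
    fun q => cocycles₂_map_one_fst ⟨fbar, hf⟩ q
  have hq1 : ∀ g : G, ((fbar ((g : G ⧸ S), 1)) : A.V) = A.ρ g a₀ := by
    intro g
    have := cocycles₂_map_one_snd ⟨fbar, hf⟩ (g : G ⧸ S)
    have h2 : fbar ((g : G ⧸ S), 1) = (A.quotientToInvariants S).ρ (g : G ⧸ S) (fbar (1, 1)) := this
    rw [h2]; rfl
  set h₁ : G → A.V := fun g => h g - (A.ρ g y - y) with hh₁
  have hh' : ∀ g g' : G, ((fbar ((g : G ⧸ S), (g' : G ⧸ S))) : A.V) =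
      A.ρ g (h₁ g') - h₁ (g * g') + h₁ g := by
    intro g g'
    rw [hh g g']
    simp only [hh₁, map_sub, map_mul, Module.End.mul_apply]
    abel
  have h₁S : ∀ s : S, h₁ s = a₀ := by
    intro s
    have := hy s
    simp only [hh₁]
    rw [← this]; abel
  have hleft : ∀ (s : S) (g : G), h₁ (s * g) = A.ρ s (h₁ g) := by
    intro s g
    have := hh' s g
    rw [hone s, h1q, ← ha₀, h₁S s] at this
    have e : h₁ (↑s * g) = A.ρ s (h₁ g) + a₀ - a₀ := by
      nth_rewrite 2 [this]; abel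
    rw [e]; abel
  have hright : ∀ (g : G) (s : S), h₁ (g * s) = h₁ g := by
    intro g s
    have := hh' g s
    rw [hone s, hq1 g, h₁S s] at this
    have e : h₁ (g * ↑s) = A.ρ g a₀ + h₁ g - A.ρ g a₀ := by
      nth_rewrite 2 [this]; abel
    rw [e]; abel
  have hinv : ∀ (g : G) (s : S), A.ρ s (h₁ g) = h₁ g := by
    intro g s
    rw [← hleft s g]
    have hmem : g⁻¹ * s * g ∈ S := Subgroup.Normal.conj_mem' ‹_› s.1 s.2 g
    have : (s : G) * g = g * ((⟨g⁻¹ * s * g, hmem⟩ : S) : G) := by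
      simp [mul_assoc]
    rw [this, hright]
  have hout : ∀ g : G, h₁ ((g : G ⧸ S).out) = h₁ g := by
    intro g
    obtain ⟨s, hs⟩ := QuotientGroup.mk_out_eq_mul S g
    rw [hs, hright]
  refine ⟨fun q => ⟨h₁ q.out, fun s => hinv _ s⟩, ?_⟩
  intro q q'
  induction q using QuotientGroup.induction_on with | H g =>
  induction q' using QuotientGroup.induction_on with | H g' =>
  apply Subtype.ext
  rw [hh' g g']
  have e1 : (((A.quotientToInvariants S).ρ (g : G ⧸ S)
      (⟨h₁ (g' : G ⧸ S).out, fun s => hinv _ s⟩ : (A.quotientToInvariants S).V) : A.V)) =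
      A.ρ g (h₁ g') := by
    rw [← hout g']; rfl
  simp only [Submodule.coe_add, Submodule.coe_sub, e1]
  rw [← QuotientGroup.mk_mul, hout, hout]

/-- cochain form: if `e` kills `H¹(S, A)` then `e` kills the kernel of inflation on `H²`. -/
theorem inf_nsmul_core (e : ℕ)
    (he : ∀ c : S → A.V, (∀ s t : S, c (s * t) = A.ρ s (c t) + c s) →
      ∃ a : A.V, ∀ s : S, e • c s = A.ρ s a - a)
    (fbar : (G ⧸ S) × (G ⧸ S) → (A.quotientToInvariants S).V)
    (hf : fbar ∈ cocycles₂ (A.quotientToInvariants S))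
    (h : G → A.V)
    (hh : ∀ g g' : G, ((fbar ((g : G ⧸ S), (g' : G ⧸ S))) : A.V) =
      A.ρ g (h g') - h (g * g') + h g) :
    ∃ hbar : G ⧸ S → (A.quotientToInvariants S).V, ∀ q q' : G ⧸ S,
      (e • fbar) (q, q') = (A.quotientToInvariants S).ρ q (hbar q') - hbar (q * q') + hbar q := by
  obtain ⟨y, hy⟩ := he (fun s => h s - (fbar (1, 1) : A.V))
    (fun s t => inflation_cocycle fbar h hh s t)
  refine inf_core_of_exists (e • fbar) (Submodule.smul_of_tower_mem _ e hf) (e • h) ?_ y ?_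
  · intro g g'
    have := hh g g'
    simp only [Pi.smul_apply, Submodule.coe_smul_of_tower, this, smul_add, smul_sub, map_nsmul]
  · intro s
    rw [← hy s]
    simp only [Pi.smul_apply, Submodule.coe_smul_of_tower, smul_sub]

variable (A S)

/-- **the kernel of inflation `H²(G ⧸ S, A^S) ⟶ H²(G, A)` is killed by every `e` killing
`H¹(S, A)`.** -/
theorem H2inf_nsmul_eq_zero (e : ℕ) (he : ∀ y : H1 (res S.subtype A), e • y = 0)
    (x : groupCohomology (A.quotientToInvariants S) 2) (hx : H2inf A S x = 0) : e • x = 0 := by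
  have he' : ∀ c : S → A.V, (∀ s t : S, c (s * t) = A.ρ s (c t) + c s) →
      ∃ a : A.V, ∀ s : S, e • c s = A.ρ s a - a := by
    intro c hc
    have hmem : c ∈ cocycles₁ (res S.subtype A) := by
      rw [mem_cocycles₁_iff]
      intro s t
      exact hc s t
    have h0 : H1π (res S.subtype A) (e • (⟨c, hmem⟩ : cocycles₁ (res S.subtype A))) = 0 := by
      rw [map_nsmul]
      exact he _
    obtain ⟨a, ha⟩ := (H1π_eq_zero_iff _).1 h0
    refine ⟨a, fun s => ?_⟩
    have := congrFun ha s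
    exact this.symm
  induction x using H2_induction_on with | h x =>
  rw [H2inf_H2π, H2π_eq_zero_iff] at hx
  obtain ⟨w, hw⟩ := hx
  obtain ⟨hbar, hhbar⟩ := inf_nsmul_core e he' x x.2 w (by
    intro g g'
    have := congrFun hw (g, g')
    rw [mapCocycles₂_inf_apply] at this
    rw [← this]; rfl)
  rw [← map_nsmul, H2π_eq_zero_iff]
  refine ⟨hbar, ?_⟩
  funext ⟨q, q'⟩
  exact (hhbar q q').symm

/-- if `e` kills `H¹(S, A)`, `m` is prime to `e`, `m • x = 0` and `inf x = 0` then `x = 0`. -/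
theorem H2inf_eq_zero_imp_of_coprime {e m : ℕ} (hem : e.Coprime m)
    (he : ∀ y : H1 (res S.subtype A), e • y = 0)
    (x : groupCohomology (A.quotientToInvariants S) 2) (hm : m • x = 0)
    (hx : H2inf A S x = 0) : x = 0 := by
  have h1 := H2inf_nsmul_eq_zero A S e he x hx
  have h2 : ((e : ℤ) * Nat.gcdA e m + m * Nat.gcdB e m) = 1 := by
    have := Nat.gcd_eq_gcd_ab e m
    rw [hem] at this
    exact_mod_cast this.symm
  have h3 : (1 : ℤ) • x = 0 := by
    rw [← h2, add_smul, mul_comm, mul_smul, mul_comm, mul_smul, natCast_zsmul, natCast_zsmul,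
      h1, hm, smul_zero, smul_zero, add_zero]
  rwa [one_smul] at h3

/-- **`p`-primary inflation**: `G ⧸ S` a finite `p`-group, `S` finite, and `H¹(P, A) = 0` for a
Sylow `p`-subgroup `P` of `S`. Then inflation `H²(G ⧸ S, A^S) ⟶ H²(G, A)` is injective. -/
theorem H2inf_injective_of_isPGroup [Finite G] (p : ℕ) [Fact p.Prime]
    (hq : IsPGroup p (G ⧸ S)) (P : Sylow p S)
    (hP : Limits.IsZero (groupCohomology (res (P : Subgroup S).subtype (res S.subtype A)) 1)) :
    Function.Injective (H2inf A S) := by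
  rw [injective_iff_map_eq_zero]
  intro x hx
  have he : ∀ y : H1 (res S.subtype A), (P : Subgroup S).index • y = 0 := fun y =>
    index_nsmul_groupCohomology_eq_zero (P : Subgroup S) (res S.subtype A) 1 hP y
  have hm : Nat.card (G ⧸ S) • x = 0 :=
    card_nsmul_groupCohomology_eq_zero (A.quotientToInvariants S) 1 x
  obtain ⟨n, hn⟩ := IsPGroup.iff_card.mp hq
  have hcop : ((P : Subgroup S).index).Coprime (Nat.card (G ⧸ S)) := by
    rw [hn]
    apply Nat.Coprime.pow_right
    rw [Nat.coprime_comm, Nat.Prime.coprime_iff_not_dvd Fact.out]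
    exact P.not_dvd_index
  exact H2inf_eq_zero_imp_of_coprime A S hcop he x hm hx

end Fermat.Agent.CFT.Coh
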