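/-
CFT (C0.1) complement, helper2: hands-on (multiplicative) description of `Ĥ⁰` and `Ĥ⁻¹` of
`Rep.ofMulDistribMulAction G M`: vanishing criteria in terms of elements of `M`.
-/
import Fermat.Agent.CFT.Coh.Cyclic_helper6_Rank

set_option autoImplicit false
set_option linter.unusedSectionVars false

open CategoryTheory

namespace Fermat.Agent.CFT.Coh

namespace MulTate

variable {G M : Type} [Group G] [Fintype G] [CommGroup M] [MulDistribMulAction G M]

/-- from the representation to `M` -/
def tm (x : (Rep.ofMulDistribMulAction G M).V) : M := Additive.toMul (α := M) x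

/-- from `M` to the representation -/
def om (m : M) : (Rep.ofMulDistribMulAction G M).V := Additive.ofMul (α := M) m

@[simp] lemma tm_om (m : M) : tm (G := G) (om m) = m := rfl

@[simp] lemma om_tm (x : (Rep.ofMulDistribMulAction G M).V) : om (tm x) = x := rfl

lemma om_injective : Function.Injective (om : M → (Rep.ofMulDistribMulAction G M).V) :=
  fun _ _ h => h

lemma tm_injective : Function.Injective (tm : (Rep.ofMulDistribMulAction G M).V → M) :=
  fun _ _ h => h

lemma ρ_om (σ : G) (m : M) : (Rep.ofMulDistribMulAction G M).ρ σ (om m) = om (σ • m) := rfl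

lemma tm_sub (x y : (Rep.ofMulDistribMulAction G M).V) : tm (x - y) = tm x / tm y := rfl

lemma tm_zero : tm (0 : (Rep.ofMulDistribMulAction G M).V) = 1 := rfl

lemma om_one : (om (1 : M) : (Rep.ofMulDistribMulAction G M).V) = 0 := rfl

lemma om_prod {ι : Type} (s : Finset ι) (f : ι → M) :
    (om (∏ j ∈ s, f j) : (Rep.ofMulDistribMulAction G M).V) = ∑ j ∈ s, om (f j) := by
  classical
  induction s using Finset.induction_on with
  | empty => rw [Finset.sum_empty, Finset.prod_empty]; rfl
  | insert a s ha ih => rw [Finset.sum_insert ha, Finset.prod_insert ha, ← ih]; rfl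

lemma normMap_om (m : M) :
    normMap (Rep.ofMulDistribMulAction G M) (om m) = om (∏ σ : G, σ • m) := by
  rw [normMap_apply, om_prod]
  rfl

lemma om_mem_invariants_iff (m : M) :
    om m ∈ (Rep.ofMulDistribMulAction G M).ρ.invariants ↔ ∀ σ : G, σ • m = m :=
  forall_congr' fun σ => by rw [ρ_om]; exact om_injective.eq_iff

/-- `Ĥ⁰ = 0` iff every fixed element is a norm. -/
theorem tateH0_subsingleton_iff :
    Subsingleton (TateH0 (Rep.ofMulDistribMulAction G M)) ↔
      ∀ m : M, (∀ σ : G, σ • m = m) → ∃ n : M, ∏ σ : G, σ • n = m := by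
  constructor
  · intro h m hm
    have h0 : TateH0.mk (Rep.ofMulDistribMulAction G M)
        ⟨om m, (om_mem_invariants_iff m).2 hm⟩ = 0 := Subsingleton.elim _ _
    obtain ⟨a, ha⟩ := (TateH0.mk_eq_zero_iff _ _).1 h0
    refine ⟨tm a, ?_⟩
    have := normMap_om (G := G) (tm a)
    rw [om_tm, ha] at this
    exact (om_injective this).symm
  · intro h
    refine ⟨fun x y => ?_⟩
    suffices hz : ∀ z : TateH0 (Rep.ofMulDistribMulAction G M), z = 0 by rw [hz x, hz y]
    intro z
    obtain ⟨a, rfl⟩ := TateH0.mk_surjective _ z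
    rw [TateH0.mk_eq_zero_iff]
    obtain ⟨n, hn⟩ := h (tm (a : (Rep.ofMulDistribMulAction G M).V))
      ((om_mem_invariants_iff _).1 (by rw [om_tm]; exact a.2))
    refine ⟨om n, ?_⟩
    rw [normMap_om, hn, om_tm]

/-- `Ĥ⁻¹ = 0` iff every element of norm one is of the form `g • n / n` (`g` a generator). -/
theorem tateHm1_subsingleton_iff {g : G} (hg : ∀ x, x ∈ Subgroup.zpowers g) :
    Subsingleton (TateHm1 (Rep.ofMulDistribMulAction G M)) ↔
      ∀ m : M, ∏ σ : G, σ • m = 1 → ∃ n : M, m = g • n / n := by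
  have hker : ∀ a : (Rep.ofMulDistribMulAction G M).V,
      a ∈ Representation.Coinvariants.ker (Rep.ofMulDistribMulAction G M).ρ ↔
        ∃ n : M, tm a = g • n / n := by
    intro a
    rw [coinvariantsKer_eq_range_sub hg, LinearMap.mem_range]
    constructor
    · rintro ⟨b, rfl⟩
      exact ⟨tm b, rfl⟩
    · rintro ⟨n, hn⟩
      exact ⟨om n, tm_injective hn.symm⟩
  constructor
  · intro h m hm
    have hm' : om m ∈ LinearMap.ker (normMap (Rep.ofMulDistribMulAction G M)) := by
      rw [LinearMap.mem_ker, normMap_om, hm]; rfl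
    have h0 : TateHm1.mk (Rep.ofMulDistribMulAction G M) ⟨om m, hm'⟩ = 0 :=
      Subsingleton.elim _ _
    rw [TateHm1.mk_eq_zero_iff, hker] at h0
    exact h0
  · intro h
    refine ⟨fun x y => ?_⟩
    suffices hz : ∀ z : TateHm1 (Rep.ofMulDistribMulAction G M), z = 0 by rw [hz x, hz y]
    intro z
    obtain ⟨a, rfl⟩ := TateHm1.mk_surjective _ z
    rw [TateHm1.mk_eq_zero_iff, hker]
    apply h
    have := LinearMap.mem_ker.1 a.2
    have h2 := normMap_om (G := G) (tm (a : (Rep.ofMulDistribMulAction G M).V))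
    rw [om_tm, this] at h2
    exact (om_injective h2).symm

end MulTate

section General

variable {k G : Type} [CommRing k] [Group G] [Finite G]

/-- if `h(A) = 1` and `Ĥ⁰(A) = 0` then `Ĥ⁻¹(A) = 0`. -/
theorem tateHm1_subsingleton_of_herbrand_eq_one {A : Rep k G} (hfin : HerbrandFinite A)
    (h1 : herbrand A = 1) [Subsingleton (TateH0 A)] : Subsingleton (TateHm1 A) := by
  have := hfin.2
  rw [herbrand_eq_iff hfin, one_mul, Nat.card_unique, Nat.cast_one] at h1
  have h2 : Nat.card (TateHm1 A) = 1 := by exact_mod_cast h1.symm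
  exact (Nat.card_eq_one_iff_unique.1 h2).1

/-- if `h(A) = 1` and `Ĥ⁻¹(A) = 0` then `Ĥ⁰(A) = 0`. -/
theorem tateH0_subsingleton_of_herbrand_eq_one {A : Rep k G} (hfin : HerbrandFinite A)
    (h1 : herbrand A = 1) [Subsingleton (TateHm1 A)] : Subsingleton (TateH0 A) := by
  have := hfin.1
  rw [herbrand_eq_iff hfin, one_mul] at h1
  have h3 : Nat.card (TateHm1 A) = 1 := Nat.card_unique
  rw [h3, Nat.cast_one] at h1
  have h2 : Nat.card (TateH0 A) = 1 := by exact_mod_cast h1
  exact (Nat.card_eq_one_iff_unique.1 h2).1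

end General

end Fermat.Agent.CFT.Coh
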