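import Mathlib
import Fermat.Prelude.Def_GroupCohomology_ContinuousUnramified

/-!
# CFT (C0.4), definitions: groups with a basis of finite-index "open" subgroups, level-constant
cochains, smooth (discrete) modules

The Prelude's `IsLevelConstant₁/₂ r`, `IsLevelConstantS₁/₂ S` are instances
(`OpenSubgroups.ofGalois`, `OpenSubgroups.unramifiedOutside`, `OpenSubgroups.comap`).
-/

namespace Fermat.Agent.CFT.Coh

/-- A "profinite-type topology" on an abstract group `Γ`: a family of finite-index subgroups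
(the *open* subgroups), containing `⊤`, closed under finite intersections, passing to larger
subgroups, and conjugation. -/
structure OpenSubgroups (Γ : Type) [Group Γ] where
  /-- the predicate "`U` is open" -/
  isOpen : Subgroup Γ → Prop
  isOpen_top : isOpen ⊤
  isOpen_inf : ∀ {U V : Subgroup Γ}, isOpen U → isOpen V → isOpen (U ⊓ V)
  isOpen_mono : ∀ {U V : Subgroup Γ}, U ≤ V → isOpen U → isOpen V
  finiteIndex : ∀ {U : Subgroup Γ}, isOpen U → U.FiniteIndex
  isOpen_conj : ∀ {U : Subgroup Γ} (g : Γ), isOpen U → isOpen (U.map (MulAut.conj g).toMonoidHom)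

namespace OpenSubgroups

variable {Γ : Type} [Group Γ] (𝒰 : OpenSubgroups Γ)

/-- `f : Γⁿ → X` is level constant: invariant under right multiplication of every argument by
elements of some open subgroup. -/
def IsLC {n : ℕ} {X : Type*} (f : (Fin n → Γ) → X) : Prop :=
  ∃ U : Subgroup Γ, 𝒰.isOpen U ∧ ∀ g s : Fin n → Γ, (∀ i, s i ∈ U) → f (g * s) = f g

/-- A representation is smooth (= discrete module): every vector has an open stabiliser. -/
def IsSmooth {k : Type} [CommRing k] (A : Rep k Γ) : Prop :=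
  ∀ a : A.V, ∃ U : Subgroup Γ, 𝒰.isOpen U ∧ ∀ u ∈ U, A.ρ u a = a

/-- Pull back the open subgroups along a homomorphism `r : H → Γ`. -/
def comap {H : Type} [Group H] (r : H →* Γ) : OpenSubgroups H where
  isOpen V := ∃ U : Subgroup Γ, 𝒰.isOpen U ∧ U.comap r ≤ V
  isOpen_top := ⟨⊤, 𝒰.isOpen_top, le_top⟩
  isOpen_inf := by
    rintro V V' ⟨U, hU, hUV⟩ ⟨U', hU', hUV'⟩
    exact ⟨U ⊓ U', 𝒰.isOpen_inf hU hU', by
      rw [Subgroup.comap_inf]; exact inf_le_inf hUV hUV'⟩
  isOpen_mono := by
    rintro V V' hVV' ⟨U, hU, hUV⟩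
    exact ⟨U, hU, hUV.trans hVV'⟩
  finiteIndex := by
    rintro V ⟨U, hU, hUV⟩
    have := 𝒰.finiteIndex hU
    have : (U.comap r).FiniteIndex :=
      ⟨by rw [Subgroup.index_comap]
          exact (inferInstance : (U.subgroupOf r.range).FiniteIndex).index_ne_zero⟩
    exact Subgroup.finiteIndex_of_le hUV
  isOpen_conj := by
    rintro V h ⟨U, hU, hUV⟩
    refine ⟨U.map (MulAut.conj (r h)).toMonoidHom, 𝒰.isOpen_conj (r h) hU, ?_⟩
    intro x hx
    obtain ⟨u, hu, hux⟩ := hx
    refine ⟨h⁻¹ * x * h, hUV ?_, ?_⟩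
    · show r (h⁻¹ * x * h) ∈ U
      have : r (h⁻¹ * x * h) = u := by
        have h1 : r x = r h * u * (r h)⁻¹ := by rw [← hux]; rfl
        simp [h1, mul_assoc]
      rw [this]; exact hu
    · simp [mul_assoc]

/-- The restriction of `𝒰` to a subgroup. -/
abbrev restrict (U : Subgroup Γ) : OpenSubgroups U := 𝒰.comap U.subtype

end OpenSubgroups

end Fermat.Agent.CFT.Coh
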