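import Fermat.Agent.CFT.Sm.HomologyElts_helper9

/-!
# CFT / Coh: vanishing of `Hⁿ` of arbitrary (possibly infinite) products (lead)

If `A` is the product of the `B i` (via jointly bijective morphisms `π i : A ⟶ B i`) and
`Hⁿ⁺¹(G, B i) = 0` for all `i`, then `Hⁿ⁺¹(G, A) = 0`.
-/

set_option autoImplicit false

open CategoryTheory groupCohomology

namespace Fermat.Agent.CFT.Coh

open Fermat.Agent.CFT.Sm

variable {k G : Type} [CommRing k] [Group G]

theorem isZero_groupCohomology_succ_of_jointly_bijective (A : Rep.{0} k G) {ι : Type}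
    (B : ι → Rep.{0} k G) (π : ∀ i, A ⟶ B i)
    (hinj : ∀ a : A.V, (∀ i, (π i).hom a = 0) → a = 0)
    (hsurj : ∀ b : (∀ i, (B i).V), ∃ a : A.V, ∀ i, (π i).hom a = b i)
    (n : ℕ) (hB : ∀ i, Limits.IsZero (groupCohomology (B i) (n + 1))) :
    Limits.IsZero (groupCohomology A (n + 1)) := by
  have hB' : ∀ i, Limits.IsZero ((inhomogeneousCochains (B i)).homology (n + 1)) := hB
  suffices h : ∀ x : (inhomogeneousCochains A).homology (n + 1), x = 0 by
    have : Subsingleton ((inhomogeneousCochains A).homology (n + 1)) :=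
      ⟨fun x y => by rw [h x, h y]⟩
    exact (ModuleCat.isZero_of_subsingleton ((inhomogeneousCochains A).homology (n + 1)) :)
  intro x
  obtain ⟨z, rfl⟩ := CC.mk_surjective (inhomogeneousCochains A) (n + 1) x
  rw [CC.mk_succ_eq_zero_iff]
  -- componentwise primitives
  have hy : ∀ i, ∃ y : (inhomogeneousCochains (B i)).X n,
      ((inhomogeneousCochains (B i)).d n (n + 1)).hom y =
        ((cochainsMap (MonoidHom.id G) (π i)).f (n + 1)).hom (z : (inhomogeneousCochains A).X (n + 1)) := by
    intro i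
    have h0 : CC.mk (inhomogeneousCochains (B i)) (n + 1)
        (CC.mapZ (cochainsMap (MonoidHom.id G) (π i)) (n + 1) z) = 0 :=
      (ModuleCat.subsingleton_of_isZero (hB' i)).elim _ _
    rw [CC.mk_succ_eq_zero_iff] at h0
    obtain ⟨y, hy⟩ := h0
    exact ⟨y, hy⟩
  choose y hy using hy
  -- assemble
  have hex : ∀ g : Fin n → G, ∃ a : A.V, ∀ i, (π i).hom a = (y i : (Fin n → G) → (B i).V) g :=
    fun g => hsurj fun i => (y i : (Fin n → G) → (B i).V) g
  choose Y hY using hex
  refine ⟨(Y : (Fin n → G) → A.V), ?_⟩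
  funext g
  rw [← sub_eq_zero]
  apply hinj
  intro i
  rw [map_sub, sub_eq_zero]
  have h1 : ((cochainsMap (MonoidHom.id G) (π i)).f n).hom (Y : (Fin n → G) → A.V) = y i := by
    funext g'
    exact hY g' i
  have h2 := congrArg (fun t => t.hom (Y : (Fin n → G) → A.V))
    ((cochainsMap (MonoidHom.id G) (π i)).comm n (n + 1))
  simp only [ModuleCat.hom_comp, LinearMap.comp_apply] at h2
  rw [h1, hy i] at h2
  exact (congrFun h2 g).symm

end Fermat.Agent.CFT.Coh
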