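import Fermat.Agent.CFT.Coh.TateTrivial_helper9
import Fermat.Agent.CFT.Coh.Torsion_helper9

/-!
# CFT (C0.2): relatively injective representations of a finite group

`A : Rep k G` is *relatively injective* (`IsRelInjective A`) if there is a `k`-linear endomorphism
`e` of `A` with `∑_g g e g⁻¹ = id`.  Such modules are cohomologically trivial:

* `IsRelInjective.res_subgroup`: the property is inherited by subgroups;
* `IsRelInjective.isZero_groupCohomology`: `Hⁿ(G, A) = 0` for `n ≥ 1`;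
* `IsRelInjective.tateH0Trivial`, `IsRelInjective.tateHm1Trivial`: `Ĥ⁰ = Ĥ⁻¹ = 0`;
* `isRelInjective_coindBot`: `A* = Coind_1^G A` (all functions `G → A`) is relatively injective.
-/

open CategoryTheory groupCohomology Rep

namespace Fermat.Agent.CFT.Coh

variable {k G : Type} [CommRing k] [Group G] [Finite G]

/-- `∑_g ρ(g) ∘ e ∘ ρ(g⁻¹)` for a `k`-linear endomorphism `e` of a representation. -/
noncomputable def conjSum (A : Rep.{0, 0, 0} k G) (e : A.V →ₗ[k] A.V) : A.V →ₗ[k] A.V :=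
  letI := Fintype.ofFinite G
  ∑ g : G, (A.ρ g).comp (e.comp (A.ρ g⁻¹))

lemma conjSum_apply [Fintype G] (A : Rep.{0, 0, 0} k G) (e : A.V →ₗ[k] A.V) (a : A.V) :
    conjSum A e a = ∑ g : G, A.ρ g (e (A.ρ g⁻¹ a)) := by
  unfold conjSum
  rw [LinearMap.sum_apply]
  refine Finset.sum_congr (by ext; simp) fun g _ => rfl

/-- `A` is relatively injective: there is a `k`-linear `e` with `∑_g g e g⁻¹ = id`. -/
def IsRelInjective (A : Rep.{0, 0, 0} k G) : Prop :=
  ∃ e : A.V →ₗ[k] A.V, ∀ a, conjSum A e a = a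

/-- Relative injectivity is inherited by subgroups. -/
theorem IsRelInjective.res_subgroup {A : Rep.{0, 0, 0} k G} (h : IsRelInjective A)
    (S : Subgroup G) : IsRelInjective (res S.subtype A) := by
  classical
  obtain ⟨e, he⟩ := h
  let _ := Fintype.ofFinite G
  let _ := Fintype.ofFinite S
  let _ := Fintype.ofFinite (G ⧸ S)
  refine ⟨∑ q : G ⧸ S, (A.ρ q.out⁻¹).comp (e.comp (A.ρ q.out)), fun a => ?_⟩
  rw [conjSum_apply]
  conv_rhs => rw [← he a, conjSum_apply, ← Equiv.sum_comp (Equiv.inv G),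
    ← (quotProdEquiv S).sum_comp, Fintype.sum_prod_type, Finset.sum_comm,
    ← Equiv.sum_comp (Equiv.inv S)]
  refine Finset.sum_congr rfl fun s _ => ?_
  rw [LinearMap.sum_apply, map_sum]
  refine Finset.sum_congr rfl fun q _ => ?_
  show A.ρ (s : G) (A.ρ q.out⁻¹ (e (A.ρ q.out (A.ρ ((s⁻¹ : S) : G) a)))) =
    A.ρ ((q.out * ((s⁻¹ : S) : G))⁻¹) (e (A.ρ ((q.out * ((s⁻¹ : S) : G))⁻¹)⁻¹ a))
  rw [inv_inv, mul_inv_rev, map_mul, map_mul]
  simp


theorem IsRelInjective.tateH0Trivial {A : Rep.{0, 0, 0} k G} (h : IsRelInjective A) :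
    TateH0Trivial A := by
  classical
  obtain ⟨e, he⟩ := h
  let _ := Fintype.ofFinite G
  intro m hm
  refine ⟨e m, ?_⟩
  conv_rhs => rw [← he m, conjSum_apply]
  rw [normMap_apply]
  refine Finset.sum_congr rfl fun g _ => ?_
  rw [hm g⁻¹]

theorem IsRelInjective.tateHm1Trivial {A : Rep.{0, 0, 0} k G} (h : IsRelInjective A) :
    TateHm1Trivial A := by
  classical
  obtain ⟨e, he⟩ := h
  let _ := Fintype.ofFinite G
  intro m hm
  have h1 : ∑ g : G, e (A.ρ g⁻¹ m) = 0 := by
    have h2 : ∑ g : G, A.ρ g⁻¹ m = ∑ g : G, A.ρ g m :=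
      Equiv.sum_comp (Equiv.inv G) (fun g => A.ρ g m)
    rw [← map_sum, h2, ← normMap_apply, hm, map_zero]
  rw [← he m, conjSum_apply, ← sub_zero (∑ g : G, A.ρ g (e (A.ρ g⁻¹ m))), ← h1,
    ← Finset.sum_sub_distrib]
  exact Submodule.sum_mem _ fun g _ => Representation.Coinvariants.sub_mem_ker _ _


/-- The module `A* = Coind_1^G A` of all functions `G → A`. -/
noncomputable abbrev coindBot (A : Rep.{0, 0, 0} k G) : Rep.{0, 0, 0} k G :=
  coind (⊥ : Subgroup G).subtype (res (⊥ : Subgroup G).subtype A)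

omit [Finite G] in
lemma coindBot_ρ_apply (A : Rep.{0, 0, 0} k G) (h : G) (f : (coindBot A).V) (x : G) :
    ((coindBot A).ρ h f).1 x = f.1 (x * h) := rfl

/-- The twisted trace `A* ⟶ A`, `f ↦ ∑_g g e (f g⁻¹)`, as a linear map. -/
noncomputable def relTraceLin (A : Rep.{0, 0, 0} k G) (e : A.V →ₗ[k] A.V) :
    (coindBot A).V →ₗ[k] A.V :=
  letI := Fintype.ofFinite G
  ∑ g : G, (A.ρ g).comp (e.comp ((LinearMap.proj g⁻¹).comp (Submodule.subtype _)))

lemma relTraceLin_apply [Fintype G] (A : Rep.{0, 0, 0} k G) (e : A.V →ₗ[k] A.V)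
    (f : (coindBot A).V) : relTraceLin A e f = ∑ g : G, A.ρ g (e (f.1 g⁻¹)) := by
  unfold relTraceLin
  rw [LinearMap.sum_apply]
  refine Finset.sum_congr (by ext; simp) fun g _ => rfl

/-- The twisted trace `A* ⟶ A`, `f ↦ ∑_g g e (f g⁻¹)`. -/
noncomputable def relTrace (A : Rep.{0, 0, 0} k G) (e : A.V →ₗ[k] A.V) : coindBot A ⟶ A :=
  Rep.ofHom ⟨relTraceLin A e, fun h => by
    classical
    let _ := Fintype.ofFinite G
    ext f
    simp only [LinearMap.coe_comp, Function.comp_apply]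
    rw [relTraceLin_apply, relTraceLin_apply, map_sum]
    refine Fintype.sum_equiv (Equiv.mulLeft h⁻¹) _ _ fun g => ?_
    show A.ρ g (e (((coindBot A).ρ h f).1 g⁻¹)) =
      A.ρ h (A.ρ (h⁻¹ * g) (e (f.1 (h⁻¹ * g)⁻¹)))
    have h1 : ∀ z : A.V, A.ρ h (A.ρ (h⁻¹ * g) z) = A.ρ g z := fun z => by
      rw [← Module.End.mul_apply, ← map_mul, mul_inv_cancel_left]
    rw [coindBot_ρ_apply, h1, mul_inv_rev, inv_inv]⟩

lemma relTrace_apply [Fintype G] (A : Rep.{0, 0, 0} k G) (e : A.V →ₗ[k] A.V)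
    (f : (coindBot A).V) : (relTrace A e).hom f = ∑ g : G, A.ρ g (e (f.1 g⁻¹)) :=
  relTraceLin_apply A e f

lemma coindUnit_comp_relTrace (A : Rep.{0, 0, 0} k G) (e : A.V →ₗ[k] A.V)
    (he : ∀ a, conjSum A e a = a) : coindUnit ⊥ A ≫ relTrace A e = 𝟙 A := by
  classical
  let _ := Fintype.ofFinite G
  ext a
  show (relTrace A e).hom ((coindUnit ⊥ A).hom a) = a
  rw [relTrace_apply]
  conv_rhs => rw [← he a, conjSum_apply]
  rfl

/-- Relatively injective modules are acyclic. -/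
theorem IsRelInjective.isZero_groupCohomology {A : Rep.{0, 0, 0} k G} (h : IsRelInjective A)
    (n : ℕ) : Limits.IsZero (groupCohomology A (n + 1)) := by
  obtain ⟨e, he⟩ := h
  have hz : Limits.IsZero (groupCohomology (coindBot A) (n + 1)) :=
    (isZero_groupCohomology_succ_of_subsingleton _ n).of_iso
      (coindIso (res (⊥ : Subgroup G).subtype A) (n + 1))
  rw [Limits.IsZero.iff_id_eq_zero, ← groupCohomology.map_id, ← coindUnit_comp_relTrace A e he,
    map_id_comp, hz.eq_of_tgt (groupCohomology.map (MonoidHom.id G) (coindUnit ⊥ A) (n + 1)) 0,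
    Limits.zero_comp]


omit [Finite G] in
lemma mem_coindV_bot (A : Rep.{0, 0, 0} k G) (f : G → A.V) :
    f ∈ Representation.coindV (⊥ : Subgroup G).subtype (res (⊥ : Subgroup G).subtype A).ρ := by
  rw [Representation.mem_coindV]
  rintro ⟨g, hg⟩ h
  rw [Subgroup.mem_bot] at hg
  subst hg
  show f (1 * h) = A.ρ 1 (f h)
  rw [one_mul, map_one, Module.End.one_apply]

/-- all functions `G → A` form `A*`. -/
noncomputable def coindBotEquiv (A : Rep.{0, 0, 0} k G) : (G → A.V) ≃ₗ[k] (coindBot A).V where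
  toFun f := ⟨f, mem_coindV_bot A f⟩
  invFun f := f.1
  map_add' _ _ := rfl
  map_smul' _ _ := rfl
  left_inv _ := rfl
  right_inv _ := rfl

open Classical in
theorem isRelInjective_coindBot (A : Rep.{0, 0, 0} k G) : IsRelInjective (coindBot A) := by
  let _ := Fintype.ofFinite G
  refine ⟨(coindBotEquiv A).toLinearMap.comp (((LinearMap.single k (fun _ : G => A.V) 1).comp
    (LinearMap.proj 1)).comp (coindBotEquiv A).symm.toLinearMap), fun f => ?_⟩
  rw [conjSum_apply]
  apply Subtype.ext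
  funext x
  rw [AddSubmonoidClass.coe_finsetSum, Finset.sum_apply]
  have : ∀ g : G, (((coindBot A).ρ g) (((coindBotEquiv A).toLinearMap.comp
      (((LinearMap.single k (fun _ : G => A.V) 1).comp (LinearMap.proj 1)).comp
      (coindBotEquiv A).symm.toLinearMap)) (((coindBot A).ρ g⁻¹) f))).1 x =
      if g = x⁻¹ then f.1 x else 0 := by
    intro g
    rw [coindBot_ρ_apply]
    show (Pi.single (1 : G) ((((coindBot A).ρ g⁻¹) f).1 1) : G → A.V) (x * g) = _
    rw [coindBot_ρ_apply, one_mul, Pi.single_apply]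
    by_cases hg : g = x⁻¹
    · subst hg
      simp
    · rw [if_neg hg, if_neg]
      intro h
      exact hg (eq_inv_of_mul_eq_one_right h)
  rw [Finset.sum_congr rfl fun g _ => this g, Finset.sum_ite_eq' Finset.univ x⁻¹,
    if_pos (Finset.mem_univ _)]

end Fermat.Agent.CFT.Coh
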