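import Fermat.Agent.CFT.Coh.AugRep_helper9

/-!
# CFT (C0.3): the splitting module of a 2-cocycle

For a finite group `G`, `C : Rep k G` and a 2-cocycle `f`, the splitting module is
`C(f) = C × I_G` with the twisted action `g (c, x) = (g c + F_g x, g x)`, where
`F_g : k[G] → C`, `τ ↦ f(g, τ)`.  It sits in a short exact sequence
`0 ⟶ C ⟶ C(f) ⟶ I_G ⟶ 0` (`splitSeq`, `splitSeq_shortExact`), and `f` becomes the coboundary of
`σ ↦ b_σ = (f(1,1), σ - 1)` in `C(f)` (`splitRep_ρ_splitGen`).
-/

open CategoryTheory groupCohomology Rep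

namespace Fermat.Agent.CFT.Coh

section Twist

variable {k G : Type} [CommRing k] [Group G] [Finite G] (C : Rep.{0, 0, 0} k G) (f : cocycles₂ C)

/-- `F_g : k[G] → C`, `φ ↦ ∑_τ φ(τ) • f(g, τ)`. -/
noncomputable def twistLin (g : G) : (G → k) →ₗ[k] C.V :=
  letI := Fintype.ofFinite G
  ∑ τ : G, (LinearMap.proj τ).smulRight (f (g, τ))

lemma twistLin_apply [Fintype G] (g : G) (φ : G → k) :
    twistLin C f g φ = ∑ τ : G, φ τ • f (g, τ) := by
  unfold twistLin
  rw [LinearMap.sum_apply]
  exact Finset.sum_congr (by ext; simp) fun x _ => rfl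

lemma twistLin_single [DecidableEq G] (g τ : G) (r : k) :
    twistLin C f g (Pi.single τ r) = r • f (g, τ) := by
  let _ := Fintype.ofFinite G
  rw [twistLin_apply, Finset.sum_eq_single τ]
  · rw [Pi.single_eq_same]
  · intro σ _ hσ
    rw [Pi.single_eq_of_ne hσ, zero_smul]
  · intro h; exact absurd (Finset.mem_univ _) h

lemma twistLin_one (φ : G → k) : twistLin C f 1 φ = augLin k G φ • f (1, 1) := by
  classical
  let _ := Fintype.ofFinite G
  rw [twistLin_apply, augLin_apply, Finset.sum_smul]
  exact Finset.sum_congr rfl fun τ _ => by rw [cocycles₂_map_one_fst]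

lemma twistLin_mul (g h : G) (φ : G → k) :
    twistLin C f (g * h) φ + augLin k G φ • f (g, h) =
      C.ρ g (twistLin C f h φ) + twistLin C f g ((funRep k G).ρ h φ) := by
  classical
  have key : twistLin C f (g * h) + (augLin k G).smulRight (f (g, h)) =
      (C.ρ g).comp (twistLin C f h) + (twistLin C f g).comp ((funRep k G).ρ h) := by
    apply LinearMap.pi_ext
    intro τ r
    rw [LinearMap.add_apply, LinearMap.smulRight_apply, LinearMap.add_apply, LinearMap.comp_apply,
      LinearMap.comp_apply, funRep_ρ_single, twistLin_single, twistLin_single, twistLin_single,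
      augLin_single, map_smul, ← smul_add, ← smul_add, (mem_cocycles₂_iff f).1 f.2 g h τ]
  exact congrArg (fun L => L φ) key

end Twist


section Split

variable {k G : Type} [CommRing k] [Group G] [Finite G] (C : Rep.{0, 0, 0} k G) (f : cocycles₂ C)

/-- The action on the splitting module `C × I_G`: `g (c, x) = (g c + F_g x, g x)`. -/
noncomputable def splitρ : Representation k G (C.V × (augRep k G).V) where
  toFun g := ((C.ρ g).coprod ((twistLin C f g).comp (Submodule.subtype _))).prod
    (((augRep k G).ρ g).comp (LinearMap.snd k C.V (augRep k G).V))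
  map_one' := by
    refine LinearMap.ext fun y => ?_
    obtain ⟨c, x⟩ := y
    refine Prod.ext ?_ ?_
    · show (C.ρ 1 c + twistLin C f 1 x.1) = c
      rw [twistLin_one, LinearMap.mem_ker.1 x.2, zero_smul, add_zero, map_one,
        Module.End.one_apply]
    · show (augRep k G).ρ 1 x = x
      rw [map_one, Module.End.one_apply]
  map_mul' g h := by
    refine LinearMap.ext fun y => ?_
    obtain ⟨c, x⟩ := y
    refine Prod.ext ?_ ?_
    · show C.ρ (g * h) c + twistLin C f (g * h) x.1 =
        C.ρ g (C.ρ h c + twistLin C f h x.1) + twistLin C f g ((augRep k G).ρ h x).1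
      have := twistLin_mul C f g h x.1
      rw [LinearMap.mem_ker.1 x.2, zero_smul, add_zero] at this
      rw [this, map_mul, Module.End.mul_apply, map_add, add_assoc]
      rfl
    · show (augRep k G).ρ (g * h) x = (augRep k G).ρ g ((augRep k G).ρ h x)
      rw [map_mul, Module.End.mul_apply]

/-- The splitting module `C(f)` of a 2-cocycle `f`. -/
noncomputable abbrev splitRep : Rep.{0, 0, 0} k G := Rep.of (splitρ C f)

lemma splitRep_ρ_apply (g : G) (c : C.V) (x : (augRep k G).V) :
    (splitRep C f).ρ g (c, x) = (C.ρ g c + twistLin C f g x.1, (augRep k G).ρ g x) := rfl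

/-- `C ⟶ C(f)`. -/
noncomputable def splitIncl : C ⟶ splitRep C f :=
  Rep.ofHom ⟨LinearMap.inl k C.V (augRep k G).V, fun g => by
    refine LinearMap.ext fun c => ?_
    show ((C.ρ g c, (0 : (augRep k G).V)) : C.V × (augRep k G).V) =
      (splitRep C f).ρ g (c, 0)
    rw [splitRep_ρ_apply]
    simp⟩

/-- `C(f) ⟶ I_G`. -/
noncomputable def splitProj : splitRep C f ⟶ augRep k G :=
  Rep.ofHom ⟨LinearMap.snd k C.V (augRep k G).V, fun g => by
    refine LinearMap.ext fun y => ?_
    rfl⟩

lemma splitIncl_apply (c : C.V) : (splitIncl C f).hom c = (c, 0) := rfl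

lemma splitProj_apply (y : (splitRep C f).V) : (splitProj C f).hom y = y.2 := rfl

/-- The sequence `0 ⟶ C ⟶ C(f) ⟶ I_G ⟶ 0`. -/
noncomputable def splitSeq : ShortComplex (Rep.{0, 0, 0} k G) :=
  ShortComplex.mk (splitIncl C f) (splitProj C f) (by
    ext c
    rfl)

lemma splitSeq_shortExact : (splitSeq C f).ShortExact := by
  obtain ⟨_, h⟩ := shortExact_mk (splitIncl C f) (splitProj C f)
    (fun a b hab => congrArg Prod.fst hab) (fun x => ⟨(0, x), rfl⟩) (fun y => by
      constructor
      · intro h
        exact ⟨y.1, Prod.ext rfl (Eq.symm h)⟩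
      · rintro ⟨c, rfl⟩
        rfl)
  exact h

/-- The element `b_σ = (f(1,1), σ - 1)` of the splitting module. -/
noncomputable def splitGen (σ : G) : (splitRep C f).V := (f (1, 1), augGen σ)

/-- `τ b_σ = b_{τσ} - b_τ + f(τ, σ)`. -/
lemma splitRep_ρ_splitGen (τ σ : G) :
    (splitRep C f).ρ τ (splitGen C f σ) =
      splitGen C f (τ * σ) - splitGen C f τ + (splitIncl C f).hom (f (τ, σ)) := by
  classical
  rw [splitGen, splitRep_ρ_apply, augRep_ρ_augGen, augGen_coe, map_sub, twistLin_single,
    twistLin_single, one_smul, one_smul]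
  show _ = ((f (1, 1), augGen (τ * σ)) : C.V × (augRep k G).V) - (f (1, 1), augGen τ) +
    (f (τ, σ), 0)
  refine Prod.ext ?_ ?_
  · show C.ρ τ (f (1, 1)) + (f (τ, σ) - f (τ, 1)) = f (1, 1) - f (1, 1) + f (τ, σ)
    rw [cocycles₂_map_one_snd f τ]
    abel
  · simp

end Split

end Fermat.Agent.CFT.Coh
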