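/-
S55 / CFT (PT4, L3) — helper3.
Tate: a fundamental cocycle forces `H³(S, C) = 0` on `p`-subgroups (via the splitting module and
Serre, LF IX Thm 9).
-/
import Fermat.Agent.CFT.Coh.SplittingCoh_helper9
import Fermat.Agent.CFT.Coh.CohTriv_helper1_Hom

open CategoryTheory groupCohomology Rep

namespace Fermat.Agent.CFT.Coh

section HomTriv

variable {k G : Type} [CommRing k] [Group G]

/-- Evaluation at `1`: `Hom(k, A) ≃ A`. -/
noncomputable def homTrivLin (A : Rep.{0, 0, 0} k G) :
    (homRep (Rep.trivial k G k) A).V ≃ₗ[k] A.V :=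
  LinearMap.ringLmapEquivSelf k k A.V

/-- `Hⁿ(G, Hom(k, A)) ≅ Hⁿ(G, A)` for the trivial module `k`. -/
noncomputable def homTrivCohIso (A : Rep.{0, 0, 0} k G) (n : ℕ) :
    groupCohomology (homRep (Rep.trivial k G k) A) n ≅ groupCohomology A n :=
  mapIso (A := A) (B := homRep (Rep.trivial k G k) A) (MulEquiv.refl G)
    (homTrivLin A) (fun g => by
      refine LinearMap.ext fun x => ?_
      show A.ρ g ((x : (Rep.trivial k G k).V →ₗ[k] A.V) ((Rep.trivial k G k).ρ g⁻¹ (1 : k))) =
        A.ρ g ((x : (Rep.trivial k G k).V →ₗ[k] A.V) (1 : k))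
      rfl) n

/-- For a finite `p`-group `G` and `A` with `H¹(G, A) = H²(G, A) = 0`, all higher cohomology of `A`
vanishes. -/
theorem isZero_groupCohomology_succ_of_isPGroup [Finite G] (p : ℕ) [Fact p.Prime]
    (hk : HasPRetractions k p) (hkp : ∀ x : k, p • x = 0 → x = 0)
    (hG : IsPGroup p G) (A : Rep.{0, 0, 0} k G) (h1 : Limits.IsZero (groupCohomology A 1))
    (h2 : Limits.IsZero (groupCohomology A 2)) (n : ℕ) :
    Limits.IsZero (groupCohomology A (n + 1)) := by
  have : Module.Projective k (Rep.trivial k G k).V := by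
    show Module.Projective k k
    infer_instance
  exact (isZero_groupCohomology_homRep_of_isPGroup p hk hkp hG A h1 h2 (Rep.trivial k G k) n).of_iso
    (homTrivCohIso A (n + 1)).symm

end HomTriv

section H3

variable {G : Type} [Group G] [Finite G] {C : Rep.{0, 0, 0} ℤ G} {f : cocycles₂ C}

/-- **Tate**: if `f` is a fundamental cocycle, then `H³(S, C) = 0` for every `p`-subgroup `S`. -/
theorem isZero_H3_of_isFundamentalCocycle (hf : IsFundamentalCocycle C f) (p : ℕ) [Fact p.Prime]
    (S : Subgroup G) (hS : IsPGroup p S) :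
    Limits.IsZero (groupCohomology (res S.subtype C) 3) := by
  have hX := splitSeqRes_shortExact C f S
  have h3 : Limits.IsZero (groupCohomology (res S.subtype (splitRep C f)) 3) :=
    isZero_groupCohomology_succ_of_isPGroup p (hasPRetractions_int p)
      (fun x hx => by
        rcases smul_eq_zero.1 hx with h | h
        · exact absurd h (Nat.Prime.ne_zero Fact.out)
        · exact h) hS (res S.subtype (splitRep C f))
      (isZero_H1_splitRep S hf) (isZero_H2_splitRep S hf) 2
  exact isZero_H_X₁ hX 2 (isZero_H2_augRep S) h3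

end H3

end Fermat.Agent.CFT.Coh
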