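import Mathlib

/-!
# CFT (C0.2): torsion and Sylow dévissage for group cohomology, without corestriction

For a finite-index subgroup `S ≤ G` and `A : Rep k G` the composite
`A ⟶ Coind_S^G (Res_S A) ⟶ A` (unit, then trace) is multiplication by `[G : S]`.  Together with
Shapiro's lemma this gives: if `Hⁿ(S, A) = 0` then `[G : S] • Hⁿ(G, A) = 0`.
-/

open CategoryTheory groupCohomology Rep

namespace Fermat.Agent.CFT.Coh

variable {k G : Type} [CommRing k] [Group G] (S : Subgroup G) (A : Rep k G)

/-- The unit `A ⟶ Coind_S^G (Res_S A)`, `a ↦ (g ↦ g • a)`. -/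
noncomputable def coindUnit : A ⟶ coind S.subtype (res S.subtype A) :=
  resCoindToHom S.subtype A (res S.subtype A) (𝟙 _)

lemma coindUnit_apply (a : A.V) (g : G) : ((coindUnit S A).hom a).1 g = A.ρ g a := rfl

/-- The summand of the trace map: `gS ↦ g • f(g⁻¹)`. -/
noncomputable def traceSummand (f : (coind S.subtype (res S.subtype A)).V) : G ⧸ S → A.V :=
  Quotient.lift (fun g : G => A.ρ g (f.1 g⁻¹)) <| by
    intro g g' hgg'
    have hmem : g⁻¹ * g' ∈ S := QuotientGroup.leftRel_apply.1 hgg'
    have h1 := f.2 ⟨g⁻¹ * g', hmem⟩ g'⁻¹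
    simp only [Subgroup.coe_subtype, mul_assoc, mul_inv_cancel, mul_one] at h1
    show A.ρ g (f.1 g⁻¹) = A.ρ g' (f.1 g'⁻¹)
    rw [h1]
    show A.ρ g (A.ρ (g⁻¹ * g') (f.1 g'⁻¹)) = _
    rw [← Module.End.mul_apply, ← map_mul, mul_inv_cancel_left]

lemma traceSummand_mk (f : (coind S.subtype (res S.subtype A)).V) (g : G) :
    traceSummand S A f (g : G ⧸ S) = A.ρ g (f.1 g⁻¹) := rfl

variable [S.FiniteIndex]

open Classical in
/-- The trace `Coind_S^G (Res_S A) ⟶ A`, `f ↦ ∑_{gS} g • f(g⁻¹)`, as a linear map. -/
noncomputable def coindTraceLin : (coind S.subtype (res S.subtype A)).V →ₗ[k] A.V :=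
  letI := Fintype.ofFinite (G ⧸ S)
  { toFun := fun f => ∑ q : G ⧸ S, traceSummand S A f q
    map_add' := fun f f' => by
      rw [← Finset.sum_add_distrib]
      refine Finset.sum_congr rfl fun q _ => ?_
      induction q using QuotientGroup.induction_on with | H g =>
      simp only [traceSummand_mk]
      rw [← map_add]; rfl
    map_smul' := fun c f => by
      rw [Finset.smul_sum]
      refine Finset.sum_congr rfl fun q _ => ?_
      induction q using QuotientGroup.induction_on with | H g =>
      simp only [traceSummand_mk, RingHom.id_apply]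
      rw [← map_smul]; rfl }

lemma coindTraceLin_apply [Fintype (G ⧸ S)] (f : (coind S.subtype (res S.subtype A)).V) :
    coindTraceLin S A f = ∑ q : G ⧸ S, traceSummand S A f q := by
  unfold coindTraceLin
  simp only [LinearMap.coe_mk, AddHom.coe_mk]
  congr!

/-- The trace `Coind_S^G (Res_S A) ⟶ A`. -/
noncomputable def coindTrace : coind S.subtype (res S.subtype A) ⟶ A :=
  Rep.ofHom ⟨coindTraceLin S A, fun h => by
    classical
    let _ := Fintype.ofFinite (G ⧸ S)
    ext f
    simp only [LinearMap.coe_comp, Function.comp_apply]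
    rw [coindTraceLin_apply, coindTraceLin_apply, map_sum]
    -- reindex by `q ↦ h⁻¹ • q`
    refine (Fintype.sum_equiv (MulAction.toPerm (h⁻¹ : G)) _ _ fun q => ?_)
    induction q using QuotientGroup.induction_on with | H g =>
    show traceSummand S A _ (g : G ⧸ S) = A.ρ h (traceSummand S A f ((h⁻¹ * g : G) : G ⧸ S))
    rw [traceSummand_mk, traceSummand_mk, ← Module.End.mul_apply, ← map_mul, mul_inv_cancel_left]
    congr 1
    show f.1 (g⁻¹ * h) = f.1 ((h⁻¹ * g)⁻¹)
    simp⟩

lemma coindTrace_apply [Fintype (G ⧸ S)] (f : (coind S.subtype (res S.subtype A)).V) :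
    (coindTrace S A).hom f = ∑ q : G ⧸ S, traceSummand S A f q :=
  coindTraceLin_apply S A f

/-- trace ∘ unit is multiplication by the index. -/
theorem coindUnit_comp_coindTrace : coindUnit S A ≫ coindTrace S A = S.index • 𝟙 A := by
  classical
  let _ := Fintype.ofFinite (G ⧸ S)
  ext a
  simp only [Rep.hom_comp]
  show (coindTrace S A).hom ((coindUnit S A).hom a) = _
  rw [coindTrace_apply]
  have : ∀ q : G ⧸ S, traceSummand S A ((coindUnit S A).hom a) q = a := by
    intro q
    induction q using QuotientGroup.induction_on with | H g =>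
    rw [traceSummand_mk, coindUnit_apply, ← Module.End.mul_apply, ← map_mul, mul_inv_cancel,
      map_one, Module.End.one_apply]
  rw [Finset.sum_congr rfl fun q _ => this q, Finset.sum_const, Finset.card_univ,
    Subgroup.index, Nat.card_eq_fintype_card, Rep.nsmul_hom]
  rfl

end Fermat.Agent.CFT.Coh
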